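/-
GATE-B / B4-TWIST, abstract core (helper97): WEIGHTED coset systems.

`S : CosetSys emb Γ₁ Γ₂` (GM/B/System), `R` a commutative ring, `A` an `R`-module and
`w : S.ι → R` weights which are invariant under all the permutations `S.σ g`.  Then

  `S.wop w hw φ g = ∑ i, w i • φ (S.c g i)`

is again additive in `g`, i.e. an operator `Hom(Γ₁, A) → Hom(Γ₂, A)`.  The character twist
`R_ψ φ (g) = ∑_{u ∈ (ℤ/r)ˣ} ψ(u) φ(α_u g α_{d²u}⁻¹)` of the Betti classes of `Γ_H` is of this form
(index set `(ℤ/r)ˣ`, `σ_g(u) = d² u`, and `ψ(d² u) = ψ(u)` for `d ∈ H ⊆ ker ψ²`).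

Contents (all Mathlib + GM/B/System only):
* `wop`, `wop_apply`, `wop_one` (constant weights `1` give `op`), linearity in the weights and in `φ`;
* `wop_comp_hom` : naturality in the coefficient module;
* `wop_comp` : composition of two weighted systems = product system with product weights;
* `wop_eq_of_equiv` : independence of the representatives (`a' (e i) = z * γ i * a i`);
* `conjSys`, `wop_conjSys` : conjugating all representatives by a normalising element;
* `restrict`, `wop_eq_sum_restrict` : restriction to a `σ`-stable set of indices and the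
  decomposition of a weighted operator as an `R`-linear combination of PLAIN coset operators;
* `wop_vanish` : if `φ` vanishes on a set `P₁` and `S.c g i ∈ P₁` for all `i`, then `wop φ g = 0`
  (parabolic classes go to parabolic classes).
-/
import Mathlib
import Fermat.Agent.GM.B.System

set_option autoImplicit false

namespace Fermat.Agent.GB.B4.Twist

open Fermat.Agent.GM.B

variable {H G : Type*} [Group H] [Group G] {emb : H →* G} {Γ₁ Γ₂ Γ₃ : Subgroup H}

namespace WSys

/-- the weights are invariant under the permutations of the system -/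
def Inv (S : CosetSys emb Γ₁ Γ₂) {R : Type*} (w : S.ι → R) : Prop :=
  ∀ (g : Γ₂) (i : S.ι), w (S.σ g i) = w i

section Op

variable (S : CosetSys emb Γ₁ Γ₂) {R : Type*} [CommRing R] {A : Type*} [AddCommGroup A]
  [Module R A]

/-- the value of the weighted operator -/
noncomputable def wopFun (w : S.ι → R) (hw : Inv S w) (φ : Additive Γ₁ →+ A) :
    Additive Γ₂ →+ A :=
  AddMonoidHom.mk' (fun g => ∑ i : S.ι, w i • φ (Additive.ofMul (S.c (Additive.toMul g) i)))
    (by
      intro g h
      show ∑ i : S.ι, w i • φ (Additive.ofMul (S.c (Additive.toMul g * Additive.toMul h) i)) = _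
      simp_rw [S.hc, ofMul_mul, map_add, smul_add]
      rw [Finset.sum_add_distrib]
      congr 1
      have := Equiv.sum_comp (S.σ (Additive.toMul g))
        (fun i => w i • φ (Additive.ofMul (S.c (Additive.toMul h) i)))
      rw [← this]
      refine Finset.sum_congr rfl fun i _ => ?_
      rw [hw])

/-- **the weighted operator of a coset system** -/
noncomputable def wop (w : S.ι → R) (hw : Inv S w) :
    (Additive Γ₁ →+ A) →+ (Additive Γ₂ →+ A) where
  toFun := wopFun S w hw
  map_zero' := by
    refine AddMonoidHom.ext fun g => ?_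
    show ∑ i : S.ι, w i • (0 : Additive Γ₁ →+ A) _ = 0
    simp
  map_add' φ ψ := by
    refine AddMonoidHom.ext fun g => ?_
    show ∑ i : S.ι, w i • (φ + ψ) _ = (∑ i : S.ι, w i • φ _) + ∑ i : S.ι, w i • ψ _
    simp [Finset.sum_add_distrib]

theorem wop_apply (w : S.ι → R) (hw : Inv S w) (φ : Additive Γ₁ →+ A) (g : Γ₂) :
    wop S w hw φ (Additive.ofMul g) = ∑ i : S.ι, w i • φ (Additive.ofMul (S.c g i)) := rfl

theorem inv_one : Inv S (fun _ => (1 : R)) := fun _ _ => rfl

/-- constant weights `1` give the plain operator -/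
theorem wop_one (φ : Additive Γ₁ →+ A) :
    wop S (fun _ => (1 : R)) (inv_one S) φ = S.op A φ := by
  refine AddMonoidHom.ext fun g => ?_
  obtain ⟨g, rfl⟩ : ∃ g' : Γ₂, Additive.ofMul g' = g := ⟨Additive.toMul g, rfl⟩
  rw [wop_apply, CosetSys.op_apply]
  simp

theorem inv_add {w w' : S.ι → R} (hw : Inv S w) (hw' : Inv S w') : Inv S (w + w') :=
  fun g i => by rw [Pi.add_apply, Pi.add_apply, hw, hw']

theorem inv_smul (r : R) {w : S.ι → R} (hw : Inv S w) : Inv S (r • w) :=
  fun g i => by rw [Pi.smul_apply, Pi.smul_apply, hw]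

theorem inv_mul {w w' : S.ι → R} (hw : Inv S w) (hw' : Inv S w') : Inv S (w * w') :=
  fun g i => by rw [Pi.mul_apply, Pi.mul_apply, hw, hw']

theorem inv_zero : Inv S (0 : S.ι → R) := fun _ _ => rfl

/-- additivity in the weights -/
theorem wop_add_weights {w w' : S.ι → R} (hw : Inv S w) (hw' : Inv S w')
    (φ : Additive Γ₁ →+ A) :
    wop S (w + w') (inv_add S hw hw') φ = wop S w hw φ + wop S w' hw' φ := by
  refine AddMonoidHom.ext fun g => ?_
  obtain ⟨g, rfl⟩ : ∃ g' : Γ₂, Additive.ofMul g' = g := ⟨Additive.toMul g, rfl⟩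
  rw [AddMonoidHom.add_apply, wop_apply, wop_apply, wop_apply, ← Finset.sum_add_distrib]
  refine Finset.sum_congr rfl fun i _ => ?_
  rw [Pi.add_apply, add_smul]

/-- homogeneity in the weights (pointwise form) -/
theorem wop_smul_weights_apply (r : R) {w : S.ι → R} (hw : Inv S w)
    (φ : Additive Γ₁ →+ A) (g : Γ₂) :
    wop S (r • w) (inv_smul S r hw) φ (Additive.ofMul g)
      = r • wop S w hw φ (Additive.ofMul g) := by
  rw [wop_apply, wop_apply, Finset.smul_sum]
  refine Finset.sum_congr rfl fun i _ => ?_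
  rw [Pi.smul_apply, smul_eq_mul, mul_smul]

theorem wop_zero_weights (φ : Additive Γ₁ →+ A) :
    wop S (0 : S.ι → R) (inv_zero S) φ = 0 := by
  refine AddMonoidHom.ext fun g => ?_
  obtain ⟨g, rfl⟩ : ∃ g' : Γ₂, Additive.ofMul g' = g := ⟨Additive.toMul g, rfl⟩
  rw [wop_apply]
  simp

/-- the weighted operator only depends on the values of the weights -/
theorem wop_congr {w w' : S.ι → R} (hw : Inv S w) (hw' : Inv S w') (h : w = w')
    (φ : Additive Γ₁ →+ A) : wop S w hw φ = wop S w' hw' φ := by
  subst h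
  rfl

/-- naturality in the coefficient module -/
theorem wop_comp_hom {B : Type*} [AddCommGroup B] [Module R B] (f : A →ₗ[R] B)
    (w : S.ι → R) (hw : Inv S w) (φ : Additive Γ₁ →+ A) :
    wop S w hw (f.toAddMonoidHom.comp φ) = f.toAddMonoidHom.comp (wop S w hw φ) := by
  refine AddMonoidHom.ext fun g => ?_
  obtain ⟨g, rfl⟩ : ∃ g' : Γ₂, Additive.ofMul g' = g := ⟨Additive.toMul g, rfl⟩
  rw [wop_apply, AddMonoidHom.comp_apply, wop_apply]
  simp only [AddMonoidHom.comp_apply, LinearMap.toAddMonoidHom_coe, map_sum, map_smul]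

/-- **vanishing sets**: if `φ` vanishes on `P₁` and all `S.c g i` lie in `P₁`, then the weighted
operator vanishes at `g` (parabolic classes go to parabolic classes). -/
theorem wop_vanish (w : S.ι → R) (hw : Inv S w) (φ : Additive Γ₁ →+ A) (P₁ : Set Γ₁)
    (hφ : ∀ x ∈ P₁, φ (Additive.ofMul x) = 0) (g : Γ₂) (hg : ∀ i, S.c g i ∈ P₁) :
    wop S w hw φ (Additive.ofMul g) = 0 := by
  rw [wop_apply]
  refine Finset.sum_eq_zero fun i _ => ?_
  rw [hφ _ (hg i), smul_zero]

end Op

/-! ### composition -/

section Comp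

variable (S : CosetSys emb Γ₁ Γ₂) (S' : CosetSys emb Γ₂ Γ₃) {R : Type*} [CommRing R]
  {A : Type*} [AddCommGroup A] [Module R A]

/-- the product weights on the product system -/
def prodW (w : S.ι → R) (w' : S'.ι → R) : (S.comp S').ι → R := fun p => w p.1 * w' p.2

theorem inv_prodW {w : S.ι → R} {w' : S'.ι → R} (hw : Inv S w) (hw' : Inv S' w') :
    Inv (S.comp S') (prodW S S' w w') := by
  intro g p
  show w (S.σ (S'.c g p.2) p.1) * w' (S'.σ g p.2) = w p.1 * w' p.2
  rw [hw, hw']

/-- **composition**: first `S` with weights `w`, then `S'` with weights `w'`. -/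
theorem wop_comp {w : S.ι → R} {w' : S'.ι → R} (hw : Inv S w) (hw' : Inv S' w')
    (φ : Additive Γ₁ →+ A) :
    wop (S.comp S') (prodW S S' w w') (inv_prodW S S' hw hw') φ
      = wop S' w' hw' (wop S w hw φ) := by
  refine AddMonoidHom.ext fun g => ?_
  obtain ⟨g, rfl⟩ : ∃ g' : Γ₃, Additive.ofMul g' = g := ⟨Additive.toMul g, rfl⟩
  rw [wop_apply, wop_apply]
  simp_rw [wop_apply, Finset.smul_sum]
  show ∑ p : S.ι × S'.ι, (w p.1 * w' p.2) • φ (Additive.ofMul (S.c (S'.c g p.2) p.1)) = _
  rw [Fintype.sum_prod_type, Finset.sum_comm]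
  refine Finset.sum_congr rfl fun j _ => Finset.sum_congr rfl fun i _ => ?_
  rw [mul_comm, mul_smul]

end Comp

/-! ### independence of the representatives -/

section Equiv

variable (S S' : CosetSys emb Γ₁ Γ₂) {R : Type*} [CommRing R] {A : Type*} [AddCommGroup A]
  [Module R A]

/-- **Independence of the representatives, weighted form.**  If `a' (e i) = z * γ i * a i` with
`z` central and `γ i ∈ Γ₁`, compatibly with the permutations, and the weights correspond, the two
weighted systems define the same operator. -/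
theorem wop_eq_of_equiv (hemb : Function.Injective emb) (e : S.ι ≃ S'.ι) (z : G)
    (hz : ∀ x : G, z * x = x * z) (γ : S.ι → Γ₁)
    (hrep : ∀ i, S'.a (e i) = z * emb ((γ i : Γ₁) : H) * S.a i)
    (hσ : ∀ g i, S'.σ g (e i) = e (S.σ g i))
    {w : S.ι → R} {w' : S'.ι → R} (hw : Inv S w) (hw' : Inv S' w')
    (hww : ∀ i, w' (e i) = w i) (φ : Additive Γ₁ →+ A) :
    wop S' w' hw' φ = wop S w hw φ := by
  have hc : ∀ (g : Γ₂) (i : S.ι), S'.c g (e i) = γ i * S.c g i * (γ (S.σ g i))⁻¹ := by
    intro g i
    have h1 := S'.rel g (e i)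
    rw [hσ, hrep, hrep, mul_assoc, mul_assoc, S.rel g i] at h1
    have h2 : z * (emb ((γ i : Γ₁) : H) * (emb ((S.c g i : Γ₁) : H) * S.a (S.σ g i))) =
        z * (emb ((S'.c g (e i) : Γ₁) : H) * (emb ((γ (S.σ g i) : Γ₁) : H) * S.a (S.σ g i))) := by
      rw [h1, mul_assoc z, ← mul_assoc (emb _) z, ← hz, mul_assoc z]
    have h3 := mul_left_cancel h2
    rw [← mul_assoc, ← mul_assoc] at h3
    have h4 := mul_right_cancel h3
    rw [← map_mul, ← map_mul] at h4
    have h5 := hemb h4
    apply Subtype.ext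
    have h6 : ((γ i * S.c g i : Γ₁) : H) = ((S'.c g (e i) * γ (S.σ g i) : Γ₁) : H) := h5
    have h7 : γ i * S.c g i = S'.c g (e i) * γ (S.σ g i) := Subtype.ext h6
    rw [h7, mul_inv_cancel_right]
  refine AddMonoidHom.ext fun g => ?_
  obtain ⟨g, rfl⟩ : ∃ g' : Γ₂, Additive.ofMul g' = g := ⟨Additive.toMul g, rfl⟩
  rw [wop_apply, wop_apply, ← Equiv.sum_comp e]
  simp_rw [hc, hww, ofMul_mul, ofMul_inv, map_add, map_neg, smul_add, smul_neg]
  rw [Finset.sum_add_distrib, Finset.sum_add_distrib, Finset.sum_neg_distrib]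
  have h8 : ∑ i : S.ι, w i • φ (Additive.ofMul (γ (S.σ g i)))
      = ∑ i : S.ι, w i • φ (Additive.ofMul (γ i)) := by
    rw [← Equiv.sum_comp (S.σ g) (fun i => w i • φ (Additive.ofMul (γ i)))]
    refine Finset.sum_congr rfl fun i _ => ?_
    rw [hw]
  rw [h8]
  abel

end Equiv

/-! ### conjugation of a system by a normalising element -/

section Conj

variable (S : CosetSys emb Γ₁ Γ₂) {R : Type*} [CommRing R] {A : Type*} [AddCommGroup A]
  [Module R A]

/-- conjugating all representatives on the left by `emb n`, where conjugation by `n` is the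
automorphism `κ` of `Γ₁`: representatives `emb n * a i`, cocycle `κ (c g i)`. -/
def conjSys (n : H) (κ : Γ₁ ≃* Γ₁) (hκ : ∀ x : Γ₁, ((κ x : Γ₁) : H) = n * (x : H) * n⁻¹) :
    CosetSys emb Γ₁ Γ₂ where
  ι := S.ι
  a i := emb n * S.a i
  σ := S.σ
  c g i := κ (S.c g i)
  rel g i := by
    rw [mul_assoc, S.rel g i, hκ, map_mul, map_mul, map_inv]
    group
  hσ := S.hσ
  hc g h i := by rw [S.hc, map_mul]

theorem wop_conjSys (n : H) (κ : Γ₁ ≃* Γ₁)
    (hκ : ∀ x : Γ₁, ((κ x : Γ₁) : H) = n * (x : H) * n⁻¹)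
    (w : S.ι → R) (hw : Inv S w) (φ : Additive Γ₁ →+ A) :
    wop (conjSys S n κ hκ) w hw φ
      = wop S w hw (φ.comp (MonoidHom.toAdditive κ.toMonoidHom)) := rfl

end Conj

/-! ### restriction to a stable set of indices; decomposition into plain operators -/

section Restrict

variable (S : CosetSys emb Γ₁ Γ₂)

/-- restriction of a coset system to a `σ`-stable set of indices -/
def restrict (P : S.ι → Prop) [DecidablePred P]
    (hP : ∀ (g : Γ₂) (i : S.ι), P (S.σ g i) ↔ P i) : CosetSys emb Γ₁ Γ₂ where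
  ι := {i : S.ι // P i}
  fin := Subtype.fintype P
  a := fun i => S.a i.1
  σ := fun g =>
    { toFun := fun i => ⟨S.σ g i.1, (hP g i.1).2 i.2⟩
      invFun := fun i => ⟨(S.σ g).symm i.1, by
        have := (hP g ((S.σ g).symm i.1))
        rw [Equiv.apply_symm_apply] at this
        exact this.1 i.2⟩
      left_inv := fun i => Subtype.ext (by simp)
      right_inv := fun i => Subtype.ext (by simp) }
  c := fun g i => S.c g i.1
  rel := fun g i => S.rel g i.1
  hσ := fun g h i => Subtype.ext (S.hσ g h i.1)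
  hc := fun g h i => S.hc g h i.1

variable {R : Type*} [CommRing R] {A : Type*} [AddCommGroup A] [Module R A]

theorem restrict_op_apply (P : S.ι → Prop) [DecidablePred P]
    (hP : ∀ (g : Γ₂) (i : S.ι), P (S.σ g i) ↔ P i) (φ : Additive Γ₁ →+ A) (g : Γ₂) :
    (restrict S P hP).op A φ (Additive.ofMul g)
      = ∑ i : S.ι, if P i then φ (Additive.ofMul (S.c g i)) else 0 := by
  rw [CosetSys.op_apply]
  show ∑ i : {i : S.ι // P i}, φ (Additive.ofMul (S.c g i.1)) = _
  rw [← Finset.sum_filter, ← Finset.sum_subtype (Finset.univ.filter P) (by simp)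
    (fun i => φ (Additive.ofMul (S.c g i)))]

omit [CommRing R] in
/-- the level sets of invariant weights are stable -/
theorem level_stable {w : S.ι → R} (hw : Inv S w) (r : R) (g : Γ₂) (i : S.ι) :
    w (S.σ g i) = r ↔ w i = r := by rw [hw]

/-- **Decomposition into plain coset operators**: a weighted operator is the `R`-linear
combination, over the finitely many values `r` of the weights, of the PLAIN operators of the
sub-systems `{i | w i = r}`. -/
theorem wop_eq_sum_restrict [DecidableEq R] (w : S.ι → R) (hw : Inv S w)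
    (φ : Additive Γ₁ →+ A) (g : Γ₂) :
    wop S w hw φ (Additive.ofMul g)
      = ∑ r ∈ Finset.univ.image w,
          r • (restrict S (fun i => w i = r) (level_stable S hw r)).op A φ (Additive.ofMul g) := by
  classical
  rw [wop_apply]
  simp_rw [restrict_op_apply, Finset.smul_sum]
  rw [Finset.sum_comm]
  refine Finset.sum_congr rfl fun i _ => ?_
  rw [Finset.sum_eq_single (w i)]
  · rw [if_pos rfl]
  · intro r _ hr
    rw [if_neg (Ne.symm hr), smul_zero]
  · intro h
    exact absurd (Finset.mem_image_of_mem w (Finset.mem_univ i)) h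

end Restrict

end WSys

end Fermat.Agent.GB.B4.Twist
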