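/-
GATE-B / B4-TWIST, abstract layer 2 (helper97): kernel subsystems BETWEEN TWO GROUPS and the
conjugation rule of a weighted operator on an eigen-part.

`S : CosetSys emb Γ₁ Γ₂` (GM/B/System), `χ₁ : Γ₁ →* Δ`, `χ₂ : Γ₂ →* Δ` with
`χ₁ (S.c g i) = χ₂ g` (`Compat₂`).  Then `S` restricts to a system `kerSys₂` from
`ker χ₁` to `ker χ₂` (helper2's `kerSub`, GB/B3/KerSys); for `Γ₁ = Γ₂`, `χ₁ = χ₂` it is
helper2's `kerSys`.

* `kerSys₂`, projections, `kerSys₂_op_res` (restriction commutes), `kerSys₂_comp` (composition,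
  by `rfl`), `kerSys₂_eq_kerSys`, `kerSys₂_distinct`;
* `wop_conj` : **the conjugation rule**.  Let `w` be weights which are invariant under the
  permutations of the KERNEL system only, and let `φ : ker χ₁ → A` be an `ε`-eigenvector of the
  conjugation action of `Γ₁` (`φ (x k x⁻¹) = ε (χ₁ x) • φ k`).  Then for `δ ∈ Γ₂`, `k ∈ ker χ₂`
    `(wop w φ) (δ k δ⁻¹) = ε (χ₂ δ) • ∑ i, w ((S.σ δ)⁻¹ i) • φ (c k i)`.
  For the character twist `w ((S.σ δ)⁻¹ i) = ψ(d_δ)⁻² w i`, so that the twist of an `ε`-eigenvector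
  is an `ε ψ⁻²`-eigenvector.
-/
import Mathlib
import Fermat.Agent.GB.B3.KerSys
import Fermat.Agent.GB.B4.Twist.WSys

set_option autoImplicit false

namespace Fermat.Agent.GB.B4.Twist

open Fermat.Agent.GM.B Fermat.Agent.GB.B3

variable {H G : Type*} [Group H] [Group G] {emb : H →* G} {Γ₁ Γ₂ Γ₃ : Subgroup H}
  {Δ : Type} [Group Δ]

namespace KerSys2

/-- compatibility of a coset system from `Γ₁` to `Γ₂` with characters of the two groups -/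
def Compat₂ (S : CosetSys emb Γ₁ Γ₂) (χ₁ : Γ₁ →* Δ) (χ₂ : Γ₂ →* Δ) : Prop :=
  ∀ g i, χ₁ (S.c g i) = χ₂ g

/-- the cocycle of the restricted system -/
def kc (S : CosetSys emb Γ₁ Γ₂) (χ₁ : Γ₁ →* Δ) (χ₂ : Γ₂ →* Δ) (h : Compat₂ S χ₁ χ₂)
    (k : kerSub χ₂) (i : S.ι) : kerSub χ₁ :=
  kerMk χ₁ (S.c (kerIncl χ₂ k) i) (by rw [h, chi_kerIncl])

/-- **the restricted system** from `ker χ₁` to `ker χ₂` -/
def kerSys₂ (S : CosetSys emb Γ₁ Γ₂) (χ₁ : Γ₁ →* Δ) (χ₂ : Γ₂ →* Δ) (h : Compat₂ S χ₁ χ₂) :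
    CosetSys emb (kerSub χ₁) (kerSub χ₂) where
  ι := S.ι
  a := S.a
  σ k := S.σ (kerIncl χ₂ k)
  c k i := kc S χ₁ χ₂ h k i
  rel k i := S.rel (kerIncl χ₂ k) i
  hσ k k' i := by rw [map_mul]; exact S.hσ _ _ i
  hc k k' i := by
    apply Subtype.ext
    show ((S.c (kerIncl χ₂ (k * k')) i : Γ₁) : H)
      = ((S.c (kerIncl χ₂ k) i : Γ₁) : H) * ((S.c (kerIncl χ₂ k') (S.σ (kerIncl χ₂ k) i) : Γ₁) : H)
    rw [map_mul, S.hc]
    rfl

section Proj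

variable (S : CosetSys emb Γ₁ Γ₂) (χ₁ : Γ₁ →* Δ) (χ₂ : Γ₂ →* Δ) (h : Compat₂ S χ₁ χ₂)

theorem kerSys₂_a (i : S.ι) : (kerSys₂ S χ₁ χ₂ h).a i = S.a i := rfl

theorem kerSys₂_σ (k : kerSub χ₂) (i : S.ι) :
    (kerSys₂ S χ₁ χ₂ h).σ k i = S.σ (kerIncl χ₂ k) i := rfl

theorem kerSys₂_c (k : kerSub χ₂) (i : S.ι) :
    (kerSys₂ S χ₁ χ₂ h).c k i = kc S χ₁ χ₂ h k i := rfl

theorem kerIncl_kc (k : kerSub χ₂) (i : S.ι) :
    kerIncl χ₁ (kc S χ₁ χ₂ h k i) = S.c (kerIncl χ₂ k) i := rfl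

theorem kerIncl_kerSys₂_c (k : kerSub χ₂) (i : S.ι) :
    kerIncl χ₁ ((kerSys₂ S χ₁ χ₂ h).c k i) = S.c (kerIncl χ₂ k) i := rfl

/-- the weighted operator of the restricted system, indexed by `S.ι` -/
theorem wop_kerSys₂_apply {R : Type*} [CommRing R] {A : Type*} [AddCommGroup A] [Module R A]
    (w : S.ι → R) (hw : WSys.Inv (kerSys₂ S χ₁ χ₂ h) w) (φ : Additive (kerSub χ₁) →+ A)
    (k : kerSub χ₂) :
    WSys.wop (kerSys₂ S χ₁ χ₂ h) w hw φ (Additive.ofMul k)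
      = ∑ i : S.ι, w i • φ (Additive.ofMul (kc S χ₁ χ₂ h k i)) := rfl

/-- **restriction commutes with the restricted system** -/
theorem kerSys₂_op_res {A : Type*} [AddCommGroup A] (φ : Additive Γ₁ →+ A) :
    (kerSys₂ S χ₁ χ₂ h).op A ((resK emb χ₁).op A φ) = (resK emb χ₂).op A (S.op A φ) := by
  refine AddMonoidHom.ext fun k => ?_
  obtain ⟨k, rfl⟩ : ∃ k' : kerSub χ₂, Additive.ofMul k' = k := ⟨Additive.toMul k, rfl⟩
  rw [CosetSys.op_apply, resK_op_apply, CosetSys.op_apply]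
  refine Finset.sum_congr rfl fun i _ => ?_
  rw [resK_op_apply]
  rfl

/-- distinct cosets modulo `Γ₁` are distinct modulo `ker χ₁` -/
theorem kerSys₂_distinct (hd : S.Distinct) : (kerSys₂ S χ₁ χ₂ h).Distinct := by
  intro i j κ hκ
  exact hd i j (kerIncl χ₁ κ) hκ

end Proj

/-- for one group and one character this is helper2's `kerSys` -/
theorem kerSys₂_eq_kerSys {Γ : Subgroup H} (S : CosetSys emb Γ Γ) (χ : Γ →* Δ) (h : Compat S χ) :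
    kerSys₂ S χ χ h = kerSys S χ h := rfl

theorem compat₂_comp (S : CosetSys emb Γ₁ Γ₂) (S' : CosetSys emb Γ₂ Γ₃) (χ₁ : Γ₁ →* Δ)
    (χ₂ : Γ₂ →* Δ) (χ₃ : Γ₃ →* Δ) (h : Compat₂ S χ₁ χ₂) (h' : Compat₂ S' χ₂ χ₃) :
    Compat₂ (S.comp S') χ₁ χ₃ := by
  rintro g ⟨i, j⟩
  show χ₁ (S.c (S'.c g j) i) = χ₃ g
  rw [h, h']

/-- the restricted system of a composite is the composite of the restricted systems -/
theorem kerSys₂_comp (S : CosetSys emb Γ₁ Γ₂) (S' : CosetSys emb Γ₂ Γ₃) (χ₁ : Γ₁ →* Δ)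
    (χ₂ : Γ₂ →* Δ) (χ₃ : Γ₃ →* Δ) (h : Compat₂ S χ₁ χ₂) (h' : Compat₂ S' χ₂ χ₃) :
    kerSys₂ (S.comp S') χ₁ χ₃ (compat₂_comp S S' χ₁ χ₂ χ₃ h h')
      = (kerSys₂ S χ₁ χ₂ h).comp (kerSys₂ S' χ₂ χ₃ h') := rfl

/-! ### the conjugation rule -/

section Conj

variable (S : CosetSys emb Γ₁ Γ₂) (χ₁ : Γ₁ →* Δ) (χ₂ : Γ₂ →* Δ) (h : Compat₂ S χ₁ χ₂)
  {R : Type*} [CommRing R] {A : Type*} [AddCommGroup A] [Module R A]

/-- the cocycle of a conjugate: `c (δ k δ⁻¹) i = c δ i * c k (σ_δ i) * (c δ (σ_{δ k δ⁻¹} i))⁻¹` -/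
theorem c_conj (δ k : Γ₂) (i : S.ι) :
    S.c (δ * k * δ⁻¹) i = S.c δ i * S.c k (S.σ δ i) * (S.c δ (S.σ (δ * k * δ⁻¹) i))⁻¹ := by
  have h1 : δ * k = (δ * k * δ⁻¹) * δ := by group
  have h2 := S.hc (δ * k * δ⁻¹) δ i
  rw [← h1, S.hc] at h2
  rw [h2, mul_inv_cancel_right]

/-- a telescoping sum: for a family `x : ι → Γ₁` with constant character, a permutation `τ`
preserving the weights, and `φ` a homomorphism on the kernel,
`∑ i, w i • φ (x i * (x (τ i))⁻¹) = 0` -/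
theorem sum_smul_telescope {ι : Type} [Fintype ι] (w : ι → R) (τ : Equiv.Perm ι)
    (hτ : ∀ i, w (τ i) = w i) (x : ι → Γ₁) (d : Δ) (hx : ∀ i, χ₁ (x i) = d)
    (φ : Additive (kerSub χ₁) →+ A) :
    ∑ i, w i • φ (Additive.ofMul (kerMk χ₁ (x i * (x (τ i))⁻¹)
      (by rw [map_mul, map_inv, hx, hx, mul_inv_cancel]))) = 0 := by
  rcases isEmpty_or_nonempty ι with hι | ⟨⟨i₀⟩⟩
  · exact Finset.sum_of_isEmpty _
  · -- `F i = φ (x i * (x i₀)⁻¹)`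
    set F : ι → A := fun i => φ (Additive.ofMul (kerMk χ₁ (x i * (x i₀)⁻¹)
      (by rw [map_mul, map_inv, hx, hx, mul_inv_cancel]))) with hF
    have key : ∀ i, φ (Additive.ofMul (kerMk χ₁ (x i * (x (τ i))⁻¹)
        (by rw [map_mul, map_inv, hx, hx, mul_inv_cancel]))) = F i - F (τ i) := by
      intro i
      rw [hF]
      show _ = φ _ - φ _
      rw [← map_sub]
      congr 1
      show Additive.ofMul _ = Additive.ofMul _ - Additive.ofMul _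
      rw [← ofMul_div]
      congr 1
      apply Subtype.ext
      show ((x i * (x (τ i))⁻¹ : Γ₁) : H)
        = ((x i * (x i₀)⁻¹ : Γ₁) : H) / ((x (τ i) * (x i₀)⁻¹ : Γ₁) : H)
      rw [← Subgroup.coe_div]
      congr 1
      rw [div_eq_mul_inv, mul_inv_rev, inv_inv, mul_assoc, inv_mul_cancel_left]
    simp_rw [key, smul_sub]
    rw [Finset.sum_sub_distrib, sub_eq_zero]
    rw [← Equiv.sum_comp τ (fun i => w i • F i)]
    refine Finset.sum_congr rfl fun i _ => ?_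
    rw [hτ]

/-- **the conjugation rule** for a weighted operator of the kernel system on an eigenvector of the
conjugation action -/
theorem wop_conj (w : S.ι → R) (hw : WSys.Inv (kerSys₂ S χ₁ χ₂ h) w) (ε : Δ → R)
    (φ : Additive (kerSub χ₁) →+ A)
    (hφ : ∀ (x : Γ₁) (k : kerSub χ₁),
      φ (Additive.ofMul (conjK χ₁ x k)) = ε (χ₁ x) • φ (Additive.ofMul k))
    (δ : Γ₂) (k : kerSub χ₂) :
    WSys.wop (kerSys₂ S χ₁ χ₂ h) w hw φ (Additive.ofMul (conjK χ₂ δ k))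
      = ε (χ₂ δ) • ∑ i : S.ι, w ((S.σ δ).symm i) •
          φ (Additive.ofMul (kc S χ₁ χ₂ h k i)) := by
  rw [wop_kerSys₂_apply]
  -- the three factors
  have hfac : ∀ i : S.ι, kc S χ₁ χ₂ h (conjK χ₂ δ k) i
      = conjK χ₁ (S.c δ i) (kc S χ₁ χ₂ h k (S.σ δ i))
        * kerMk χ₁ (S.c δ i * (S.c δ (S.σ (kerIncl χ₂ (conjK χ₂ δ k)) i))⁻¹)
            (by rw [map_mul, map_inv, h, h, mul_inv_cancel]) := by
    intro i
    apply Subtype.ext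
    show ((S.c (kerIncl χ₂ (conjK χ₂ δ k)) i : Γ₁) : H)
      = ((S.c δ i * kerIncl χ₁ (kc S χ₁ χ₂ h k (S.σ δ i)) * (S.c δ i)⁻¹ : Γ₁) : H)
        * ((S.c δ i * (S.c δ (S.σ (kerIncl χ₂ (conjK χ₂ δ k)) i))⁻¹ : Γ₁) : H)
    rw [← Subgroup.coe_mul, kerIncl_kc, kerIncl_conjK, c_conj]
    congr 1
    group
  have h' : ∀ g i, χ₁ (S.c g i) = χ₂ g := h
  simp_rw [hfac, ofMul_mul, map_add, smul_add, hφ, h']
  rw [Finset.sum_add_distrib]
  have htel := sum_smul_telescope χ₁ w (S.σ (kerIncl χ₂ (conjK χ₂ δ k)))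
    (fun i => hw (conjK χ₂ δ k) i) (fun i => S.c δ i) (χ₂ δ) (fun i => h δ i) φ
  rw [htel, add_zero, Finset.smul_sum,
    ← Equiv.sum_comp (S.σ δ) (fun i => ε (χ₂ δ) • w ((S.σ δ).symm i) •
      φ (Additive.ofMul (kc S χ₁ χ₂ h k i)))]
  refine Finset.sum_congr rfl fun i _ => ?_
  rw [Equiv.symm_apply_apply, smul_comm]

end Conj

end KerSys2

end Fermat.Agent.GB.B4.Twist
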