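/-
GATE-B / B4-TWIST leaf (L2)+(L3) (helper97): **the Betti character twist** `R_ψ`.

`r` prime, `r ∣ N`, `θ : (ZMod N)ˣ →* Δ` any quotient, `Γ_H(N) = GammaH θ` (helper2, GB/B3/GammaH),
`θ↑ = θ ∘ (mod N) : (ZMod (N r))ˣ →* Δ` and `Γ_H(N r) = GammaH θ↑ = Γ_H(N) ∩ Γ₀(N r)`.
For a multiplicative character `ψ` of `ZMod r` with `ψ(d)² = 1` on `Γ_H(N r)`,

  `R_ψ φ (g) = ∑_{x mod r} ψ(x) φ(α_x g α_{d² x}⁻¹)`,   `α_x = [1 x/r; 0 1]`,

is an operator `Hom(Γ_H(N), A) → Hom(Γ_H(N r), A)` (the Betti incarnation of `f ↦ f ⊗ ψ`, up to the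
Gauss sum).  It is built with NO new matrix computation: `r · α_x = [1 x; 0 r] · diag(r, 1)`, so
the system of representatives is the composite `U_r ∘ B_r` of the landed systems `uSys` (GM/B5) and
`resDSys` (GM/B/Degeneracy), restricted to the kernels (`KerSys2.kerSys₂`) and weighted by `ψ`
(`WSys.wop`); `ψ(0) = 0` removes the non-unit index.

* `twA r x` (representatives), `twC0`, `twσ0`, `twSys0 hrN : CosetSys embR (Gamma0 N)
  (Gamma0 (N * r))` with index set `ZMod r`, `dUnits_twC0` (the cocycle preserves `d mod N`),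
  `twσ0_apply` (`σ_g x = d² x`), `twA_rel`;
* `liftθ θ`, `twSys θ hrN : CosetSys embR (GammaH θ) (GammaH (liftθ θ))`;
* `Rpsi θ hrN ψ hψ`, `twC`, `Rpsi_apply`, `twC_rel`;
* `Rpsi_conj` : **(L3)** if `φ (x k x⁻¹) = ε (χ_θ x) • φ k` for `x ∈ Γ₀(N)`, then for `δ ∈ Γ₀(N r)`
  `ψ(d_δ)² • R_ψ φ (δ k δ⁻¹) = ε (χ_θ↑ δ) • R_ψ φ (k)`:
  the twist of an `ε`-eigenvector of the diamond operators is an `ε ψ⁻²`-eigenvector;
* `isParabolicHom_Rpsi` : parabolic classes go to parabolic classes;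
* `hψ_of_factor` : the hypothesis `hψ` when `ψ²` factors through `θ`.
-/
import Mathlib
import Fermat.Agent.GB.B3.GammaH
import Fermat.Agent.GM.B.Degeneracy
import Fermat.Agent.GM.B.Par
import Fermat.Agent.GB.B4.Twist.KerSys2

set_option autoImplicit false

open scoped MatrixGroups
open CongruenceSubgroup Matrix Matrix.SpecialLinearGroup ModularCurve.Period
open P2MW.S_ModularForm_heckeT_slash_eq_self_of_mem_Gamma0.ModularForm.HeckeSlashInvariance
open Fermat.Agent.S16_helper49 Fermat.Agent.GM.B Fermat.Agent.GM.EisClass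
open Fermat.Agent.GM.B5 Fermat.Agent.GM.Amalgam
open Fermat.Agent.GB.B3 Fermat.Agent.GB.B3.EisGamma0 Fermat.Agent.GB.B3.GamH
open Fermat.Agent.GB.B4.Twist Fermat.Agent.GB.B4.Twist.KerSys2

namespace Fermat.Agent.GB.B4.Twist.RPsi

variable {N r : ℕ} [Fact r.Prime]

/-! ### the system on `Γ₀` -/

/-- the cocycle on `Γ₀`: `α_x g α_{d² x}⁻¹` -/
noncomputable def twC0 (hrN : r ∣ N) (g : Gamma0 (N * r)) (x : ZMod r) : Gamma0 N :=
  cU hrN (degenDelta N r g) x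

/-- the permutation of `ZMod r` -/
noncomputable def twσ0 (hrN : r ∣ N) (g : Gamma0 (N * r)) : Equiv.Perm (ZMod r) :=
  sigU hrN (degenDelta N r g)

/-- the representatives `[1 x; 0 r] · diag(r, 1) = r · [1 x/r; 0 1]` -/
noncomputable def twA (r : ℕ) (x : ZMod r) : GL (Fin 2) ℝ :=
  ModularForm.heckeMatrix r x.val * dlt r

theorem twA_rel (hrN : r ∣ N) (g : Gamma0 (N * r)) (x : ZMod r) :
    twA r x * embR (g : SL(2, ℤ))
      = embR ((twC0 hrN g x : Gamma0 N) : SL(2, ℤ)) * twA r (twσ0 hrN g x) := by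
  unfold twA twC0 twσ0
  rw [mul_assoc, dlt_rel_degenDelta, ← mul_assoc]
  have h := cU_rel hrN (degenDelta N r g) x
  show ModularForm.heckeMatrix r x.val * mapGL ℝ ((degenDelta N r g : Gamma0 N) : SL(2, ℤ)) * dlt r
    = mapGL ℝ ((cU hrN (degenDelta N r g) x : Gamma0 N) : SL(2, ℤ))
      * (ModularForm.heckeMatrix r (sigU hrN (degenDelta N r g) x).val * dlt r)
  rw [h, mul_assoc]

/-- **the twist system on `Γ₀`** (`= U_r ∘ B_r`, one representative for every `x ∈ ZMod r`) -/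
noncomputable def twSys0 (hrN : r ∣ N) : CosetSys embR (Gamma0 N) (Gamma0 (N * r)) where
  ι := ZMod r
  a := twA r
  σ := twσ0 hrN
  c := twC0 hrN
  rel := twA_rel hrN
  hσ g h x := by
    unfold twσ0
    rw [map_mul]
    exact sigU_mul hrN _ _ x
  hc g h x := by
    unfold twC0 twσ0
    rw [map_mul]
    exact cU_mul hrN _ _ x

/-- `d mod r` of a matrix -/
def dr (r : ℕ) (g : SL(2, ℤ)) : ZMod r := ((g 1 1 : ℤ) : ZMod r)

/-- **the permutation**: `σ_g x = d² x` -/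
theorem twσ0_apply (hrN : r ∣ N) (g : Gamma0 (N * r)) (x : ZMod r) :
    twσ0 hrN g x = dr r (g : SL(2, ℤ)) ^ 2 * x := by
  obtain ⟨-, h01, -, h11⟩ := degenDelta_entries g
  unfold twσ0 sigU
  rw [affinePerm_apply, h01, h11]
  push_cast
  rw [ZMod.natCast_self, zero_mul, zero_add]
  unfold dr
  ring

theorem twσ0_symm_apply (hrN : r ∣ N) (g : Gamma0 (N * r)) (x : ZMod r) :
    dr r (g : SL(2, ℤ)) ^ 2 * (twσ0 hrN g).symm x = x := by
  rw [← twσ0_apply hrN, Equiv.apply_symm_apply]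

/-- **the cocycle preserves `d mod N`** -/
theorem dN_twC0 (hrN : r ∣ N) (g : Gamma0 (N * r)) (x : ZMod r) :
    dN (twC0 hrN g x) = ((((g : SL(2, ℤ)) 1 1 : ℤ)) : ZMod N) := by
  unfold twC0
  rw [dN_cU]
  obtain ⟨-, -, -, h11⟩ := degenDelta_entries g
  unfold dN
  rw [h11]

theorem dUnits_twC0 (hrN : r ∣ N) (g : Gamma0 (N * r)) (x : ZMod r) :
    dUnits N (twC0 hrN g x)
      = ZMod.unitsMap (Nat.dvd_mul_right N r) (dUnits (N * r) g) := by
  apply Units.ext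
  rw [coe_dUnits, dN_twC0, ZMod.unitsMap_def, Units.coe_map, coe_dUnits]
  unfold dN
  rw [MonoidHom.coe_coe, map_intCast]

/-! ### the system on `Γ_H` -/

variable {Δ : Type} [CommGroup Δ] (θ : (ZMod N)ˣ →* Δ)

/-- the quotient `θ ∘ (mod N)` of `(ZMod (N r))ˣ` -/
noncomputable def liftθ : (ZMod (N * r))ˣ →* Δ := θ.comp (ZMod.unitsMap (Nat.dvd_mul_right N r))

omit [Fact r.Prime] in
theorem liftθ_apply (u : (ZMod (N * r))ˣ) :
    liftθ (r := r) θ u = θ (ZMod.unitsMap (Nat.dvd_mul_right N r) u) := rfl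

theorem compat₂_twSys0 (hrN : r ∣ N) :
    Compat₂ (twSys0 hrN) (chi θ) (chi (liftθ (r := r) θ)) := by
  intro g x
  show chi θ (twC0 hrN g x) = _
  rw [chi_apply, chi_apply, dUnits_twC0, liftθ_apply]

/-- **the twist system** from `Γ_H(N)` to `Γ_H(N r) = Γ_H(N) ∩ Γ₀(N r)` -/
noncomputable def twSys (hrN : r ∣ N) : CosetSys embR (GammaH θ) (GammaH (liftθ (r := r) θ)) :=
  kerSys₂ (twSys0 hrN) (chi θ) (chi (liftθ (r := r) θ)) (compat₂_twSys0 θ hrN)

/-- the weights of a multiplicative character of `ZMod r` -/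
def wψ {R : Type*} [CommRing R] (ψ : MulChar (ZMod r) R) : ZMod r → R := fun x => ψ x

theorem inv_wψ {R : Type*} [CommRing R] (hrN : r ∣ N) (ψ : MulChar (ZMod r) R)
    (hψ : ∀ g : GammaH (liftθ (r := r) θ), ψ (dr r (g : SL(2, ℤ))) ^ 2 = 1) :
    WSys.Inv (twSys θ hrN) (wψ ψ) := by
  intro g x
  show ψ (twσ0 hrN (kerIncl (chi (liftθ (r := r) θ)) g) x) = ψ x
  rw [twσ0_apply, map_mul, map_pow]
  show ψ (dr r ((g : SL(2, ℤ)))) ^ 2 * ψ x = ψ x
  rw [hψ, one_mul]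

omit [Fact r.Prime] in
/-- the hypothesis `hψ` holds when `ψ²` factors through `θ` -/
theorem hψ_of_factor {R : Type*} [CommRing R] (hrN : r ∣ N) (ψ : MulChar (ZMod r) R) (η : Δ →* R)
    (h : ∀ u : (ZMod N)ˣ, ψ ((ZMod.unitsMap hrN u : (ZMod r)ˣ) : ZMod r) ^ 2 = η (θ u))
    (g : GammaH (liftθ (r := r) θ)) : ψ (dr r (g : SL(2, ℤ))) ^ 2 = 1 := by
  set k : Gamma0 (N * r) := kerIncl (chi (liftθ (r := r) θ)) g with hk
  have h1 : chi (liftθ (r := r) θ) k = 1 := chi_kerIncl _ g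
  rw [chi_apply, liftθ_apply] at h1
  have h2 := h (ZMod.unitsMap (Nat.dvd_mul_right N r) (dUnits (N * r) k))
  rw [h1, map_one] at h2
  rw [← h2]
  congr 2
  rw [ZMod.unitsMap_def, ZMod.unitsMap_def, Units.coe_map, Units.coe_map, coe_dUnits]
  unfold dN dr
  rw [MonoidHom.coe_coe, MonoidHom.coe_coe, map_intCast, map_intCast]
  rfl

section Op

variable {R : Type*} [CommRing R] {A : Type*} [AddCommGroup A] [Module R A]

/-- **the Betti twist** `R_ψ : Hom(Γ_H(N), A) → Hom(Γ_H(N r), A)` -/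
noncomputable def Rpsi (hrN : r ∣ N) (ψ : MulChar (ZMod r) R)
    (hψ : ∀ g : GammaH (liftθ (r := r) θ), ψ (dr r (g : SL(2, ℤ))) ^ 2 = 1) :
    (Additive (GammaH θ) →+ A) →+ (Additive (GammaH (liftθ (r := r) θ)) →+ A) :=
  WSys.wop (twSys θ hrN) (wψ ψ) (inv_wψ θ hrN ψ hψ)

/-- the cocycle of the twist, `α_x g α_{d² x}⁻¹` -/
noncomputable def twC (hrN : r ∣ N) (g : GammaH (liftθ (r := r) θ)) (x : ZMod r) : GammaH θ :=
  kc (twSys0 hrN) (chi θ) (chi (liftθ (r := r) θ)) (compat₂_twSys0 θ hrN) g x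

theorem Rpsi_apply (hrN : r ∣ N) (ψ : MulChar (ZMod r) R)
    (hψ : ∀ g : GammaH (liftθ (r := r) θ), ψ (dr r (g : SL(2, ℤ))) ^ 2 = 1)
    (φ : Additive (GammaH θ) →+ A) (g : GammaH (liftθ (r := r) θ)) :
    Rpsi θ hrN ψ hψ φ (Additive.ofMul g)
      = ∑ x : ZMod r, ψ x • φ (Additive.ofMul (twC θ hrN g x)) := rfl

theorem coe_twC (hrN : r ∣ N) (g : GammaH (liftθ (r := r) θ)) (x : ZMod r) :
    ((twC θ hrN g x : GammaH θ) : SL(2, ℤ))
      = ((twC0 hrN (kerIncl (chi (liftθ (r := r) θ)) g) x : Gamma0 N) : SL(2, ℤ)) := rfl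

/-- the matrix relation defining `twC`:
`[1 x; 0 r] diag(r, 1) g = twC g x · [1 d²x; 0 r] diag(r, 1)` -/
theorem twC_rel (hrN : r ∣ N) (g : GammaH (liftθ (r := r) θ)) (x : ZMod r) :
    twA r x * embR ((g : SL(2, ℤ)))
      = embR ((twC θ hrN g x : SL(2, ℤ))) * twA r (dr r (g : SL(2, ℤ)) ^ 2 * x) := by
  have h := twA_rel hrN (kerIncl (chi (liftθ (r := r) θ)) g) x
  rw [twσ0_apply] at h
  exact h

/-- **(L3) the conjugation rule**: the twist of an `ε`-eigenvector of the conjugation action of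
`Γ₀(N)` is an `ε ψ⁻²`-eigenvector of the conjugation action of `Γ₀(N r)` -/
theorem Rpsi_conj (hrN : r ∣ N) (ψ : MulChar (ZMod r) R)
    (hψ : ∀ g : GammaH (liftθ (r := r) θ), ψ (dr r (g : SL(2, ℤ))) ^ 2 = 1)
    (ε : Δ → R) (φ : Additive (GammaH θ) →+ A)
    (hφ : ∀ (x : Gamma0 N) (k : GammaH θ),
      φ (Additive.ofMul (conjK (chi θ) x k)) = ε (chi θ x) • φ (Additive.ofMul k))
    (δ : Gamma0 (N * r)) (k : GammaH (liftθ (r := r) θ)) :
    ψ (dr r (δ : SL(2, ℤ))) ^ 2 •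
        Rpsi θ hrN ψ hψ φ (Additive.ofMul (conjK (chi (liftθ (r := r) θ)) δ k))
      = ε (chi (liftθ (r := r) θ) δ) • Rpsi θ hrN ψ hψ φ (Additive.ofMul k) := by
  have h := wop_conj (twSys0 hrN) (chi θ) (chi (liftθ (r := r) θ)) (compat₂_twSys0 θ hrN)
    (wψ ψ) (inv_wψ θ hrN ψ hψ) ε φ hφ δ k
  have e1 : Rpsi θ hrN ψ hψ φ (Additive.ofMul (conjK (chi (liftθ (r := r) θ)) δ k))
      = ε (chi (liftθ (r := r) θ) δ) • ∑ x : ZMod r,
          ψ ((twσ0 hrN δ).symm x) • φ (Additive.ofMul (twC θ hrN k x)) := h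
  rw [e1, Rpsi_apply, smul_comm, Finset.smul_sum]
  congr 1
  refine Finset.sum_congr rfl fun x _ => ?_
  rw [← mul_smul, ← map_pow, ← map_mul, twσ0_symm_apply]

end Op

/-! ### parabolic classes -/

section Par

variable {R : Type*} [CommRing R] {A : Type*} [AddCommGroup A] [Module R A]

/-- **the twist preserves parabolic classes** -/
theorem isParabolicHom_Rpsi (hrN : r ∣ N) (ψ : MulChar (ZMod r) R)
    (hψ : ∀ g : GammaH (liftθ (r := r) θ), ψ (dr r (g : SL(2, ℤ))) ^ 2 = 1)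
    (φ : Additive (GammaH θ) →+ A) (hφ : IsParabolicHom (GammaH θ) φ) :
    IsParabolicHom (GammaH (liftθ (r := r) θ)) (Rpsi θ hrN ψ hψ φ) := by
  classical
  intro g hg
  unfold Rpsi
  rw [WSys.wop_eq_sum_restrict]
  refine Finset.sum_eq_zero fun c _ => ?_
  rw [op_isParabolicHom _ φ hφ g hg, smul_zero]

end Par

end Fermat.Agent.GB.B4.Twist.RPsi
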