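/-
GATE-B / B4-TWIST (helper97): weighted coset systems, part 2.

* `wop_eq_of_cosets` : independence of the representatives, COSET form — if the cosets of the
  target system are pairwise distinct the compatibility of the permutations is automatic
  (weighted twin of `CosetSys.op_eq_of_cosets`);
* `wop_op` / `op_wop` : composition of a weighted operator with a plain one.
-/
import Mathlib
import Fermat.Agent.GM.B.System
import Fermat.Agent.GM.B.System2
import Fermat.Agent.GB.B4.Twist.WSys

set_option autoImplicit false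

namespace Fermat.Agent.GB.B4.Twist

open Fermat.Agent.GM.B

variable {H G : Type*} [Group H] [Group G] {emb : H →* G} {Γ₁ Γ₂ Γ₃ : Subgroup H}

namespace WSys

section Cosets

variable (S S' : CosetSys emb Γ₁ Γ₂) {R : Type*} [CommRing R] {A : Type*} [AddCommGroup A]
  [Module R A]

/-- **Independence of the representatives, weighted coset form.** -/
theorem wop_eq_of_cosets (hemb : Function.Injective emb) (hS' : S'.Distinct) (e : S.ι ≃ S'.ι)
    (z : G) (hz : ∀ x : G, z * x = x * z) (γ : S.ι → Γ₁)
    (hrep : ∀ i, S'.a (e i) = z * emb ((γ i : Γ₁) : H) * S.a i)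
    {w : S.ι → R} {w' : S'.ι → R} (hw : Inv S w) (hw' : Inv S' w')
    (hww : ∀ i, w' (e i) = w i) (φ : Additive Γ₁ →+ A) :
    wop S' w' hw' φ = wop S w hw φ := by
  refine wop_eq_of_equiv S S' hemb e z hz γ hrep ?_ hw hw' hww φ
  intro g i
  refine hS' _ _ ((S'.c g (e i))⁻¹ * (γ i * S.c g i * (γ (S.σ g i))⁻¹)) ?_
  have h1 := S'.rel g (e i)
  rw [hrep, mul_assoc, S.rel g i] at h1
  have hz' : ∀ x y : G, x * (z * y) = z * (x * y) := fun x y => by
    rw [← mul_assoc, ← hz, mul_assoc]
  rw [hrep, Subgroup.coe_mul, map_mul, mul_assoc, Subgroup.coe_inv, map_inv, eq_inv_mul_iff_mul_eq,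
    ← h1]
  rw [Subgroup.coe_mul, Subgroup.coe_mul, Subgroup.coe_inv, map_mul, map_mul, map_inv]
  rw [mul_assoc z, mul_assoc z, hz']
  congr 1
  group

end Cosets

section PlainComp

variable {R : Type*} [CommRing R] {A : Type*} [AddCommGroup A] [Module R A]

/-- a weighted operator followed by a plain one -/
theorem op_wop (S : CosetSys emb Γ₁ Γ₂) (S' : CosetSys emb Γ₂ Γ₃) {w : S.ι → R} (hw : Inv S w)
    (φ : Additive Γ₁ →+ A) :
    S'.op A (wop S w hw φ)
      = wop (S.comp S') (prodW S S' w (fun _ => (1 : R))) (inv_prodW S S' hw (inv_one S')) φ := by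
  rw [wop_comp S S' hw (inv_one S'), wop_one]

/-- a plain operator followed by a weighted one -/
theorem wop_op (S : CosetSys emb Γ₁ Γ₂) (S' : CosetSys emb Γ₂ Γ₃) {w' : S'.ι → R}
    (hw' : Inv S' w') (φ : Additive Γ₁ →+ A) :
    wop S' w' hw' (S.op A φ)
      = wop (S.comp S') (prodW S S' (fun _ => (1 : R)) w') (inv_prodW S S' (inv_one S) hw') φ := by
  rw [wop_comp S S' (inv_one S) hw', wop_one]

end PlainComp

end WSys

end Fermat.Agent.GB.B4.Twist
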