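/-
GATE-B / B4-TWIST leaf (L4U) (helper97): **`U_q`-equivariance of the Betti twist**.

`r` prime, `r ∣ N`, `q ∣ N` with `(q, r) = 1`, `θ` any quotient of `(ZMod N)ˣ`.  Then

  `R_ψ (U_q φ) = ψ(q) • U_q (R_ψ φ)`      (`Rpsi_UH`, pointwise)

where `U_q` on the left is helper2's `UH θ` at level `N` and on the right `UH (liftθ θ)` at level
`N r`.  (`R_ψ = ∑ ψ(x) [α_x]` is the twist by `ψ̄` up to the Gauss sum, whence `ψ(q)` on this side.)

Method: all representatives of the two composite systems are upper triangular,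
`twA r x * [1 j; 0 q] = [r, r j + q x; 0, r q]`, `[1 j; 0 q] * twA r x = [r, x + r j; 0, r q]`, and
`T^n [a, b; 0, d] = [a, b + n d; 0, d]`; the matching is `(x, j) ↦ (j + m(x), q x)` with
`q x̃ = (q x)~ + r m(x)`, the target composite has distinct cosets (division algorithm), and the
weights transform by `ψ(q x) = ψ(q) ψ(x)` (`WSys.wop_eq_of_cosets`).
-/
import Mathlib
import Fermat.Agent.GB.B4.Twist.RPsi
import Fermat.Agent.GB.B4.Twist.WSys2

set_option autoImplicit false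

open scoped MatrixGroups
open CongruenceSubgroup Matrix Matrix.SpecialLinearGroup ModularCurve.Period
open P2MW.S_ModularForm_heckeT_slash_eq_self_of_mem_Gamma0.ModularForm.HeckeSlashInvariance
open Fermat.Agent.S16_helper49 Fermat.Agent.GM.B Fermat.Agent.GM.EisClass
open Fermat.Agent.GM.B5 Fermat.Agent.GM.Amalgam
open Fermat.Agent.GB.B3 Fermat.Agent.GB.B3.EisGamma0 Fermat.Agent.GB.B3.GamH
open Fermat.Agent.GB.B4.Twist Fermat.Agent.GB.B4.Twist.KerSys2 Fermat.Agent.GB.B4.Twist.RPsi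

namespace Fermat.Agent.GB.B4.Twist.RPsiU

/-! ### upper triangular matrices -/

/-- `T^n = [1 n; 0 1]` -/
def Tn (n : ℤ) : SL(2, ℤ) := ⟨!![1, n; 0, 1], by rw [Matrix.det_fin_two_of]; ring⟩

theorem Tn_mem_Gamma0 (N : ℕ) (n : ℤ) : Tn n ∈ Gamma0 N :=
  mem_Gamma0_of_dvd (by simp [Tn])

theorem ut_congr {a b b' d : ℝ} (h : a * d ≠ 0) (hb : b = b') :
    ModularForm.upperTriangularGL a b d h = ModularForm.upperTriangularGL a b' d h := by
  subst hb; rfl

theorem embR_Tn_mul_ut (n : ℤ) (a b d : ℝ) (h : a * d ≠ 0) :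
    embR (Tn n) * ModularForm.upperTriangularGL a b d h
      = ModularForm.upperTriangularGL a (b + n * d) d h := by
  apply Matrix.GeneralLinearGroup.ext
  intro i j
  rw [Matrix.GeneralLinearGroup.coe_mul]
  fin_cases i <;> fin_cases j <;> simp [Tn, Matrix.mul_apply, Fin.sum_univ_two]

/-- if `[a, t; 0, d] = γ [a, t'; 0, d]` with `γ ∈ SL(2, ℤ)` then `t = t' + γ₀₁ d` -/
theorem ut_eq_embR_mul {a t t' d : ℝ} (h : a * d ≠ 0) (γ : SL(2, ℤ))
    (he : ModularForm.upperTriangularGL a t d h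
      = embR γ * ModularForm.upperTriangularGL a t' d h) :
    t = t' + ((γ 0 1 : ℤ) : ℝ) * d := by
  have ha : a ≠ 0 := left_ne_zero_of_mul h
  have h00 := congrArg (fun M : GL (Fin 2) ℝ => (M : Matrix (Fin 2) (Fin 2) ℝ) 0 0) he
  have h01 := congrArg (fun M : GL (Fin 2) ℝ => (M : Matrix (Fin 2) (Fin 2) ℝ) 0 1) he
  simp [Matrix.mul_apply, Fin.sum_univ_two] at h00 h01
  have h1 : ((γ 0 0 : ℤ) : ℝ) = 1 := by
    have : ((γ 0 0 : ℤ) : ℝ) * a = 1 * a := by rw [one_mul]; exact h00.symm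
    exact mul_right_cancel₀ ha this
  rw [h1, one_mul] at h01
  exact h01

variable {r : ℕ} [Fact r.Prime]

theorem r_ne_zero : r ≠ 0 := (Fact.out : r.Prime).ne_zero

theorem rq_ne_zero {q : ℕ} (hq : q ≠ 0) : (r : ℝ) * ((r : ℝ) * q) ≠ 0 := by
  have hr : (r : ℝ) ≠ 0 := by exact_mod_cast (r_ne_zero (r := r))
  have hq' : (q : ℝ) ≠ 0 := by exact_mod_cast hq
  exact mul_ne_zero hr (mul_ne_zero hr hq')

/-- `twA r x * [1 j; 0 q] = [r, r j + q x; 0, r q]` -/
theorem twA_mul_heckeMatrix {q : ℕ} (hq : q ≠ 0) (x : ZMod r) (j : ℕ) :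
    twA r x * ModularForm.heckeMatrix q j
      = ModularForm.upperTriangularGL r ((r : ℝ) * j + (q : ℝ) * x.val) ((r : ℝ) * q)
          (rq_ne_zero hq) := by
  have hr : r ≠ 0 := r_ne_zero
  unfold twA
  apply Matrix.GeneralLinearGroup.ext
  intro i k
  rw [Matrix.GeneralLinearGroup.coe_mul, Matrix.GeneralLinearGroup.coe_mul]
  fin_cases i <;> fin_cases k <;>
    simp [Matrix.mul_apply, Fin.sum_univ_two, ModularForm.val_heckeMatrix hr,
      ModularForm.val_heckeMatrix hq, ModularForm.val_heckeDiagMatrix hr]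
  all_goals ring

/-- `[1 j; 0 q] * twA r x = [r, x + r j; 0, r q]` -/
theorem heckeMatrix_mul_twA {q : ℕ} (hq : q ≠ 0) (x : ZMod r) (j : ℕ) :
    ModularForm.heckeMatrix q j * twA r x
      = ModularForm.upperTriangularGL r ((x.val : ℝ) + (r : ℝ) * j) ((r : ℝ) * q)
          (rq_ne_zero hq) := by
  have hr : r ≠ 0 := r_ne_zero
  unfold twA
  apply Matrix.GeneralLinearGroup.ext
  intro i k
  rw [Matrix.GeneralLinearGroup.coe_mul, Matrix.GeneralLinearGroup.coe_mul]
  fin_cases i <;> fin_cases k <;>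
    simp [Matrix.mul_apply, Fin.sum_univ_two, ModularForm.val_heckeMatrix hr,
      ModularForm.val_heckeMatrix hq, ModularForm.val_heckeDiagMatrix hr]
  all_goals ring

/-! ### `T^n` in `Γ_H` -/

section TnH

variable {N : ℕ} {Δ : Type} [CommGroup Δ] (θ : (ZMod N)ˣ →* Δ)

theorem chi_Tn (n : ℤ) : chi θ ⟨Tn n, Tn_mem_Gamma0 N n⟩ = 1 := by
  rw [chi_apply]
  have : dUnits N ⟨Tn n, Tn_mem_Gamma0 N n⟩ = 1 := by
    apply Units.ext
    rw [coe_dUnits]
    unfold dN
    simp [Tn]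
  rw [this, map_one]

/-- `T^n` as an element of `Γ_H` -/
noncomputable def tnH (n : ℤ) : GammaH θ :=
  kerMk (chi θ) ⟨Tn n, Tn_mem_Gamma0 N n⟩ (chi_Tn θ n)

theorem coe_tnH (n : ℤ) : ((tnH θ n : GammaH θ) : SL(2, ℤ)) = Tn n := rfl

end TnH

/-! ### the arithmetic of the matching -/

section Arith

variable {q : ℕ} [NeZero q]

/-- the carry `m(x) = ⌊q x̃ / r⌋` -/
def carry (q : ℕ) (x : ZMod r) : ℕ := q * x.val / r

/-- `q · x` in `ZMod r` -/
def mulq (q : ℕ) (x : ZMod r) : ZMod r := ((q * x.val : ℕ) : ZMod r)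

omit [NeZero q] in
theorem mulq_eq (x : ZMod r) : mulq q x = (q : ZMod r) * x := by
  unfold mulq
  rw [Nat.cast_mul, ZMod.natCast_zmod_val]

omit [NeZero q] in
theorem val_mulq (x : ZMod r) : (mulq q x).val + r * carry q x = q * x.val := by
  unfold mulq carry
  rw [ZMod.val_natCast]
  exact Nat.mod_add_div _ _

/-- `j + m` in `ZMod q` -/
def addc (j : ZMod q) (m : ℕ) : ZMod q := ((j.val + m : ℕ) : ZMod q)

theorem addc_eq (j : ZMod q) (m : ℕ) : addc j m = j + (m : ZMod q) := by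
  unfold addc
  rw [Nat.cast_add, ZMod.natCast_zmod_val]

omit [NeZero q] in
theorem val_addc (j : ZMod q) (m : ℕ) : (addc j m).val + q * ((j.val + m) / q) = j.val + m := by
  unfold addc
  rw [ZMod.val_natCast]
  exact Nat.mod_add_div _ _

/-- the matching `(x, j) ↦ (j + m(x), q x)` -/
noncomputable def matchEquiv (hcop : Nat.Coprime q r) : ZMod r × ZMod q ≃ ZMod q × ZMod r :=
  (Equiv.prodShear (Units.mulLeft (ZMod.unitOfCoprime q hcop))
    (fun x => Equiv.addRight ((carry q x : ℕ) : ZMod q))).trans (Equiv.prodComm _ _)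

theorem matchEquiv_apply (hcop : Nat.Coprime q r) (x : ZMod r) (j : ZMod q) :
    matchEquiv hcop (x, j) = (addc j (carry q x), mulq q x) := by
  unfold matchEquiv
  rw [Equiv.trans_apply, Equiv.prodShear_apply, Equiv.prodComm_apply, addc_eq, mulq_eq]
  rfl

/-- the division algorithm: `x + r j` determines `(x, j)` -/
theorem eq_of_add_mul_eq {x x' : ZMod r} {j j' : ZMod q}
    (h : x.val + r * j.val = x'.val + r * j'.val) : x = x' ∧ j = j' := by
  have hr : 0 < r := Nat.pos_of_ne_zero r_ne_zero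
  have hx := ZMod.val_lt x
  have hx' := ZMod.val_lt x'
  have h1 : x.val = x'.val := by
    have := congrArg (· % r) h
    simp only [Nat.add_mul_mod_self_left] at this
    rwa [Nat.mod_eq_of_lt hx, Nat.mod_eq_of_lt hx'] at this
  have h2 : j.val = j'.val := by
    rw [h1] at h
    exact Nat.eq_of_mul_eq_mul_left hr (Nat.add_left_cancel h)
  exact ⟨ZMod.val_injective r h1, ZMod.val_injective q h2⟩

/-- the matching of the representatives -/
theorem rep_match (hcop : Nat.Coprime q r) (x : ZMod r) (j : ZMod q) :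
    ModularForm.heckeMatrix q ((matchEquiv hcop (x, j)).1).val * twA r (matchEquiv hcop (x, j)).2
      = 1 * embR (Tn (-(((j.val + carry q x) / q : ℕ) : ℤ)))
        * (twA r x * ModularForm.heckeMatrix q j.val) := by
  have hq : q ≠ 0 := NeZero.ne q
  have h1 := val_mulq (q := q) x
  have h2 := val_addc j (carry q x)
  generalize (j.val + carry q x) / q = k at h2 ⊢
  rw [matchEquiv_apply, one_mul, heckeMatrix_mul_twA hq, twA_mul_heckeMatrix hq, embR_Tn_mul_ut]
  refine ut_congr _ ?_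
  have h1' : ((mulq q x).val : ℝ) + r * carry q x = q * x.val := by exact_mod_cast h1
  have h2' : ((addc j (carry q x)).val : ℝ) + q * (k : ℝ) = j.val + carry q x := by
    exact_mod_cast h2
  push_cast
  linear_combination h1' + (r : ℝ) * h2'

/-- the matching of the weights -/
theorem weight_match {R : Type*} [CommRing R] (hcop : Nat.Coprime q r) (ψ : MulChar (ZMod r) R)
    (x : ZMod r) (j : ZMod q) :
    (1 : R) * ψ ((matchEquiv hcop (x, j)).2) = ψ (q : ZMod r) * (ψ x * 1) := by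
  rw [matchEquiv_apply, mulq_eq, map_mul, one_mul, mul_one]

end Arith

/-! ### the two composite systems -/

section Main

variable {N q : ℕ} [NeZero q] {Δ : Type} [CommGroup Δ] (θ : (ZMod N)ˣ →* Δ)

/-- first `R_ψ`, then `U_q` at level `N r` -/
noncomputable def sysRU (hrN : r ∣ N) (hqN : q ∣ N) :
    CosetSys embR (GammaH θ) (GammaH (liftθ (r := r) θ)) :=
  (twSys θ hrN).comp (uSysH (liftθ (r := r) θ) (Dvd.dvd.mul_right hqN r))

/-- first `U_q` at level `N`, then `R_ψ` -/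
noncomputable def sysUR (hrN : r ∣ N) (hqN : q ∣ N) :
    CosetSys embR (GammaH θ) (GammaH (liftθ (r := r) θ)) :=
  (uSysH θ hqN).comp (twSys θ hrN)

theorem sysRU_a (hrN : r ∣ N) (hqN : q ∣ N) (x : ZMod r) (j : ZMod q) :
    (sysRU θ hrN hqN).a (x, j) = twA r x * ModularForm.heckeMatrix q j.val := rfl

theorem sysUR_a (hrN : r ∣ N) (hqN : q ∣ N) (j : ZMod q) (x : ZMod r) :
    (sysUR θ hrN hqN).a (j, x) = ModularForm.heckeMatrix q j.val * twA r x := rfl

/-- the cosets of `U_q` followed by `R_ψ` are pairwise distinct (modulo `SL(2, ℤ)`) -/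
theorem sysUR_distinct (hrN : r ∣ N) (hqN : q ∣ N) : (sysUR θ hrN hqN).Distinct := by
  have hq : q ≠ 0 := NeZero.ne q
  have hr : r ≠ 0 := r_ne_zero
  rintro ⟨j, x⟩ ⟨j', x'⟩ γ h
  have h' : ModularForm.heckeMatrix q j.val * twA r x
      = embR ((γ : GammaH θ) : SL(2, ℤ)) * (ModularForm.heckeMatrix q j'.val * twA r x') := h
  rw [heckeMatrix_mul_twA hq, heckeMatrix_mul_twA hq] at h'
  have h1 := ut_eq_embR_mul _ _ h'
  -- integrality
  set b : ℤ := ((γ : GammaH θ) : SL(2, ℤ)) 0 1 with hb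
  have h2 : ((x.val : ℤ) + r * j.val) = (x'.val : ℤ) + r * j'.val + b * (r * q) := by
    exact_mod_cast h1
  have hx := ZMod.val_lt x
  have hx' := ZMod.val_lt x'
  have hj := ZMod.val_lt j
  have hj' := ZMod.val_lt j'
  have hrq : (0 : ℤ) < (r : ℤ) * q := by positivity
  have hlt : ∀ (y : ZMod r) (i : ZMod q), ((y.val : ℤ) + r * i.val) < r * q := by
    intro y i
    have hy := ZMod.val_lt y
    have hi := ZMod.val_lt i
    have hy' : (y.val : ℤ) < r := by exact_mod_cast hy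
    have hi' : (i.val : ℤ) + 1 ≤ q := by exact_mod_cast hi
    nlinarith
  have hnn : ∀ (y : ZMod r) (i : ZMod q), (0 : ℤ) ≤ (y.val : ℤ) + r * i.val := by
    intro y i; positivity
  have hb0 : b = 0 := by
    by_contra hne
    rcases lt_or_gt_of_ne hne with hneg | hpos
    · have : b ≤ -1 := by omega
      have := hlt x' j'
      have := hnn x j
      nlinarith
    · have : 1 ≤ b := by omega
      have := hlt x j
      have := hnn x' j'
      nlinarith
  rw [hb0, zero_mul, add_zero] at h2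
  have h3 : x.val + r * j.val = x'.val + r * j'.val := by exact_mod_cast h2
  obtain ⟨e1, e2⟩ := eq_of_add_mul_eq h3
  rw [e1, e2]

variable {R : Type*} [CommRing R] {A : Type*} [AddCommGroup A] [Module R A]

/-- **`U_q`-equivariance of the Betti twist** (`q ∣ N`, `(q, r) = 1`) -/
theorem Rpsi_UH (hrN : r ∣ N) (hqN : q ∣ N) (hcop : Nat.Coprime q r) (ψ : MulChar (ZMod r) R)
    (hψ : ∀ g : GammaH (liftθ (r := r) θ), ψ (dr r (g : SL(2, ℤ))) ^ 2 = 1)
    (φ : Additive (GammaH θ) →+ A) (g : GammaH (liftθ (r := r) θ)) :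
    Rpsi θ hrN ψ hψ (UH θ A hqN φ) (Additive.ofMul g)
      = ψ (q : ZMod r) • UH (liftθ (r := r) θ) A (Dvd.dvd.mul_right hqN r)
          (Rpsi θ hrN ψ hψ φ) (Additive.ofMul g) := by
  have hq : q ≠ 0 := NeZero.ne q
  have hr : r ≠ 0 := r_ne_zero
  -- the two composites as weighted operators
  have hwR := inv_wψ θ hrN ψ hψ
  have eL : Rpsi θ hrN ψ hψ (UH θ A hqN φ)
      = WSys.wop (sysUR θ hrN hqN)
          (WSys.prodW (uSysH θ hqN) (twSys θ hrN) (fun _ => (1 : R)) (wψ ψ))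
          (WSys.inv_prodW _ _ (WSys.inv_one _) hwR) φ :=
    WSys.wop_op (uSysH θ hqN) (twSys θ hrN) hwR φ
  have eR : UH (liftθ (r := r) θ) A (Dvd.dvd.mul_right hqN r) (Rpsi θ hrN ψ hψ φ)
      = WSys.wop (sysRU θ hrN hqN)
          (WSys.prodW (twSys θ hrN) (uSysH (liftθ (r := r) θ) (Dvd.dvd.mul_right hqN r))
            (wψ ψ) (fun _ => (1 : R)))
          (WSys.inv_prodW _ _ hwR (WSys.inv_one _)) φ :=
    WSys.op_wop (twSys θ hrN) (uSysH (liftθ (r := r) θ) (Dvd.dvd.mul_right hqN r)) hwR φ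
  rw [eL, eR, ← WSys.wop_smul_weights_apply]
  refine congrFun (congrArg DFunLike.coe ?_) _
  refine WSys.wop_eq_of_cosets (sysRU θ hrN hqN) (sysUR θ hrN hqN) embR_injective
    (sysUR_distinct θ hrN hqN) (matchEquiv hcop) 1 (fun x => by rw [one_mul, mul_one])
    (fun p => tnH θ (-(((p.2.val + carry q p.1) / q : ℕ) : ℤ))) ?_ _ _ ?_ φ
  · rintro ⟨x, j⟩
    exact rep_match hcop x j
  · rintro ⟨x, j⟩
    exact weight_match hcop ψ x j

end Main

end Fermat.Agent.GB.B4.Twist.RPsiU
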