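/-
GATE-B / B4-TWIST leaf (L4) (helper97, second seat): **`T_ℓ`-equivariance of the Betti twist**.

`r` prime, `r ∣ N`, `ℓ` prime, `ℓ ∤ N r`, `θ` any quotient of `(ZMod N)ˣ`.  Then

  `R_ψ (T_ℓ φ) = ψ(ℓ) • T_ℓ (R_ψ φ)`      (`Rpsi_TH`, pointwise)

with helper2's `TH θ` at level `N` on the left and `TH (liftθ θ)` at level `N r` on the right (both are
the DIAMOND-NORMALISED systems `heckeSysD`: representative `σ_ℓ · diag(ℓ, 1)` at `∞`, `d(σ_ℓ) ≡ ℓ`).

Matching of the representatives (normal forms of GB/B4/Twist/RPsiU):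
* finite points: `twA r x * [1 j; 0 ℓ] = T^k · [1 j'; 0 ℓ] * twA r (ℓ x)`, `j' = j + ⌊ℓ x̃ / r⌋`;
* `∞`: `twA r x * σ'_ℓ diag(ℓ, 1) = (twC0 σ'_ℓ x) · T^{-n} · diag(ℓ, 1) * twA r (ℓ x)` — the permutation
  of `σ'_ℓ` is `x ↦ ℓ² x` and `twA r (ℓ w) * diag(ℓ, 1) = T^{-n} diag(ℓ, 1) * twA r w`;
so `(x, y) ↦ (y', ℓ x)` at ALL points and the weights transform by `ψ(ℓ x) = ψ(ℓ) ψ(x)`.
The composite `T_ℓ` then `R_ψ` has distinct cosets modulo `SL(2, ℤ)` (`sysTR_distinct`).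
-/
import Mathlib
import Fermat.Agent.GB.B4.Twist.RPsiU

set_option autoImplicit false

open scoped MatrixGroups
open CongruenceSubgroup Matrix Matrix.SpecialLinearGroup ModularCurve.Period
open P2MW.S_ModularForm_heckeT_slash_eq_self_of_mem_Gamma0.ModularForm.HeckeSlashInvariance
open P2MW.S_ModularForm_heckeT_slash_eq_self_of_mem_Gamma0.ModularForm
open Fermat.Agent.S16_helper49 Fermat.Agent.GM.B Fermat.Agent.GM.EisClass
open Fermat.Agent.GM.B5 Fermat.Agent.GM.Amalgam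
open Fermat.Agent.GB.B3 Fermat.Agent.GB.B3.EisGamma0 Fermat.Agent.GB.B3.GamH
open Fermat.Agent.GB.B4.Twist Fermat.Agent.GB.B4.Twist.KerSys2 Fermat.Agent.GB.B4.Twist.RPsi
open Fermat.Agent.GB.B4.Twist.RPsiU
open scoped OnePoint

namespace Fermat.Agent.GB.B4.Twist.RPsiT

/-! ### upper triangular matrices, continued -/

/-- the entries of `[a, t; 0, d] = γ [a', t'; 0, d']` -/
theorem ut_entries {a t d a' t' d' : ℝ} (h : a * d ≠ 0) (h' : a' * d' ≠ 0) (γ : SL(2, ℤ))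
    (he : ModularForm.upperTriangularGL a t d h
      = embR γ * ModularForm.upperTriangularGL a' t' d' h') :
    a = ((γ 0 0 : ℤ) : ℝ) * a' ∧ t = ((γ 0 0 : ℤ) : ℝ) * t' + ((γ 0 1 : ℤ) : ℝ) * d' ∧
      (γ 1 0 = 0 ∨ a' = 0) := by
  have h00 := congrArg (fun M : GL (Fin 2) ℝ => (M : Matrix (Fin 2) (Fin 2) ℝ) 0 0) he
  have h01 := congrArg (fun M : GL (Fin 2) ℝ => (M : Matrix (Fin 2) (Fin 2) ℝ) 0 1) he
  have h10 := congrArg (fun M : GL (Fin 2) ℝ => (M : Matrix (Fin 2) (Fin 2) ℝ) 1 0) he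
  simp [Matrix.mul_apply, Fin.sum_univ_two] at h00 h01 h10
  exact ⟨h00, h01, h10⟩

theorem Tn_mul_Tn_neg (n : ℤ) : Tn n * Tn (-n) = 1 := by
  ext i j
  fin_cases i <;> fin_cases j <;> simp [Tn, Matrix.mul_apply, Fin.sum_univ_two]

variable {r : ℕ} [Fact r.Prime]

theorem lr_ne_zero {ℓ : ℕ} (hℓ : ℓ ≠ 0) : ((ℓ : ℝ) * r) * (r : ℝ) ≠ 0 := by
  have hr : (r : ℝ) ≠ 0 := by exact_mod_cast (r_ne_zero (r := r))
  have hℓ' : (ℓ : ℝ) ≠ 0 := by exact_mod_cast hℓ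
  exact mul_ne_zero (mul_ne_zero hℓ' hr) hr

/-- `diag(ℓ, 1) * twA r x = [ℓ r, ℓ x; 0, r]` -/
theorem heckeDiag_mul_twA {ℓ : ℕ} (hℓ : ℓ ≠ 0) (x : ZMod r) :
    ModularForm.heckeDiagMatrix ℓ * twA r x
      = ModularForm.upperTriangularGL ((ℓ : ℝ) * r) ((ℓ : ℝ) * x.val) r (lr_ne_zero hℓ) := by
  have hr : r ≠ 0 := r_ne_zero
  unfold twA
  apply Matrix.GeneralLinearGroup.ext
  intro i k
  rw [Matrix.GeneralLinearGroup.coe_mul, Matrix.GeneralLinearGroup.coe_mul]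
  fin_cases i <;> fin_cases k <;>
    simp [Matrix.mul_apply, Fin.sum_univ_two, ModularForm.val_heckeMatrix hr,
      ModularForm.val_heckeDiagMatrix hℓ, ModularForm.val_heckeDiagMatrix hr]

/-- `twA r y * diag(ℓ, 1) = [ℓ r, y; 0, r]` -/
theorem twA_mul_heckeDiag {ℓ : ℕ} (hℓ : ℓ ≠ 0) (y : ZMod r) :
    twA r y * ModularForm.heckeDiagMatrix ℓ
      = ModularForm.upperTriangularGL ((ℓ : ℝ) * r) (y.val : ℝ) r (lr_ne_zero hℓ) := by
  have hr : r ≠ 0 := r_ne_zero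
  unfold twA
  apply Matrix.GeneralLinearGroup.ext
  intro i k
  rw [Matrix.GeneralLinearGroup.coe_mul, Matrix.GeneralLinearGroup.coe_mul]
  fin_cases i <;> fin_cases k <;>
    simp [Matrix.mul_apply, Fin.sum_univ_two, ModularForm.val_heckeMatrix hr,
      ModularForm.val_heckeDiagMatrix hℓ, ModularForm.val_heckeDiagMatrix hr]
  all_goals ring

/-- `twA r (ℓ w) * diag(ℓ, 1) = T^{-n} · diag(ℓ, 1) * twA r w`, `n = ⌊ℓ w̃ / r⌋` -/
theorem twA_mulq_mul_heckeDiag {ℓ : ℕ} (hℓ : ℓ ≠ 0) (w : ZMod r) :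
    twA r (mulq ℓ w) * ModularForm.heckeDiagMatrix ℓ
      = embR (Tn (-(carry ℓ w : ℤ))) * (ModularForm.heckeDiagMatrix ℓ * twA r w) := by
  rw [twA_mul_heckeDiag hℓ, heckeDiag_mul_twA hℓ, embR_Tn_mul_ut]
  refine ut_congr _ ?_
  have h1 := val_mulq (q := ℓ) w
  have h1' : ((mulq ℓ w).val : ℝ) + r * carry ℓ w = ℓ * w.val := by exact_mod_cast h1
  push_cast
  linear_combination h1'

/-! ### the matching -/

section Match

variable {ℓ : ℕ} [Fact ℓ.Prime]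

/-- translation on the finite points of `P¹(ZMod ℓ)` -/
def shiftP (m : ZMod ℓ) : Equiv.Perm (OnePoint (ZMod ℓ)) :=
  (Equiv.optionCongr (Equiv.addRight m) : Option (ZMod ℓ) ≃ Option (ZMod ℓ))

theorem shiftP_infty (m : ZMod ℓ) : shiftP m (∞ : OnePoint (ZMod ℓ)) = ∞ := rfl

theorem shiftP_coe (m j : ZMod ℓ) :
    shiftP m ((j : ZMod ℓ) : OnePoint (ZMod ℓ)) = ((j + m : ZMod ℓ) : OnePoint (ZMod ℓ)) := rfl

/-- the matching `(x, y) ↦ (y + m(x), ℓ x)` -/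
noncomputable def matchT (hcop : Nat.Coprime ℓ r) :
    ZMod r × OnePoint (ZMod ℓ) ≃ OnePoint (ZMod ℓ) × ZMod r :=
  (Equiv.prodShear (Units.mulLeft (ZMod.unitOfCoprime ℓ hcop))
    (fun x => shiftP ((carry ℓ x : ℕ) : ZMod ℓ))).trans (Equiv.prodComm _ _)

theorem matchT_infty (hcop : Nat.Coprime ℓ r) (x : ZMod r) :
    matchT hcop (x, ∞) = (∞, mulq ℓ x) := by
  unfold matchT
  rw [Equiv.trans_apply, Equiv.prodShear_apply, Equiv.prodComm_apply, mulq_eq]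
  rfl

theorem matchT_coe (hcop : Nat.Coprime ℓ r) (x : ZMod r) (j : ZMod ℓ) :
    matchT hcop (x, (j : OnePoint (ZMod ℓ)))
      = (((addc j (carry ℓ x) : ZMod ℓ) : OnePoint (ZMod ℓ)), mulq ℓ x) := by
  unfold matchT
  rw [Equiv.trans_apply, Equiv.prodShear_apply, Equiv.prodComm_apply, mulq_eq, addc_eq]
  rfl

end Match

/-! ### the two composite systems -/

section Main

variable {N ℓ : ℕ} [Fact ℓ.Prime] {Δ : Type} [CommGroup Δ] (θ : (ZMod N)ˣ →* Δ)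

/-- first `R_ψ`, then `T_ℓ` at level `N r` -/
noncomputable def sysRT (hrN : r ∣ N) (hℓNr : ¬ ℓ ∣ N * r) :
    CosetSys embR (GammaH θ) (GammaH (liftθ (r := r) θ)) :=
  (twSys θ hrN).comp (heckeSysH (liftθ (r := r) θ) hℓNr)

/-- first `T_ℓ` at level `N`, then `R_ψ` -/
noncomputable def sysTR (hrN : r ∣ N) (hℓN : ¬ ℓ ∣ N) :
    CosetSys embR (GammaH θ) (GammaH (liftθ (r := r) θ)) :=
  (heckeSysH θ hℓN).comp (twSys θ hrN)

theorem sysRT_a (hrN : r ∣ N) (hℓNr : ¬ ℓ ∣ N * r) (x : ZMod r) (y : OnePoint (ZMod ℓ)) :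
    (sysRT θ hrN hℓNr).a (x, y)
      = twA r x * (1 * embR ((twG hℓNr y : Gamma0 (N * r)) : SL(2, ℤ)) * heckeRep ℓ y) := rfl

theorem sysTR_a (hrN : r ∣ N) (hℓN : ¬ ℓ ∣ N) (y : OnePoint (ZMod ℓ)) (x : ZMod r) :
    (sysTR θ hrN hℓN).a (y, x)
      = (1 * embR ((twG hℓN y : Gamma0 N) : SL(2, ℤ)) * heckeRep ℓ y) * twA r x := rfl

omit [Fact r.Prime] [Fact ℓ.Prime] in
theorem not_dvd_of_not_dvd_mul (hℓNr : ¬ ℓ ∣ N * r) : ¬ ℓ ∣ N :=
  fun h => hℓNr (Dvd.dvd.mul_right h r)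

omit [Fact r.Prime] in
theorem coprime_of_not_dvd_mul (hℓNr : ¬ ℓ ∣ N * r) : Nat.Coprime ℓ r :=
  (Nat.Prime.coprime_iff_not_dvd Fact.out).mpr (fun h => hℓNr (Dvd.dvd.mul_left h N))

/-- `d(σ'_ℓ) ≡ ℓ mod r` -/
theorem dr_sigmaL (hℓNr : ¬ ℓ ∣ N * r) :
    dr r ((sigmaL hℓNr : Gamma0 (N * r)) : SL(2, ℤ)) = (ℓ : ZMod r) := by
  have h := dN_sigmaL hℓNr
  unfold dN at h
  have h2 := congrArg (ZMod.castHom (Dvd.intro_left N rfl : r ∣ N * r) (ZMod r)) h
  rw [map_intCast, map_intCast] at h2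
  unfold dr
  rw [h2, Int.cast_natCast]

/-- `d(twC0 σ'_ℓ x) ≡ ℓ mod N` -/
theorem dUnits_twC0_sigmaL (hrN : r ∣ N) (hℓNr : ¬ ℓ ∣ N * r) (x : ZMod r) :
    dUnits N (twC0 hrN (sigmaL hℓNr) x) = dUnits N (sigmaL (not_dvd_of_not_dvd_mul hℓNr)) := by
  apply Units.ext
  rw [coe_dUnits, coe_dUnits, dN_twC0, dN_sigmaL]
  have h := dN_sigmaL hℓNr
  unfold dN at h
  have h2 := congrArg (ZMod.castHom (Nat.dvd_mul_right N r) (ZMod N)) h
  rw [map_intCast, map_intCast] at h2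
  exact h2

/-- the connecting element at `∞` -/
noncomputable def gamInf (hrN : r ∣ N) (hℓNr : ¬ ℓ ∣ N * r) (x : ZMod r) : GammaH θ :=
  kerMk (chi θ)
    (sigmaL (not_dvd_of_not_dvd_mul hℓNr)
      * ⟨Tn (carry ℓ (mulq ℓ x) : ℤ), Tn_mem_Gamma0 N _⟩
      * (twC0 hrN (sigmaL hℓNr) x)⁻¹)
    (by
      rw [map_mul, map_mul, map_inv, chi_Tn, mul_one, chi_apply, chi_apply, dUnits_twC0_sigmaL,
        mul_inv_cancel])

theorem coe_gamInf (hrN : r ∣ N) (hℓNr : ¬ ℓ ∣ N * r) (x : ZMod r) :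
    ((gamInf θ hrN hℓNr x : GammaH θ) : SL(2, ℤ))
      = ((sigmaL (not_dvd_of_not_dvd_mul hℓNr) : Gamma0 N) : SL(2, ℤ))
        * Tn (carry ℓ (mulq ℓ x) : ℤ)
        * ((twC0 hrN (sigmaL hℓNr) x : Gamma0 N) : SL(2, ℤ))⁻¹ := rfl

/-- the matching of the representatives at `∞` -/
theorem rep_match_infty (hrN : r ∣ N) (hℓNr : ¬ ℓ ∣ N * r) (x : ZMod r) :
    (1 * embR ((sigmaL (not_dvd_of_not_dvd_mul hℓNr) : Gamma0 N) : SL(2, ℤ))
        * ModularForm.heckeDiagMatrix ℓ) * twA r (mulq ℓ x)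
      = 1 * embR ((gamInf θ hrN hℓNr x : GammaH θ) : SL(2, ℤ))
        * (twA r x * (1 * embR ((sigmaL hℓNr : Gamma0 (N * r)) : SL(2, ℤ))
            * ModularForm.heckeDiagMatrix ℓ)) := by
  have hℓ : ℓ ≠ 0 := (Fact.out : ℓ.Prime).ne_zero
  have h1 := twA_rel hrN (sigmaL hℓNr) x
  rw [twσ0_apply, dr_sigmaL] at h1
  have h2 : ((ℓ : ZMod r)) ^ 2 * x = mulq ℓ (mulq ℓ x) := by
    rw [mulq_eq, mulq_eq]; ring
  rw [h2] at h1
  have h3 := twA_mulq_mul_heckeDiag hℓ (mulq ℓ x)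
  have e1 : twA r x * (embR ((sigmaL hℓNr : Gamma0 (N * r)) : SL(2, ℤ))
        * ModularForm.heckeDiagMatrix ℓ)
      = embR (((twC0 hrN (sigmaL hℓNr) x : Gamma0 N) : SL(2, ℤ))
          * Tn (-(carry ℓ (mulq ℓ x) : ℤ)))
        * (ModularForm.heckeDiagMatrix ℓ * twA r (mulq ℓ x)) := by
    rw [← mul_assoc, h1, mul_assoc, h3, ← mul_assoc, map_mul]
  rw [one_mul, one_mul, one_mul, e1, ← mul_assoc, ← map_mul, coe_gamInf,
    mul_assoc (embR _) (ModularForm.heckeDiagMatrix ℓ)]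
  congr 2
  rw [mul_assoc, inv_mul_cancel_left, mul_assoc, Tn_mul_Tn_neg, mul_one]

/-- the connecting elements -/
noncomputable def gamT (hrN : r ∣ N) (hℓNr : ¬ ℓ ∣ N * r)
    (p : ZMod r × OnePoint (ZMod ℓ)) : GammaH θ :=
  p.2.elim (gamInf θ hrN hℓNr p.1)
    (fun j => tnH θ (-(((j.val + carry ℓ p.1) / ℓ : ℕ) : ℤ)))

/-- **the matching of the representatives** -/
theorem rep_matchT (hrN : r ∣ N) (hℓNr : ¬ ℓ ∣ N * r) (x : ZMod r) (y : OnePoint (ZMod ℓ)) :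
    (1 * embR ((twG (not_dvd_of_not_dvd_mul hℓNr)
          (matchT (coprime_of_not_dvd_mul hℓNr) (x, y)).1 : Gamma0 N) : SL(2, ℤ))
        * heckeRep ℓ (matchT (coprime_of_not_dvd_mul hℓNr) (x, y)).1)
        * twA r (matchT (coprime_of_not_dvd_mul hℓNr) (x, y)).2
      = 1 * embR ((gamT θ hrN hℓNr (x, y) : GammaH θ) : SL(2, ℤ))
        * (twA r x * (1 * embR ((twG hℓNr y : Gamma0 (N * r)) : SL(2, ℤ)) * heckeRep ℓ y)) := by
  induction y using OnePoint.rec with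
  | infty =>
    rw [matchT_infty]
    exact rep_match_infty θ hrN hℓNr x
  | coe j =>
    rw [matchT_coe]
    show (1 * embR ((1 : Gamma0 N) : SL(2, ℤ))
        * ModularForm.heckeMatrix ℓ (addc j (carry ℓ x)).val) * twA r (mulq ℓ x)
      = 1 * embR (Tn (-(((j.val + carry ℓ x) / ℓ : ℕ) : ℤ)))
        * (twA r x * (1 * embR ((1 : Gamma0 (N * r)) : SL(2, ℤ))
          * ModularForm.heckeMatrix ℓ j.val))
    simp only [Subgroup.coe_one, map_one, mul_one, one_mul]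
    have h := rep_match (coprime_of_not_dvd_mul hℓNr) x j
    rw [matchEquiv_apply, one_mul] at h
    exact h

/-- the cosets of `T_ℓ` followed by `R_ψ` are pairwise distinct (modulo `SL(2, ℤ)`) -/
theorem sysTR_distinct (hrN : r ∣ N) (hℓN : ¬ ℓ ∣ N) (hcop : Nat.Coprime ℓ r) :
    (sysTR θ hrN hℓN).Distinct := by
  have hℓp : ℓ.Prime := Fact.out
  have hℓ : ℓ ≠ 0 := hℓp.ne_zero
  have hr : r ≠ 0 := r_ne_zero
  have hrR : (r : ℝ) ≠ 0 := by exact_mod_cast hr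
  have hℓR : (ℓ : ℝ) ≠ 0 := by exact_mod_cast hℓ
  -- reduction to a statement modulo `SL(2, ℤ)`
  have key : ∀ (y y' : OnePoint (ZMod ℓ)) (x x' : ZMod r) (g : SL(2, ℤ)),
      heckeRep ℓ y * twA r x = embR g * (heckeRep ℓ y' * twA r x') → y = y' ∧ x = x' := by
    intro y y' x x' g h
    have hdet := det_eq g
    induction y using OnePoint.rec with
    | infty =>
      induction y' using OnePoint.rec with
      | infty =>
        rw [heckeRep_infty, heckeDiag_mul_twA hℓ, heckeDiag_mul_twA hℓ] at h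
        have h1 := ut_eq_embR_mul _ _ h
        set b : ℤ := g 0 1 with hb
        have h2 : ((ℓ : ℤ) * x.val) = (ℓ : ℤ) * x'.val + b * r := by exact_mod_cast h1
        have hdvd : (r : ℤ) ∣ (ℓ : ℤ) * ((x.val : ℤ) - x'.val) := ⟨b, by linarith⟩
        have hcop' : IsCoprime (r : ℤ) (ℓ : ℤ) := by
          exact_mod_cast (Nat.isCoprime_iff_coprime.mpr hcop.symm)
        have hdvd2 : (r : ℤ) ∣ (x.val : ℤ) - x'.val := hcop'.dvd_of_dvd_mul_left hdvd
        have hx := ZMod.val_lt x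
        have hx' := ZMod.val_lt x'
        have hxe : (x.val : ℤ) - x'.val = 0 := by
          apply Int.eq_zero_of_abs_lt_dvd hdvd2
          rw [abs_lt]
          constructor <;> omega
        refine ⟨rfl, ZMod.val_injective r ?_⟩
        omega
      | coe j' =>
        exfalso
        rw [heckeRep_infty, heckeRep_coe, heckeDiag_mul_twA hℓ, heckeMatrix_mul_twA hℓ] at h
        obtain ⟨e1, -, e3⟩ := ut_entries _ _ g h
        have h00 : ((g 0 0 : ℤ) : ℝ) = ℓ := by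
          have : ((g 0 0 : ℤ) : ℝ) * r = (ℓ : ℝ) * r := e1.symm
          exact mul_right_cancel₀ hrR this
        have h10' : g 1 0 = 0 := by
          rcases e3 with h | h
          · exact h
          · exact absurd h hrR
        have h00' : g 0 0 = (ℓ : ℤ) := by exact_mod_cast h00
        rw [h00', h10', mul_zero, sub_zero] at hdet
        have : (ℓ : ℤ) ∣ 1 := ⟨g 1 1, hdet.symm⟩
        have : ℓ ∣ 1 := by exact_mod_cast this
        exact hℓp.one_lt.ne' (Nat.dvd_one.mp this)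
    | coe j =>
      induction y' using OnePoint.rec with
      | infty =>
        exfalso
        rw [heckeRep_infty, heckeRep_coe, heckeDiag_mul_twA hℓ, heckeMatrix_mul_twA hℓ] at h
        obtain ⟨e1, -, e3⟩ := ut_entries _ _ g h
        have h00 : ((g 0 0 : ℤ) : ℝ) * ℓ = 1 := by
          have : ((g 0 0 : ℤ) : ℝ) * ℓ * r = 1 * r := by rw [one_mul, mul_assoc]; exact e1.symm
          exact mul_right_cancel₀ hrR this
        have h00' : g 0 0 * (ℓ : ℤ) = 1 := by exact_mod_cast h00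
        have : (ℓ : ℤ) ∣ 1 := ⟨g 0 0, by rw [mul_comm]; exact h00'.symm⟩
        have : ℓ ∣ 1 := by exact_mod_cast this
        exact hℓp.one_lt.ne' (Nat.dvd_one.mp this)
      | coe j' =>
        rw [heckeRep_coe, heckeRep_coe, heckeMatrix_mul_twA hℓ, heckeMatrix_mul_twA hℓ] at h
        have h1 := ut_eq_embR_mul _ _ h
        set b : ℤ := g 0 1 with hb
        have h2 : ((x.val : ℤ) + r * j.val) = (x'.val : ℤ) + r * j'.val + b * (r * ℓ) := by
          exact_mod_cast h1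
        have hrq : (0 : ℤ) < (r : ℤ) * ℓ := by positivity
        have hlt : ∀ (y : ZMod r) (i : ZMod ℓ), ((y.val : ℤ) + r * i.val) < r * ℓ := by
          intro y i
          have hy := ZMod.val_lt y
          have hi := ZMod.val_lt i
          have hy' : (y.val : ℤ) < r := by exact_mod_cast hy
          have hi' : (i.val : ℤ) + 1 ≤ ℓ := by exact_mod_cast hi
          nlinarith
        have hnn : ∀ (y : ZMod r) (i : ZMod ℓ), (0 : ℤ) ≤ (y.val : ℤ) + r * i.val := by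
          intro y i; positivity
        have hb0 : b = 0 := by
          by_contra hne
          rcases lt_or_gt_of_ne hne with hneg | hpos
          · have : b ≤ -1 := by omega
            have := hlt x' j'
            have := hnn x j
            nlinarith
          · have : 1 ≤ b := by omega
            have := hlt x j
            have := hnn x' j'
            nlinarith
        rw [hb0, zero_mul, add_zero] at h2
        have h3 : x.val + r * j.val = x'.val + r * j'.val := by exact_mod_cast h2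
        obtain ⟨e1, e2⟩ := eq_of_add_mul_eq h3
        rw [e1, e2]
        exact ⟨rfl, rfl⟩
  have key2 : ∀ (y y' : OnePoint (ZMod ℓ)) (x x' : ZMod r) (γ : GammaH θ),
      (1 * embR ((twG hℓN y : Gamma0 N) : SL(2, ℤ)) * heckeRep ℓ y) * twA r x
        = embR ((γ : GammaH θ) : SL(2, ℤ))
          * ((1 * embR ((twG hℓN y' : Gamma0 N) : SL(2, ℤ)) * heckeRep ℓ y') * twA r x') →
      ((y, x) : OnePoint (ZMod ℓ) × ZMod r) = (y', x') := by
    intro y y' x x' γ h'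
    have h'' : heckeRep ℓ y * twA r x
        = embR (((twG hℓN y : Gamma0 N) : SL(2, ℤ))⁻¹ * ((γ : GammaH θ) : SL(2, ℤ))
            * ((twG hℓN y' : Gamma0 N) : SL(2, ℤ))) * (heckeRep ℓ y' * twA r x') := by
      rw [one_mul, one_mul, mul_assoc, mul_assoc (embR _) (heckeRep ℓ y')] at h'
      have e0 : heckeRep ℓ y * twA r x
          = (embR ((twG hℓN y : Gamma0 N) : SL(2, ℤ)))⁻¹
            * (embR ((twG hℓN y : Gamma0 N) : SL(2, ℤ)) * (heckeRep ℓ y * twA r x)) := by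
        rw [inv_mul_cancel_left]
      rw [e0, h']
      simp only [map_mul, map_inv, mul_assoc]
    obtain ⟨e1, e2⟩ := key y y' x x' _ h''
    rw [e1, e2]
  rintro ⟨y, x⟩ ⟨y', x'⟩ γ h
  exact key2 y y' x x' γ h

variable {R : Type*} [CommRing R] {A : Type*} [AddCommGroup A] [Module R A]

/-- **`T_ℓ`-equivariance of the Betti twist** (`ℓ ∤ N r`) -/
theorem Rpsi_TH (hrN : r ∣ N) (hℓNr : ¬ ℓ ∣ N * r) (ψ : MulChar (ZMod r) R)
    (hψ : ∀ g : GammaH (liftθ (r := r) θ), ψ (dr r (g : SL(2, ℤ))) ^ 2 = 1)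
    (φ : Additive (GammaH θ) →+ A) (g : GammaH (liftθ (r := r) θ)) :
    Rpsi θ hrN ψ hψ (TH θ A (not_dvd_of_not_dvd_mul hℓNr) φ) (Additive.ofMul g)
      = ψ (ℓ : ZMod r) • TH (liftθ (r := r) θ) A hℓNr (Rpsi θ hrN ψ hψ φ) (Additive.ofMul g) := by
  have hℓN := not_dvd_of_not_dvd_mul hℓNr
  have hcop := coprime_of_not_dvd_mul hℓNr
  have hwR := inv_wψ θ hrN ψ hψ
  have eL : Rpsi θ hrN ψ hψ (TH θ A hℓN φ)
      = WSys.wop (sysTR θ hrN hℓN)
          (WSys.prodW (heckeSysH θ hℓN) (twSys θ hrN) (fun _ => (1 : R)) (wψ ψ))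
          (WSys.inv_prodW _ _ (WSys.inv_one _) hwR) φ :=
    WSys.wop_op (heckeSysH θ hℓN) (twSys θ hrN) hwR φ
  have eR : TH (liftθ (r := r) θ) A hℓNr (Rpsi θ hrN ψ hψ φ)
      = WSys.wop (sysRT θ hrN hℓNr)
          (WSys.prodW (twSys θ hrN) (heckeSysH (liftθ (r := r) θ) hℓNr)
            (wψ ψ) (fun _ => (1 : R)))
          (WSys.inv_prodW _ _ hwR (WSys.inv_one _)) φ :=
    WSys.op_wop (twSys θ hrN) (heckeSysH (liftθ (r := r) θ) hℓNr) hwR φ
  rw [eL, eR, ← WSys.wop_smul_weights_apply]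
  refine congrFun (congrArg DFunLike.coe ?_) _
  refine WSys.wop_eq_of_cosets (sysRT θ hrN hℓNr) (sysTR θ hrN hℓN) embR_injective
    (sysTR_distinct θ hrN hℓN hcop) (matchT hcop) 1 (fun x => by rw [one_mul, mul_one])
    (gamT θ hrN hℓNr) ?_ _ _ ?_ φ
  · rintro ⟨x, y⟩
    exact rep_matchT θ hrN hℓNr x y
  · rintro ⟨x, y⟩
    show (1 : R) * ψ ((matchT hcop (x, y)).2) = ψ (ℓ : ZMod r) * (ψ x * 1)
    have : (matchT hcop (x, y)).2 = mulq ℓ x := by
      induction y using OnePoint.rec with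
      | infty => rw [matchT_infty]
      | coe j => rw [matchT_coe]
    rw [this, mulq_eq, map_mul, one_mul, mul_one]

end Main

end Fermat.Agent.GB.B4.Twist.RPsiT
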