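/-
GATE-B / B4-TWIST (helper97): **the multi-prime iteration of the Betti twist**.

A twisting datum is `d = (r, ψ, ν)`: a prime `r`, a multiplicative character `ψ` of `ZMod r` and a
character `ν : Δ →* Rˣ` (the square of `ψ` seen on `Δ`).  For a LIST `L` of data, a level `N` and a
quotient `θ : (ZMod N)ˣ →* Δ`:

* `chainLevel N L = N · ∏ r` (`chainLevel_eq`), `chainθ N θ L = θ ∘ (mod N)` (`chainθ_eq`);
* `Adm N θ L` : every `r ∣ N` and `ψ(u mod r)² = ν(θ u)` for `u ∈ (ZMod N)ˣ` (hypotheses at the BASE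
  level; `adm_tail` carries them up);
* `RpsiL` : `RPsi.Rpsi` as an `R`-linear map; `chainR N θ L h` : the composite
  `R_{ψ_k} ∘ ⋯ ∘ R_{ψ_1} : Hom(GammaH θ, A) →ₗ[R] Hom(GammaH (chainθ N θ L), A)`;
* `chainR_TH` : `chainR (T_ℓ φ) = (∏ ψ_i(ℓ)) • T_ℓ (chainR φ)` for `ℓ ∤ chainLevel N L`;
* `chainR_UH` : the same for `U_q`, `q ∣ N` prime to all the `r`;
* `chainR_par` : parabolic classes go to parabolic classes;
* `chainR_conj` : an `ε`-eigenvector of the `Γ₀(N)`-conjugations goes to an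
  `ε · ∏ ν_i⁻¹`-eigenvector of the `Γ₀(chainLevel N L)`-conjugations (`chainEps`); in particular
  for `ε = ∏ ν_i` the image is `Γ₀(chainLevel N L)`-invariant (`chainR_conj_invariant`).
-/
import Mathlib
import Fermat.Agent.GB.B4.Twist.RPsiT

set_option autoImplicit false

open scoped MatrixGroups
open CongruenceSubgroup Matrix Matrix.SpecialLinearGroup ModularCurve.Period
open P2MW.S_ModularForm_heckeT_slash_eq_self_of_mem_Gamma0.ModularForm.HeckeSlashInvariance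
open Fermat.Agent.S16_helper49 Fermat.Agent.GM.B Fermat.Agent.GM.EisClass
open Fermat.Agent.GB.B3 Fermat.Agent.GB.B3.EisGamma0 Fermat.Agent.GB.B3.GamH
open Fermat.Agent.GB.B4.Twist Fermat.Agent.GB.B4.Twist.RPsi

namespace Fermat.Agent.GB.B4.Twist.Chain

/-! ### `R_ψ` as a linear map -/

section Lin

variable {N r : ℕ} [Fact r.Prime] {Δ : Type} [CommGroup Δ] (θ : (ZMod N)ˣ →* Δ)
  {R : Type*} [CommRing R] {A : Type*} [AddCommGroup A] [Module R A]

theorem Rpsi_smul (hrN : r ∣ N) (ψ : MulChar (ZMod r) R)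
    (hψ : ∀ g : GammaH (liftθ (r := r) θ), ψ (dr r (g : SL(2, ℤ))) ^ 2 = 1) (c : R)
    (φ : Additive (GammaH θ) →+ A) :
    Rpsi θ hrN ψ hψ (c • φ) = c • Rpsi θ hrN ψ hψ φ := by
  refine AddMonoidHom.ext fun g => ?_
  obtain ⟨g, rfl⟩ : ∃ g' : GammaH (liftθ (r := r) θ), Additive.ofMul g' = g :=
    ⟨Additive.toMul g, rfl⟩
  rw [Rpsi_apply, AddMonoidHom.smul_apply, Rpsi_apply, Finset.smul_sum]
  refine Finset.sum_congr rfl fun x _ => ?_
  rw [AddMonoidHom.smul_apply, smul_comm]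

/-- **the Betti twist as an `R`-linear map** -/
noncomputable def RpsiL (hrN : r ∣ N) (ψ : MulChar (ZMod r) R)
    (hψ : ∀ g : GammaH (liftθ (r := r) θ), ψ (dr r (g : SL(2, ℤ))) ^ 2 = 1) :
    (Additive (GammaH θ) →+ A) →ₗ[R] (Additive (GammaH (liftθ (r := r) θ)) →+ A) where
  toFun := Rpsi θ hrN ψ hψ
  map_add' := map_add _
  map_smul' c φ := Rpsi_smul θ hrN ψ hψ c φ

theorem RpsiL_apply (hrN : r ∣ N) (ψ : MulChar (ZMod r) R)
    (hψ : ∀ g : GammaH (liftθ (r := r) θ), ψ (dr r (g : SL(2, ℤ))) ^ 2 = 1)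
    (φ : Additive (GammaH θ) →+ A) : RpsiL θ hrN ψ hψ φ = Rpsi θ hrN ψ hψ φ := rfl

theorem RpsiL_TH {ℓ : ℕ} [Fact ℓ.Prime] (hrN : r ∣ N) (hℓNr : ¬ ℓ ∣ N * r)
    (ψ : MulChar (ZMod r) R)
    (hψ : ∀ g : GammaH (liftθ (r := r) θ), ψ (dr r (g : SL(2, ℤ))) ^ 2 = 1)
    (φ : Additive (GammaH θ) →+ A) :
    RpsiL θ hrN ψ hψ (TH θ A (RPsiT.not_dvd_of_not_dvd_mul hℓNr) φ)
      = ψ (ℓ : ZMod r) • TH (liftθ (r := r) θ) A hℓNr (RpsiL θ hrN ψ hψ φ) := by
  refine AddMonoidHom.ext fun g => ?_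
  obtain ⟨g, rfl⟩ : ∃ g' : GammaH (liftθ (r := r) θ), Additive.ofMul g' = g :=
    ⟨Additive.toMul g, rfl⟩
  rw [AddMonoidHom.smul_apply]
  exact RPsiT.Rpsi_TH θ hrN hℓNr ψ hψ φ g

theorem RpsiL_UH {q : ℕ} [NeZero q] (hrN : r ∣ N) (hqN : q ∣ N) (hcop : Nat.Coprime q r)
    (ψ : MulChar (ZMod r) R)
    (hψ : ∀ g : GammaH (liftθ (r := r) θ), ψ (dr r (g : SL(2, ℤ))) ^ 2 = 1)
    (φ : Additive (GammaH θ) →+ A) :
    RpsiL θ hrN ψ hψ (UH θ A hqN φ)
      = ψ (q : ZMod r) • UH (liftθ (r := r) θ) A (Dvd.dvd.mul_right hqN r)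
          (RpsiL θ hrN ψ hψ φ) := by
  refine AddMonoidHom.ext fun g => ?_
  obtain ⟨g, rfl⟩ : ∃ g' : GammaH (liftθ (r := r) θ), Additive.ofMul g' = g :=
    ⟨Additive.toMul g, rfl⟩
  rw [AddMonoidHom.smul_apply]
  exact RPsiU.Rpsi_UH θ hrN hqN hcop ψ hψ φ g

end Lin

/-! ### the data -/

/-- a twisting datum: a prime `r`, a multiplicative character `ψ` of `ZMod r` and the character
`ν` of `Δ` which will be the square of `ψ` -/
structure TwDatum (R : Type*) [CommRing R] (Δ : Type) [CommGroup Δ] where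
  /-- the prime -/
  r : ℕ
  /-- primality -/
  hr : Fact r.Prime
  /-- the character of `ZMod r` -/
  ψ : MulChar (ZMod r) R
  /-- its square on `Δ` -/
  ν : Δ →* Rˣ

attribute [instance] TwDatum.hr

variable {R : Type*} [CommRing R] {Δ : Type} [CommGroup Δ]

/-- the level after the twists: `N · ∏ r` -/
def chainLevel : ℕ → List (TwDatum R Δ) → ℕ
  | N, [] => N
  | N, d :: L => chainLevel (N * d.r) L

@[simp] theorem chainLevel_nil (N : ℕ) : chainLevel N ([] : List (TwDatum R Δ)) = N := rfl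

@[simp] theorem chainLevel_cons (N : ℕ) (d : TwDatum R Δ) (L : List (TwDatum R Δ)) :
    chainLevel N (d :: L) = chainLevel (N * d.r) L := rfl

theorem chainLevel_eq (N : ℕ) (L : List (TwDatum R Δ)) :
    chainLevel N L = N * (L.map (fun d => d.r)).prod := by
  induction L generalizing N with
  | nil => simp
  | cons d L ih => rw [chainLevel_cons, ih, List.map_cons, List.prod_cons, mul_assoc]

theorem dvd_chainLevel (N : ℕ) (L : List (TwDatum R Δ)) : N ∣ chainLevel N L := by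
  rw [chainLevel_eq]
  exact Dvd.intro _ rfl

theorem mul_dvd_chainLevel_cons (N : ℕ) (d : TwDatum R Δ) (L : List (TwDatum R Δ)) :
    N * d.r ∣ chainLevel N (d :: L) := dvd_chainLevel (N * d.r) L

/-- the quotient `θ ∘ (mod N)` of the units modulo the final level -/
noncomputable def chainθ : (N : ℕ) → ((ZMod N)ˣ →* Δ) → (L : List (TwDatum R Δ)) →
    ((ZMod (chainLevel N L))ˣ →* Δ)
  | _, θ, [] => θ
  | N, θ, d :: L => chainθ (N * d.r) (liftθ (r := d.r) θ) L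

theorem chainθ_nil (N : ℕ) (θ : (ZMod N)ˣ →* Δ) :
    chainθ N θ ([] : List (TwDatum R Δ)) = θ := rfl

theorem chainθ_cons (N : ℕ) (θ : (ZMod N)ˣ →* Δ) (d : TwDatum R Δ) (L : List (TwDatum R Δ)) :
    chainθ N θ (d :: L) = chainθ (N * d.r) (liftθ (r := d.r) θ) L := rfl

omit [CommRing R] in
theorem liftθ_comp_unitsMap {N : ℕ} (θ : (ZMod N)ˣ →* Δ) (r : ℕ) {M : ℕ} (h2 : N * r ∣ M)
    (h : N ∣ M) : (liftθ (r := r) θ).comp (ZMod.unitsMap h2) = θ.comp (ZMod.unitsMap h) := by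
  unfold liftθ
  rw [MonoidHom.comp_assoc, ZMod.unitsMap_comp]

theorem chainθ_eq (N : ℕ) (θ : (ZMod N)ˣ →* Δ) (L : List (TwDatum R Δ)) :
    chainθ N θ L = θ.comp (ZMod.unitsMap (dvd_chainLevel N L)) := by
  induction L generalizing N with
  | nil =>
    refine MonoidHom.ext fun u => ?_
    show θ u = θ (ZMod.unitsMap (dvd_refl N) u)
    rw [ZMod.unitsMap_self]
    rfl
  | cons d L ih =>
    rw [chainθ_cons, ih]
    exact liftθ_comp_unitsMap θ d.r _ _

/-- admissibility: every prime divides the base level and `ψ² = ν ∘ θ` -/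
def Adm (N : ℕ) (θ : (ZMod N)ˣ →* Δ) (L : List (TwDatum R Δ)) : Prop :=
  ∀ d ∈ L, d.r ∣ N ∧ ∀ u : (ZMod N)ˣ, d.ψ (((u : ZMod N)).cast : ZMod d.r) ^ 2 = ((d.ν (θ u) : Rˣ) : R)

theorem adm_head {N : ℕ} {θ : (ZMod N)ˣ →* Δ} {d : TwDatum R Δ} {L : List (TwDatum R Δ)}
    (h : Adm N θ (d :: L)) :
    d.r ∣ N ∧ ∀ u : (ZMod N)ˣ, d.ψ (((u : ZMod N)).cast : ZMod d.r) ^ 2 = ((d.ν (θ u) : Rˣ) : R) :=
  h d (List.mem_cons_self ..)

theorem adm_tail {N : ℕ} {θ : (ZMod N)ˣ →* Δ} {d : TwDatum R Δ} {L : List (TwDatum R Δ)}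
    (h : Adm N θ (d :: L)) : Adm (N * d.r) (liftθ (r := d.r) θ) L := by
  intro e he
  obtain ⟨h1, h2⟩ := h e (List.mem_cons_of_mem d he)
  refine ⟨Dvd.dvd.mul_right h1 _, fun u => ?_⟩
  rw [liftθ_apply, ← h2]
  congr 2
  rw [ZMod.unitsMap_def, Units.coe_map, MonoidHom.coe_coe]
  have h3 := DFunLike.congr_fun (ZMod.castHom_comp h1 (Nat.dvd_mul_right N d.r))
    (u : ZMod (N * d.r))
  rw [RingHom.comp_apply, ZMod.castHom_apply, ZMod.castHom_apply] at h3
  rw [ZMod.castHom_apply, h3, ZMod.castHom_apply]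

/-- `ψ(d_δ)² = ν(χ δ)` for `δ ∈ Γ₀(N r)` -/
theorem psi_sq_eq {N : ℕ} {θ : (ZMod N)ˣ →* Δ} {d : TwDatum R Δ} {L : List (TwDatum R Δ)}
    (h : Adm N θ (d :: L)) (δ : Gamma0 (N * d.r)) :
    d.ψ (dr d.r (δ : SL(2, ℤ))) ^ 2 = ((d.ν (chi (liftθ (r := d.r) θ) δ) : Rˣ) : R) := by
  obtain ⟨h1, h2⟩ := adm_head h
  rw [chi_apply, liftθ_apply, ← h2]
  congr 2
  rw [ZMod.unitsMap_def, Units.coe_map, MonoidHom.coe_coe, coe_dUnits]
  unfold dN dr
  rw [map_intCast, ZMod.cast_intCast h1]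

theorem hψ_of_adm {N : ℕ} {θ : (ZMod N)ˣ →* Δ} {d : TwDatum R Δ} {L : List (TwDatum R Δ)}
    (h : Adm N θ (d :: L)) (g : GammaH (liftθ (r := d.r) θ)) :
    d.ψ (dr d.r (g : SL(2, ℤ))) ^ 2 = 1 := by
  have h1 := psi_sq_eq h (kerIncl (chi (liftθ (r := d.r) θ)) g)
  rw [chi_kerIncl, map_one, Units.val_one] at h1
  exact h1

/-! ### the chain -/

section ChainR

variable {A : Type*} [AddCommGroup A] [Module R A]

/-- **the iterated twist** -/
noncomputable def chainR : (N : ℕ) → (θ : (ZMod N)ˣ →* Δ) → (L : List (TwDatum R Δ)) →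
    Adm N θ L →
    ((Additive (GammaH θ) →+ A) →ₗ[R] (Additive (GammaH (chainθ N θ L)) →+ A))
  | _, _, [], _ => LinearMap.id
  | N, θ, d :: L, h =>
    (chainR (N * d.r) (liftθ (r := d.r) θ) L (adm_tail h)).comp
      (RpsiL θ (adm_head h).1 d.ψ (hψ_of_adm h))

theorem chainR_nil (N : ℕ) (θ : (ZMod N)ˣ →* Δ) (h : Adm N θ ([] : List (TwDatum R Δ)))
    (φ : Additive (GammaH θ) →+ A) : chainR N θ [] h φ = φ := rfl

theorem chainR_cons (N : ℕ) (θ : (ZMod N)ˣ →* Δ) (d : TwDatum R Δ) (L : List (TwDatum R Δ))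
    (h : Adm N θ (d :: L)) (φ : Additive (GammaH θ) →+ A) :
    chainR N θ (d :: L) h φ
      = chainR (N * d.r) (liftθ (r := d.r) θ) L (adm_tail h)
          (RpsiL θ (adm_head h).1 d.ψ (hψ_of_adm h) φ) := rfl

/-- the product of the characters at a natural number -/
def chainPsi (L : List (TwDatum R Δ)) (n : ℕ) : R := (L.map (fun d => d.ψ (n : ZMod d.r))).prod

@[simp] theorem chainPsi_nil (n : ℕ) : chainPsi ([] : List (TwDatum R Δ)) n = 1 := rfl

@[simp] theorem chainPsi_cons (d : TwDatum R Δ) (L : List (TwDatum R Δ)) (n : ℕ) :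
    chainPsi (d :: L) n = d.ψ (n : ZMod d.r) * chainPsi L n := by
  unfold chainPsi
  rw [List.map_cons, List.prod_cons]

theorem not_dvd_base {N : ℕ} {L : List (TwDatum R Δ)} {ℓ : ℕ} (hℓ : ¬ ℓ ∣ chainLevel N L) :
    ¬ ℓ ∣ N := fun h => hℓ (h.trans (dvd_chainLevel N L))

/-- **`T_ℓ`-equivariance of the chain** -/
theorem chainR_TH (N : ℕ) (θ : (ZMod N)ˣ →* Δ) (L : List (TwDatum R Δ)) (h : Adm N θ L)
    {ℓ : ℕ} [Fact ℓ.Prime] (hℓ : ¬ ℓ ∣ chainLevel N L) (φ : Additive (GammaH θ) →+ A) :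
    chainR N θ L h (TH θ A (not_dvd_base hℓ) φ)
      = chainPsi L ℓ • TH (chainθ N θ L) A hℓ (chainR N θ L h φ) := by
  induction L generalizing N with
  | nil =>
    rw [chainR_nil, chainR_nil, chainPsi_nil, one_smul]
    rfl
  | cons d L ih =>
    have hℓ1 : ¬ ℓ ∣ N * d.r := fun h1 => hℓ (h1.trans (mul_dvd_chainLevel_cons N d L))
    rw [chainR_cons, chainR_cons, chainPsi_cons, mul_smul]
    have e1 := RpsiL_TH θ (adm_head h).1 hℓ1 d.ψ (hψ_of_adm h) φ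
    have e2 : TH θ A (not_dvd_base hℓ) φ = TH θ A (RPsiT.not_dvd_of_not_dvd_mul hℓ1) φ := rfl
    rw [e2, e1, map_smul]
    congr 1
    exact ih (N * d.r) (liftθ (r := d.r) θ) (adm_tail h) hℓ _

/-- **`U_q`-equivariance of the chain** (`q ∣ N` prime to all the twisting primes) -/
theorem chainR_UH (N : ℕ) (θ : (ZMod N)ˣ →* Δ) (L : List (TwDatum R Δ)) (h : Adm N θ L)
    {q : ℕ} [NeZero q] (hqN : q ∣ N) (hq : ∀ d ∈ L, Nat.Coprime q d.r)
    (φ : Additive (GammaH θ) →+ A) :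
    chainR N θ L h (UH θ A hqN φ)
      = chainPsi L q • UH (chainθ N θ L) A (hqN.trans (dvd_chainLevel N L))
          (chainR N θ L h φ) := by
  induction L generalizing N with
  | nil =>
    rw [chainR_nil, chainR_nil, chainPsi_nil, one_smul]
    rfl
  | cons d L ih =>
    rw [chainR_cons, chainR_cons, chainPsi_cons, mul_smul]
    have e1 := RpsiL_UH θ (adm_head h).1 hqN (hq d (List.mem_cons_self ..)) d.ψ (hψ_of_adm h) φ
    rw [e1, map_smul]
    congr 1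
    exact ih (N * d.r) (liftθ (r := d.r) θ) (adm_tail h) (Dvd.dvd.mul_right hqN d.r)
      (fun e he => hq e (List.mem_cons_of_mem d he)) _

/-- **the chain preserves parabolic classes** -/
theorem chainR_par (N : ℕ) (θ : (ZMod N)ˣ →* Δ) (L : List (TwDatum R Δ)) (h : Adm N θ L)
    (φ : Additive (GammaH θ) →+ A) (hφ : IsParabolicHom (GammaH θ) φ) :
    IsParabolicHom (GammaH (chainθ N θ L)) (chainR N θ L h φ) := by
  induction L generalizing N with
  | nil => exact hφ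
  | cons d L ih =>
    rw [chainR_cons]
    exact ih (N * d.r) (liftθ (r := d.r) θ) (adm_tail h) _
      (isParabolicHom_Rpsi θ (adm_head h).1 d.ψ (hψ_of_adm h) φ hφ)

/-- the nebentypus after the chain: `ε · ∏ ν⁻¹` -/
def chainEps : (Δ →* Rˣ) → List (TwDatum R Δ) → (Δ →* Rˣ)
  | ε, [] => ε
  | ε, d :: L => chainEps (ε * d.ν⁻¹) L

theorem chainEps_eq (ε : Δ →* Rˣ) (L : List (TwDatum R Δ)) :
    chainEps ε L = ε * ((L.map (fun d => d.ν)).prod)⁻¹ := by
  induction L generalizing ε with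
  | nil =>
    refine MonoidHom.ext fun x => ?_
    simp [chainEps]
  | cons d L ih =>
    show chainEps (ε * d.ν⁻¹) L = _
    rw [ih, List.map_cons, List.prod_cons]
    refine MonoidHom.ext fun x => ?_
    simp only [MonoidHom.mul_apply, MonoidHom.inv_apply]
    rw [mul_inv, mul_assoc]

/-- **the conjugation rule of the chain** -/
theorem chainR_conj (N : ℕ) (θ : (ZMod N)ˣ →* Δ) (L : List (TwDatum R Δ)) (h : Adm N θ L)
    (ε : Δ →* Rˣ) (φ : Additive (GammaH θ) →+ A)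
    (hφ : ∀ (x : Gamma0 N) (k : GammaH θ),
      φ (Additive.ofMul (conjK (chi θ) x k)) = ((ε (chi θ x) : Rˣ) : R) • φ (Additive.ofMul k))
    (δ : Gamma0 (chainLevel N L)) (k : GammaH (chainθ N θ L)) :
    chainR N θ L h φ (Additive.ofMul (conjK (chi (chainθ N θ L)) δ k))
      = ((chainEps ε L (chi (chainθ N θ L) δ) : Rˣ) : R) • chainR N θ L h φ (Additive.ofMul k) := by
  induction L generalizing N ε with
  | nil => exact hφ δ k
  | cons d L ih =>
    rw [chainR_cons]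
    refine ih (N * d.r) (liftθ (r := d.r) θ) (adm_tail h) (ε * d.ν⁻¹) _ ?_ δ k
    intro x k'
    have h1 := Rpsi_conj θ (adm_head h).1 d.ψ (hψ_of_adm h) (fun t => ((ε t : Rˣ) : R)) φ hφ x k'
    rw [psi_sq_eq h x] at h1
    show Rpsi θ (adm_head h).1 d.ψ (hψ_of_adm h) φ
        (Additive.ofMul (conjK (chi (liftθ (r := d.r) θ)) x k'))
      = (((ε * d.ν⁻¹) (chi (liftθ (r := d.r) θ) x) : Rˣ) : R)
        • Rpsi θ (adm_head h).1 d.ψ (hψ_of_adm h) φ (Additive.ofMul k')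
    rw [MonoidHom.mul_apply, MonoidHom.inv_apply]
    generalize Rpsi θ (adm_head h).1 d.ψ (hψ_of_adm h) φ
      (Additive.ofMul (conjK (chi (liftθ (r := d.r) θ)) x k')) = X at h1 ⊢
    generalize Rpsi θ (adm_head h).1 d.ψ (hψ_of_adm h) φ (Additive.ofMul k') = Y at h1 ⊢
    generalize d.ν (chi (liftθ (r := d.r) θ) x) = a at h1 ⊢
    generalize ε (chi (liftθ (r := d.r) θ) x) = e at h1 ⊢
    calc X = ((a⁻¹ : Rˣ) : R) • ((a : R) • X) := by
          rw [← mul_smul, ← Units.val_mul, inv_mul_cancel, Units.val_one, one_smul]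
      _ = ((a⁻¹ : Rˣ) : R) • ((e : R) • Y) := by rw [h1]
      _ = ((e * a⁻¹ : Rˣ) : R) • Y := by rw [← mul_smul, ← Units.val_mul, mul_comm]

/-- for `ε = ∏ ν` the image of an `ε`-eigenvector is invariant under `Γ₀(chainLevel N L)` -/
theorem chainR_conj_invariant (N : ℕ) (θ : (ZMod N)ˣ →* Δ) (L : List (TwDatum R Δ))
    (h : Adm N θ L) (φ : Additive (GammaH θ) →+ A)
    (hφ : ∀ (x : Gamma0 N) (k : GammaH θ),
      φ (Additive.ofMul (conjK (chi θ) x k))
        = ((((L.map (fun d => d.ν)).prod (chi θ x) : Rˣ)) : R) • φ (Additive.ofMul k))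
    (δ : Gamma0 (chainLevel N L)) (k : GammaH (chainθ N θ L)) :
    chainR N θ L h φ (Additive.ofMul (conjK (chi (chainθ N θ L)) δ k))
      = chainR N θ L h φ (Additive.ofMul k) := by
  rw [chainR_conj N θ L h _ φ hφ δ k, chainEps_eq, MonoidHom.mul_apply, MonoidHom.inv_apply,
    mul_inv_cancel, Units.val_one, one_smul]

end ChainR

end Fermat.Agent.GB.B4.Twist.Chain
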