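/-
GATE-B / B4-TWIST **L6-LOC** (helper10): from the LOCAL structure of the diamond quotient
`θ : (ZMod N)ˣ →* Δ` (`|Δ|` odd) to the data consumed by helper97's chain `Chain.chainR`.

Data: a list `L` of primes `r ∣ N`, local characters `θloc r : (ZMod r)ˣ →* Δ`, idempotent-like
endomorphisms `pr r : Δ →* Δ` with
  `hpr   : pr r (θ u) = θloc r (u mod r)`      (`r ∈ L`)
  `hprod : θ u = ∏_{r ∈ L} pr r (θ u)`.
For a character `ε : Δ →* Kˣ` put `ε' := sqrtChar ε = ε ^ ((|Δ| + 1) / 2)` (`ε'² = ε`),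
`ψ_r := MulChar.ofUnitHom (ε' ∘ θloc r)`, `ν_r := ε ∘ pr r`; `datumList` is the list of the
`Chain.TwDatum`s `(r, ψ_r, ν_r)`.  Results:

* `map_r_datumList`, `nodup_datumList`, `dvd_of_mem_datumList` : bookkeeping;
* `adm`            : `Chain.Adm N θ (datumList …)`                        (h2 of helper44 5690);
* `trivial_or_sq_ne_one` : `ψ_r = 1` on units or `∃ v, ψ_r v ^ 2 ≠ 1`     (h4);
* `prod_ν_apply`   : `(∏ ν_r) (θ u) = ε (θ u)`  (+ `prod_ν_eq` for surjective `θ`)   (h5);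
* `chainPsi_eq`    : `Chain.chainPsi (datumList …) ℓ = ε' (θ u)` for `u ≡ ℓ`;
* `chainPsi_sq`    : its square is `ε (θ u)`.
-/
import Mathlib
import Fermat.Agent.GB.B4.Twist.Chain

set_option autoImplicit false

namespace Fermat.Agent.GB.B4.Twist.L6Loc

open Fermat.Agent.GB.B4.Twist.Chain

/-! ### square roots of characters of a group of odd order -/

section Sqrt

variable {Δ : Type} [CommGroup Δ] {K : Type*} [CommRing K]

/-- the square root `ε ^ ((|Δ| + 1) / 2)` of a character of a group of odd order -/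
noncomputable def sqrtChar (ε : Δ →* Kˣ) : Δ →* Kˣ := ε ^ ((Nat.card Δ + 1) / 2)

theorem sqrtChar_apply (ε : Δ →* Kˣ) (x : Δ) :
    sqrtChar ε x = ε x ^ ((Nat.card Δ + 1) / 2) := rfl

theorem sqrtChar_sq_apply (hodd : Odd (Nat.card Δ)) (ε : Δ →* Kˣ) (x : Δ) :
    sqrtChar ε x ^ 2 = ε x := by
  rw [sqrtChar_apply, ← pow_mul]
  have h1 : (Nat.card Δ + 1) / 2 * 2 = Nat.card Δ + 1 :=
    Nat.div_mul_cancel hodd.add_one.two_dvd
  rw [h1, pow_succ, ← map_pow, pow_card_eq_one', map_one, one_mul]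

theorem sqrtChar_sq (hodd : Odd (Nat.card Δ)) (ε : Δ →* Kˣ) : sqrtChar ε ^ 2 = ε :=
  MonoidHom.ext fun x => sqrtChar_sq_apply hodd ε x

/-- the values of a character of `Δ` have order dividing `|Δ|` -/
theorem pow_card_apply_eq_one (χ : Δ →* Kˣ) (x : Δ) : χ x ^ Nat.card Δ = 1 := by
  rw [← map_pow, pow_card_eq_one', map_one]

/-- an element of odd order with square `1` is `1` -/
theorem eq_one_of_sq_eq_one {G : Type*} [Monoid G] {n : ℕ} (hodd : Odd n) (y : G)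
    (hy : y ^ n = 1) (h2 : y ^ 2 = 1) : y = 1 := by
  obtain ⟨k, rfl⟩ := hodd
  rw [pow_succ, pow_mul, h2, one_pow, one_mul] at hy
  exact hy

/-- a value of a character of a group of odd order whose square (in `K`) is `1` is `1` -/
theorem val_eq_one_of_sq_eq_one (hodd : Odd (Nat.card Δ)) (χ : Δ →* Kˣ) (x : Δ)
    (h2 : ((χ x : Kˣ) : K) ^ 2 = 1) : χ x = 1 := by
  refine eq_one_of_sq_eq_one hodd (χ x) (pow_card_apply_eq_one χ x) ?_
  apply Units.ext
  rw [Units.val_pow_eq_pow_val, h2, Units.val_one]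

end Sqrt

/-! ### the list of twisting data -/

section Data

variable {Δ : Type} [CommGroup Δ] {K : Type*} [CommRing K]
  (θloc : (r : ℕ) → (ZMod r)ˣ →* Δ) (pr : ℕ → Δ →* Δ) (ε : Δ →* Kˣ)

/-- the twisting datum at `r`: `ψ_r = ε' ∘ θloc r`, `ν_r = ε ∘ pr r` -/
noncomputable def datum (r : ℕ) (hr : r.Prime) : TwDatum K Δ where
  r := r
  hr := ⟨hr⟩
  ψ := MulChar.ofUnitHom ((sqrtChar ε).comp (θloc r))
  ν := ε.comp (pr r)

@[simp] theorem datum_r (r : ℕ) (hr : r.Prime) : (datum θloc pr ε r hr).r = r := rfl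

@[simp] theorem datum_ν (r : ℕ) (hr : r.Prime) : (datum θloc pr ε r hr).ν = ε.comp (pr r) := rfl

theorem datum_ψ_coe (r : ℕ) (hr : r.Prime) (v : (ZMod r)ˣ) :
    (datum θloc pr ε r hr).ψ ((v : ZMod r) : ZMod (datum θloc pr ε r hr).r)
      = ((sqrtChar ε (θloc r v) : Kˣ) : K) :=
  MulChar.ofUnitHom_coe _ v

/-- the list of twisting data attached to a list of primes -/
noncomputable def datumList (L : List ℕ) (hL : ∀ r ∈ L, r.Prime) : List (TwDatum K Δ) :=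
  L.pmap (fun r hr => datum θloc pr ε r hr) hL

@[simp] theorem datumList_nil (hL : ∀ r ∈ ([] : List ℕ), r.Prime) :
    datumList θloc pr ε [] hL = [] := rfl

theorem datumList_cons (r : ℕ) (L : List ℕ) (hL : ∀ s ∈ r :: L, s.Prime) :
    datumList θloc pr ε (r :: L) hL
      = datum θloc pr ε r (hL r (List.mem_cons_self ..))
        :: datumList θloc pr ε L (fun s hs => hL s (List.mem_cons_of_mem r hs)) := rfl

theorem mem_datumList {L : List ℕ} {hL : ∀ r ∈ L, r.Prime} {d : TwDatum K Δ} :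
    d ∈ datumList θloc pr ε L hL ↔ ∃ (r : ℕ) (h : r ∈ L), datum θloc pr ε r (hL r h) = d :=
  List.mem_pmap

theorem map_r_datumList (L : List ℕ) (hL : ∀ r ∈ L, r.Prime) :
    (datumList θloc pr ε L hL).map (fun d => d.r) = L := by
  induction L with
  | nil => rfl
  | cons r L ih =>
    rw [datumList_cons, List.map_cons, ih]
    rfl

theorem nodup_datumList {L : List ℕ} (hL : ∀ r ∈ L, r.Prime) (hnd : L.Nodup) :
    ((datumList θloc pr ε L hL).map (fun d => d.r)).Nodup := by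
  rw [map_r_datumList]
  exact hnd

theorem r_mem_of_mem_datumList {L : List ℕ} {hL : ∀ r ∈ L, r.Prime} {d : TwDatum K Δ}
    (hd : d ∈ datumList θloc pr ε L hL) : d.r ∈ L := by
  obtain ⟨r, h, rfl⟩ := (mem_datumList θloc pr ε).1 hd
  exact h

theorem chainLevel_datumList (N : ℕ) (L : List ℕ) (hL : ∀ r ∈ L, r.Prime) :
    chainLevel N (datumList θloc pr ε L hL) = N * L.prod := by
  rw [chainLevel_eq, map_r_datumList]

/-! ### the chain hypotheses -/

variable {N : ℕ} (θ : (ZMod N)ˣ →* Δ)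

/-- the coercion `(u : ZMod N).cast : ZMod r` of a unit is the value of `ZMod.unitsMap` -/
theorem cast_unit_eq {r : ℕ} (h : r ∣ N) (u : (ZMod N)ˣ) :
    ((u : ZMod N).cast : ZMod r) = ((ZMod.unitsMap h u : (ZMod r)ˣ) : ZMod r) := by
  rw [ZMod.unitsMap_def, Units.coe_map, MonoidHom.coe_coe, ZMod.castHom_apply]

/-- **(h2) admissibility**: `ψ_r(u mod r)² = ν_r(θ u)` -/
theorem adm (hodd : Odd (Nat.card Δ)) (L : List ℕ) (hL : ∀ r ∈ L, r.Prime)
    (hdvd : ∀ r ∈ L, r ∣ N)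
    (hpr : ∀ r ∈ L, ∀ (h : r ∣ N) (u : (ZMod N)ˣ), pr r (θ u) = θloc r (ZMod.unitsMap h u)) :
    Adm N θ (datumList θloc pr ε L hL) := by
  intro d hd
  obtain ⟨r, hr, rfl⟩ := (mem_datumList θloc pr ε).1 hd
  refine ⟨hdvd r hr, fun u => ?_⟩
  show (datum θloc pr ε r (hL r hr)).ψ (((u : ZMod N)).cast : ZMod r) ^ 2
    = ((ε (pr r (θ u)) : Kˣ) : K)
  rw [cast_unit_eq (hdvd r hr) u, datum_ψ_coe, ← Units.val_pow_eq_pow_val,
    sqrtChar_sq_apply hodd, hpr r hr (hdvd r hr) u]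

/-- **(h4)** each `ψ_r` is trivial on the units or some `ψ_r(v)²` is not `1` -/
theorem trivial_or_sq_ne_one (hodd : Odd (Nat.card Δ)) (L : List ℕ) (hL : ∀ r ∈ L, r.Prime) :
    ∀ d ∈ datumList θloc pr ε L hL,
      (∀ v : (ZMod d.r)ˣ, d.ψ (v : ZMod d.r) = 1) ∨ ∃ v : (ZMod d.r)ˣ, d.ψ (v : ZMod d.r) ^ 2 ≠ 1 := by
  intro d hd
  obtain ⟨r, hr, rfl⟩ := (mem_datumList θloc pr ε).1 hd
  by_cases h : ∀ v : (ZMod r)ˣ, (datum θloc pr ε r (hL r hr)).ψ (v : ZMod r) = 1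
  · exact Or.inl h
  · right
    obtain ⟨v, hv⟩ := not_forall.1 h
    refine ⟨v, fun h2 => hv ?_⟩
    have h3 := datum_ψ_coe θloc pr ε r (hL r hr) v
    rw [h3] at h2 ⊢
    rw [val_eq_one_of_sq_eq_one hodd (sqrtChar ε) (θloc r v) h2, Units.val_one]

/-- **(h5)** `∏ ν_r = ε` on the image of `θ` -/
theorem prod_ν_apply (L : List ℕ) (hL : ∀ r ∈ L, r.Prime)
    (hprod : ∀ u : (ZMod N)ˣ, θ u = (L.map fun r => pr r (θ u)).prod) (u : (ZMod N)ˣ) :
    ((datumList θloc pr ε L hL).map (fun d => d.ν)).prod (θ u) = ε (θ u) := by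
  have key : ∀ (L : List ℕ) (hL : ∀ r ∈ L, r.Prime) (x : Δ),
      ((datumList θloc pr ε L hL).map (fun d => d.ν)).prod x
        = ε ((L.map fun r => pr r x).prod) := by
    intro L
    induction L with
    | nil => intro hL x; simp
    | cons r L ih =>
      intro hL x
      rw [datumList_cons, List.map_cons, List.prod_cons, MonoidHom.mul_apply, ih,
        List.map_cons, List.prod_cons, map_mul]
      rfl
  rw [key, ← hprod]

/-- the same in helper44's spelling: `ε (θ u) = ∏ ν_r (θ u)` -/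
theorem eps_apply_eq_prod (L : List ℕ) (hL : ∀ r ∈ L, r.Prime)
    (hprod : ∀ u : (ZMod N)ˣ, θ u = (L.map fun r => pr r (θ u)).prod) (u : (ZMod N)ˣ) :
    ε (θ u) = ((datumList θloc pr ε L hL).map (fun d => d.ν (θ u))).prod := by
  rw [← prod_ν_apply θloc pr ε θ L hL hprod u]
  generalize datumList θloc pr ε L hL = M
  induction M with
  | nil => simp
  | cons d M ih =>
    rw [List.map_cons, List.prod_cons, MonoidHom.mul_apply, ih, List.map_cons, List.prod_cons]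

/-- for surjective `θ`: `∏ ν_r = ε` -/
theorem prod_ν_eq (L : List ℕ) (hL : ∀ r ∈ L, r.Prime)
    (hprod : ∀ u : (ZMod N)ˣ, θ u = (L.map fun r => pr r (θ u)).prod)
    (hsurj : Function.Surjective θ) :
    ((datumList θloc pr ε L hL).map (fun d => d.ν)).prod = ε := by
  refine MonoidHom.ext fun x => ?_
  obtain ⟨u, rfl⟩ := hsurj x
  exact prod_ν_apply θloc pr ε θ L hL hprod u

/-- **the product of the local characters**: `∏ ψ_r(ℓ) = ε'(θ ℓ)` for `ℓ` a unit modulo `N` -/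
theorem chainPsi_eq (L : List ℕ) (hL : ∀ r ∈ L, r.Prime) (hdvd : ∀ r ∈ L, r ∣ N)
    (hpr : ∀ r ∈ L, ∀ (h : r ∣ N) (u : (ZMod N)ˣ), pr r (θ u) = θloc r (ZMod.unitsMap h u))
    (hprod : ∀ u : (ZMod N)ˣ, θ u = (L.map fun r => pr r (θ u)).prod)
    (ℓ : ℕ) (u : (ZMod N)ˣ) (hu : (u : ZMod N) = (ℓ : ZMod N)) :
    chainPsi (datumList θloc pr ε L hL) ℓ = ((sqrtChar ε (θ u) : Kˣ) : K) := by
  have key : ∀ (L : List ℕ) (hL : ∀ r ∈ L, r.Prime), (∀ r ∈ L, r ∣ N) →
      (∀ r ∈ L, ∀ (h : r ∣ N) (u : (ZMod N)ˣ), pr r (θ u) = θloc r (ZMod.unitsMap h u)) →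
      chainPsi (datumList θloc pr ε L hL) ℓ
        = ((sqrtChar ε ((L.map fun r => pr r (θ u)).prod) : Kˣ) : K) := by
    intro L
    induction L with
    | nil => intro hL _ _; simp
    | cons r L ih =>
      intro hL hdvd hpr
      have hrN : r ∣ N := hdvd r (List.mem_cons_self ..)
      rw [datumList_cons, chainPsi_cons,
        ih _ (fun s hs => hdvd s (List.mem_cons_of_mem r hs))
          (fun s hs => hpr s (List.mem_cons_of_mem r hs)),
        List.map_cons, List.prod_cons, map_mul, Units.val_mul]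
      congr 1
      have h1 : ((ℓ : ℕ) : ZMod r) = ((ZMod.unitsMap hrN u : (ZMod r)ˣ) : ZMod r) := by
        rw [← cast_unit_eq hrN u, hu, ZMod.cast_natCast hrN]
      show (datum θloc pr ε r (hL r (List.mem_cons_self ..))).ψ ((ℓ : ℕ) : ZMod r) = _
      rw [h1, datum_ψ_coe, hpr r (List.mem_cons_self ..) hrN u]
  rw [key L hL hdvd hpr, ← hprod]

/-- the square of the product of the local characters is `ε(θ ℓ)` -/
theorem chainPsi_sq (hodd : Odd (Nat.card Δ)) (L : List ℕ) (hL : ∀ r ∈ L, r.Prime)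
    (hdvd : ∀ r ∈ L, r ∣ N)
    (hpr : ∀ r ∈ L, ∀ (h : r ∣ N) (u : (ZMod N)ˣ), pr r (θ u) = θloc r (ZMod.unitsMap h u))
    (hprod : ∀ u : (ZMod N)ˣ, θ u = (L.map fun r => pr r (θ u)).prod)
    (ℓ : ℕ) (u : (ZMod N)ˣ) (hu : (u : ZMod N) = (ℓ : ZMod N)) :
    chainPsi (datumList θloc pr ε L hL) ℓ ^ 2 = ((ε (θ u) : Kˣ) : K) := by
  rw [chainPsi_eq θloc pr ε θ L hL hdvd hpr hprod ℓ u hu, ← Units.val_pow_eq_pow_val,
    sqrtChar_sq_apply hodd]

/-- the product of the local characters is a unit, with inverse `ε'(θ ℓ)⁻¹` -/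
theorem chainPsi_mul_inv (L : List ℕ) (hL : ∀ r ∈ L, r.Prime) (hdvd : ∀ r ∈ L, r ∣ N)
    (hpr : ∀ r ∈ L, ∀ (h : r ∣ N) (u : (ZMod N)ˣ), pr r (θ u) = θloc r (ZMod.unitsMap h u))
    (hprod : ∀ u : (ZMod N)ˣ, θ u = (L.map fun r => pr r (θ u)).prod)
    (ℓ : ℕ) (u : (ZMod N)ˣ) (hu : (u : ZMod N) = (ℓ : ZMod N)) :
    chainPsi (datumList θloc pr ε L hL) ℓ * (((sqrtChar ε (θ u))⁻¹ : Kˣ) : K) = 1 := by
  rw [chainPsi_eq θloc pr ε θ L hL hdvd hpr hprod ℓ u hu, ← Units.val_mul, mul_inv_cancel,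
    Units.val_one]

end Data

end Fermat.Agent.GB.B4.Twist.L6Loc
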