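import Mathlib
import Fermat.Agent.GJ.J2.LatAct
import Fermat.Agent.GJ.J2.Eigen

/-!
# GATE-B / B4-TWIST (L1): the Hecke algebra of forms acts on `Hom_par(Γ₀(N), A)` (helper83)

For a torsion-free coefficient group `A` (a module over a commutative ring `K`), the Hecke algebra
of weight-2 forms `heckeAlgebra N 2 S` acts on `parabolicHoms K Γ₀(N) A`, the generator at the prime
`l ∉ S` acting as the cohomological operator `cohGen N A l` (`= cohT` for `l ∤ N`, `cohU` for
`l ∣ N`): every polynomial relation between the `T_l` on `S₂(Γ₀(N))` holds on `A`-valued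
parabolic classes.

Proof: non-commutative words in the primes outside `S` (`FreeRing`) evaluate on `Hom(Γ₀(N), A)`
naturally in `A` (`cohGen_comp`); by the expansion `φ = ∑ i, Φ_i(·) • φ(β_i)` (helper64's
`ZStruct.expansion`) a word killing the lattice `Λ = Hom_par(Γ₀(N), ℤ)` kills every parabolic
`A`-valued hom; `heckeAlgebra N 2 S` acts faithfully on `Λ` (`LatAct.latAct`, from S21).
-/

set_option autoImplicit false
set_option linter.unusedSectionVars false

open scoped MatrixGroups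
open CongruenceSubgroup ModularCurve ModularCurve.Period CuspForm

namespace Fermat.Agent.GB.B4.Twist.Coeff

open Fermat.Agent.S16_helper49 Fermat.Agent.GJ.J2.ZStruct Fermat.Agent.GJ.J2.Lat
  Fermat.Agent.GJ.J2.LatAct

noncomputable section

variable (N : ℕ) [NeZero N] (S : Set ℕ)

/-! ### words in the Hecke operators on `Hom(Γ₀(N), A)` -/

/-- evaluation of a non-commutative word in the primes outside `S` on `Hom(Γ₀(N), A)` -/
def evRaw (A : Type*) [AddCommGroup A] :
    FreeRing (PrimesOff S) →+* AddMonoid.End (Additive (Gamma0 N) →+ A) :=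
  FreeRing.lift fun l => (cohGen N A l.1 : AddMonoid.End (Additive (Gamma0 N) →+ A))

theorem evRaw_of (A : Type*) [AddCommGroup A] (l : PrimesOff S) :
    evRaw N S A (FreeRing.of l) = cohGen N A l.1 :=
  FreeRing.lift_of _ l

/-- **naturality in the coefficients** -/
theorem evRaw_comp {A B : Type*} [AddCommGroup A] [AddCommGroup B] (f : A →+ B)
    (P : FreeRing (PrimesOff S)) (φ : Additive (Gamma0 N) →+ A) :
    evRaw N S B P (f.comp φ) = f.comp (evRaw N S A P φ) := by
  induction P using FreeRing.induction_on generalizing φ with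
  | hn1 =>
    rw [map_neg, map_one, map_neg, map_one]
    refine AddMonoidHom.ext fun γ => ?_
    show -(f (φ γ)) = f (-(φ γ))
    rw [map_neg]
  | hb b =>
    rw [evRaw_of, evRaw_of]
    exact cohGen_comp N f b.1 φ
  | ha x y hx hy =>
    rw [map_add, map_add]
    show evRaw N S B x (f.comp φ) + evRaw N S B y (f.comp φ)
      = f.comp (evRaw N S A x φ + evRaw N S A y φ)
    rw [hx, hy]
    refine AddMonoidHom.ext fun γ => ?_
    show f (evRaw N S A x φ γ) + f (evRaw N S A y φ γ) = f (evRaw N S A x φ γ + evRaw N S A y φ γ)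
    rw [map_add]
  | hm x y hx hy =>
    rw [map_mul, map_mul]
    show evRaw N S B x (evRaw N S B y (f.comp φ)) = f.comp (evRaw N S A x (evRaw N S A y φ))
    rw [hy, hx]

theorem evRaw_isParabolicHom {A : Type*} [AddCommGroup A] (P : FreeRing (PrimesOff S))
    (φ : Additive (Gamma0 N) →+ A) (hφ : IsParabolicHom (Gamma0 N) φ) :
    IsParabolicHom (Gamma0 N) (evRaw N S A P φ) := by
  induction P using FreeRing.induction_on generalizing φ with
  | hn1 =>
    rw [map_neg, map_one]
    intro γ hγ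
    show -(φ (Additive.ofMul γ)) = 0
    rw [hφ γ hγ, neg_zero]
  | hb b =>
    rw [evRaw_of]
    exact cohGen_isParabolicHom b.1 φ hφ
  | ha x y hx hy =>
    rw [map_add]
    intro γ hγ
    show evRaw N S A x φ (Additive.ofMul γ) + evRaw N S A y φ (Additive.ofMul γ) = 0
    rw [hx φ hφ γ hγ, hy φ hφ γ hγ, add_zero]
  | hm x y hx hy =>
    rw [map_mul]
    exact hx _ (hy φ hφ)

/-- a parabolic hom into a torsion-free group is the sum of the integral basis homs `Φ_i`,
pushed along `n ↦ n • φ(β_i)` -/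
theorem eq_sum_zmultiples {A : Type*} [AddCommGroup A]
    (hA : ∀ (n : ℤ) (a : A), n ≠ 0 → n • a = 0 → a = 0)
    (φ : Additive (Gamma0 N) →+ A) (hφ : IsParabolicHom (Gamma0 N) φ) :
    φ = ∑ i, (zmultiplesHom A (φ (beta N i))).comp (Phi N i) := by
  refine AddMonoidHom.ext fun γ => ?_
  rw [AddMonoidHom.finsetSum_apply]
  exact expansion (parSet N) hA φ hφ γ

/-- **COEFFICIENTS**: a word killing the lattice `Hom_par(Γ₀(N), ℤ)` kills every parabolic hom
with values in a torsion-free group. -/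
theorem evRaw_eq_zero_of_int {A : Type*} [AddCommGroup A]
    (hA : ∀ (n : ℤ) (a : A), n ≠ 0 → n • a = 0 → a = 0) (P : FreeRing (PrimesOff S))
    (hP : ∀ Φ : Additive (Gamma0 N) →+ ℤ, IsParabolicHom (Gamma0 N) Φ → evRaw N S ℤ P Φ = 0)
    (φ : Additive (Gamma0 N) →+ A) (hφ : IsParabolicHom (Gamma0 N) φ) :
    evRaw N S A P φ = 0 := by
  rw [eq_sum_zmultiples N hA φ hφ, map_sum]
  refine Finset.sum_eq_zero fun i _ => ?_
  rw [evRaw_comp, hP _ (Phi_isParabolicHom N i)]
  exact AddMonoidHom.comp_zero _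

/-! ### the `K`-linear version on the parabolic submodule -/

variable (K : Type*) [CommRing K] (A : Type*) [AddCommGroup A] [Module K A]

theorem evRaw_smul (P : FreeRing (PrimesOff S)) (c : K) (φ : Additive (Gamma0 N) →+ A) :
    evRaw N S A P (c • φ) = c • evRaw N S A P φ := by
  have h := evRaw_comp N S (DistribSMul.toAddMonoidHom A c) P φ
  have e : ∀ ψ : Additive (Gamma0 N) →+ A, (DistribSMul.toAddMonoidHom A c).comp ψ = c • ψ := by
    intro ψ
    refine AddMonoidHom.ext fun γ => ?_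
    rfl
  rw [e, e] at h
  exact h

/-- the operator of a word on `parabolicHoms K Γ₀(N) A` -/
def evParLin (P : FreeRing (PrimesOff S)) : Module.End K ↥(parabolicHoms K (Gamma0 N) A) where
  toFun φ := ⟨evRaw N S A P (φ : Additive (Gamma0 N) →+ A), evRaw_isParabolicHom N S P _ φ.2⟩
  map_add' φ ψ := Subtype.ext (map_add (evRaw N S A P) _ _)
  map_smul' c φ := Subtype.ext (evRaw_smul N S K A P c _)

@[simp] theorem coe_evParLin (P : FreeRing (PrimesOff S)) (φ : ↥(parabolicHoms K (Gamma0 N) A)) :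
    ((evParLin N S K A P φ : ↥(parabolicHoms K (Gamma0 N) A)) : Additive (Gamma0 N) →+ A)
      = evRaw N S A P (φ : Additive (Gamma0 N) →+ A) := rfl

/-- words act on `parabolicHoms K Γ₀(N) A` -/
def evPar : FreeRing (PrimesOff S) →+* Module.End K ↥(parabolicHoms K (Gamma0 N) A) where
  toFun := evParLin N S K A
  map_one' := by
    refine LinearMap.ext fun φ => Subtype.ext ?_
    rw [coe_evParLin, map_one]
    rfl
  map_mul' P Q := by
    refine LinearMap.ext fun φ => Subtype.ext ?_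
    rw [coe_evParLin, map_mul]
    rfl
  map_zero' := by
    refine LinearMap.ext fun φ => Subtype.ext ?_
    rw [coe_evParLin, map_zero]
    rfl
  map_add' P Q := by
    refine LinearMap.ext fun φ => Subtype.ext ?_
    rw [coe_evParLin, map_add]
    rfl

@[simp] theorem coe_evPar (P : FreeRing (PrimesOff S)) (φ : ↥(parabolicHoms K (Gamma0 N) A)) :
    ((evPar N S K A P φ : ↥(parabolicHoms K (Gamma0 N) A)) : Additive (Gamma0 N) →+ A)
      = evRaw N S A P (φ : Additive (Gamma0 N) →+ A) := rfl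

/-- the generator at the prime `l` on `parabolicHoms K Γ₀(N) A` -/
def parGen (l : Nat.Primes) : Module.End K ↥(parabolicHoms K (Gamma0 N) A) where
  toFun φ := ⟨cohGen N A l (φ : Additive (Gamma0 N) →+ A), cohGen_isParabolicHom l _ φ.2⟩
  map_add' φ ψ := Subtype.ext (map_add (cohGen N A l) _ _)
  map_smul' c φ := Subtype.ext (by
    have h := cohGen_comp N (DistribSMul.toAddMonoidHom A c) l
      (φ : Additive (Gamma0 N) →+ A)
    exact h)

@[simp] theorem coe_parGen (l : Nat.Primes) (φ : ↥(parabolicHoms K (Gamma0 N) A)) :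
    ((parGen N K A l φ : ↥(parabolicHoms K (Gamma0 N) A)) : Additive (Gamma0 N) →+ A)
      = cohGen N A l (φ : Additive (Gamma0 N) →+ A) := rfl

theorem evPar_of (l : PrimesOff S) : evPar N S K A (FreeRing.of l) = parGen N K A l.1 := by
  refine LinearMap.ext fun φ => Subtype.ext ?_
  rw [coe_evPar, evRaw_of]
  rfl

/-! ### the surjection from words onto the Hecke algebra of forms -/

/-- words in the generators of `heckeAlgebra N 2 S` -/
def genHom : FreeRing (PrimesOff S) →+* ↥(heckeAlgebra N 2 S) :=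
  FreeRing.lift (formsGenS N S)

theorem genHom_of (l : PrimesOff S) : genHom N S (FreeRing.of l) = formsGenS N S l :=
  FreeRing.lift_of _ l

theorem genHom_surjective : Function.Surjective (genHom N S) := by
  rintro ⟨t, ht⟩
  refine Algebra.adjoin_induction (p := fun x hx => ∃ y, genHom N S y = ⟨x, hx⟩)
    ?_ ?_ ?_ ?_ ht
  · rintro x (⟨ℓ, hℓ, hℓN, hℓS, rfl⟩ | ⟨q, hqN, hq, hqS, rfl⟩)
    · refine ⟨FreeRing.of (⟨⟨ℓ, hℓ⟩, hℓS⟩ : PrimesOff S), ?_⟩
      rw [genHom_of, formsGenS_of_not_dvd N S _ hℓN]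
      rfl
    · refine ⟨FreeRing.of (⟨⟨q, hq⟩, hqS⟩ : PrimesOff S), ?_⟩
      rw [genHom_of, formsGenS_of_dvd N S _ hqN]
      rfl
  · intro r
    refine ⟨(r : FreeRing (PrimesOff S)), ?_⟩
    rw [map_intCast (genHom N S) r]
    apply Subtype.ext
    simp
  · rintro x y hx hy ⟨a, ha⟩ ⟨b, hb⟩
    exact ⟨a + b, by rw [map_add, ha, hb]; rfl⟩
  · rintro x y hx hy ⟨a, ha⟩ ⟨b, hb⟩
    exact ⟨a * b, by rw [map_mul, ha, hb]; rfl⟩

/-- the generator `formsGenS l` acts on the lattice as `latT l` -/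
theorem latAct_formsGenS (l : PrimesOff S) : latAct N S (formsGenS N S l) = latT N l.1 := by
  by_cases h : (l.1 : ℕ) ∣ N
  · rw [formsGenS_of_dvd N S l h]
    exact latAct_U N S l.1.2 h l.2
  · rw [formsGenS_of_not_dvd N S l h]
    exact latAct_T N S l.1.2 h l.2

/-- on the lattice, words act through `latAct` -/
theorem evPar_int_eq (P : FreeRing (PrimesOff S)) :
    evPar N S ℤ ℤ P = latAct N S (genHom N S P) := by
  induction P using FreeRing.induction_on with
  | hn1 => rw [map_neg, map_one, map_neg, map_one, map_neg, map_one]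
  | hb l =>
    rw [evPar_of, genHom_of, latAct_formsGenS]
    rfl
  | ha x y hx hy => rw [map_add, map_add, map_add, hx, hy]
  | hm x y hx hy => rw [map_mul, map_mul, map_mul, hx, hy]

variable {A}

/-- **kernel ⊂ kernel**: a word which is zero in the Hecke algebra of forms kills every
parabolic hom with torsion-free values -/
theorem evPar_eq_zero_of_genHom_eq_zero
    (hA : ∀ (n : ℤ) (a : A), n ≠ 0 → n • a = 0 → a = 0) (P : FreeRing (PrimesOff S))
    (hP : genHom N S P = 0) : evPar N S K A P = 0 := by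
  have h0 : evPar N S ℤ ℤ P = 0 := by rw [evPar_int_eq, hP, map_zero]
  refine LinearMap.ext fun φ => Subtype.ext ?_
  rw [coe_evPar, LinearMap.zero_apply, ZeroMemClass.coe_zero]
  refine evRaw_eq_zero_of_int N S hA P (fun Φ hΦ => ?_) _ φ.2
  have h1 := congrArg (fun e : Module.End ℤ (Lam N) => ((e ⟨Φ, hΦ⟩ : Lam N) :
    Additive (Gamma0 N) →+ ℤ)) h0
  exact h1

/-- **the Hecke algebra of forms acts on `A`-valued parabolic homs** (`A` torsion-free) -/
def coeffAct (hA : ∀ (n : ℤ) (a : A), n ≠ 0 → n • a = 0 → a = 0) :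
    ↥(heckeAlgebra N 2 S) →+* Module.End K ↥(parabolicHoms K (Gamma0 N) A) :=
  RingHom.liftOfSurjective (C := Module.End K ↥(parabolicHoms K (Gamma0 N) A))
    (genHom N S) (genHom_surjective N S)
    ⟨evPar N S K A, fun P hP => by
      rw [RingHom.mem_ker] at hP ⊢
      exact evPar_eq_zero_of_genHom_eq_zero N S K hA P hP⟩

variable (hA : ∀ (n : ℤ) (a : A), n ≠ 0 → n • a = 0 → a = 0)

theorem coeffAct_genHom (P : FreeRing (PrimesOff S)) :
    coeffAct N S K hA (genHom N S P) = evPar N S K A P :=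
  RingHom.liftOfSurjective_comp_apply (C := Module.End K ↥(parabolicHoms K (Gamma0 N) A))
    (genHom N S) (genHom_surjective N S) _ P

/-- the generator at `l ∉ S` acts as `cohGen l` -/
theorem coeffAct_formsGenS (l : PrimesOff S) :
    coeffAct N S K hA (formsGenS N S l) = parGen N K A l.1 := by
  rw [← genHom_of, coeffAct_genHom, evPar_of]

theorem coeffAct_T {ℓ : ℕ} (hℓ : ℓ.Prime) (hℓN : ¬ ℓ ∣ N) (hℓS : ℓ ∉ S) :
    coeffAct N S K hA (heckeAlgebra.T hℓ hℓN hℓS) = parGen N K A ⟨ℓ, hℓ⟩ := by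
  have h := coeffAct_formsGenS N S K hA (⟨⟨ℓ, hℓ⟩, hℓS⟩ : PrimesOff S)
  rwa [formsGenS_of_not_dvd N S _ hℓN] at h

theorem coeffAct_U {q : ℕ} (hq : q.Prime) (hqN : q ∣ N) (hqS : q ∉ S) :
    coeffAct N S K hA (heckeAlgebra.U hq hqN hqS) = parGen N K A ⟨q, hq⟩ := by
  have h := coeffAct_formsGenS N S K hA (⟨⟨q, hq⟩, hqS⟩ : PrimesOff S)
  rwa [formsGenS_of_dvd N S _ hqN] at h

/-- `T_ℓ` acts as the cohomological `cohT` (`ℓ ∤ N`) -/
theorem coe_coeffAct_T {ℓ : ℕ} (hℓ : ℓ.Prime) (hℓN : ¬ ℓ ∣ N) (hℓS : ℓ ∉ S)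
    (φ : ↥(parabolicHoms K (Gamma0 N) A)) :
    haveI : Fact ℓ.Prime := ⟨hℓ⟩
    ((coeffAct N S K hA (heckeAlgebra.T hℓ hℓN hℓS) φ : ↥(parabolicHoms K (Gamma0 N) A)) :
      Additive (Gamma0 N) →+ A) = cohT hℓN A (φ : Additive (Gamma0 N) →+ A) := by
  rw [coeffAct_T, coe_parGen, cohGen_of_not_dvd N A ⟨ℓ, hℓ⟩ hℓN]

/-- `U_q` acts as the cohomological `cohU` (`q ∣ N`) -/
theorem coe_coeffAct_U {q : ℕ} (hq : q.Prime) (hqN : q ∣ N) (hqS : q ∉ S)
    (φ : ↥(parabolicHoms K (Gamma0 N) A)) :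
    haveI : Fact q.Prime := ⟨hq⟩
    ((coeffAct N S K hA (heckeAlgebra.U hq hqN hqS) φ : ↥(parabolicHoms K (Gamma0 N) A)) :
      Additive (Gamma0 N) →+ A) = cohU hqN A (φ : Additive (Gamma0 N) →+ A) := by
  rw [coeffAct_U, coe_parGen, cohGen_of_dvd N A ⟨q, hq⟩ hqN]

/-- `coeffAct` on the underlying homs, through a word representing `t` -/
theorem coe_coeffAct_genHom (P : FreeRing (PrimesOff S)) (φ : ↥(parabolicHoms K (Gamma0 N) A)) :
    ((coeffAct N S K hA (genHom N S P) φ : ↥(parabolicHoms K (Gamma0 N) A)) :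
      Additive (Gamma0 N) →+ A) = evRaw N S A P (φ : Additive (Gamma0 N) →+ A) := by
  rw [coeffAct_genHom, coe_evPar]

/-- the image of `coeffAct` is commutative -/
theorem coeffAct_commute (s t : ↥(heckeAlgebra N 2 S)) :
    Commute (coeffAct N S K hA s) (coeffAct N S K hA t) := by
  show coeffAct N S K hA s * coeffAct N S K hA t = coeffAct N S K hA t * coeffAct N S K hA s
  rw [← map_mul, ← map_mul, mul_comm]

/-- on the lattice `Λ` itself, `coeffAct` is `latAct` -/
theorem coeffAct_int (hZ : ∀ (n : ℤ) (a : ℤ), n ≠ 0 → n • a = 0 → a = 0)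
    (t : ↥(heckeAlgebra N 2 S)) : coeffAct N S ℤ hZ t = latAct N S t := by
  obtain ⟨P, rfl⟩ := genHom_surjective N S t
  rw [coeffAct_genHom, evPar_int_eq]

/-- **naturality in the coefficients**: for `f : A → B` additive between torsion-free groups,
`f ∘ (t • φ) = t • (f ∘ φ)`. -/
theorem coeffAct_comp {K' : Type*} [CommRing K'] {B : Type*} [AddCommGroup B] [Module K' B]
    (hB : ∀ (n : ℤ) (b : B), n ≠ 0 → n • b = 0 → b = 0) (f : A →+ B)
    (t : ↥(heckeAlgebra N 2 S)) (φ : ↥(parabolicHoms K (Gamma0 N) A))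
    (ψ : ↥(parabolicHoms K' (Gamma0 N) B))
    (hψ : (ψ : Additive (Gamma0 N) →+ B) = f.comp (φ : Additive (Gamma0 N) →+ A)) :
    ((coeffAct N S K' hB t ψ : ↥(parabolicHoms K' (Gamma0 N) B)) : Additive (Gamma0 N) →+ B)
      = f.comp ((coeffAct N S K hA t φ : ↥(parabolicHoms K (Gamma0 N) A)) :
          Additive (Gamma0 N) →+ A) := by
  obtain ⟨P, rfl⟩ := genHom_surjective N S t
  rw [coe_coeffAct_genHom, coe_coeffAct_genHom, hψ, evRaw_comp]

/-- **faithfulness**: if `A ≠ 0` (torsion-free), `coeffAct` is injective. -/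
theorem coeffAct_injective (a : A) (ha : a ≠ 0) : Function.Injective (coeffAct N S K hA) := by
  rw [injective_iff_map_eq_zero]
  intro t ht
  apply latModule_faithful N S t
  intro Φ
  -- push `Φ` along `n ↦ n • a`
  have hpar : IsParabolicHom (Gamma0 N)
      ((zmultiplesHom A a).comp (Φ : Additive (Gamma0 N) →+ ℤ)) := by
    intro γ hγ
    show (zmultiplesHom A a) ((Φ : Additive (Gamma0 N) →+ ℤ) (Additive.ofMul γ)) = 0
    rw [Φ.2 γ hγ, map_zero]
  have hZ : ∀ (n : ℤ) (b : ℤ), n ≠ 0 → n • b = 0 → b = 0 := by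
    intro n b hn h
    rw [smul_eq_mul] at h
    rcases mul_eq_zero.mp h with h | h
    · exact absurd h hn
    · exact h
  have h1 := coeffAct_comp N S ℤ hZ hA (zmultiplesHom A a) t Φ
    (⟨(zmultiplesHom A a).comp (Φ : Additive (Gamma0 N) →+ ℤ), hpar⟩ :
      ↥(parabolicHoms K (Gamma0 N) A)) rfl
  rw [ht, LinearMap.zero_apply, ZeroMemClass.coe_zero, coeffAct_int] at h1
  apply Subtype.ext
  refine AddMonoidHom.ext fun γ => ?_
  have h2 := DFunLike.congr_fun h1 γ
  rw [AddMonoidHom.zero_apply, AddMonoidHom.comp_apply] at h2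
  have h3 : ((latAct N S t Φ : Lam N) : Additive (Gamma0 N) →+ ℤ) γ • a = 0 := h2.symm
  by_contra hne
  exact ha (hA _ a hne h3)

end

end Fermat.Agent.GB.B4.Twist.Coeff
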