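import Fermat.Agent.GB.B4.Twist.TransportLin
import Fermat.Agent.GB.B4.Twist.Coeff

/-!
# GATE-B / B4-TWIST (L0)+(L1) assembled: the twist ring hom out of the Hecke algebra of forms
(helper83)

Input: a `K`-module `V` (e.g. the `ε`-part of `Hom_par(Γ_H, K)`), an INJECTIVE `K`-linear map
`R : V → Hom_par(Γ₀(N), A)` (`A` torsion-free) and operators `τ l` on `V` (`l ∉ S` prime) with
`R ∘ τ l = cohGen l ∘ R` (`cohGen l = cohT` for `l ∤ N`).

Output (`exists_twist_hom`): the ring hom `tw : heckeAlgebra N 2 S →+* End_K V` with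
`tw (T_l) = τ l`, `R`-equivariant for the action `Coeff.coeffAct` of the Hecke algebra of forms on
`Hom_par(Γ₀(N), A)`.  In particular every polynomial relation between the `T_l` on `S₂(Γ₀(N))`
holds between the `τ l` on `V`.
-/

set_option autoImplicit false
set_option linter.unusedSectionVars false

open scoped MatrixGroups
open CongruenceSubgroup ModularCurve ModularCurve.Period CuspForm

namespace Fermat.Agent.GB.B4.Twist.TwHom

open Fermat.Agent.S16_helper49 Fermat.Agent.GJ.J2.ZStruct Fermat.Agent.GJ.J2.Lat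
  Fermat.Agent.GJ.J2.LatAct Fermat.Agent.GB.B4.Twist.Coeff Fermat.Agent.GB.B4.Twist.TransportLin

variable (N : ℕ) [NeZero N] (S : Set ℕ)

/-- `heckeAlgebra N 2 S` is generated as a ring by the `formsGenS l`, `l ∉ S` -/
theorem closure_range_formsGenS :
    Subring.closure (Set.range (formsGenS N S)) = ⊤ := by
  rw [eq_top_iff]
  intro t _
  obtain ⟨P, rfl⟩ := genHom_surjective N S t
  induction P using FreeRing.induction_on with
  | hn1 =>
    rw [map_neg, map_one]
    exact Subring.neg_mem _ (Subring.one_mem _)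
  | hb l =>
    rw [genHom_of]
    exact Subring.subset_closure ⟨l, rfl⟩
  | ha x y hx hy =>
    rw [map_add]
    exact Subring.add_mem _ (hx trivial) (hy trivial)
  | hm x y hx hy =>
    rw [map_mul]
    exact Subring.mul_mem _ (hx trivial) (hy trivial)

variable {K : Type*} [CommRing K] {A : Type*} [AddCommGroup A] [Module K A]
  (hA : ∀ (n : ℤ) (a : A), n ≠ 0 → n • a = 0 → a = 0)
  {V : Type*} [AddCommGroup V] [Module K V]

/-- **the twist ring hom** (subtype form).  `R : V → Hom_par(Γ₀(N), A)` injective `K`-linear,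
`τ l` intertwined with `cohGen l`. -/
theorem exists_twist_hom (R : V →ₗ[K] ↥(parabolicHoms K (Gamma0 N) A))
    (hR : Function.Injective R) (τ : PrimesOff S → Module.End K V)
    (hτ : ∀ (l : PrimesOff S) (v : V),
      ((R (τ l v) : ↥(parabolicHoms K (Gamma0 N) A)) : Additive (Gamma0 N) →+ A)
        = cohGen N A l.1 ((R v : ↥(parabolicHoms K (Gamma0 N) A)) : Additive (Gamma0 N) →+ A)) :
    ∃ tw : ↥(heckeAlgebra N 2 S) →+* Module.End K V,
      (∀ l : PrimesOff S, tw (formsGenS N S l) = τ l) ∧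
      (∀ t v, R (tw t v) = coeffAct N S K hA t (R v)) ∧
      (∀ t, tw t = 0 ↔ ∀ v, coeffAct N S K hA t (R v) = 0) ∧
      ∀ tw' : ↥(heckeAlgebra N 2 S) →+* Module.End K V,
        (∀ l : PrimesOff S, tw' (formsGenS N S l) = τ l) → tw' = tw := by
  classical
  -- extend `τ` to a function on the Hecke algebra (only its values on generators matter)
  let τ' : ↥(heckeAlgebra N 2 S) → Module.End K V := fun t =>
    if h : ∃ l : PrimesOff S, formsGenS N S l = t then τ h.choose else 0
  have hτ' : ∀ g ∈ Set.range (formsGenS N S), ∀ v : V,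
      R (τ' g v) = coeffAct N S K hA g (R v) := by
    rintro g ⟨l, rfl⟩ v
    have hex : ∃ l' : PrimesOff S, formsGenS N S l' = formsGenS N S l := ⟨l, rfl⟩
    have h1 : τ' (formsGenS N S l) = τ hex.choose := dif_pos hex
    have h2 : formsGenS N S hex.choose = formsGenS N S l := hex.choose_spec
    generalize hex.choose = l' at h1 h2
    apply Subtype.ext
    rw [h1, hτ, ← h2, coeffAct_formsGenS, coe_parGen]
  have h : ∀ (t : ↥(heckeAlgebra N 2 S)) (v : V),
      coeffAct N S K hA t (R v) ∈ LinearMap.range R :=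
    range_stable_of_closure _ (closure_range_formsGenS N S) (coeffAct N S K hA) R
      fun g hg v => ⟨τ' g v, hτ' g hg v⟩
  have hgen : ∀ l : PrimesOff S, transport (coeffAct N S K hA) R hR h (formsGenS N S l) = τ l := by
    intro l
    refine transport_eq _ R hR h _ (τ l) fun v => Subtype.ext ?_
    rw [hτ, coeffAct_formsGenS, coe_parGen]
  refine ⟨transport (coeffAct N S K hA) R hR h, hgen, R_transport _ R hR h,
    transport_eq_zero_iff _ R hR h, fun tw' htw' => ?_⟩
  have hle : Subring.closure (Set.range (formsGenS N S))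
      ≤ RingHom.eqLocus tw' (transport (coeffAct N S K hA) R hR h) := by
    rw [Subring.closure_le]
    rintro g ⟨l, rfl⟩
    show tw' (formsGenS N S l) = transport (coeffAct N S K hA) R hR h (formsGenS N S l)
    rw [htw' l, hgen l]
  refine RingHom.ext fun t => ?_
  exact hle (by rw [closure_range_formsGenS]; exact Subring.mem_top t)

/-- **the twist ring hom**, with `R` valued in plain `Hom(Γ₀(N), A)` and a parabolicity
hypothesis; `T`-form of the conclusion for the good primes. -/
theorem exists_twist_hom' (R : V →ₗ[K] (Additive (Gamma0 N) →+ A))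
    (hR : Function.Injective R) (hpar : ∀ v, IsParabolicHom (Gamma0 N) (R v))
    (τ : PrimesOff S → Module.End K V)
    (hτ : ∀ (l : PrimesOff S) (v : V), R (τ l v) = cohGen N A l.1 (R v)) :
    ∃ tw : ↥(heckeAlgebra N 2 S) →+* Module.End K V,
      (∀ l : PrimesOff S, tw (formsGenS N S l) = τ l) ∧
      (∀ {ℓ : ℕ} (hℓ : ℓ.Prime) (hℓN : ¬ ℓ ∣ N) (hℓS : ℓ ∉ S),
        tw (heckeAlgebra.T hℓ hℓN hℓS) = τ ⟨⟨ℓ, hℓ⟩, hℓS⟩) ∧
      (∀ {q : ℕ} (hq : q.Prime) (hqN : q ∣ N) (hqS : q ∉ S),
        tw (heckeAlgebra.U hq hqN hqS) = τ ⟨⟨q, hq⟩, hqS⟩) ∧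
      (∀ t v, R (tw t v)
        = ((coeffAct N S K hA t ⟨R v, hpar v⟩ : ↥(parabolicHoms K (Gamma0 N) A)) :
            Additive (Gamma0 N) →+ A)) ∧
      (∀ t, tw t = 0 ↔ ∀ v, coeffAct N S K hA t ⟨R v, hpar v⟩ = 0) ∧
      ∀ tw' : ↥(heckeAlgebra N 2 S) →+* Module.End K V,
        (∀ l : PrimesOff S, tw' (formsGenS N S l) = τ l) → tw' = tw := by
  let R' : V →ₗ[K] ↥(parabolicHoms K (Gamma0 N) A) :=
    LinearMap.codRestrict (parabolicHoms K (Gamma0 N) A) R hpar
  have hR' : Function.Injective R' := fun v w hvw => hR (congrArg Subtype.val hvw)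
  obtain ⟨tw, h1, h2, h3, h4⟩ := exists_twist_hom N S hA R' hR' τ
    (fun l v => hτ l v)
  refine ⟨tw, h1, ?_, ?_, fun t v => ?_, h3, h4⟩
  · intro ℓ hℓ hℓN hℓS
    have := h1 ⟨⟨ℓ, hℓ⟩, hℓS⟩
    rwa [formsGenS_of_not_dvd N S _ hℓN] at this
  · intro q hq hqN hqS
    have := h1 ⟨⟨q, hq⟩, hqS⟩
    rwa [formsGenS_of_dvd N S _ hqN] at this
  · exact congrArg Subtype.val (h2 t v)

/-- every integer polynomial relation between the Hecke operators of `S₂(Γ₀(N))` holds for the
transported operators: `evFormsS P = 0 ⟹ P(τ) = 0` (with `P(τ)` computed through `tw`). -/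
theorem twist_hom_relation (tw : ↥(heckeAlgebra N 2 S) →+* Module.End K V)
    (P : MvPolynomial (PrimesOff S) ℤ) (hP : evFormsS N S P = 0) :
    tw (evFormsS N S P) = 0 := by
  rw [hP, map_zero]

end Fermat.Agent.GB.B4.Twist.TwHom
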