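/-
GATE-B / B4-TWIST leaf L6-ASM (helper44), hypothesis form: **the twist ring homomorphism**
`tw : heckeAlgebra N' 2 S →+* End_O (Hom_par(Γ_H(N), O))`, `tw (T_ℓ) = ⟨ℓ⟩^{-1/2} ∘ T_ℓ`, from

* a finite family of "isotypic projectors" `e x` (`x : X`) on `Hom(Γ_H(N), K)` (`K ⊇ O` a field of
  characteristic `0` with enough roots of unity; L6-DECOMP/EPS) with `∑ e x = 1`, whose images are
  eigenvectors of the diamond operators for the function `εX x : Δ → K`;
* for every `x` a twist chain `ℛ x : Hom(Γ_H(N), K) → Hom(Γ_H(N'), K)` (L6-CHAIN), injective on the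
  `εX x`-eigenvectors, with `Γ₀(N')`-invariant image there, preserving parabolic classes, and with
  `ℛ x ∘ T_ℓ = c x ℓ • T_ℓ ∘ ℛ x`;
* elements `dℓ ℓ ∈ Γ₀(N)` with `εX x (χ_θ (dℓ ℓ)) * c x ℓ = 1` (`⟨dℓ ℓ⟩ = ⟨ℓ⟩^{-1/2}`).

The intertwiner is `R v = (x ↦ cores (ℛ x (e x v)))`, with values in
`Hom(Γ₀(N'), X → K)`; it is `O`-linear, injective and intertwines `⟨ℓ⟩^{-1/2} T_ℓ` with the Hecke
operator `T_ℓ` of `Γ₀(N')`; `TwHom.exists_twist_hom'` (helper83) then gives `tw`.

* `Descent` : `IsInv`, `resH_coresH_of_isInv`, `eq_zero_of_coresH_eq_zero`, `isParabolicHom_coresH`;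
* `op_smul` : coset operators are linear for every scalar action on the coefficients;
* `exists_tw_of_data` : the assembly.
-/
import Mathlib
import Fermat.Agent.GB.B3.GammaH
import Fermat.Agent.GM.B.Par
import Fermat.Agent.GB.B4.Twist.TwHom

set_option autoImplicit false

noncomputable section

open scoped MatrixGroups
open CongruenceSubgroup Matrix Matrix.SpecialLinearGroup ModularCurve.Period CuspForm
open Fermat.Agent.S16_helper49 Fermat.Agent.GM.B Fermat.Agent.GM.EisClass
open Fermat.Agent.GB.B3 Fermat.Agent.GB.B3.EisGamma0 Fermat.Agent.GB.B3.GamH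
open Fermat.Agent.GJ.J2.ZStruct Fermat.Agent.GJ.J2.Lat

namespace Fermat.Agent.GB.B4.Twist.Asm

/-! ### coset operators and scalars -/

section Smul

variable {H G : Type*} [Group H] [Group G] {emb : H →* G} {Γ₁ Γ₂ : Subgroup H}

theorem op_smul (T : CosetSys emb Γ₁ Γ₂) {K : Type*} [Monoid K] {A : Type*} [AddCommGroup A]
    [DistribMulAction K A] (a : K) (φ : Additive Γ₁ →+ A) :
    T.op A (a • φ) = a • T.op A φ := by
  have e : a • φ = (DistribSMul.toAddMonoidHom A a).comp φ := by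
    refine AddMonoidHom.ext fun g => ?_
    rfl
  rw [e, CosetSys.op_comp_hom]
  refine AddMonoidHom.ext fun g => ?_
  rfl

end Smul

/-! ### descent from `Γ_H` to `Γ₀(N)` -/

section Descent

variable {N : ℕ} {Δ : Type} [CommGroup Δ] [Fintype Δ] (θ : (ZMod N)ˣ →* Δ)
  (rep : Δ → Gamma0 N) (hrep : ∀ δ, chi θ (rep δ) = δ) {A : Type*} [AddCommGroup A]

/-- invariance under the conjugations by `Γ₀(N)` -/
def IsInv (ψ : Additive (GammaH θ) →+ A) : Prop :=
  ∀ (x : Gamma0 N) (k : GammaH θ),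
    ψ (Additive.ofMul (conjK (chi θ) x k)) = ψ (Additive.ofMul k)

variable {θ}

theorem diaH_of_isInv {ψ : Additive (GammaH θ) →+ A} (hψ : IsInv θ ψ) (d : Gamma0 N) :
    diaH θ A d ψ = ψ := by
  refine AddMonoidHom.ext fun k => ?_
  obtain ⟨k, rfl⟩ : ∃ k' : GammaH θ, Additive.ofMul k' = k := ⟨Additive.toMul k, rfl⟩
  rw [diaH_apply, hψ]

theorem resH_coresH_of_isInv {ψ : Additive (GammaH θ) →+ A} (hψ : IsInv θ ψ) :
    resH θ A (coresH θ rep hrep A ψ) = Fintype.card Δ • ψ := by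
  rw [resH_coresH, Finset.sum_congr rfl (fun δ _ => diaH_of_isInv hψ (rep δ)), Finset.sum_const,
    Finset.card_univ]

theorem eq_zero_of_coresH_eq_zero (hA : ∀ (n : ℕ) (a : A), n ≠ 0 → n • a = 0 → a = 0)
    {ψ : Additive (GammaH θ) →+ A} (hψ : IsInv θ ψ) (h : coresH θ rep hrep A ψ = 0) : ψ = 0 := by
  have h1 := resH_coresH_of_isInv rep hrep hψ
  rw [h, map_zero] at h1
  refine AddMonoidHom.ext fun k => ?_
  rw [AddMonoidHom.zero_apply]
  apply hA (Fintype.card Δ) _ Fintype.card_ne_zero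
  rw [← AddMonoidHom.nsmul_apply, ← h1, AddMonoidHom.zero_apply]

theorem isParabolicHom_coresH {ψ : Additive (GammaH θ) →+ A}
    (hψ : IsParabolicHom (GammaH θ) ψ) :
    IsParabolicHom (Gamma0 N) (coresH θ rep hrep A ψ) :=
  op_isParabolicHom _ ψ hψ

theorem isParabolicHom_diaH (d : Gamma0 N) {ψ : Additive (GammaH θ) →+ A}
    (hψ : IsParabolicHom (GammaH θ) ψ) : IsParabolicHom (GammaH θ) (diaH θ A d ψ) :=
  op_isParabolicHom _ ψ hψ

theorem isParabolicHom_TH {ℓ : ℕ} [Fact ℓ.Prime] (hℓN : ¬ ℓ ∣ N) {ψ : Additive (GammaH θ) →+ A}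
    (hψ : IsParabolicHom (GammaH θ) ψ) : IsParabolicHom (GammaH θ) (TH θ A hℓN ψ) :=
  op_isParabolicHom _ ψ hψ

variable {K : Type*} [Monoid K] [DistribMulAction K A]

theorem TH_smul {ℓ : ℕ} [Fact ℓ.Prime] (hℓN : ¬ ℓ ∣ N) (a : K) (ψ : Additive (GammaH θ) →+ A) :
    TH θ A hℓN (a • ψ) = a • TH θ A hℓN ψ :=
  op_smul (heckeSysH θ hℓN) a ψ

theorem diaH_smul (d : Gamma0 N) (a : K) (ψ : Additive (GammaH θ) →+ A) :
    diaH θ A d (a • ψ) = a • diaH θ A d ψ :=
  op_smul (diaK embR (chi θ) d) a ψ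

theorem coresH_smul (a : K) (ψ : Additive (GammaH θ) →+ A) :
    coresH θ rep hrep A (a • ψ) = a • coresH θ rep hrep A ψ :=
  op_smul (coresK (chi θ) rep hrep embR) a ψ

end Descent

/-! ### the assembly -/

section Main

variable {N N' : ℕ} [NeZero N] [NeZero N'] {Δ : Type} [CommGroup Δ] [Fintype Δ]
  (θ : (ZMod N)ˣ →* Δ) (θ' : (ZMod N')ˣ →* Δ)
  (rep' : Δ → Gamma0 N') (hrep' : ∀ δ, chi θ' (rep' δ) = δ)
  (S : Set ℕ) (hS : ∀ q : ℕ, q.Prime → q ∣ N' → q ∈ S) (hNN' : N ∣ N')
  {O : Type*} [CommRing O] {K : Type*} [Field K] [CharZero K] [Algebra O K]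
  (hinj : Function.Injective (algebraMap O K))
  {X : Type*} [Fintype X]

/-- local instance (Prop-valued class) -/
local instance factPrimeOff (l : PrimesOff S) : Fact (l.1 : ℕ).Prime := ⟨l.1.2⟩

include hS in
theorem not_dvd_level' (l : PrimesOff S) : ¬ (l.1 : ℕ) ∣ N' := fun h => l.2 (hS _ l.1.2 h)

include hS hNN' in
theorem not_dvd_level (l : PrimesOff S) : ¬ (l.1 : ℕ) ∣ N :=
  fun h => not_dvd_level' S hS l (h.trans hNN')

/-- extension of scalars `Hom(Γ, O) → Hom(Γ, K)` -/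
def extK (Γ : Subgroup SL(2, ℤ)) : (Additive Γ →+ O) →+ (Additive Γ →+ K) :=
  AddMonoidHom.compHom ((algebraMap O K : O →+* K) : O →+ K)

omit [CharZero K] in
theorem extK_apply (Γ : Subgroup SL(2, ℤ)) (φ : Additive Γ →+ O) (g : Additive Γ) :
    extK (K := K) Γ φ g = algebraMap O K (φ g) := rfl

omit [CharZero K] in
theorem extK_eq_comp (Γ : Subgroup SL(2, ℤ)) (φ : Additive Γ →+ O) :
    extK (K := K) Γ φ = ((algebraMap O K : O →+* K) : O →+ K).comp φ := rfl

omit [CharZero K] in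
theorem extK_smul (Γ : Subgroup SL(2, ℤ)) (o : O) (φ : Additive Γ →+ O) :
    extK (K := K) Γ (o • φ) = algebraMap O K o • extK (K := K) Γ φ := by
  refine AddMonoidHom.ext fun g => ?_
  rw [extK_apply, AddMonoidHom.smul_apply, AddMonoidHom.smul_apply, extK_apply, smul_eq_mul,
    map_mul, smul_eq_mul]

include hinj in
omit [CharZero K] in
theorem extK_injective (Γ : Subgroup SL(2, ℤ)) : Function.Injective (extK (O := O) (K := K) Γ) := by
  intro φ ψ h
  refine AddMonoidHom.ext fun g => ?_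
  apply hinj
  rw [← extK_apply, ← extK_apply, h]

omit [CharZero K] in
theorem isParabolicHom_extK (Γ : Subgroup SL(2, ℤ)) {φ : Additive Γ →+ O}
    (hφ : IsParabolicHom Γ φ) : IsParabolicHom Γ (extK (K := K) Γ φ) := by
  intro g hg
  rw [extK_apply, hφ g hg, map_zero]

variable (εX : X → Δ → K)
  (e : X → (Additive (GammaH θ) →+ K) →+ (Additive (GammaH θ) →+ K))
  (ℛ : X → (Additive (GammaH θ) →+ K) →+ (Additive (GammaH θ') →+ K))
  (c : X → PrimesOff S → K)
  (dℓ : PrimesOff S → Gamma0 N)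

include rep' hrep' hinj in
/-- **the twist ring homomorphism, hypothesis form** -/
theorem exists_tw_of_data
    (he_sum : ∀ φ : Additive (GammaH θ) →+ K, ∑ x, e x φ = φ)
    (he_smul : ∀ x (a : K) (φ : Additive (GammaH θ) →+ K), e x (a • φ) = a • e x φ)
    (he_par : ∀ x (φ : Additive (GammaH θ) →+ K), IsParabolicHom (GammaH θ) φ →
      IsParabolicHom (GammaH θ) (e x φ))
    (he_eig : ∀ x (φ : Additive (GammaH θ) →+ K) (d : Gamma0 N),
      diaH θ K d (e x φ) = εX x (chi θ d) • e x φ)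
    (he_TH : ∀ x (l : PrimesOff S) (φ : Additive (GammaH θ) →+ K),
      e x (TH θ K (not_dvd_level S hS hNN' l) φ) = TH θ K (not_dvd_level S hS hNN' l) (e x φ))
    (he_dia : ∀ x (d : Gamma0 N) (φ : Additive (GammaH θ) →+ K),
      e x (diaH θ K d φ) = diaH θ K d (e x φ))
    (hℛ_smul : ∀ x (a : K) (φ : Additive (GammaH θ) →+ K), ℛ x (a • φ) = a • ℛ x φ)
    (hℛ_par : ∀ x (φ : Additive (GammaH θ) →+ K), IsParabolicHom (GammaH θ) φ →
      IsParabolicHom (GammaH θ') (ℛ x φ))
    (hℛ_inv : ∀ x (φ : Additive (GammaH θ) →+ K),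
      (∀ d : Gamma0 N, diaH θ K d φ = εX x (chi θ d) • φ) → IsInv θ' (ℛ x φ))
    (hℛ_inj : ∀ x (φ : Additive (GammaH θ) →+ K),
      (∀ d : Gamma0 N, diaH θ K d φ = εX x (chi θ d) • φ) → ℛ x φ = 0 → φ = 0)
    (hℛ_TH : ∀ x (l : PrimesOff S) (φ : Additive (GammaH θ) →+ K),
      ℛ x (TH θ K (not_dvd_level S hS hNN' l) φ)
        = c x l • TH θ' K (not_dvd_level' S hS l) (ℛ x φ))
    (hc : ∀ x (l : PrimesOff S), εX x (chi θ (dℓ l)) * c x l = 1) :
    ∃ tw : ↥(heckeAlgebra N' 2 S) →+* Module.End O ↥(parabolicHoms O (GammaH θ) O),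
      (∀ (l : PrimesOff S) (v : ↥(parabolicHoms O (GammaH θ) O)),
        ((tw (formsGenS N' S l) v : ↥(parabolicHoms O (GammaH θ) O)) :
            Additive (GammaH θ) →+ O)
          = diaH θ O (dℓ l) (TH θ O (not_dvd_level S hS hNN' l) (v : Additive (GammaH θ) →+ O))) ∧
      (∀ (l : PrimesOff S) (v : ↥(parabolicHoms O (GammaH θ) O)),
        ((tw (heckeAlgebra.T l.1.2 (not_dvd_level' S hS l) l.2) v :
            ↥(parabolicHoms O (GammaH θ) O)) : Additive (GammaH θ) →+ O)
          = diaH θ O (dℓ l) (TH θ O (not_dvd_level S hS hNN' l)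
              (v : Additive (GammaH θ) →+ O))) := by
  classical
  -- torsion-freeness
  have hAK : ∀ (n : ℕ) (a : K), n ≠ 0 → n • a = 0 → a = 0 := by
    intro n a hn h
    rw [nsmul_eq_mul] at h
    rcases mul_eq_zero.mp h with h | h
    · exact absurd (by exact_mod_cast h) hn
    · exact h
  have hA : ∀ (n : ℤ) (a : X → K), n ≠ 0 → n • a = 0 → a = 0 := by
    intro n a hn h
    funext x
    have hx := congrFun h x
    rw [Pi.smul_apply, zsmul_eq_mul, Pi.zero_apply] at hx
    rcases mul_eq_zero.mp hx with h' | h'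
    · exact absurd (by exact_mod_cast h') hn
    · exact h'
  -- the operators `τ l` on `V`
  let V := ↥(parabolicHoms O (GammaH θ) O)
  let τ : PrimesOff S → Module.End O V := fun l =>
    { toFun := fun v => ⟨diaH θ O (dℓ l) (TH θ O (not_dvd_level S hS hNN' l) v.1),
        isParabolicHom_diaH _ (isParabolicHom_TH _ v.2)⟩
      map_add' := fun v w => by
        apply Subtype.ext
        show diaH θ O (dℓ l) (TH θ O _ (v.1 + w.1)) = _
        rw [map_add, map_add]
        rfl
      map_smul' := fun o v => by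
        apply Subtype.ext
        show diaH θ O (dℓ l) (TH θ O _ (o • v.1)) = o • diaH θ O (dℓ l) (TH θ O _ v.1)
        rw [TH_smul, diaH_smul] }
  -- the intertwiner
  let Rx : X → V → (Additive (Gamma0 N') →+ K) := fun x v =>
    coresH θ' rep' hrep' K (ℛ x (e x (extK (K := K) (GammaH θ) v.1)))
  let R : V →ₗ[O] (Additive (Gamma0 N') →+ (X → K)) :=
    { toFun := fun v => AddMonoidHom.pi fun x => Rx x v
      map_add' := fun v w => by
        refine AddMonoidHom.ext fun g => funext fun x => ?_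
        show Rx x (v + w) g = Rx x v g + Rx x w g
        show coresH θ' rep' hrep' K (ℛ x (e x (extK (K := K) (GammaH θ) (v.1 + w.1)))) g = _
        rw [map_add, map_add, map_add, map_add]
        rfl
      map_smul' := fun o v => by
        refine AddMonoidHom.ext fun g => funext fun x => ?_
        show coresH θ' rep' hrep' K (ℛ x (e x (extK (K := K) (GammaH θ) (o • v.1)))) g
          = o • (coresH θ' rep' hrep' K (ℛ x (e x (extK (K := K) (GammaH θ) v.1))) g)
        rw [extK_smul, he_smul, hℛ_smul, coresH_smul, AddMonoidHom.smul_apply, smul_eq_mul,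
          ← Algebra.smul_def] }
  have hRx : ∀ (v : V) (x : X),
      (Pi.evalAddMonoidHom (fun _ : X => K) x).comp (R v) = Rx x v := fun v x => rfl
  -- eigen-property of the components
  have heig : ∀ (x : X) (v : V) (d : Gamma0 N),
      diaH θ K d (e x (extK (K := K) (GammaH θ) v.1))
        = εX x (chi θ d) • e x (extK (K := K) (GammaH θ) v.1) := fun x v d => he_eig x _ d
  -- injectivity
  have hR : Function.Injective R := by
    rw [injective_iff_map_eq_zero]
    intro v hv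
    have h1 : ∀ x, e x (extK (K := K) (GammaH θ) v.1) = 0 := by
      intro x
      apply hℛ_inj x _ (heig x v)
      apply eq_zero_of_coresH_eq_zero rep' hrep' hAK (hℛ_inv x _ (heig x v))
      have : Rx x v = 0 := by rw [← hRx, hv]; rfl
      exact this
    have h2 : extK (K := K) (GammaH θ) v.1 = 0 := by
      rw [← he_sum (extK (K := K) (GammaH θ) v.1)]
      exact Finset.sum_eq_zero fun x _ => h1 x
    apply Subtype.ext
    apply extK_injective hinj
    rw [h2]
    exact (map_zero _).symm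
  -- parabolicity
  have hpar : ∀ v, IsParabolicHom (Gamma0 N') (R v) := by
    intro v g hg
    funext x
    show Rx x v (Additive.ofMul g) = 0
    exact isParabolicHom_coresH rep' hrep'
      (hℛ_par x _ (he_par x _ (isParabolicHom_extK _ v.2))) g hg
  -- the intertwining relation
  have hτ : ∀ (l : PrimesOff S) (v : V), R (τ l v) = cohGen N' (X → K) l.1 (R v) := by
    intro l v
    refine AddMonoidHom.ext fun g => funext fun x => ?_
    have e1 : (cohGen N' (X → K) l.1 (R v)) g x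
        = ((Pi.evalAddMonoidHom (fun _ : X => K) x).comp (cohGen N' (X → K) l.1 (R v))) g := rfl
    rw [e1, ← cohGen_comp, hRx, cohGen_of_not_dvd N' K l.1 (not_dvd_level' S hS l)]
    show Rx x (τ l v) g = _
    have e2 : Rx x (τ l v) = cohT (not_dvd_level' S hS l) K (Rx x v) := by
      show coresH θ' rep' hrep' K (ℛ x (e x (extK (K := K) (GammaH θ)
        (diaH θ O (dℓ l) (TH θ O (not_dvd_level S hS hNN' l) v.1))))) = _
      rw [extK_eq_comp, ← diaH_comp_hom, ← TH_comp_hom, ← extK_eq_comp, he_dia, he_TH]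
      set w := e x (extK (K := K) (GammaH θ) v.1) with hw
      have hw1 : diaH θ K (dℓ l) (TH θ K (not_dvd_level S hS hNN' l) w)
          = εX x (chi θ (dℓ l)) • TH θ K (not_dvd_level S hS hNN' l) w := by
        rw [diaH_TH, heig x v (dℓ l), TH_smul]
      rw [hw1, hℛ_smul, hℛ_TH, smul_smul, hc, one_smul, coresH_TH]
    rw [e2]
  obtain ⟨tw, h1, -, -, -, -, -⟩ := TwHom.exists_twist_hom' N' S hA R hR hpar τ hτ
  refine ⟨tw, fun l v => ?_, fun l v => ?_⟩
  · rw [h1 l]
    rfl
  · rw [← formsGenS_of_not_dvd N' S l (not_dvd_level' S hS l), h1 l]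
    rfl

end Main

end Fermat.Agent.GB.B4.Twist.Asm

end
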