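/-
GATE-B / B4-TWIST leaf L6-ASM (helper44), second hypothesis form: same as `Asm.exists_tw_of_data`
but the per-index intertwiners are given DIRECTLY as maps
`D x : Hom(Γ_H(N), K) → Hom(Γ₀(N'), K)` (`= cast ∘ ChainD.chainD` of helper97), so that the level of
the chain may depend on `x` up to a propositional equality.

* `castHom h A : Hom(Γ₀(M), A) → Hom(Γ₀(M'), A)` for `h : M = M'`, with `castHom_cohT`,
  `castHom_smul`, `castHom_eq_zero_iff`, `isParabolicHom_castHom`;
* `exists_tw_of_maps`.
-/
import Mathlib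
import Fermat.Agent.GB.B4.Twist.Asm

set_option autoImplicit false

noncomputable section

open scoped MatrixGroups
open CongruenceSubgroup Matrix Matrix.SpecialLinearGroup ModularCurve.Period CuspForm
open Fermat.Agent.S16_helper49 Fermat.Agent.GM.B Fermat.Agent.GM.EisClass
open Fermat.Agent.GB.B3 Fermat.Agent.GB.B3.EisGamma0 Fermat.Agent.GB.B3.GamH
open Fermat.Agent.GJ.J2.ZStruct Fermat.Agent.GJ.J2.Lat

namespace Fermat.Agent.GB.B4.Twist.Asm

/-! ### transport along an equality of levels -/

section Cast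

variable {M M' : ℕ} (h : M = M') (A : Type*) [AddCommGroup A]

/-- transport of classes along an equality of levels -/
def castHom : (Additive (Gamma0 M) →+ A) →+ (Additive (Gamma0 M') →+ A) :=
  h ▸ AddMonoidHom.id _

theorem castHom_rfl (φ : Additive (Gamma0 M) →+ A) : castHom rfl A φ = φ := rfl

variable {A}

theorem castHom_cohT {ℓ : ℕ} [Fact ℓ.Prime] (hℓ : ¬ ℓ ∣ M) (hℓ' : ¬ ℓ ∣ M')
    (φ : Additive (Gamma0 M) →+ A) :
    castHom h A (cohT hℓ A φ) = cohT hℓ' A (castHom h A φ) := by
  subst h
  rfl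

theorem castHom_smul {K : Type*} [Monoid K] [DistribMulAction K A] (a : K)
    (φ : Additive (Gamma0 M) →+ A) : castHom h A (a • φ) = a • castHom h A φ := by
  subst h
  rfl

theorem castHom_eq_zero_iff (φ : Additive (Gamma0 M) →+ A) : castHom h A φ = 0 ↔ φ = 0 := by
  subst h
  rfl

theorem isParabolicHom_castHom {φ : Additive (Gamma0 M) →+ A}
    (hφ : IsParabolicHom (Gamma0 M) φ) : IsParabolicHom (Gamma0 M') (castHom h A φ) := by
  subst h
  exact hφ

end Cast

/-! ### the assembly, second form -/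

section Main2

variable {N N' : ℕ} [NeZero N] [NeZero N'] {Δ : Type} [CommGroup Δ] [Fintype Δ]
  (θ : (ZMod N)ˣ →* Δ)
  (S : Set ℕ) (hS : ∀ q : ℕ, q.Prime → q ∣ N' → q ∈ S) (hNN' : N ∣ N')
  {O : Type*} [CommRing O] {K : Type*} [Field K] [CharZero K] [Algebra O K]
  (hinj : Function.Injective (algebraMap O K))
  {X : Type*} [Fintype X]

/-- local instance (Prop-valued class) -/
local instance factPrimeOff2 (l : PrimesOff S) : Fact (l.1 : ℕ).Prime := ⟨l.1.2⟩

variable (εX : X → Δ → K)
  (e : X → (Additive (GammaH θ) →+ K) →+ (Additive (GammaH θ) →+ K))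
  (D : X → (Additive (GammaH θ) →+ K) →+ (Additive (Gamma0 N') →+ K))
  (c : X → PrimesOff S → K)
  (dℓ : PrimesOff S → Gamma0 N)

include hinj in
/-- **the twist ring homomorphism, second hypothesis form** -/
theorem exists_tw_of_maps
    (he_sum : ∀ φ : Additive (GammaH θ) →+ K, ∑ x, e x φ = φ)
    (he_smul : ∀ x (a : K) (φ : Additive (GammaH θ) →+ K), e x (a • φ) = a • e x φ)
    (he_par : ∀ x (φ : Additive (GammaH θ) →+ K), IsParabolicHom (GammaH θ) φ →
      IsParabolicHom (GammaH θ) (e x φ))
    (he_eig : ∀ x (φ : Additive (GammaH θ) →+ K) (d : Gamma0 N),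
      diaH θ K d (e x φ) = εX x (chi θ d) • e x φ)
    (he_TH : ∀ x (l : PrimesOff S) (φ : Additive (GammaH θ) →+ K),
      e x (TH θ K (not_dvd_level S hS hNN' l) φ) = TH θ K (not_dvd_level S hS hNN' l) (e x φ))
    (he_dia : ∀ x (d : Gamma0 N) (φ : Additive (GammaH θ) →+ K),
      e x (diaH θ K d φ) = diaH θ K d (e x φ))
    (hD_smul : ∀ x (a : K) (φ : Additive (GammaH θ) →+ K), D x (a • φ) = a • D x φ)
    (hD_par : ∀ x (φ : Additive (GammaH θ) →+ K), IsParabolicHom (GammaH θ) φ →
      IsParabolicHom (Gamma0 N') (D x φ))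
    (hD_inj : ∀ x (φ : Additive (GammaH θ) →+ K),
      (∀ d : Gamma0 N, diaH θ K d φ = εX x (chi θ d) • φ) → D x φ = 0 → φ = 0)
    (hD_TH : ∀ x (l : PrimesOff S) (φ : Additive (GammaH θ) →+ K),
      D x (TH θ K (not_dvd_level S hS hNN' l) φ)
        = c x l • cohT (not_dvd_level' S hS l) K (D x φ))
    (hc : ∀ x (l : PrimesOff S), εX x (chi θ (dℓ l)) * c x l = 1) :
    ∃ tw : ↥(heckeAlgebra N' 2 S) →+* Module.End O ↥(parabolicHoms O (GammaH θ) O),
      (∀ (l : PrimesOff S) (v : ↥(parabolicHoms O (GammaH θ) O)),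
        ((tw (formsGenS N' S l) v : ↥(parabolicHoms O (GammaH θ) O)) :
            Additive (GammaH θ) →+ O)
          = diaH θ O (dℓ l) (TH θ O (not_dvd_level S hS hNN' l) (v : Additive (GammaH θ) →+ O))) ∧
      (∀ (l : PrimesOff S) (v : ↥(parabolicHoms O (GammaH θ) O)),
        ((tw (heckeAlgebra.T l.1.2 (not_dvd_level' S hS l) l.2) v :
            ↥(parabolicHoms O (GammaH θ) O)) : Additive (GammaH θ) →+ O)
          = diaH θ O (dℓ l) (TH θ O (not_dvd_level S hS hNN' l)
              (v : Additive (GammaH θ) →+ O))) := by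
  classical
  have hA : ∀ (n : ℤ) (a : X → K), n ≠ 0 → n • a = 0 → a = 0 := by
    intro n a hn h
    funext x
    have hx := congrFun h x
    rw [Pi.smul_apply, zsmul_eq_mul, Pi.zero_apply] at hx
    rcases mul_eq_zero.mp hx with h' | h'
    · exact absurd (by exact_mod_cast h') hn
    · exact h'
  let V := ↥(parabolicHoms O (GammaH θ) O)
  let τ : PrimesOff S → Module.End O V := fun l =>
    { toFun := fun v => ⟨diaH θ O (dℓ l) (TH θ O (not_dvd_level S hS hNN' l) v.1),
        isParabolicHom_diaH _ (isParabolicHom_TH _ v.2)⟩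
      map_add' := fun v w => by
        apply Subtype.ext
        show diaH θ O (dℓ l) (TH θ O _ (v.1 + w.1)) = _
        rw [map_add, map_add]
        rfl
      map_smul' := fun o v => by
        apply Subtype.ext
        show diaH θ O (dℓ l) (TH θ O _ (o • v.1)) = o • diaH θ O (dℓ l) (TH θ O _ v.1)
        rw [TH_smul, diaH_smul] }
  let Rx : X → V → (Additive (Gamma0 N') →+ K) := fun x v =>
    D x (e x (extK (K := K) (GammaH θ) v.1))
  let R : V →ₗ[O] (Additive (Gamma0 N') →+ (X → K)) :=
    { toFun := fun v => AddMonoidHom.pi fun x => Rx x v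
      map_add' := fun v w => by
        refine AddMonoidHom.ext fun g => funext fun x => ?_
        show D x (e x (extK (K := K) (GammaH θ) (v.1 + w.1))) g = _
        rw [map_add, map_add, map_add]
        rfl
      map_smul' := fun o v => by
        refine AddMonoidHom.ext fun g => funext fun x => ?_
        show D x (e x (extK (K := K) (GammaH θ) (o • v.1))) g
          = o • (D x (e x (extK (K := K) (GammaH θ) v.1)) g)
        rw [extK_smul, he_smul, hD_smul, AddMonoidHom.smul_apply, smul_eq_mul,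
          ← Algebra.smul_def] }
  have hRx : ∀ (v : V) (x : X),
      (Pi.evalAddMonoidHom (fun _ : X => K) x).comp (R v) = Rx x v := fun v x => rfl
  have heig : ∀ (x : X) (v : V) (d : Gamma0 N),
      diaH θ K d (e x (extK (K := K) (GammaH θ) v.1))
        = εX x (chi θ d) • e x (extK (K := K) (GammaH θ) v.1) := fun x v d => he_eig x _ d
  have hR : Function.Injective R := by
    rw [injective_iff_map_eq_zero]
    intro v hv
    have h1 : ∀ x, e x (extK (K := K) (GammaH θ) v.1) = 0 := by
      intro x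
      apply hD_inj x _ (heig x v)
      have : Rx x v = 0 := by rw [← hRx, hv]; rfl
      exact this
    have h2 : extK (K := K) (GammaH θ) v.1 = 0 := by
      rw [← he_sum (extK (K := K) (GammaH θ) v.1)]
      exact Finset.sum_eq_zero fun x _ => h1 x
    apply Subtype.ext
    apply extK_injective hinj
    rw [h2]
    exact (map_zero _).symm
  have hpar : ∀ v, IsParabolicHom (Gamma0 N') (R v) := by
    intro v g hg
    funext x
    show Rx x v (Additive.ofMul g) = 0
    exact hD_par x _ (he_par x _ (isParabolicHom_extK _ v.2)) g hg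
  have hτ : ∀ (l : PrimesOff S) (v : V), R (τ l v) = cohGen N' (X → K) l.1 (R v) := by
    intro l v
    refine AddMonoidHom.ext fun g => funext fun x => ?_
    have e1 : (cohGen N' (X → K) l.1 (R v)) g x
        = ((Pi.evalAddMonoidHom (fun _ : X => K) x).comp (cohGen N' (X → K) l.1 (R v))) g := rfl
    rw [e1, ← cohGen_comp, hRx, cohGen_of_not_dvd N' K l.1 (not_dvd_level' S hS l)]
    show Rx x (τ l v) g = _
    have e2 : Rx x (τ l v) = cohT (not_dvd_level' S hS l) K (Rx x v) := by
      show D x (e x (extK (K := K) (GammaH θ)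
        (diaH θ O (dℓ l) (TH θ O (not_dvd_level S hS hNN' l) v.1)))) = _
      rw [extK_eq_comp, ← diaH_comp_hom, ← TH_comp_hom, ← extK_eq_comp, he_dia, he_TH]
      set w := e x (extK (K := K) (GammaH θ) v.1) with hw
      have hw1 : diaH θ K (dℓ l) (TH θ K (not_dvd_level S hS hNN' l) w)
          = εX x (chi θ (dℓ l)) • TH θ K (not_dvd_level S hS hNN' l) w := by
        rw [diaH_TH, heig x v (dℓ l), TH_smul]
      rw [hw1, hD_smul, hD_TH, smul_smul, hc, one_smul]
    rw [e2]
  obtain ⟨tw, h1, -, -, -, -, -⟩ := TwHom.exists_twist_hom' N' S hA R hR hpar τ hτ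
  refine ⟨tw, fun l v => ?_, fun l v => ?_⟩
  · rw [h1 l]
    rfl
  · rw [← formsGenS_of_not_dvd N' S l (not_dvd_level' S hS l), h1 l]
    rfl

end Main2

end Fermat.Agent.GB.B4.Twist.Asm

end
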