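/-
GATE-B / B4-TWIST (helper97): **descent of the iterated twist to `Γ₀(N')`**.

`chainD := cores ∘ chainR : Hom(GammaH θ, A) → Hom(Γ₀(chainLevel N L), A)` (helper2's transfer
`GamH.coresH` at the final level, for a section `rep` of `χ_{θ'}`).

* `chainD_TH` : `chainD (T_ℓ φ) = (∏ ψ_i(ℓ)) • T_ℓ (chainD φ)`, `T_ℓ = cohT` on `Γ₀(chainLevel N L)`;
* `chainD_UH` : the same for `U_q = cohU`;
* `chainD_par` : parabolic classes go to parabolic classes;
* `resH_chainD` : on the `∏ ν_i`-eigenvectors of the `Γ₀(N)`-conjugations,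
  `res (chainD φ) = |Δ| • chainR φ`; hence
* `chainD_eq_zero` : if `A` has no `|Δ|`-torsion and `chainR φ = 0 → φ = 0`, then
  `chainD φ = 0 → φ = 0`.
-/
import Mathlib
import Fermat.Agent.GB.B4.Twist.Chain

set_option autoImplicit false

open scoped MatrixGroups
open CongruenceSubgroup Matrix Matrix.SpecialLinearGroup ModularCurve.Period
open P2MW.S_ModularForm_heckeT_slash_eq_self_of_mem_Gamma0.ModularForm.HeckeSlashInvariance
open Fermat.Agent.S16_helper49 Fermat.Agent.GM.B Fermat.Agent.GM.EisClass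
open Fermat.Agent.GM.B5
open Fermat.Agent.GB.B3 Fermat.Agent.GB.B3.EisGamma0 Fermat.Agent.GB.B3.GamH
open Fermat.Agent.GB.B4.Twist Fermat.Agent.GB.B4.Twist.RPsi Fermat.Agent.GB.B4.Twist.Chain

namespace Fermat.Agent.GB.B4.Twist.ChainD

/-- coset operators commute with the scalars -/
theorem op_smul {H G : Type*} [Group H] [Group G] {emb : H →* G} {Γ₁ Γ₂ : Subgroup H}
    (S : CosetSys emb Γ₁ Γ₂) {R : Type*} [CommRing R] {A : Type*} [AddCommGroup A] [Module R A]
    (c : R) (φ : Additive Γ₁ →+ A) : S.op A (c • φ) = c • S.op A φ := by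
  refine AddMonoidHom.ext fun g => ?_
  obtain ⟨g, rfl⟩ : ∃ g' : Γ₂, Additive.ofMul g' = g := ⟨Additive.toMul g, rfl⟩
  rw [CosetSys.op_apply, AddMonoidHom.smul_apply, CosetSys.op_apply, Finset.smul_sum]
  rfl

variable {R : Type*} [CommRing R] {Δ : Type} [CommGroup Δ] [Fintype Δ]
  {A : Type*} [AddCommGroup A] [Module R A]

/-- **the iterated twist followed by the transfer to `Γ₀(chainLevel N L)`** -/
noncomputable def chainD (N : ℕ) (θ : (ZMod N)ˣ →* Δ) (L : List (TwDatum R Δ)) (h : Adm N θ L)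
    (rep : Δ → Gamma0 (chainLevel N L)) (hrep : ∀ δ, chi (chainθ N θ L) (rep δ) = δ) :
    (Additive (GammaH θ) →+ A) →+ (Additive (Gamma0 (chainLevel N L)) →+ A) :=
  (coresH (chainθ N θ L) rep hrep A).comp (chainR N θ L h).toAddMonoidHom

variable (N : ℕ) (θ : (ZMod N)ˣ →* Δ) (L : List (TwDatum R Δ)) (h : Adm N θ L)
  (rep : Δ → Gamma0 (chainLevel N L)) (hrep : ∀ δ, chi (chainθ N θ L) (rep δ) = δ)

theorem chainD_apply (φ : Additive (GammaH θ) →+ A) :
    chainD N θ L h rep hrep φ = coresH (chainθ N θ L) rep hrep A (chainR N θ L h φ) := rfl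

/-- **`T_ℓ`-equivariance** -/
theorem chainD_TH {ℓ : ℕ} [Fact ℓ.Prime] (hℓ : ¬ ℓ ∣ chainLevel N L)
    (φ : Additive (GammaH θ) →+ A) :
    chainD N θ L h rep hrep (TH θ A (not_dvd_base hℓ) φ)
      = chainPsi L ℓ • cohT hℓ A (chainD N θ L h rep hrep φ) := by
  rw [chainD_apply, chainD_apply, chainR_TH N θ L h hℓ φ, ← coresH_TH]
  exact op_smul _ _ _

/-- **`U_q`-equivariance** -/
theorem chainD_UH {q : ℕ} [NeZero q] (hqN : q ∣ N) (hq : ∀ d ∈ L, Nat.Coprime q d.r)
    (φ : Additive (GammaH θ) →+ A) :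
    chainD N θ L h rep hrep (UH θ A hqN φ)
      = chainPsi L q • cohU (hqN.trans (dvd_chainLevel N L)) A
          (chainD N θ L h rep hrep φ) := by
  rw [chainD_apply, chainD_apply, chainR_UH N θ L h hqN hq φ, ← coresH_UH]
  exact op_smul _ _ _

/-- **parabolic classes go to parabolic classes** -/
theorem chainD_par (φ : Additive (GammaH θ) →+ A) (hφ : IsParabolicHom (GammaH θ) φ) :
    IsParabolicHom (Gamma0 (chainLevel N L)) (chainD N θ L h rep hrep φ) :=
  op_isParabolicHom _ _ (chainR_par N θ L h φ hφ)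

/-- on the `∏ ν`-eigenvectors, `res ∘ chainD = |Δ| • chainR` -/
theorem resH_chainD (φ : Additive (GammaH θ) →+ A)
    (hφ : ∀ (x : Gamma0 N) (k : GammaH θ),
      φ (Additive.ofMul (conjK (chi θ) x k))
        = ((((L.map (fun d => d.ν)).prod (chi θ x) : Rˣ)) : R) • φ (Additive.ofMul k)) :
    resH (chainθ N θ L) A (chainD N θ L h rep hrep φ)
      = Fintype.card Δ • chainR N θ L h φ := by
  rw [chainD_apply, resH_coresH]
  have hinv : ∀ δ : Δ, diaH (chainθ N θ L) A (rep δ) (chainR N θ L h φ) = chainR N θ L h φ := by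
    intro δ
    refine AddMonoidHom.ext fun k => ?_
    obtain ⟨k, rfl⟩ : ∃ k' : GammaH (chainθ N θ L), Additive.ofMul k' = k :=
      ⟨Additive.toMul k, rfl⟩
    rw [diaH_apply]
    exact chainR_conj_invariant N θ L h φ hφ (rep δ) k
  simp_rw [hinv]
  rw [Finset.sum_const, Finset.card_univ]

/-- **injectivity of the descent** on the `∏ ν`-eigenvectors -/
theorem chainD_eq_zero (hA : ∀ a : A, Fintype.card Δ • a = 0 → a = 0)
    (φ : Additive (GammaH θ) →+ A)
    (hφ : ∀ (x : Gamma0 N) (k : GammaH θ),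
      φ (Additive.ofMul (conjK (chi θ) x k))
        = ((((L.map (fun d => d.ν)).prod (chi θ x) : Rˣ)) : R) • φ (Additive.ofMul k))
    (hinj : chainR N θ L h φ = 0 → φ = 0)
    (h0 : chainD N θ L h rep hrep φ = 0) : φ = 0 := by
  apply hinj
  have h1 := resH_chainD N θ L h rep hrep φ hφ
  rw [h0, map_zero] at h1
  refine AddMonoidHom.ext fun k => ?_
  rw [AddMonoidHom.zero_apply]
  apply hA
  have h2 := DFunLike.congr_fun h1 k
  rw [AddMonoidHom.zero_apply, AddMonoidHom.smul_apply] at h2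
  exact h2.symm

end Fermat.Agent.GB.B4.Twist.ChainD
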