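/-
GATE-B / B4-TWIST (helper44), file 1: the unipotent matrices `α(x) = [1 x; 0 1] ∈ GL₂(ℝ)` of the
character twist and their relations with `SL(2, ℤ)` and with the Hecke representatives.

* `uGL x`                : `[1 x; 0 1]`, `uGL_add`, `uGL_zero`, `uGL_neg`;
* `twMat g r v v' c₂ e`  : the integer matrix `α(v/r) g α(v'/r)⁻¹` for `g ∈ SL(2, ℤ)` with
  `g₁₀ = r² c₂` and `g₁₁ v - g₀₀ v' = r e`;
* `uGL_mul_embR`         : **the twist relation** `α(v/r) · g = twMat … · α(v'/r)`;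
* `uGL_mul_heckeRep_coe`, `uGL_mul_heckeRep_infty` : `α(x) [1 j; 0 ℓ] = [1 j; 0 ℓ] α(ℓ x)` and
  `α(ℓ x) diag(ℓ, 1) = diag(ℓ, 1) α(x)`;
* `uGL_intCast_eq`       : `α(k) = embR (T^k)` for an integer `k`.
-/
import Mathlib
import Fermat.Agent.GM.B.Hecke

set_option autoImplicit false

open scoped MatrixGroups
open CongruenceSubgroup Matrix Matrix.SpecialLinearGroup
open P2MW.S_ModularForm_heckeT_slash_eq_self_of_mem_Gamma0.ModularForm.HeckeSlashInvariance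
open P2MW.S_ModularForm_heckeT_slash_eq_self_of_mem_Gamma0.ModularForm
open Fermat.Agent.GM.B

namespace Fermat.Agent.GB.B4.Twist

/-- the unipotent matrix `[1 x; 0 1]` -/
noncomputable def uGL (x : ℝ) : GL (Fin 2) ℝ :=
  Matrix.GeneralLinearGroup.mkOfDetNeZero !![1, x; 0, 1]
    (by rw [Matrix.det_fin_two_of]; norm_num)

@[simp] theorem val_uGL (x : ℝ) :
    ((uGL x : GL (Fin 2) ℝ) : Matrix (Fin 2) (Fin 2) ℝ) = !![1, x; 0, 1] := rfl

theorem uGL_add (x y : ℝ) : uGL (x + y) = uGL x * uGL y := by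
  apply Matrix.GeneralLinearGroup.ext
  intro i j
  rw [Matrix.GeneralLinearGroup.coe_mul]
  fin_cases i <;> fin_cases j <;> simp [Matrix.mul_apply, Fin.sum_univ_two, add_comm]

theorem uGL_zero : uGL 0 = 1 := by
  apply Matrix.GeneralLinearGroup.ext
  intro i j
  fin_cases i <;> fin_cases j <;> simp

theorem uGL_neg (x : ℝ) : uGL (-x) = (uGL x)⁻¹ := by
  rw [eq_inv_iff_mul_eq_one, ← uGL_add, neg_add_cancel, uGL_zero]

theorem uGL_mul_uGL_neg (x : ℝ) : uGL x * uGL (-x) = 1 := by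
  rw [← uGL_add, add_neg_cancel, uGL_zero]

theorem uGL_comm (x y : ℝ) : uGL x * uGL y = uGL y * uGL x := by
  rw [← uGL_add, ← uGL_add, add_comm]

/-- the integer matrix `α(v/r) g α(v'/r)⁻¹`, where `g₁₀ = r² c₂` and `g₁₁ v - g₀₀ v' = r e` -/
def twMat (g : SL(2, ℤ)) (r v v' c₂ e : ℤ) (hc : g 1 0 = r ^ 2 * c₂)
    (he : g 1 1 * v - g 0 0 * v' = r * e) : SL(2, ℤ) :=
  ⟨!![g 0 0 + r * c₂ * v, g 0 1 + e - c₂ * v * v'; r ^ 2 * c₂, g 1 1 - r * c₂ * v'], by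
    have hdet : g 0 0 * g 1 1 - g 0 1 * g 1 0 = 1 := by
      have := g.det_coe
      rwa [Matrix.det_fin_two] at this
    rw [Matrix.det_fin_two_of]
    rw [hc] at hdet
    linear_combination hdet + r * c₂ * he⟩

section Entries

variable (g : SL(2, ℤ)) (r v v' c₂ e : ℤ) (hc : g 1 0 = r ^ 2 * c₂)
  (he : g 1 1 * v - g 0 0 * v' = r * e)

@[simp] theorem twMat_00 : (twMat g r v v' c₂ e hc he) 0 0 = g 0 0 + r * c₂ * v := rfl
@[simp] theorem twMat_01 : (twMat g r v v' c₂ e hc he) 0 1 = g 0 1 + e - c₂ * v * v' := rfl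
@[simp] theorem twMat_10 : (twMat g r v v' c₂ e hc he) 1 0 = r ^ 2 * c₂ := rfl
@[simp] theorem twMat_11 : (twMat g r v v' c₂ e hc he) 1 1 = g 1 1 - r * c₂ * v' := rfl

theorem twMat_10' : (twMat g r v v' c₂ e hc he) 1 0 = g 1 0 := by rw [twMat_10, hc]

end Entries

/-- **the twist relation** `α(v/r) · g = (α(v/r) g α(v'/r)⁻¹) · α(v'/r)` -/
theorem uGL_mul_embR (g : SL(2, ℤ)) (r v v' c₂ e : ℤ) (hr : r ≠ 0) (hc : g 1 0 = r ^ 2 * c₂)
    (he : g 1 1 * v - g 0 0 * v' = r * e) :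
    uGL ((v : ℝ) / r) * embR g = embR (twMat g r v v' c₂ e hc he) * uGL ((v' : ℝ) / r) := by
  have hr' : (r : ℝ) ≠ 0 := by exact_mod_cast hr
  have hc' : ((g 1 0 : ℤ) : ℝ) = (r : ℝ) ^ 2 * c₂ := by exact_mod_cast hc
  have he' : ((g 1 1 : ℤ) : ℝ) * v - (g 0 0 : ℤ) * v' = (r : ℝ) * e := by exact_mod_cast he
  apply Matrix.GeneralLinearGroup.ext
  intro i j
  rw [Matrix.GeneralLinearGroup.coe_mul, Matrix.GeneralLinearGroup.coe_mul]
  fin_cases i <;> fin_cases j <;>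
    simp [Matrix.mul_apply, Fin.sum_univ_two, hc']
  · field_simp
  · field_simp
    linear_combination he'
  · field_simp
    ring

/-- `α(k) = T^k` for an integer `k` -/
theorem uGL_intCast_eq (k : ℤ) :
    uGL (k : ℝ) = embR ⟨!![1, k; 0, 1], by rw [Matrix.det_fin_two_of]; ring⟩ := by
  apply Matrix.GeneralLinearGroup.ext
  intro i j
  fin_cases i <;> fin_cases j <;> simp

section HeckeRep

variable {ℓ : ℕ}

/-- `α(x) · [1 j; 0 ℓ] = [1 j; 0 ℓ] · α(ℓ x)` -/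
theorem uGL_mul_heckeMatrix (hℓ : ℓ ≠ 0) (j : ℕ) (x : ℝ) :
    uGL x * heckeMatrix ℓ j = heckeMatrix ℓ j * uGL (ℓ * x) := by
  apply Matrix.GeneralLinearGroup.ext
  intro i k
  rw [Matrix.GeneralLinearGroup.coe_mul, Matrix.GeneralLinearGroup.coe_mul]
  fin_cases i <;> fin_cases k <;>
    simp [Matrix.mul_apply, Fin.sum_univ_two, ModularForm.val_heckeMatrix hℓ]
  ring

/-- `α(ℓ x) · diag(ℓ, 1) = diag(ℓ, 1) · α(x)` -/
theorem uGL_mul_heckeDiagMatrix (hℓ : ℓ ≠ 0) (x : ℝ) :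
    uGL (ℓ * x) * heckeDiagMatrix ℓ = heckeDiagMatrix ℓ * uGL x := by
  apply Matrix.GeneralLinearGroup.ext
  intro i k
  rw [Matrix.GeneralLinearGroup.coe_mul, Matrix.GeneralLinearGroup.coe_mul]
  fin_cases i <;> fin_cases k <;>
    simp [Matrix.mul_apply, Fin.sum_univ_two, ModularForm.val_heckeDiagMatrix hℓ]

end HeckeRep

end Fermat.Agent.GB.B4.Twist
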