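/-
GATE-B / B4-TWIST, leaf L5 (helper44): complements to `Alpha.lean`.

* `twMat1 g r v v' c₁ e` : the integer matrix `α(v/r) g α(v'/r)⁻¹` when only `r ∣ g₁₀`
  (`g₁₀ = r c₁`) and `g₁₁ v - g₀₀ v' - c₁ v v' = r e`; `uGL_mul_embR1` : the twist relation;
* `lowerU M = [1 0; M 1]`, `lowerConj M g = [1 0; M 1] g [1 0; M 1]⁻¹` with explicit entries;
* `exists_pow_mem_Gamma` : every element of `SL(2, ℤ)` has a positive power in `Γ(n)`.
-/
import Mathlib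
import Fermat.Agent.GB.B4.Twist.Alpha

set_option autoImplicit false

open scoped MatrixGroups
open CongruenceSubgroup Matrix Matrix.SpecialLinearGroup
open Fermat.Agent.GM.B

namespace Fermat.Agent.GB.B4.Twist

/-- the integer matrix `α(v/r) g α(v'/r)⁻¹`, where `g₁₀ = r c₁` and
`g₁₁ v - g₀₀ v' - c₁ v v' = r e` -/
def twMat1 (g : SL(2, ℤ)) (r v v' c₁ e : ℤ) (hc : g 1 0 = r * c₁)
    (he : g 1 1 * v - g 0 0 * v' - c₁ * v * v' = r * e) : SL(2, ℤ) :=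
  ⟨!![g 0 0 + c₁ * v, g 0 1 + e; r * c₁, g 1 1 - c₁ * v'], by
    have hdet : g 0 0 * g 1 1 - g 0 1 * g 1 0 = 1 := by
      have := g.det_coe
      rwa [Matrix.det_fin_two] at this
    rw [Matrix.det_fin_two_of]
    rw [hc] at hdet
    linear_combination hdet + c₁ * he⟩

section Entries

variable (g : SL(2, ℤ)) (r v v' c₁ e : ℤ) (hc : g 1 0 = r * c₁)
  (he : g 1 1 * v - g 0 0 * v' - c₁ * v * v' = r * e)

@[simp] theorem twMat1_00 : (twMat1 g r v v' c₁ e hc he) 0 0 = g 0 0 + c₁ * v := rfl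
@[simp] theorem twMat1_01 : (twMat1 g r v v' c₁ e hc he) 0 1 = g 0 1 + e := rfl
@[simp] theorem twMat1_10 : (twMat1 g r v v' c₁ e hc he) 1 0 = r * c₁ := rfl
@[simp] theorem twMat1_11 : (twMat1 g r v v' c₁ e hc he) 1 1 = g 1 1 - c₁ * v' := rfl

end Entries

/-- **the twist relation**, general form -/
theorem uGL_mul_embR1 (g : SL(2, ℤ)) (r v v' c₁ e : ℤ) (hr : r ≠ 0) (hc : g 1 0 = r * c₁)
    (he : g 1 1 * v - g 0 0 * v' - c₁ * v * v' = r * e) :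
    uGL ((v : ℝ) / r) * embR g = embR (twMat1 g r v v' c₁ e hc he) * uGL ((v' : ℝ) / r) := by
  have hr' : (r : ℝ) ≠ 0 := by exact_mod_cast hr
  have hc' : ((g 1 0 : ℤ) : ℝ) = (r : ℝ) * c₁ := by exact_mod_cast hc
  have he' : ((g 1 1 : ℤ) : ℝ) * v - (g 0 0 : ℤ) * v' - (c₁ : ℝ) * v * v' = (r : ℝ) * e := by
    exact_mod_cast he
  apply Matrix.GeneralLinearGroup.ext
  intro i j
  rw [Matrix.GeneralLinearGroup.coe_mul, Matrix.GeneralLinearGroup.coe_mul]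
  fin_cases i <;> fin_cases j <;>
    simp [Matrix.mul_apply, Fin.sum_univ_two, hc']
  · field_simp
  · field_simp
    linear_combination he'
  · field_simp
    ring

/-- `[1 0; M 1]` -/
def lowerU (M : ℤ) : SL(2, ℤ) := ⟨!![1, 0; M, 1], by rw [Matrix.det_fin_two_of]; ring⟩

@[simp] theorem lowerU_00 (M : ℤ) : (lowerU M) 0 0 = 1 := rfl
@[simp] theorem lowerU_01 (M : ℤ) : (lowerU M) 0 1 = 0 := rfl
@[simp] theorem lowerU_10 (M : ℤ) : (lowerU M) 1 0 = M := rfl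
@[simp] theorem lowerU_11 (M : ℤ) : (lowerU M) 1 1 = 1 := rfl

/-- `[1 0; M 1] g [1 0; M 1]⁻¹` with explicit entries -/
def lowerConj (M : ℤ) (g : SL(2, ℤ)) : SL(2, ℤ) :=
  ⟨!![g 0 0 - g 0 1 * M, g 0 1;
      M * (g 0 0 - g 1 1) + g 1 0 - M ^ 2 * g 0 1, g 1 1 + M * g 0 1], by
    have hdet : g 0 0 * g 1 1 - g 0 1 * g 1 0 = 1 := by
      have := g.det_coe
      rwa [Matrix.det_fin_two] at this
    rw [Matrix.det_fin_two_of]
    linear_combination hdet⟩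

@[simp] theorem lowerConj_00 (M : ℤ) (g : SL(2, ℤ)) :
    (lowerConj M g) 0 0 = g 0 0 - g 0 1 * M := rfl
@[simp] theorem lowerConj_01 (M : ℤ) (g : SL(2, ℤ)) : (lowerConj M g) 0 1 = g 0 1 := rfl
@[simp] theorem lowerConj_10 (M : ℤ) (g : SL(2, ℤ)) :
    (lowerConj M g) 1 0 = M * (g 0 0 - g 1 1) + g 1 0 - M ^ 2 * g 0 1 := rfl
@[simp] theorem lowerConj_11 (M : ℤ) (g : SL(2, ℤ)) :
    (lowerConj M g) 1 1 = g 1 1 + M * g 0 1 := rfl

theorem lowerU_mul (M : ℤ) (g : SL(2, ℤ)) : lowerU M * g = lowerConj M g * lowerU M := by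
  ext i j
  fin_cases i <;> fin_cases j <;>
    simp [Matrix.mul_apply, Fin.sum_univ_two, lowerU, lowerConj] <;> ring

theorem lowerConj_eq (M : ℤ) (g : SL(2, ℤ)) : lowerConj M g = lowerU M * g * (lowerU M)⁻¹ := by
  rw [lowerU_mul, mul_inv_cancel_right]

/-- every element of `SL(2, ℤ)` has a positive power in `Γ(n)` -/
theorem exists_pow_mem_Gamma (n : ℕ) [NeZero n] (g : SL(2, ℤ)) :
    ∃ k : ℕ, 0 < k ∧ g ^ k ∈ Gamma n := by
  have hfin : IsOfFinOrder (SpecialLinearGroup.map (Int.castRingHom (ZMod n)) g) :=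
    isOfFinOrder_of_finite _
  obtain ⟨k, hk, hpow⟩ := isOfFinOrder_iff_pow_eq_one.mp hfin
  refine ⟨k, hk, ?_⟩
  rw [Gamma_mem', map_pow]
  exact hpow

end Fermat.Agent.GB.B4.Twist
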