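/-
GATE-B / B4-TWIST (helper44), file 2: the groups of the twist, in the vocabulary of `GB/B3`
(`kerSub`, `chi θ`, `heckeSysD`, `kerSys`).

For a level `N`, a quotient `θ : (ZMod N)ˣ →* Δ` and a divisor `r ∣ N`:

* `GH θ = kerSub (chi θ)`          : `Γ_H = {g ∈ Γ₀(N) | θ (d mod N) = 1}`;
* `chiR θ hr : GH θ →* (ZMod r)ˣ`   : `d mod r` on `Γ_H`;
* `G1 θ hr = kerSub (chiR θ hr)`    : `{g ∈ Γ_H | d ≡ 1 (mod r)}`;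
* `mem_GH_iff`, `mem_G1_iff`, `ghMk`, `g1Mk` : membership API in terms of matrix entries;
* `TH θ hℓ`, `T1 θ hr hℓ`           : the Hecke coset systems `T_ℓ` on `Γ_H` and on `G1`
  (restrictions of `heckeSysD`), with their representatives.
-/
import Mathlib
import Fermat.Agent.GB.B3.KerSys
import Fermat.Agent.GB.B3.HeckeD

set_option autoImplicit false

noncomputable section

open scoped MatrixGroups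
open CongruenceSubgroup Matrix Matrix.SpecialLinearGroup
open P2MW.S_ModularForm_heckeT_slash_eq_self_of_mem_Gamma0.ModularForm.HeckeSlashInvariance
open Fermat.Agent.S16_helper49 Fermat.Agent.GM.B Fermat.Agent.GM.EisClass
open Fermat.Agent.GB.B3 Fermat.Agent.GB.B3.EisGamma0 Fermat.Agent.GB.B3.HeckeD

namespace Fermat.Agent.GB.B4.Twist

variable {N : ℕ} {Δ : Type} [CommGroup Δ]

/-! ### `Γ_H` -/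

/-- `Γ_H = ker (θ ∘ (d mod N)) ≤ Γ₀(N)`, as a subgroup of `SL(2, ℤ)` -/
abbrev GH (θ : (ZMod N)ˣ →* Δ) : Subgroup SL(2, ℤ) := kerSub (chi θ)

theorem mem_GH_iff (θ : (ZMod N)ˣ →* Δ) (g : SL(2, ℤ)) :
    g ∈ GH θ ↔ ∃ h : g ∈ Gamma0 N, chi θ ⟨g, h⟩ = 1 := by
  constructor
  · rintro ⟨g₀, hg₀, rfl⟩
    exact ⟨g₀.2, hg₀⟩
  · rintro ⟨h, hθ⟩
    exact ⟨⟨g, h⟩, hθ, rfl⟩

/-- constructor for elements of `Γ_H` -/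
def ghMk (θ : (ZMod N)ˣ →* Δ) (g : SL(2, ℤ)) (h : g ∈ Gamma0 N) (hθ : chi θ ⟨g, h⟩ = 1) : GH θ :=
  kerMk (chi θ) ⟨g, h⟩ hθ

@[simp] theorem coe_ghMk (θ : (ZMod N)ˣ →* Δ) (g : SL(2, ℤ)) (h : g ∈ Gamma0 N)
    (hθ : chi θ ⟨g, h⟩ = 1) : ((ghMk θ g h hθ : GH θ) : SL(2, ℤ)) = g := rfl

theorem GH_le_Gamma0 (θ : (ZMod N)ˣ →* Δ) : GH θ ≤ Gamma0 N := kerSub_le (chi θ)

/-! ### `d mod r` -/

/-- `d mod r` on `Γ₀(N)` for `r ∣ N` -/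
def dModR {r : ℕ} (hr : r ∣ N) : Gamma0 N →* (ZMod r)ˣ :=
  (ZMod.unitsMap hr).comp (dUnits N)

theorem coe_dModR {r : ℕ} (hr : r ∣ N) (g : Gamma0 N) :
    ((dModR hr g : (ZMod r)ˣ) : ZMod r) = (((g : SL(2, ℤ)) 1 1 : ℤ) : ZMod r) := by
  show (ZMod.castHom hr (ZMod r)) ((dUnits N g : (ZMod N)ˣ) : ZMod N) = _
  rw [coe_dUnits]
  unfold dN
  rw [map_intCast]

theorem dModR_eq_one_iff {r : ℕ} (hr : r ∣ N) (g : Gamma0 N) :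
    dModR hr g = 1 ↔ (r : ℤ) ∣ (g : SL(2, ℤ)) 1 1 - 1 := by
  rw [← Units.val_inj, coe_dModR, Units.val_one, ← ZMod.intCast_zmod_eq_zero_iff_dvd,
    Int.cast_sub, Int.cast_one, sub_eq_zero]

/-- `d mod r` on `Γ_H` -/
def chiR (θ : (ZMod N)ˣ →* Δ) {r : ℕ} (hr : r ∣ N) : GH θ →* (ZMod r)ˣ :=
  (dModR hr).comp (kerIncl (chi θ))

theorem chiR_eq_one_iff (θ : (ZMod N)ˣ →* Δ) {r : ℕ} (hr : r ∣ N) (k : GH θ) :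
    chiR θ hr k = 1 ↔ (r : ℤ) ∣ (k : SL(2, ℤ)) 1 1 - 1 :=
  dModR_eq_one_iff hr (kerIncl (chi θ) k)

/-! ### `G1` -/

/-- `{g ∈ Γ_H | d ≡ 1 (mod r)}` -/
abbrev G1 (θ : (ZMod N)ˣ →* Δ) {r : ℕ} (hr : r ∣ N) : Subgroup SL(2, ℤ) := kerSub (chiR θ hr)

theorem G1_le_GH (θ : (ZMod N)ˣ →* Δ) {r : ℕ} (hr : r ∣ N) : G1 θ hr ≤ GH θ :=
  kerSub_le (chiR θ hr)

theorem mem_G1_iff (θ : (ZMod N)ˣ →* Δ) {r : ℕ} (hr : r ∣ N) (g : SL(2, ℤ)) :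
    g ∈ G1 θ hr ↔ ∃ h : g ∈ Gamma0 N, chi θ ⟨g, h⟩ = 1 ∧ (r : ℤ) ∣ g 1 1 - 1 := by
  constructor
  · rintro ⟨k, hk, rfl⟩
    obtain ⟨h, hθ⟩ := (mem_GH_iff θ _).mp k.2
    exact ⟨h, hθ, (chiR_eq_one_iff θ hr k).mp hk⟩
  · rintro ⟨h, hθ, hd⟩
    exact ⟨ghMk θ g h hθ, (chiR_eq_one_iff θ hr _).mpr hd, rfl⟩

/-- constructor for elements of `G1` -/
def g1Mk (θ : (ZMod N)ˣ →* Δ) {r : ℕ} (hr : r ∣ N) (g : SL(2, ℤ)) (h : g ∈ Gamma0 N)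
    (hθ : chi θ ⟨g, h⟩ = 1) (hd : (r : ℤ) ∣ g 1 1 - 1) : G1 θ hr :=
  kerMk (chiR θ hr) (ghMk θ g h hθ) ((chiR_eq_one_iff θ hr _).mpr hd)

@[simp] theorem coe_g1Mk (θ : (ZMod N)ˣ →* Δ) {r : ℕ} (hr : r ∣ N) (g : SL(2, ℤ))
    (h : g ∈ Gamma0 N) (hθ : chi θ ⟨g, h⟩ = 1) (hd : (r : ℤ) ∣ g 1 1 - 1) :
    ((g1Mk θ hr g h hθ hd : G1 θ hr) : SL(2, ℤ)) = g := rfl

theorem mem_Gamma0_of_mem_G1 (θ : (ZMod N)ˣ →* Δ) {r : ℕ} (hr : r ∣ N) (k : G1 θ hr) :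
    (k : SL(2, ℤ)) ∈ Gamma0 N :=
  GH_le_Gamma0 θ (G1_le_GH θ hr k.2)

theorem chi_of_mem_G1 (θ : (ZMod N)ˣ →* Δ) {r : ℕ} (hr : r ∣ N) (k : G1 θ hr) :
    chi θ ⟨(k : SL(2, ℤ)), mem_Gamma0_of_mem_G1 θ hr k⟩ = 1 := by
  obtain ⟨h, hθ, -⟩ := (mem_G1_iff θ hr _).mp k.2
  exact hθ

theorem dvd_sub_one_of_mem_G1 (θ : (ZMod N)ˣ →* Δ) {r : ℕ} (hr : r ∣ N) (k : G1 θ hr) :
    (r : ℤ) ∣ (k : SL(2, ℤ)) 1 1 - 1 := by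
  obtain ⟨h, -, hd⟩ := (mem_G1_iff θ hr _).mp k.2
  exact hd

theorem dvd_lower_of_mem_G1 (θ : (ZMod N)ˣ →* Δ) {r : ℕ} (hr : r ∣ N) (k : G1 θ hr) :
    (N : ℤ) ∣ (k : SL(2, ℤ)) 1 0 :=
  dvd_of_mem_Gamma0 ⟨_, mem_Gamma0_of_mem_G1 θ hr k⟩

/-- in `G1`, also `a ≡ 1 (mod r)` -/
theorem dvd_upper_sub_one_of_mem_G1 (θ : (ZMod N)ˣ →* Δ) {r : ℕ} (hr : r ∣ N) (k : G1 θ hr) :
    (r : ℤ) ∣ (k : SL(2, ℤ)) 0 0 - 1 := by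
  have hdet : (k : SL(2, ℤ)) 0 0 * (k : SL(2, ℤ)) 1 1 - (k : SL(2, ℤ)) 0 1 * (k : SL(2, ℤ)) 1 0
      = 1 := by
    have := (k : SL(2, ℤ)).det_coe
    rwa [Matrix.det_fin_two] at this
  obtain ⟨x, hx⟩ := dvd_sub_one_of_mem_G1 θ hr k
  obtain ⟨y, hy⟩ := dvd_lower_of_mem_G1 θ hr k
  obtain ⟨z, hz⟩ := hr
  refine ⟨(k : SL(2, ℤ)) 0 1 * z * y - (k : SL(2, ℤ)) 0 0 * x, ?_⟩
  have hN : (N : ℤ) = r * z := by exact_mod_cast hz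
  rw [hN] at hy
  have hd : (k : SL(2, ℤ)) 1 1 = 1 + r * x := by linarith
  rw [hd, hy] at hdet
  linear_combination hdet

/-! ### the Hecke systems -/

variable {ℓ : ℕ} [Fact ℓ.Prime]

theorem compat_heckeSysD (θ : (ZMod N)ˣ →* Δ) (hℓ : ¬ ℓ ∣ N) :
    Compat (heckeSysD hℓ) (chi θ) := fun g x => chi_c θ hℓ g x

/-- `T_ℓ` on `Γ_H` -/
def TH (θ : (ZMod N)ˣ →* Δ) (hℓ : ¬ ℓ ∣ N) : CosetSys embR (GH θ) (GH θ) :=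
  kerSys (heckeSysD hℓ) (chi θ) (compat_heckeSysD θ hℓ)

theorem compat_TH (θ : (ZMod N)ˣ →* Δ) {r : ℕ} (hr : r ∣ N) (hℓ : ¬ ℓ ∣ N) :
    Compat (TH θ hℓ) (chiR θ hr) := by
  intro k x
  show dModR hr (kerIncl (chi θ) ((TH θ hℓ).c k x)) = dModR hr (kerIncl (chi θ) k)
  unfold TH
  rw [kerIncl_kerSys_c]
  show ZMod.unitsMap hr (dUnits N ((heckeSysD hℓ).c (kerIncl (chi θ) k) x))
    = ZMod.unitsMap hr (dUnits N (kerIncl (chi θ) k))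
  rw [dUnits_c]

/-- `T_ℓ` on `G1` -/
def T1 (θ : (ZMod N)ˣ →* Δ) {r : ℕ} (hr : r ∣ N) (hℓ : ¬ ℓ ∣ N) :
    CosetSys embR (G1 θ hr) (G1 θ hr) :=
  kerSys (TH θ hℓ) (chiR θ hr) (compat_TH θ hr hℓ)

theorem T1_a (θ : (ZMod N)ˣ →* Δ) {r : ℕ} (hr : r ∣ N) (hℓ : ¬ ℓ ∣ N) (x : OnePoint (ZMod ℓ)) :
    (T1 θ hr hℓ).a x = embR (((eRep hℓ x)⁻¹ : Gamma0 N) : SL(2, ℤ)) * heckeRep ℓ x := by
  show (heckeSysD hℓ).a x = _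
  rw [heckeSysD_a, one_mul]

theorem TH_a (θ : (ZMod N)ˣ →* Δ) (hℓ : ¬ ℓ ∣ N) (x : OnePoint (ZMod ℓ)) :
    (TH θ hℓ).a x = embR (((eRep hℓ x)⁻¹ : Gamma0 N) : SL(2, ℤ)) * heckeRep ℓ x := by
  show (heckeSysD hℓ).a x = _
  rw [heckeSysD_a, one_mul]

end Fermat.Agent.GB.B4.Twist

end
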