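/-
GATE-B / node GB-B4-TWIST, sub-leaf TW-L6 (helper10): the ABSTRACT LINEAR ALGEBRA (LIN) of the
Betti-side character twist (helper44, board 5427).  Mathlib only.

`V` a module over a commutative ring `R`, `r` a prime, `a : ZMod r → End V` an additive action
(`a 0 = 1`, `a (s + t) = a s * a t`), `ψ : (ZMod r)ˣ →* R`.  For `φ : V` put

  `twistSum a ψ φ := ∑ t : (ZMod r)ˣ, ψ t • a t φ`.

* `apply_twistSum`  (INTERTWINE): `a t * X = X * a (c * t)` for all `t` and `X φ = μ • φ` give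
  `X (twistSum a ψ φ) = (ψ c * μ) • twistSum a ψ φ`;
* `T_twistSum`      : the case `X = T`, `c = ℓ`  (`T Φ = (ψ ℓ * lam) • Φ`);
* `D_twistSum`      : the case `X = D e`, `c = e⁻²`, `D e φ = χ e • φ`, `ψ² = χ`  (`D e Φ = Φ`);
* `jacobi`          : if `∑ u, ψ u = 0` then
  `∑ v, ψ v⁻¹ • a v Φ = ψ (-1) • (r • φ - ∑ w : ZMod r, a w φ)`;
* `sum_eq_zero_of_ne_one` : a nontrivial `ψ` into a domain has `∑ u, ψ u = 0`;
* `smul_eq_sum_of_twistSum_eq_zero`, `invariant_of_twistSum_eq_zero` : `Φ = 0` forces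
  `r • φ = ∑ w, a w φ`, hence (no `r`-torsion in `V`) `φ` is `a`-invariant.
-/
import Mathlib

set_option autoImplicit false

namespace Fermat.Agent.GB.B4.Twist.LinAlg

open Finset

variable {R : Type*} [CommRing R] {V : Type*} [AddCommGroup V] [Module R V]
variable {r : ℕ} [Fact r.Prime]

/-- the twisted sum `Φ = ∑_t ψ(t) a_t φ` over the units `t` of `ZMod r` -/
noncomputable def twistSum (a : ZMod r → Module.End R V) (ψ : (ZMod r)ˣ →* R) (φ : V) : V :=
  ∑ t : (ZMod r)ˣ, ψ t • a (t : ZMod r) φ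

variable {a : ZMod r → Module.End R V} {ψ : (ZMod r)ˣ →* R}

/-- **(INTERTWINE)** an operator `X` with `a_t X = X a_{c t}` maps the twisted sum of a
`μ`-eigenvector to `ψ(c) μ` times the twisted sum. -/
theorem apply_twistSum (X : Module.End R V) (c : (ZMod r)ˣ)
    (hX : ∀ t : ZMod r, a t * X = X * a ((c : ZMod r) * t)) {φ : V} {μ : R} (hφ : X φ = μ • φ) :
    X (twistSum a ψ φ) = (ψ c * μ) • twistSum a ψ φ := by
  unfold twistSum
  rw [map_sum, Finset.smul_sum]
  -- reindex the left-hand side by `t = c * t'`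
  rw [← Equiv.sum_comp (Equiv.mulLeft c) (fun t : (ZMod r)ˣ => X (ψ t • a (t : ZMod r) φ))]
  refine Finset.sum_congr rfl fun t _ => ?_
  simp only [Equiv.coe_mulLeft, Units.val_mul, map_mul]
  rw [map_smul]
  have h1 : X (a ((c : ZMod r) * (t : ZMod r)) φ) = a (t : ZMod r) (X φ) := by
    have := congrArg (fun F : Module.End R V => F φ) (hX (t : ZMod r))
    simpa [Module.End.mul_apply] using this.symm
  rw [h1, hφ, map_smul, smul_smul, smul_smul]
  congr 1
  ring

/-- the Hecke operator: `a_t T = T a_{ℓ t}`, `T φ = lam φ` ⟹ `T Φ = ψ(ℓ) lam Φ`. -/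
theorem T_twistSum (T : Module.End R V) (ℓ : (ZMod r)ˣ)
    (hT : ∀ t : ZMod r, a t * T = T * a ((ℓ : ZMod r) * t)) {φ : V} {lam : R}
    (hφ : T φ = lam • φ) :
    T (twistSum a ψ φ) = (ψ ℓ * lam) • twistSum a ψ φ :=
  apply_twistSum T ℓ hT hφ

/-- the diamond operators: `a_v D_e = D_e a_{e⁻² v}`, `D_e φ = χ(e) φ`, `ψ² = χ` ⟹
`D_e Φ = Φ`. -/
theorem D_twistSum (D : (ZMod r)ˣ → Module.End R V)
    (hD : ∀ (v : ZMod r) (e : (ZMod r)ˣ),
      a v * D e = D e * a ((((e⁻¹ : (ZMod r)ˣ) : ZMod r)) ^ 2 * v))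
    {χ : (ZMod r)ˣ → R} (hχ : ∀ e, ψ e ^ 2 = χ e) {φ : V} (hφ : ∀ e, D e φ = χ e • φ)
    (e : (ZMod r)ˣ) :
    D e (twistSum a ψ φ) = twistSum a ψ φ := by
  have h := apply_twistSum (a := a) (ψ := ψ) (D e) (e⁻¹ ^ 2)
    (fun t => by rw [hD t e, Units.val_pow_eq_pow_val]) (hφ e)
  rw [h, ← hχ e, ← map_pow, ← map_mul]
  have : (e⁻¹ ^ 2 * e ^ 2 : (ZMod r)ˣ) = 1 := by
    rw [← mul_pow, inv_mul_cancel, one_pow]
  rw [this, map_one, one_smul]

/-! ### the Jacobi-sum identity -/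

/-- a character with a value `≠ 1` sums to zero (when `ψ u - 1` is not a zero divisor) -/
theorem sum_eq_zero_of_sub_one_regular {u : (ZMod r)ˣ}
    (hu : ∀ x : R, (ψ u - 1) * x = 0 → x = 0) : ∑ t : (ZMod r)ˣ, ψ t = 0 := by
  apply hu
  rw [sub_mul, one_mul, Finset.mul_sum, sub_eq_zero]
  rw [← Equiv.sum_comp (Equiv.mulLeft u) (fun t : (ZMod r)ˣ => ψ t)]
  refine Finset.sum_congr rfl fun t _ => ?_
  simp

/-- a nontrivial character into a domain sums to zero -/
theorem sum_eq_zero_of_ne_one [NoZeroDivisors R] {u : (ZMod r)ˣ} (hu : ψ u ≠ 1) :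
    ∑ t : (ZMod r)ˣ, ψ t = 0 :=
  sum_eq_zero_of_sub_one_regular fun _ hx =>
    (mul_eq_zero.mp hx).resolve_left (sub_ne_zero.mpr hu)


/-- a sum over a finite field splits off the value at `0` -/
theorem sum_eq_zero_add_sum_units (g : ZMod r → V) :
    ∑ w : ZMod r, g w = g 0 + ∑ v : (ZMod r)ˣ, g (v : ZMod r) := by
  classical
  rw [← Finset.add_sum_erase Finset.univ g (Finset.mem_univ 0)]
  congr 1
  symm
  refine Finset.sum_bij (fun v _ => (v : ZMod r)) (fun v _ => ?_) (fun v _ v' _ h => Units.ext h)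
    (fun w hw => ?_) (fun v _ => rfl)
  · exact Finset.mem_erase.mpr ⟨v.ne_zero, Finset.mem_univ _⟩
  · exact ⟨Units.mk0 w (Finset.ne_of_mem_erase hw), Finset.mem_univ _, rfl⟩

variable (ha0 : a 0 = 1) (ha : ∀ s t : ZMod r, a (s + t) = a s * a t)

include ha0 ha in
/-- **(JACOBI)** for a character `ψ` with `∑ ψ = 0`:
`∑_v ψ(v)⁻¹ a_v Φ = ψ(-1) (r φ - ∑_{w ∈ ZMod r} a_w φ)`. -/
theorem jacobi (hsum : ∑ u : (ZMod r)ˣ, ψ u = 0) (φ : V) :
    ∑ v : (ZMod r)ˣ, ψ v⁻¹ • a (v : ZMod r) (twistSum a ψ φ)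
      = ψ (-1) • ((r : R) • φ - ∑ w : ZMod r, a w φ) := by
  classical
  set g : ZMod r → V := fun w => a w φ with hg
  have hg0 : g 0 = φ := by simp [hg, ha0]
  set Sst : V := ∑ v : (ZMod r)ˣ, g (v : ZMod r) with hSst
  -- step 1+2: expand and substitute `t = v u`
  have h1 : ∀ v : (ZMod r)ˣ, ψ v⁻¹ • a (v : ZMod r) (twistSum a ψ φ)
      = ∑ u : (ZMod r)ˣ, ψ u • g ((v : ZMod r) * (1 + (u : ZMod r))) := by
    intro v
    unfold twistSum
    rw [map_sum, Finset.smul_sum]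
    rw [← Equiv.sum_comp (Equiv.mulLeft v)
      (fun t : (ZMod r)ˣ => ψ v⁻¹ • a (v : ZMod r) (ψ t • a (t : ZMod r) φ))]
    refine Finset.sum_congr rfl fun u _ => ?_
    simp only [Equiv.coe_mulLeft, Units.val_mul, map_mul, map_smul, smul_smul]
    have h2 : a (v : ZMod r) (a ((v : ZMod r) * (u : ZMod r)) φ)
        = g ((v : ZMod r) * (1 + (u : ZMod r))) := by
      simp only [hg]
      rw [mul_add, mul_one, ha, Module.End.mul_apply]
    rw [h2]
    congr 1
    rw [← mul_assoc, ← map_mul, inv_mul_cancel, map_one, one_mul]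
  -- step 4: the inner sums
  have h3 : ∀ u : (ZMod r)ˣ, ∑ v : (ZMod r)ˣ, g ((v : ZMod r) * (1 + (u : ZMod r)))
      = if u = -1 then ((r : R) - 1) • φ else Sst := by
    intro u
    split_ifs with hu
    · subst hu
      have : ∀ v : (ZMod r)ˣ, g ((v : ZMod r) * (1 + ((-1 : (ZMod r)ˣ) : ZMod r))) = φ := by
        intro v
        have : (1 : ZMod r) + ((-1 : (ZMod r)ˣ) : ZMod r) = 0 := by simp
        rw [this, mul_zero, hg0]
      rw [Finset.sum_congr rfl fun v _ => this v, Finset.sum_const, Finset.card_univ,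
        ZMod.card_units]
      rw [← Nat.cast_smul_eq_nsmul R, Nat.cast_sub (Fact.out : r.Prime).one_le, Nat.cast_one]
    · have hne : (1 : ZMod r) + (u : ZMod r) ≠ 0 := by
        intro h
        apply hu
        apply Units.ext
        have : (u : ZMod r) = -1 := by
          rw [add_comm] at h
          exact eq_neg_of_add_eq_zero_left h
        simpa using this
      rw [hSst, ← Equiv.sum_comp (Equiv.mulRight (Units.mk0 _ hne))
        (fun v : (ZMod r)ˣ => g (v : ZMod r))]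
      refine Finset.sum_congr rfl fun v _ => ?_
      simp
  -- assemble
  calc ∑ v : (ZMod r)ˣ, ψ v⁻¹ • a (v : ZMod r) (twistSum a ψ φ)
      = ∑ v : (ZMod r)ˣ, ∑ u : (ZMod r)ˣ, ψ u • g ((v : ZMod r) * (1 + (u : ZMod r))) :=
        Finset.sum_congr rfl fun v _ => h1 v
    _ = ∑ u : (ZMod r)ˣ, ψ u • ∑ v : (ZMod r)ˣ, g ((v : ZMod r) * (1 + (u : ZMod r))) := by
        rw [Finset.sum_comm]
        refine Finset.sum_congr rfl fun u _ => ?_
        rw [Finset.smul_sum]
    _ = ∑ u : (ZMod r)ˣ, (ψ u • Sst + if u = -1 then ψ u • (((r : R) - 1) • φ - Sst) else 0) := by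
        refine Finset.sum_congr rfl fun u _ => ?_
        rw [h3 u]
        split_ifs with hu
        · rw [smul_sub]; abel
        · rw [add_zero]
    _ = ψ (-1) • (((r : R) - 1) • φ - Sst) := by
        rw [Finset.sum_add_distrib, ← Finset.sum_smul, hsum, zero_smul, zero_add,
          Finset.sum_ite_eq' Finset.univ (-1 : (ZMod r)ˣ)]
        simp
    _ = ψ (-1) • ((r : R) • φ - ∑ w : ZMod r, a w φ) := by
        congr 1
        have : ∑ w : ZMod r, a w φ = φ + Sst := by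
          rw [sum_eq_zero_add_sum_units (fun w => a w φ)]
          simp only [hSst, hg]
          rw [ha0, Module.End.one_apply]
        rw [this, sub_smul, one_smul]
        abel

include ha0 ha in
/-- if the twisted sum of `φ` vanishes then `r φ = ∑_{w ∈ ZMod r} a_w φ` -/
theorem smul_eq_sum_of_twistSum_eq_zero (hsum : ∑ u : (ZMod r)ˣ, ψ u = 0) {φ : V}
    (hΦ : twistSum a ψ φ = 0) : (r : R) • φ = ∑ w : ZMod r, a w φ := by
  have h := jacobi ha0 ha hsum φ
  rw [hΦ] at h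
  simp only [map_zero, smul_zero, Finset.sum_const_zero] at h
  have h1 : ψ (-1) * ψ (-1) = 1 := by
    rw [← map_mul]
    simp
  have h2 := congrArg (fun x : V => ψ (-1) • x) h
  simp only [smul_zero, smul_smul, h1, one_smul] at h2
  exact sub_eq_zero.mp h2.symm

include ha0 ha in
/-- if the twisted sum of `φ` vanishes and `V` has no `r`-torsion then `φ` is `a`-invariant -/
theorem invariant_of_twistSum_eq_zero (hsum : ∑ u : (ZMod r)ˣ, ψ u = 0) {φ : V}
    (hΦ : twistSum a ψ φ = 0) (hreg : ∀ x : V, (r : R) • x = 0 → x = 0) (s : ZMod r) :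
    a s φ = φ := by
  have h := smul_eq_sum_of_twistSum_eq_zero ha0 ha hsum hΦ
  have h1 : (r : R) • a s φ = (r : R) • φ := by
    rw [← map_smul, h, map_sum]
    rw [← Equiv.sum_comp (Equiv.addLeft s) (fun w : ZMod r => a w φ)]
    refine Finset.sum_congr rfl fun w _ => ?_
    simp only [Equiv.coe_addLeft]
    rw [ha, Module.End.mul_apply]
  have h2 : (r : R) • (a s φ - φ) = 0 := by rw [smul_sub, h1, sub_self]
  exact sub_eq_zero.mp (hreg _ h2)

end Fermat.Agent.GB.B4.Twist.LinAlg
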