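/-
GATE-B / B4-TWIST (helper97): the two lines helper44 (L5) asked for, in the `uGL` vocabulary of
GB/B4/Twist/Alpha — the twist system `RPsi.twSys` on the elements with `d ≡ 1 mod r`.

* `twA_eq` : the representative `twA r x = [1 x; 0 r] · diag(r, 1)` is `r · α(x/r)`,
  `α = uGL` (helper44), `r = zq r` the central scalar;
* `twσ0_of_dr` : `d_g ≡ 1 mod r ⟹ σ_g x = x`;
* `embR_twC0_of_dr`, `embR_twC_of_dr` : `d_g ≡ 1 mod r ⟹ c g x = α(x/r) g α(x/r)⁻¹` (in `GL₂(ℝ)`);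
* `uGL_rel_twC0`, `uGL_rel_twC` : in general `α(x/r) g = c g x · α((d² x)/r)`.
-/
import Mathlib
import Fermat.Agent.GB.B4.Twist.RPsi
import Fermat.Agent.GB.B4.Twist.Alpha

set_option autoImplicit false

open scoped MatrixGroups
open CongruenceSubgroup Matrix Matrix.SpecialLinearGroup
open P2MW.S_ModularForm_heckeT_slash_eq_self_of_mem_Gamma0.ModularForm.HeckeSlashInvariance
open Fermat.Agent.S16_helper49 Fermat.Agent.GM.B
open Fermat.Agent.GB.B3 Fermat.Agent.GB.B3.EisGamma0 Fermat.Agent.GB.B3.GamH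
open Fermat.Agent.GB.B4.Twist Fermat.Agent.GB.B4.Twist.RPsi

namespace Fermat.Agent.GB.B4.Twist.RPsiFix

variable {N r : ℕ} [Fact r.Prime]

/-- the representative of the twist system is the central scalar `r` times `α(x/r)` -/
theorem twA_eq (x : ZMod r) : twA r x = zq r * uGL ((x.val : ℝ) / r) := by
  have hr : r ≠ 0 := (Fact.out : r.Prime).ne_zero
  have hr' : (r : ℝ) ≠ 0 := by exact_mod_cast hr
  unfold twA zq
  apply Matrix.GeneralLinearGroup.ext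
  intro i j
  rw [Matrix.GeneralLinearGroup.coe_mul, Matrix.GeneralLinearGroup.coe_mul]
  fin_cases i <;> fin_cases j <;>
    simp [Matrix.mul_apply, Fin.sum_univ_two, ModularForm.val_heckeMatrix hr,
      ModularForm.val_heckeDiagMatrix hr, Matrix.natCast_apply]
  field_simp

/-- in general: `α(x/r) · g = c g x · α((d² x)/r)` -/
theorem uGL_rel_twC0 (hrN : r ∣ N) (g : Gamma0 (N * r)) (x : ZMod r) :
    uGL ((x.val : ℝ) / r) * embR (g : SL(2, ℤ))
      = embR ((twC0 hrN g x : Gamma0 N) : SL(2, ℤ))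
        * uGL (((dr r (g : SL(2, ℤ)) ^ 2 * x).val : ℝ) / r) := by
  have h := twA_rel hrN g x
  rw [twσ0_apply, twA_eq, twA_eq, mul_assoc, ← mul_assoc (embR _), ← zq_comm, mul_assoc] at h
  exact mul_left_cancel h

/-- `d ≡ 1 mod r ⟹ σ_g x = x` -/
theorem twσ0_of_dr (hrN : r ∣ N) (g : Gamma0 (N * r)) (hg : dr r (g : SL(2, ℤ)) = 1)
    (x : ZMod r) : twσ0 hrN g x = x := by
  rw [twσ0_apply, hg, one_pow, one_mul]

/-- `d ≡ 1 mod r ⟹ c g x = α(x/r) g α(x/r)⁻¹` -/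
theorem embR_twC0_of_dr (hrN : r ∣ N) (g : Gamma0 (N * r)) (hg : dr r (g : SL(2, ℤ)) = 1)
    (x : ZMod r) :
    embR ((twC0 hrN g x : Gamma0 N) : SL(2, ℤ))
      = uGL ((x.val : ℝ) / r) * embR (g : SL(2, ℤ)) * (uGL ((x.val : ℝ) / r))⁻¹ := by
  have h := uGL_rel_twC0 hrN g x
  rw [hg, one_pow, one_mul] at h
  rw [h, mul_inv_cancel_right]

variable {Δ : Type} [CommGroup Δ] (θ : (ZMod N)ˣ →* Δ)

theorem uGL_rel_twC (hrN : r ∣ N) (g : GammaH (liftθ (r := r) θ)) (x : ZMod r) :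
    uGL ((x.val : ℝ) / r) * embR (g : SL(2, ℤ))
      = embR ((twC θ hrN g x : GammaH θ) : SL(2, ℤ))
        * uGL (((dr r (g : SL(2, ℤ)) ^ 2 * x).val : ℝ) / r) :=
  uGL_rel_twC0 hrN (kerIncl (chi (liftθ (r := r) θ)) g) x

theorem embR_twC_of_dr (hrN : r ∣ N) (g : GammaH (liftθ (r := r) θ))
    (hg : dr r (g : SL(2, ℤ)) = 1) (x : ZMod r) :
    embR ((twC θ hrN g x : GammaH θ) : SL(2, ℤ))
      = uGL ((x.val : ℝ) / r) * embR (g : SL(2, ℤ)) * (uGL ((x.val : ℝ) / r))⁻¹ :=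
  embR_twC0_of_dr hrN (kerIncl (chi (liftθ (r := r) θ)) g) hg x

/-- `d ≡ 1 mod r ⟹` the restriction of `R_ψ φ` is `∑ ψ(x) φ(α_x g α_x⁻¹)`, entrywise form:
the value at `g` only involves the conjugates `twC g x` with `σ_g x = x` -/
theorem twσ_of_dr (hrN : r ∣ N) (g : GammaH (liftθ (r := r) θ))
    (hg : dr r (g : SL(2, ℤ)) = 1) (x : ZMod r) :
    twσ0 hrN (kerIncl (chi (liftθ (r := r) θ)) g) x = x :=
  twσ0_of_dr hrN _ hg x

end Fermat.Agent.GB.B4.Twist.RPsiFix
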