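/-
GATE-B / B4-TWIST leaf L5 (helper44), file 1: the conjugation action of `α_t = [1 t/r; 0 1]`
on `Γ* = {g ∈ Γ_H(N r) | d ≡ 1 (mod r)}` in the frame of `RPsi.lean` (helper97):
`r` prime, `r ∣ N`, `θ : (ZMod N)ˣ →* Δ`, `Γ_H(N r) = GammaH (liftθ θ)`.

* `GS θ r`                 : `Γ*` (`= G1 (liftθ θ) (r ∣ N r)` of `Groups.lean`);
* `conjT θ hrN t : Γ* →* Γ*` : `k ↦ α_t k α_t⁻¹` (`t : ℤ`), `conjT_rel`, `conjT_add`, `conjT_zero`,
  `conjT_mul_r` (`α_{r s}` is the inner automorphism of `T^s ∈ Γ*`);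
* `aEnd θ hrN t`           : the operator `φ ↦ φ ∘ conjT t` on `Hom(Γ*, A)`, `R`-linear;
  `aZ θ hrN x = aEnd (x.val)` for `x : ZMod r`, `aZ_zero`, `aZ_add`, `aEnd_eq_aZ`;
* `GS_le_GammaH`, `inclS`, `resS` : `Γ* ≤ Γ_H(N)` and the restriction `Hom(Γ_H(N), A) → Hom(Γ*, A)`;
* `toH`, `twC_toH` : on `Γ*` the cocycle of the twist system is `twC k x = α_x k α_x⁻¹ = conjT x.val k`;
* `Rpsi_toH` : **`(R_ψ φ)|Γ* = ∑_x ψ(x) • a_x (φ|Γ*)`**;
* `invariant_of_Rpsi_eq_zero` : **if `R_ψ φ = 0` (`∑ ψ = 0`, `A` without `r`-torsion) then `φ|Γ*` is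
  invariant under all `α_t`** (Jacobi-sum identity of `LinAlg.lean`, helper10).
-/
import Mathlib
import Fermat.Agent.GB.B4.Twist.RPsiFix
import Fermat.Agent.GB.B4.Twist.Alpha2
import Fermat.Agent.GB.B4.Twist.Groups
import Fermat.Agent.GB.B4.Twist.LinAlg

set_option autoImplicit false

noncomputable section

open scoped MatrixGroups
open CongruenceSubgroup Matrix Matrix.SpecialLinearGroup
open Fermat.Agent.S16_helper49 Fermat.Agent.GM.B Fermat.Agent.GM.EisClass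
open Fermat.Agent.GB.B3 Fermat.Agent.GB.B3.EisGamma0 Fermat.Agent.GB.B3.GamH
open Fermat.Agent.GB.B4.Twist Fermat.Agent.GB.B4.Twist.RPsi Fermat.Agent.GB.B4.Twist.RPsiFix

namespace Fermat.Agent.GB.B4.Twist.Inj

variable {N r : ℕ} [hrp : Fact r.Prime] {Δ : Type} [CommGroup Δ]

theorem r_dvd_mul (N r : ℕ) : r ∣ N * r := Dvd.intro_left N rfl

instance instNeZeroR : NeZero r := ⟨hrp.out.ne_zero⟩

/-! ### `chi (liftθ θ)` only depends on `d mod N` -/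

theorem unitsMap_dUnits (g : Gamma0 (N * r)) (hg : (g : SL(2, ℤ)) ∈ Gamma0 N) :
    ZMod.unitsMap (Nat.dvd_mul_right N r) (dUnits (N * r) g) = dUnits N ⟨(g : SL(2, ℤ)), hg⟩ := by
  apply Units.ext
  rw [ZMod.unitsMap_def, Units.coe_map, coe_dUnits, coe_dUnits]
  unfold dN
  rw [MonoidHom.coe_coe, map_intCast]

theorem chi_liftθ_congr (θ : (ZMod N)ˣ →* Δ) (g g' : Gamma0 (N * r))
    (h : (((g : SL(2, ℤ)) 1 1 : ℤ) : ZMod N) = (((g' : SL(2, ℤ)) 1 1 : ℤ) : ZMod N)) :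
    chi (liftθ (r := r) θ) g = chi (liftθ (r := r) θ) g' := by
  rw [chi_apply, chi_apply, liftθ_apply, liftθ_apply]
  congr 1
  apply Units.ext
  rw [ZMod.unitsMap_def, Units.coe_map, Units.coe_map, coe_dUnits, coe_dUnits]
  unfold dN
  rw [MonoidHom.coe_coe, map_intCast, map_intCast]
  exact h

theorem mem_Gamma0_of_mem_mul {g : SL(2, ℤ)} (hg : g ∈ Gamma0 (N * r)) : g ∈ Gamma0 N := by
  apply mem_Gamma0_of_dvd
  have := dvd_of_mem_Gamma0 ⟨g, hg⟩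
  refine Dvd.dvd.trans ?_ this
  push_cast
  exact Dvd.intro _ rfl

theorem chi_liftθ (θ : (ZMod N)ˣ →* Δ) (g : Gamma0 (N * r)) :
    chi (liftθ (r := r) θ) g = chi θ ⟨(g : SL(2, ℤ)), mem_Gamma0_of_mem_mul g.2⟩ := by
  rw [chi_apply, chi_apply, liftθ_apply, unitsMap_dUnits]

/-! ### `Γ*` -/

/-- `Γ* = {g ∈ Γ_H(N r) | d ≡ 1 (mod r)}` -/
abbrev GS (θ : (ZMod N)ˣ →* Δ) (r : ℕ) [Fact r.Prime] : Subgroup SL(2, ℤ) :=
  G1 (liftθ (r := r) θ) (r_dvd_mul N r)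

section ConjT

variable (θ : (ZMod N)ˣ →* Δ) (hrN : r ∣ N)

include hrN in
/-- `r² ∣ c` on `Γ*` -/
theorem sq_dvd_lower_GS (k : GS θ r) : ((r : ℤ)) ^ 2 ∣ (k : SL(2, ℤ)) 1 0 := by
  have h := dvd_lower_of_mem_G1 (liftθ (r := r) θ) (r_dvd_mul N r) k
  refine Dvd.dvd.trans ?_ h
  obtain ⟨z, hz⟩ := hrN
  rw [hz]
  push_cast
  exact ⟨z, by ring⟩

/-- `r ∣ (d - a) v` on `Γ*` -/
theorem dvd_diag_sub_GS (k : GS θ r) (v : ℤ) :
    (r : ℤ) ∣ (k : SL(2, ℤ)) 1 1 * v - (k : SL(2, ℤ)) 0 0 * v := by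
  have h1 := dvd_sub_one_of_mem_G1 (liftθ (r := r) θ) (r_dvd_mul N r) k
  have h2 := dvd_upper_sub_one_of_mem_G1 (liftθ (r := r) θ) (r_dvd_mul N r) k
  have : (k : SL(2, ℤ)) 1 1 * v - (k : SL(2, ℤ)) 0 0 * v
      = ((k : SL(2, ℤ)) 1 1 - 1) * v - ((k : SL(2, ℤ)) 0 0 - 1) * v := by ring
  rw [this]
  exact dvd_sub (Dvd.dvd.mul_right h1 v) (Dvd.dvd.mul_right h2 v)

/-- the matrix `α_t k α_t⁻¹` -/
def conjTMat (k : GS θ r) (t : ℤ) : SL(2, ℤ) :=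
  twMat (k : SL(2, ℤ)) r t t ((k : SL(2, ℤ)) 1 0 / (r : ℤ) ^ 2)
    (((k : SL(2, ℤ)) 1 1 * t - (k : SL(2, ℤ)) 0 0 * t) / r)
    (Int.mul_ediv_cancel' (sq_dvd_lower_GS θ hrN k)).symm
    (Int.mul_ediv_cancel' (dvd_diag_sub_GS θ k t)).symm

theorem conjTMat_10 (k : GS θ r) (t : ℤ) :
    (conjTMat θ hrN k t) 1 0 = (k : SL(2, ℤ)) 1 0 := twMat_10' _ _ _ _ _ _ _ _

theorem conjTMat_11 (k : GS θ r) (t : ℤ) :
    (conjTMat θ hrN k t) 1 1
      = (k : SL(2, ℤ)) 1 1 - r * ((k : SL(2, ℤ)) 1 0 / (r : ℤ) ^ 2) * t := rfl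

theorem conjTMat_rel (k : GS θ r) (t : ℤ) :
    uGL ((t : ℝ) / r) * embR (k : SL(2, ℤ))
      = embR (conjTMat θ hrN k t) * uGL ((t : ℝ) / r) := by
  have hr : (r : ℤ) ≠ 0 := by exact_mod_cast hrp.out.ne_zero
  have := uGL_mul_embR (k : SL(2, ℤ)) r t t ((k : SL(2, ℤ)) 1 0 / (r : ℤ) ^ 2)
    (((k : SL(2, ℤ)) 1 1 * t - (k : SL(2, ℤ)) 0 0 * t) / r) hr
    (Int.mul_ediv_cancel' (sq_dvd_lower_GS θ hrN k)).symm
    (Int.mul_ediv_cancel' (dvd_diag_sub_GS θ k t)).symm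
  have e : (((r : ℤ)) : ℝ) = (r : ℝ) := Int.cast_natCast r
  rw [e] at this
  exact this

theorem conjTMat_mem_Gamma0 (k : GS θ r) (t : ℤ) :
    conjTMat θ hrN k t ∈ Gamma0 (N * r) := by
  apply mem_Gamma0_of_dvd
  rw [conjTMat_10]
  exact dvd_lower_of_mem_G1 (liftθ (r := r) θ) (r_dvd_mul N r) k

include hrN in
/-- `N ∣ r · (c / r²)` on `Γ*` -/
theorem dvd_r_mul_lower_div (k : GS θ r) :
    (N : ℤ) ∣ (r : ℤ) * ((k : SL(2, ℤ)) 1 0 / (r : ℤ) ^ 2) := by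
  have hr : (r : ℤ) ≠ 0 := by exact_mod_cast hrp.out.ne_zero
  obtain ⟨c', hc'⟩ := dvd_lower_of_mem_G1 (liftθ (r := r) θ) (r_dvd_mul N r) k
  have h2 := Int.mul_ediv_cancel' (sq_dvd_lower_GS θ hrN k)
  refine ⟨c', ?_⟩
  apply mul_left_cancel₀ hr
  have : (r : ℤ) * ((r : ℤ) * ((k : SL(2, ℤ)) 1 0 / (r : ℤ) ^ 2)) = (k : SL(2, ℤ)) 1 0 := by
    rw [← h2]
    rw [Int.mul_ediv_cancel_left _ (pow_ne_zero 2 hr)]
    ring
  rw [this, hc']
  push_cast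
  ring

theorem chi_conjTMat (k : GS θ r) (t : ℤ) :
    chi (liftθ (r := r) θ) ⟨conjTMat θ hrN k t, conjTMat_mem_Gamma0 θ hrN k t⟩ = 1 := by
  rw [← chi_of_mem_G1 (liftθ (r := r) θ) (r_dvd_mul N r) k]
  apply chi_liftθ_congr
  show ((conjTMat θ hrN k t 1 1 : ℤ) : ZMod N) = _
  rw [conjTMat_11]
  obtain ⟨z, hz⟩ := dvd_r_mul_lower_div θ hrN k
  rw [hz]
  push_cast
  simp

theorem dvd_conjTMat_sub_one (k : GS θ r) (t : ℤ) :
    (r : ℤ) ∣ (conjTMat θ hrN k t) 1 1 - 1 := by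
  rw [conjTMat_11]
  have h1 := dvd_sub_one_of_mem_G1 (liftθ (r := r) θ) (r_dvd_mul N r) k
  have : (k : SL(2, ℤ)) 1 1 - r * ((k : SL(2, ℤ)) 1 0 / (r : ℤ) ^ 2) * t - 1
      = ((k : SL(2, ℤ)) 1 1 - 1) - r * (((k : SL(2, ℤ)) 1 0 / (r : ℤ) ^ 2) * t) := by ring
  rw [this]
  exact dvd_sub h1 (Dvd.intro _ rfl)

/-- `α_t k α_t⁻¹` as an element of `Γ*` -/
def conjTFun (k : GS θ r) (t : ℤ) : GS θ r :=
  g1Mk (liftθ (r := r) θ) (r_dvd_mul N r) (conjTMat θ hrN k t) (conjTMat_mem_Gamma0 θ hrN k t)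
    (chi_conjTMat θ hrN k t) (dvd_conjTMat_sub_one θ hrN k t)

theorem conjTFun_rel (k : GS θ r) (t : ℤ) :
    uGL ((t : ℝ) / r) * embR (k : SL(2, ℤ))
      = embR ((conjTFun θ hrN k t : GS θ r) : SL(2, ℤ)) * uGL ((t : ℝ) / r) :=
  conjTMat_rel θ hrN k t

/-- **conjugation by `α_t = [1 t/r; 0 1]`** on `Γ*` -/
def conjT (t : ℤ) : GS θ r →* GS θ r where
  toFun k := conjTFun θ hrN k t
  map_one' := by
    apply Subtype.ext
    apply embR_injective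
    have h := conjTFun_rel θ hrN (1 : GS θ r) t
    rw [Subgroup.coe_one, map_one, mul_one] at h
    rw [Subgroup.coe_one, map_one]
    exact (mul_right_cancel (b := uGL ((t : ℝ) / r)) (by rw [one_mul]; exact h)).symm
  map_mul' k k' := by
    apply Subtype.ext
    apply embR_injective
    have h := conjTFun_rel θ hrN (k * k') t
    have h1 := conjTFun_rel θ hrN k t
    have h2 := conjTFun_rel θ hrN k' t
    rw [Subgroup.coe_mul, map_mul, ← mul_assoc, h1, mul_assoc, h2, ← mul_assoc] at h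
    rw [Subgroup.coe_mul, map_mul]
    exact (mul_right_cancel h).symm

theorem conjT_rel (t : ℤ) (k : GS θ r) :
    uGL ((t : ℝ) / r) * embR (k : SL(2, ℤ))
      = embR ((conjT θ hrN t k : GS θ r) : SL(2, ℤ)) * uGL ((t : ℝ) / r) :=
  conjTFun_rel θ hrN k t

/-- `conjT t k = α_t k α_t⁻¹` in `GL₂(ℝ)` -/
theorem embR_conjT (t : ℤ) (k : GS θ r) :
    embR ((conjT θ hrN t k : GS θ r) : SL(2, ℤ))
      = uGL ((t : ℝ) / r) * embR (k : SL(2, ℤ)) * (uGL ((t : ℝ) / r))⁻¹ := by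
  rw [conjT_rel θ hrN t k, mul_inv_cancel_right]

theorem coe_conjT (t : ℤ) (k : GS θ r) :
    ((conjT θ hrN t k : GS θ r) : SL(2, ℤ)) = conjTMat θ hrN k t := rfl

theorem conjT_add (t t' : ℤ) (k : GS θ r) :
    conjT θ hrN (t + t') k = conjT θ hrN t (conjT θ hrN t' k) := by
  apply Subtype.ext
  apply embR_injective
  rw [embR_conjT, embR_conjT, embR_conjT]
  have hu : uGL (((t + t' : ℤ) : ℝ) / r) = uGL ((t : ℝ) / r) * uGL ((t' : ℝ) / r) := by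
    rw [← uGL_add]
    congr 1
    push_cast
    ring
  rw [hu, _root_.mul_inv_rev]
  group

theorem conjT_zero (k : GS θ r) : conjT θ hrN 0 k = k := by
  apply Subtype.ext
  apply embR_injective
  rw [embR_conjT]
  have hu : uGL (((0 : ℤ) : ℝ) / r) = 1 := by
    rw [Int.cast_zero, zero_div, uGL_zero]
  rw [hu, one_mul, inv_one, mul_one]

/-- the translation `T^s = [1 s; 0 1]` as an element of `Γ*` -/
def transS (s : ℤ) : GS θ r :=
  g1Mk (liftθ (r := r) θ) (r_dvd_mul N r)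
    ⟨!![1, s; 0, 1], by rw [Matrix.det_fin_two_of]; ring⟩
    (mem_Gamma0_of_dvd (by simp))
    (by
      rw [← map_one (chi (liftθ (r := r) θ))]
      apply chi_liftθ_congr
      simp)
    (by simp)

theorem embR_transS (s : ℤ) :
    embR ((transS θ s : GS θ r) : SL(2, ℤ)) = uGL (s : ℝ) :=
  (uGL_intCast_eq _).symm

/-- conjugation by `α_{r s}` is the inner automorphism of `T^s ∈ Γ*` -/
theorem conjT_mul_r (s : ℤ) (k : GS θ r) :
    conjT θ hrN (r * s) k = transS θ s * k * (transS θ s)⁻¹ := by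
  apply Subtype.ext
  apply embR_injective
  have hr : (r : ℝ) ≠ 0 := by exact_mod_cast hrp.out.ne_zero
  rw [embR_conjT]
  have hu : uGL ((((r : ℤ) * s : ℤ) : ℝ) / r) = embR ((transS θ s : GS θ r) : SL(2, ℤ)) := by
    rw [embR_transS]
    congr 1
    push_cast
    field_simp
  rw [hu, Subgroup.coe_mul, Subgroup.coe_mul, Subgroup.coe_inv, map_mul, map_mul, map_inv]

end ConjT

/-! ### the operators on `Hom(Γ*, A)` -/

section Ops

variable (θ : (ZMod N)ˣ →* Δ) (hrN : r ∣ N)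
  {R : Type*} [CommRing R] {A : Type*} [AddCommGroup A] [Module R A]

/-- **the operator `a_t`** : `φ ↦ φ ∘ (α_t · α_t⁻¹)` on `Hom(Γ*, A)`, as an `R`-linear map -/
def aEnd (t : ℤ) : Module.End R (Additive (GS θ r) →+ A) where
  toFun φ := φ.comp (MonoidHom.toAdditive (conjT θ hrN t))
  map_add' _ _ := rfl
  map_smul' _ _ := rfl

theorem aEnd_apply (t : ℤ) (φ : Additive (GS θ r) →+ A) (k : GS θ r) :
    aEnd (R := R) θ hrN t φ (Additive.ofMul k) = φ (Additive.ofMul (conjT θ hrN t k)) := rfl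

theorem aEnd_add (t t' : ℤ) :
    aEnd (R := R) (A := A) θ hrN (t + t') = aEnd θ hrN t * aEnd θ hrN t' := by
  refine LinearMap.ext fun φ => AddMonoidHom.ext fun k => ?_
  obtain ⟨k, rfl⟩ : ∃ k' : GS θ r, Additive.ofMul k' = k := ⟨Additive.toMul k, rfl⟩
  rw [Module.End.mul_apply, aEnd_apply, aEnd_apply, aEnd_apply, add_comm, conjT_add]

theorem aEnd_zero : aEnd (R := R) (A := A) θ hrN 0 = 1 := by
  refine LinearMap.ext fun φ => AddMonoidHom.ext fun k => ?_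
  obtain ⟨k, rfl⟩ : ∃ k' : GS θ r, Additive.ofMul k' = k := ⟨Additive.toMul k, rfl⟩
  rw [Module.End.one_apply, aEnd_apply, conjT_zero]

theorem aEnd_mul_r (s : ℤ) : aEnd (R := R) (A := A) θ hrN (r * s) = 1 := by
  refine LinearMap.ext fun φ => AddMonoidHom.ext fun k => ?_
  obtain ⟨k, rfl⟩ : ∃ k' : GS θ r, Additive.ofMul k' = k := ⟨Additive.toMul k, rfl⟩
  rw [Module.End.one_apply, aEnd_apply, conjT_mul_r, ofMul_mul, ofMul_mul, ofMul_inv, map_add,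
    map_add, map_neg]
  abel

theorem aEnd_congr {t t' : ℤ} (h : (r : ℤ) ∣ t' - t) :
    aEnd (R := R) (A := A) θ hrN t' = aEnd θ hrN t := by
  obtain ⟨s, hs⟩ := h
  have : t' = t + r * s := by linarith
  rw [this, aEnd_add, aEnd_mul_r, mul_one]

/-- the action of `ZMod r` -/
def aZ (x : ZMod r) : Module.End R (Additive (GS θ r) →+ A) := aEnd θ hrN (x.val : ℤ)

theorem aEnd_eq_aZ (t : ℤ) :
    aEnd (R := R) (A := A) θ hrN t = aZ θ hrN ((t : ℤ) : ZMod r) := by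
  unfold aZ
  apply aEnd_congr
  rw [← ZMod.intCast_zmod_eq_zero_iff_dvd]
  push_cast
  rw [ZMod.natCast_zmod_val, sub_self]

theorem aZ_zero : aZ (R := R) (A := A) θ hrN 0 = 1 := by
  unfold aZ
  rw [ZMod.val_zero, Nat.cast_zero, aEnd_zero]

theorem aZ_add (x y : ZMod r) :
    aZ (R := R) (A := A) θ hrN (x + y) = aZ θ hrN x * aZ θ hrN y := by
  unfold aZ
  rw [← aEnd_add]
  apply aEnd_congr
  rw [← ZMod.intCast_zmod_eq_zero_iff_dvd]
  push_cast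
  rw [ZMod.natCast_zmod_val, ZMod.natCast_zmod_val, ZMod.natCast_zmod_val, sub_self]

end Ops

/-! ### the link with `R_ψ` -/

section Link

variable (θ : (ZMod N)ˣ →* Δ) (hrN : r ∣ N)

theorem GS_le_GammaH_lift : GS θ r ≤ GammaH (liftθ (r := r) θ) :=
  G1_le_GH (liftθ (r := r) θ) (r_dvd_mul N r)

theorem GS_le_GammaH : GS θ r ≤ GammaH θ := by
  intro g hg
  obtain ⟨h, hθ, -⟩ := (mem_G1_iff (liftθ (r := r) θ) (r_dvd_mul N r) g).mp hg
  rw [mem_GammaH_iff]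
  refine ⟨mem_Gamma0_of_mem_mul h, ?_⟩
  rw [chi_liftθ, chi_apply] at hθ
  exact hθ

/-- the inclusion `Γ* → Γ_H(N)` -/
def inclS : GS θ r →* GammaH θ := Subgroup.inclusion (GS_le_GammaH θ)

theorem coe_inclS (k : GS θ r) : ((inclS θ k : GammaH θ) : SL(2, ℤ)) = k := rfl

/-- `k ∈ Γ*` as an element of `Γ_H(N r)` -/
def toH : GS θ r →* GammaH (liftθ (r := r) θ) := Subgroup.inclusion (GS_le_GammaH_lift θ)

theorem coe_toH (k : GS θ r) : ((toH θ k : GammaH (liftθ (r := r) θ)) : SL(2, ℤ)) = k := rfl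

theorem dr_toH (k : GS θ r) : dr r ((toH θ k : GammaH (liftθ (r := r) θ)) : SL(2, ℤ)) = 1 := by
  unfold dr
  rw [coe_toH]
  have h := dvd_sub_one_of_mem_G1 (liftθ (r := r) θ) (r_dvd_mul N r) k
  rw [← ZMod.intCast_zmod_eq_zero_iff_dvd, Int.cast_sub, Int.cast_one, sub_eq_zero] at h
  exact h

/-- on `Γ*` the cocycle of the twist system is the conjugation by `α_x` -/
theorem twC_toH (k : GS θ r) (x : ZMod r) :
    twC θ hrN (toH θ k) x = inclS θ (conjT θ hrN (x.val : ℤ) k) := by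
  apply Subtype.ext
  apply embR_injective
  rw [embR_twC_of_dr θ hrN (toH θ k) (dr_toH θ k) x, coe_inclS, embR_conjT, Int.cast_natCast,
    coe_toH]

variable {R : Type*} [CommRing R] {A : Type*} [AddCommGroup A] [Module R A]

/-- restriction `Hom(Γ_H(N), A) → Hom(Γ*, A)` -/
def resS : (Additive (GammaH θ) →+ A) →ₗ[R] (Additive (GS θ r) →+ A) where
  toFun φ := φ.comp (MonoidHom.toAdditive (inclS θ))
  map_add' _ _ := rfl
  map_smul' _ _ := rfl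

theorem resS_apply (φ : Additive (GammaH θ) →+ A) (k : GS θ r) :
    resS (R := R) θ φ (Additive.ofMul k) = φ (Additive.ofMul (inclS θ k)) := rfl

/-- the character of the units attached to a multiplicative character -/
def ψu (ψ : MulChar (ZMod r) R) : (ZMod r)ˣ →* R := ψ.toMonoidHom.comp (Units.coeHom (ZMod r))

theorem ψu_apply (ψ : MulChar (ZMod r) R) (u : (ZMod r)ˣ) : ψu ψ u = ψ (u : ZMod r) := rfl

/-- **`(R_ψ φ)|Γ* = ∑_x ψ(x) • a_x (φ|Γ*)`** -/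
theorem Rpsi_toH (ψ : MulChar (ZMod r) R)
    (hψ : ∀ g : GammaH (liftθ (r := r) θ), ψ (dr r (g : SL(2, ℤ))) ^ 2 = 1)
    (φ : Additive (GammaH θ) →+ A) (k : GS θ r) :
    Rpsi θ hrN ψ hψ φ (Additive.ofMul (toH θ k))
      = LinAlg.twistSum (aZ θ hrN) (ψu ψ) (resS (R := R) θ φ) (Additive.ofMul k) := by
  rw [Rpsi_apply]
  unfold LinAlg.twistSum
  rw [LinAlg.sum_eq_zero_add_sum_units
    (fun x : ZMod r => ψ x • φ (Additive.ofMul (twC θ hrN (toH θ k) x)))]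
  rw [MulChar.map_zero, zero_smul, zero_add, AddMonoidHom.finsetSum_apply]
  refine Finset.sum_congr rfl fun u _ => ?_
  rw [AddMonoidHom.smul_apply, twC_toH, ψu_apply]
  rfl

/-- **if `R_ψ φ = 0` then `φ|Γ*` is invariant under the conjugations by all `α_t`** -/
theorem invariant_of_Rpsi_eq_zero (ψ : MulChar (ZMod r) R)
    (hψ : ∀ g : GammaH (liftθ (r := r) θ), ψ (dr r (g : SL(2, ℤ))) ^ 2 = 1)
    (hsum : ∑ u : (ZMod r)ˣ, ψ (u : ZMod r) = 0)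
    (hreg : ∀ a : A, (r : R) • a = 0 → a = 0)
    (φ : Additive (GammaH θ) →+ A) (h0 : Rpsi θ hrN ψ hψ φ = 0) (t : ℤ) (k : GS θ r) :
    φ (Additive.ofMul (inclS θ (conjT θ hrN t k))) = φ (Additive.ofMul (inclS θ k)) := by
  have hΦ : LinAlg.twistSum (aZ θ hrN) (ψu ψ) (resS (R := R) θ φ) = 0 := by
    refine AddMonoidHom.ext fun k => ?_
    obtain ⟨k, rfl⟩ : ∃ k' : GS θ r, Additive.ofMul k' = k := ⟨Additive.toMul k, rfl⟩
    rw [← Rpsi_toH θ hrN ψ hψ, h0]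
    rfl
  have hreg' : ∀ x : Additive (GS θ r) →+ A, (r : R) • x = 0 → x = 0 := by
    intro x hx
    refine AddMonoidHom.ext fun k => ?_
    apply hreg
    rw [← AddMonoidHom.smul_apply, hx]
    rfl
  have h := LinAlg.invariant_of_twistSum_eq_zero (aZ_zero θ hrN) (aZ_add θ hrN) hsum hΦ hreg'
    ((t : ℤ) : ZMod r)
  rw [← aEnd_eq_aZ] at h
  have h' := DFunLike.congr_fun h (Additive.ofMul k)
  exact h'

end Link

end Fermat.Agent.GB.B4.Twist.Inj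

end
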