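/-
GATE-B / B4-TWIST leaf L5 (helper44), file 2: **the Betti twist `R_ψ` is injective on the
eigenspaces of the diamond operators whose character is ramified at `r`.**

Frame of `RPsi.lean` (helper97): `r` prime, `r ∣ N`, `θ : (ZMod N)ˣ →* Δ`,
`R_ψ : Hom(Γ_H(N), A) → Hom(Γ_H(N r), A)`.

* `eq_zero_of_invariant` (**NV**, elementary): if `φ ∈ Hom(Γ_H(N), A)` (`A` torsion-free) satisfies
  `φ(x k x⁻¹) = ε(χ_θ x) • φ(k)` for `x ∈ Γ₀(N)`, if `φ|Γ*` is invariant under the conjugations by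
  `α_t = [1 t/r; 0 1]`, and if `ε(χ_θ x₀) - 1` is regular on `A` for ONE `x₀ ∈ Γ₀(N)` with
  `d(x₀) ≡ 1 (mod N / r)`, then `φ = 0`.
  Proof: `η := α_t δ₀ α_s ∈ Γ₀(N)` (`δ₀ = [1 0; N 1]`, `t (1 + (N/r) s) ≡ -s (mod r)`) has
  `d(η) = 1 + (N/r) s`; for `k ∈ Γ*`, `η k η⁻¹ = α_t (δ₀ (α_s k α_s⁻¹) δ₀⁻¹) α_t⁻¹` and the three
  conjugations preserve `Γ*` and the value of `φ`, so `(ε(η) - 1) φ(k) = 0`; every element of
  `Γ_H(N)` has a positive power in `Γ(N r) ≤ Γ*`.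
* `Rpsi_injective` : **`R_ψ φ = 0 ⟹ φ = 0`** for such `φ` (`∑ ψ = 0`), by the Jacobi-sum identity
  (`InjConj.invariant_of_Rpsi_eq_zero`).
-/
import Mathlib
import Fermat.Agent.GB.B4.Twist.InjConj

set_option autoImplicit false

noncomputable section

open scoped MatrixGroups
open CongruenceSubgroup Matrix Matrix.SpecialLinearGroup
open Fermat.Agent.S16_helper49 Fermat.Agent.GM.B Fermat.Agent.GM.EisClass
open Fermat.Agent.GB.B3 Fermat.Agent.GB.B3.EisGamma0 Fermat.Agent.GB.B3.GamH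
open Fermat.Agent.GB.B4.Twist Fermat.Agent.GB.B4.Twist.RPsi Fermat.Agent.GB.B4.Twist.RPsiFix

namespace Fermat.Agent.GB.B4.Twist.Inj

variable {N r : ℕ} [hrp : Fact r.Prime] {Δ : Type} [CommGroup Δ]

/-! ### `δ₀ = [1 0; N 1]` -/

section Delta0

variable (θ : (ZMod N)ˣ →* Δ)

theorem lowerU_mem_Gamma0 (N : ℕ) : lowerU (N : ℤ) ∈ Gamma0 N :=
  mem_Gamma0_of_dvd (by rw [lowerU_10])

/-- `δ₀ = [1 0; N 1]` as an element of `Γ_H(N)` -/
def delta0H : GammaH θ :=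
  ⟨lowerU (N : ℤ), (mem_GammaH_iff θ _).mpr ⟨lowerU_mem_Gamma0 N, by
    have : dUnits N ⟨lowerU (N : ℤ), lowerU_mem_Gamma0 N⟩ = 1 := by
      apply Units.ext
      rw [coe_dUnits]
      show (((lowerU (N : ℤ)) 1 1 : ℤ) : ZMod N) = 1
      rw [lowerU_11, Int.cast_one]
    rw [this, map_one]⟩⟩

theorem coe_delta0H : ((delta0H θ : GammaH θ) : SL(2, ℤ)) = lowerU (N : ℤ) := rfl

variable (hrN : r ∣ N)

include hrN in
/-- conjugation by `δ₀` preserves `Γ*` -/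
theorem lowerConj_mem_GS (k : GS θ r) : lowerConj (N : ℤ) (k : SL(2, ℤ)) ∈ GS θ r := by
  have hc := dvd_lower_of_mem_G1 (liftθ (r := r) θ) (r_dvd_mul N r) k
  have hd := dvd_sub_one_of_mem_G1 (liftθ (r := r) θ) (r_dvd_mul N r) k
  have ha := dvd_upper_sub_one_of_mem_G1 (liftθ (r := r) θ) (r_dvd_mul N r) k
  have hmem : lowerConj (N : ℤ) (k : SL(2, ℤ)) ∈ Gamma0 (N * r) := by
    apply mem_Gamma0_of_dvd
    rw [lowerConj_10]
    obtain ⟨x, hx⟩ := hd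
    obtain ⟨y, hy⟩ := ha
    obtain ⟨z, hz⟩ := hc
    obtain ⟨w, hw⟩ := hrN
    refine ⟨y - x + z - (w : ℤ) * (k : SL(2, ℤ)) 0 1, ?_⟩
    have e1 : (k : SL(2, ℤ)) 0 0 - (k : SL(2, ℤ)) 1 1 = r * (y - x) := by linarith
    have hN : (N : ℤ) = r * w := by exact_mod_cast hw
    rw [e1, hz]
    push_cast
    rw [hN]
    ring
  rw [mem_G1_iff]
  refine ⟨hmem, ?_, ?_⟩
  · rw [← chi_of_mem_G1 (liftθ (r := r) θ) (r_dvd_mul N r) k]
    apply chi_liftθ_congr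
    show (((lowerConj (N : ℤ) (k : SL(2, ℤ))) 1 1 : ℤ) : ZMod N) = _
    rw [lowerConj_11]
    push_cast
    simp
  · rw [lowerConj_11]
    obtain ⟨w, hw⟩ := hrN
    have hN : (N : ℤ) = r * w := by exact_mod_cast hw
    have : (k : SL(2, ℤ)) 1 1 + (N : ℤ) * (k : SL(2, ℤ)) 0 1 - 1
        = ((k : SL(2, ℤ)) 1 1 - 1) + r * ((w : ℤ) * (k : SL(2, ℤ)) 0 1) := by rw [hN]; ring
    rw [this]
    exact dvd_add hd (Dvd.intro _ rfl)

end Delta0

/-! ### `Γ(N r) ≤ Γ*` -/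

section Power

variable (θ : (ZMod N)ˣ →* Δ)

theorem Gamma_le_GS : Gamma (N * r) ≤ GS θ r := by
  intro g hg
  rw [Gamma_mem] at hg
  obtain ⟨-, -, hc, hd⟩ := hg
  have hc' : ((N * r : ℕ) : ℤ) ∣ g 1 0 := (ZMod.intCast_zmod_eq_zero_iff_dvd _ _).mp hc
  have hd' : ((N * r : ℕ) : ℤ) ∣ g 1 1 - 1 := by
    rw [← ZMod.intCast_zmod_eq_zero_iff_dvd, Int.cast_sub, Int.cast_one, hd, sub_self]
  have hmem : g ∈ Gamma0 (N * r) := mem_Gamma0_of_dvd hc'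
  rw [mem_G1_iff]
  refine ⟨hmem, ?_, ?_⟩
  · rw [← map_one (chi (liftθ (r := r) θ))]
    apply chi_liftθ_congr
    show ((g 1 1 : ℤ) : ZMod N) = (((1 : SL(2, ℤ)) 1 1 : ℤ) : ZMod N)
    have : (N : ℤ) ∣ g 1 1 - 1 := Dvd.dvd.trans (by push_cast; exact Dvd.intro _ rfl) hd'
    rw [← ZMod.intCast_zmod_eq_zero_iff_dvd, Int.cast_sub, Int.cast_one, sub_eq_zero] at this
    rw [this]
    simp
  · exact Dvd.dvd.trans (by push_cast; exact Dvd.intro_left _ rfl) hd'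

/-- every element of `Γ_H(N)` has a positive power in `Γ*` -/
theorem exists_pow_mem_GS [NeZero N] (g : SL(2, ℤ)) :
    ∃ n : ℕ, 0 < n ∧ g ^ n ∈ GS θ r := by
  haveI : NeZero (N * r) := ⟨Nat.mul_ne_zero (NeZero.ne N) hrp.out.ne_zero⟩
  obtain ⟨n, hn, hpow⟩ := exists_pow_mem_Gamma (N * r) g
  exact ⟨n, hn, Gamma_le_GS θ hpow⟩

end Power

/-! ### the non-vanishing lemma -/

section NV

variable (θ : (ZMod N)ˣ →* Δ) (hrN : r ∣ N)
  {R : Type*} [CommRing R] {A : Type*} [AddCommGroup A] [Module R A]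

/-- **(NV)** an eigenvector of the diamond operators whose eigencharacter is nontrivial on
`ker ((ZMod N)ˣ → (ZMod (N / r))ˣ)` and whose restriction to `Γ*` is invariant under the
`α_t`-conjugations vanishes. -/
theorem eq_zero_of_invariant [NeZero N]
    (hA : ∀ (n : ℕ) (a : A), n ≠ 0 → n • a = 0 → a = 0)
    (φ : Additive (GammaH θ) →+ A) (ε : Δ → R)
    (hφ : ∀ (x : Gamma0 N) (k : GammaH θ),
      φ (Additive.ofMul (conjK (chi θ) x k)) = ε (chi θ x) • φ (Additive.ofMul k))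
    (hinv : ∀ (t : ℤ) (k : GS θ r),
      φ (Additive.ofMul (inclS θ (conjT θ hrN t k))) = φ (Additive.ofMul (inclS θ k)))
    (x₀ : Gamma0 N) (hx₀ : ((N / r : ℕ) : ℤ) ∣ (x₀ : SL(2, ℤ)) 1 1 - 1)
    (hε : ∀ a : A, (ε (chi θ x₀) - 1) • a = 0 → a = 0) : φ = 0 := by
  have hr0 : (r : ℤ) ≠ 0 := by exact_mod_cast hrp.out.ne_zero
  obtain ⟨m, hm⟩ := hrN
  have hNm : (N : ℤ) = r * m := by exact_mod_cast hm
  have hdiv : N / r = m := by rw [hm]; exact Nat.mul_div_cancel_left m hrp.out.pos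
  rw [hdiv] at hx₀
  obtain ⟨u, hu⟩ := hx₀
  -- `d(x₀)` is a unit mod `r`
  have hdet : (x₀ : SL(2, ℤ)) 0 0 * (x₀ : SL(2, ℤ)) 1 1 - (x₀ : SL(2, ℤ)) 0 1 * (x₀ : SL(2, ℤ)) 1 0
      = 1 := by
    have := (x₀ : SL(2, ℤ)).det_coe
    rwa [Matrix.det_fin_two] at this
  obtain ⟨c', hc'⟩ := dvd_of_mem_Gamma0 x₀
  set s₀ : ZMod r := ((u : ℤ) : ZMod r) with hs₀
  set d₀ : ZMod r := 1 + ((m : ℕ) : ZMod r) * s₀ with hd₀
  have hd₀x : d₀ = ((((x₀ : SL(2, ℤ)) 1 1 : ℤ)) : ZMod r) := by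
    have : (x₀ : SL(2, ℤ)) 1 1 = 1 + m * u := by linarith
    rw [this, hd₀, hs₀]
    push_cast
    rfl
  have hd₀ne : d₀ ≠ 0 := by
    intro h0
    have h1 : ((((x₀ : SL(2, ℤ)) 0 0 * (x₀ : SL(2, ℤ)) 1 1
        - (x₀ : SL(2, ℤ)) 0 1 * (x₀ : SL(2, ℤ)) 1 0 : ℤ)) : ZMod r) = 1 := by
      rw [hdet, Int.cast_one]
    rw [hc', hNm] at h1
    push_cast at h1
    rw [← hd₀x, h0] at h1
    simp at h1
  set t₀ : ZMod r := -s₀ / d₀ with ht₀
  have hkey : t₀ * d₀ + s₀ = 0 := by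
    rw [ht₀]
    field_simp
    ring
  set s : ℤ := (s₀.val : ℤ) with hs
  set t : ℤ := (t₀.val : ℤ) with ht
  have hcs : ((s : ℤ) : ZMod r) = s₀ := by rw [hs, Int.cast_natCast, ZMod.natCast_zmod_val]
  have hct : ((t : ℤ) : ZMod r) = t₀ := by rw [ht, Int.cast_natCast, ZMod.natCast_zmod_val]
  have hdvd : (r : ℤ) ∣ (1 : ℤ) * t - 1 * (-s) - (m : ℤ) * t * (-s) := by
    rw [← ZMod.intCast_zmod_eq_zero_iff_dvd]
    push_cast
    rw [hcs, hct]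
    have : (1 : ZMod r) * t₀ - 1 * (-s₀) - ((m : ℕ) : ZMod r) * t₀ * (-s₀)
        = t₀ * (1 + ((m : ℕ) : ZMod r) * s₀) + s₀ := by ring
    rw [this, ← hd₀, hkey]
  obtain ⟨e, he⟩ := hdvd
  have hc : (lowerU (N : ℤ)) 1 0 = (r : ℤ) * (m : ℤ) := by rw [lowerU_10, hNm]
  have he' : (lowerU (N : ℤ)) 1 1 * t - (lowerU (N : ℤ)) 0 0 * (-s) - (m : ℤ) * t * (-s)
      = (r : ℤ) * e := by
    rw [lowerU_11, lowerU_00]
    exact he
  set η : SL(2, ℤ) := twMat1 (lowerU (N : ℤ)) r t (-s) m e hc he' with hη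
  have hηmem : η ∈ Gamma0 N := by
    apply mem_Gamma0_of_dvd
    rw [hη, twMat1_10, hNm]
  have hηd : η 1 1 = 1 + (m : ℤ) * s := by rw [hη, twMat1_11, lowerU_11]; ring
  -- `χ_θ(η) = χ_θ(x₀)`
  have hχ : chi θ ⟨η, hηmem⟩ = chi θ x₀ := by
    rw [chi_apply, chi_apply]
    congr 1
    apply Units.ext
    rw [coe_dUnits, coe_dUnits]
    unfold dN
    show ((η 1 1 : ℤ) : ZMod N) = _
    have hx11 : (x₀ : SL(2, ℤ)) 1 1 = 1 + m * u := by linarith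
    rw [hηd, hx11]
    have hsu : (r : ℤ) ∣ s - u := by
      rw [← ZMod.intCast_zmod_eq_zero_iff_dvd, Int.cast_sub, hcs, hs₀, sub_self]
    obtain ⟨w, hw⟩ := hsu
    have : (1 : ℤ) + m * s = 1 + m * u + N * w := by
      rw [hNm]
      have : s = u + r * w := by linarith
      rw [this]
      ring
    rw [this]
    push_cast
    simp
  -- the relation in `GL₂(ℝ)`
  have rel1 := uGL_mul_embR1 (lowerU (N : ℤ)) r t (-s) m e hr0 hc he'
  rw [← hη] at rel1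
  have ecast : (((r : ℤ)) : ℝ) = (r : ℝ) := Int.cast_natCast r
  rw [ecast] at rel1
  have hneg : uGL ((((-s : ℤ)) : ℝ) / r) = (uGL ((s : ℝ) / r))⁻¹ := by
    rw [← uGL_neg]
    congr 1
    push_cast
    ring
  rw [hneg] at rel1
  have e1 : embR η = uGL ((t : ℝ) / r) * embR (lowerU (N : ℤ)) * uGL ((s : ℝ) / r) := by
    rw [rel1, inv_mul_cancel_right]
  -- vanishing on `Γ*`
  have hstar : ∀ k : GS θ r, φ (Additive.ofMul (inclS θ k)) = 0 := by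
    intro k
    set k₁ : GS θ r := conjT θ ⟨m, hm⟩ s k with hk₁
    set k₂ : GS θ r := ⟨lowerConj (N : ℤ) (k₁ : SL(2, ℤ)), lowerConj_mem_GS θ ⟨m, hm⟩ k₁⟩ with hk₂
    set k₃ : GS θ r := conjT θ ⟨m, hm⟩ t k₂ with hk₃
    have hconj : (η : SL(2, ℤ)) * (k : SL(2, ℤ)) * (η : SL(2, ℤ))⁻¹ = (k₃ : SL(2, ℤ)) := by
      apply embR_injective
      have e4 : embR (k₃ : SL(2, ℤ))
          = uGL ((t : ℝ) / r) * embR (k₂ : SL(2, ℤ)) * (uGL ((t : ℝ) / r))⁻¹ :=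
        embR_conjT θ ⟨m, hm⟩ t k₂
      have e3 : embR (k₂ : SL(2, ℤ))
          = embR (lowerU (N : ℤ)) * embR (k₁ : SL(2, ℤ)) * (embR (lowerU (N : ℤ)))⁻¹ := by
        show embR (lowerConj (N : ℤ) (k₁ : SL(2, ℤ))) = _
        rw [lowerConj_eq, map_mul, map_mul, map_inv]
      have e2 : embR (k₁ : SL(2, ℤ))
          = uGL ((s : ℝ) / r) * embR (k : SL(2, ℤ)) * (uGL ((s : ℝ) / r))⁻¹ :=
        embR_conjT θ ⟨m, hm⟩ s k
      rw [map_mul, map_mul, map_inv, e4, e3, e2, e1]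
      group
    -- the three conjugations do not change the value of `φ`
    have h3 : φ (Additive.ofMul (inclS θ k₃)) = φ (Additive.ofMul (inclS θ k₂)) :=
      hinv t k₂
    have h1 : φ (Additive.ofMul (inclS θ k₁)) = φ (Additive.ofMul (inclS θ k)) :=
      hinv s k
    have h2 : φ (Additive.ofMul (inclS θ k₂)) = φ (Additive.ofMul (inclS θ k₁)) := by
      have : inclS θ k₂ = delta0H θ * inclS θ k₁ * (delta0H θ)⁻¹ := by
        apply Subtype.ext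
        rw [Subgroup.coe_mul, Subgroup.coe_mul, Subgroup.coe_inv, coe_delta0H, coe_inclS,
          coe_inclS]
        show lowerConj (N : ℤ) (k₁ : SL(2, ℤ)) = _
        rw [lowerConj_eq]
      rw [this, ofMul_mul, ofMul_mul, ofMul_inv, map_add, map_add, map_neg]
      abel
    have h4 : conjK (chi θ) ⟨η, hηmem⟩ (inclS θ k) = inclS θ k₃ := by
      apply Subtype.ext
      rw [coe_inclS, ← hconj]
      rfl
    have h5 := hφ ⟨η, hηmem⟩ (inclS θ k)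
    rw [h4, h3, h2, h1, hχ] at h5
    apply hε
    rw [sub_smul, one_smul, ← h5, sub_self]
  -- conclusion
  refine AddMonoidHom.ext fun g => ?_
  obtain ⟨g, rfl⟩ : ∃ g' : GammaH θ, Additive.ofMul g' = g := ⟨Additive.toMul g, rfl⟩
  obtain ⟨n, hn, hpow⟩ := exists_pow_mem_GS (r := r) θ (g : SL(2, ℤ))
  have hg : g ^ n = inclS θ ⟨(g : SL(2, ℤ)) ^ n, hpow⟩ := by
    apply Subtype.ext
    rw [Subgroup.coe_pow, coe_inclS]
  have h := hstar ⟨(g : SL(2, ℤ)) ^ n, hpow⟩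
  rw [← hg, ofMul_pow, map_nsmul] at h
  rw [AddMonoidHom.zero_apply]
  exact hA n _ hn.ne' h

/-- **(L5) the Betti twist is injective** on the eigenvectors of the diamond operators whose
eigencharacter is nontrivial on `ker ((ZMod N)ˣ → (ZMod (N / r))ˣ)`. -/
theorem Rpsi_injective [NeZero N] (ψ : MulChar (ZMod r) R)
    (hψ : ∀ g : GammaH (liftθ (r := r) θ), ψ (dr r (g : SL(2, ℤ))) ^ 2 = 1)
    (hsum : ∑ u : (ZMod r)ˣ, ψ (u : ZMod r) = 0)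
    (hA : ∀ (n : ℕ) (a : A), n ≠ 0 → n • a = 0 → a = 0)
    (φ : Additive (GammaH θ) →+ A) (ε : Δ → R)
    (hφ : ∀ (x : Gamma0 N) (k : GammaH θ),
      φ (Additive.ofMul (conjK (chi θ) x k)) = ε (chi θ x) • φ (Additive.ofMul k))
    (x₀ : Gamma0 N) (hx₀ : ((N / r : ℕ) : ℤ) ∣ (x₀ : SL(2, ℤ)) 1 1 - 1)
    (hε : ∀ a : A, (ε (chi θ x₀) - 1) • a = 0 → a = 0)
    (h0 : Rpsi θ hrN ψ hψ φ = 0) : φ = 0 := by
  have hreg : ∀ a : A, (r : R) • a = 0 → a = 0 := by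
    intro a ha
    apply hA r a hrp.out.ne_zero
    rw [← Nat.cast_smul_eq_nsmul R]
    exact ha
  exact eq_zero_of_invariant θ hrN hA φ ε hφ
    (invariant_of_Rpsi_eq_zero θ hrN ψ hψ hsum hreg φ h0) x₀ hx₀ hε

end NV

end Fermat.Agent.GB.B4.Twist.Inj

end
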