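/-
GATE-B / B4-TWIST leaf L6-TRIV (helper44): **the Betti twist `R_ψ` by the TRIVIAL character**
(`ψ = 1` on the units of `ZMod r`, `ψ 0 = 0`) is injective on all of `Hom(Γ_H(N), A)`,
`A` torsion-free.  (`R_ψ = ∑_{x ≠ 0} α_x`; if `R_ψ φ = 0` then on `Γ*` the sum
`P = ∑_{x ∈ ZMod r} a_x φ*` equals `φ*`, is `a`-invariant, hence `P = r φ*`, so `(r - 1) φ* = 0`.)

* `eq_zero_of_resS_eq_zero` : `φ|Γ* = 0 ⟹ φ = 0` (every element of `Γ_H(N)` has a power in `Γ*`);
* `Rpsi_injective_of_trivial`.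

Together with `Inj.Rpsi_injective` this makes EVERY step of the multi-prime iteration injective
(L6-CHAIN).
-/
import Mathlib
import Fermat.Agent.GB.B4.Twist.Inj

set_option autoImplicit false

noncomputable section

open scoped MatrixGroups
open CongruenceSubgroup Matrix Matrix.SpecialLinearGroup
open Fermat.Agent.S16_helper49 Fermat.Agent.GM.B Fermat.Agent.GM.EisClass
open Fermat.Agent.GB.B3 Fermat.Agent.GB.B3.EisGamma0 Fermat.Agent.GB.B3.GamH
open Fermat.Agent.GB.B4.Twist Fermat.Agent.GB.B4.Twist.RPsi Fermat.Agent.GB.B4.Twist.RPsiFix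

namespace Fermat.Agent.GB.B4.Twist.Inj

variable {N r : ℕ} [hrp : Fact r.Prime] {Δ : Type} [CommGroup Δ]
  (θ : (ZMod N)ˣ →* Δ) (hrN : r ∣ N)
  {R : Type*} [CommRing R] {A : Type*} [AddCommGroup A] [Module R A]

/-- a class on `Γ_H(N)` that vanishes on `Γ*` vanishes (`A` torsion-free) -/
theorem eq_zero_of_resS_eq_zero [NeZero N]
    (hA : ∀ (n : ℕ) (a : A), n ≠ 0 → n • a = 0 → a = 0)
    (φ : Additive (GammaH θ) →+ A)
    (hstar : ∀ k : GS θ r, φ (Additive.ofMul (inclS θ k)) = 0) : φ = 0 := by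
  refine AddMonoidHom.ext fun g => ?_
  obtain ⟨g, rfl⟩ : ∃ g' : GammaH θ, Additive.ofMul g' = g := ⟨Additive.toMul g, rfl⟩
  obtain ⟨n, hn, hpow⟩ := exists_pow_mem_GS (r := r) θ (g : SL(2, ℤ))
  have hg : g ^ n = inclS θ ⟨(g : SL(2, ℤ)) ^ n, hpow⟩ := by
    apply Subtype.ext
    rw [Subgroup.coe_pow, coe_inclS]
  have h := hstar ⟨(g : SL(2, ℤ)) ^ n, hpow⟩
  rw [← hg, ofMul_pow, map_nsmul] at h
  rw [AddMonoidHom.zero_apply]
  exact hA n _ hn.ne' h

/-- **the twist by the trivial character is injective** -/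
theorem Rpsi_injective_of_trivial [NeZero N] (ψ : MulChar (ZMod r) R)
    (hψ : ∀ g : GammaH (liftθ (r := r) θ), ψ (dr r (g : SL(2, ℤ))) ^ 2 = 1)
    (hψ1 : ∀ v : (ZMod r)ˣ, ψ (v : ZMod r) = 1)
    (hA : ∀ (n : ℕ) (a : A), n ≠ 0 → n • a = 0 → a = 0)
    (φ : Additive (GammaH θ) →+ A) (h0 : Rpsi θ hrN ψ hψ φ = 0) : φ = 0 := by
  set φs : Additive (GS θ r) →+ A := resS (R := R) θ φ with hφs
  -- the sum over the units vanishes
  have hU : ∑ v : (ZMod r)ˣ, aZ (R := R) θ hrN (v : ZMod r) φs = 0 := by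
    have hΦ : LinAlg.twistSum (aZ θ hrN) (ψu ψ) φs = 0 := by
      refine AddMonoidHom.ext fun k => ?_
      obtain ⟨k, rfl⟩ : ∃ k' : GS θ r, Additive.ofMul k' = k := ⟨Additive.toMul k, rfl⟩
      rw [← Rpsi_toH θ hrN ψ hψ, h0]
      rfl
    unfold LinAlg.twistSum at hΦ
    rw [← hΦ]
    refine Finset.sum_congr rfl fun v _ => ?_
    rw [ψu_apply, hψ1, one_smul]
  -- the full sum is `φ*`
  have hP : ∑ w : ZMod r, aZ (R := R) θ hrN w φs = φs := by
    rw [LinAlg.sum_eq_zero_add_sum_units (fun w : ZMod r => aZ (R := R) θ hrN w φs), hU, add_zero,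
      aZ_zero, Module.End.one_apply]
  -- `φ*` is invariant
  have hinv : ∀ s : ZMod r, aZ (R := R) θ hrN s φs = φs := by
    intro s
    conv_lhs => rw [← hP]
    rw [map_sum]
    conv_rhs => rw [← hP]
    rw [← Equiv.sum_comp (Equiv.addLeft s) (fun w : ZMod r => aZ (R := R) θ hrN w φs)]
    refine Finset.sum_congr rfl fun w _ => ?_
    simp only [Equiv.coe_addLeft]
    rw [aZ_add, Module.End.mul_apply]
  -- hence `r φ* = φ*`
  have hr : (r : ℕ) • φs = φs := by
    conv_rhs => rw [← hP]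
    rw [Finset.sum_congr rfl fun w _ => hinv w, Finset.sum_const, Finset.card_univ, ZMod.card]
  have hφs0 : φs = 0 := by
    have h1 : (r - 1 : ℕ) • φs = 0 := by
      have h2 : ((r - 1 : ℕ) + 1) • φs = φs := by
        rw [Nat.sub_add_cancel hrp.out.one_lt.le]
        exact hr
      rw [add_smul, one_smul] at h2
      exact add_eq_right.mp h2
    refine AddMonoidHom.ext fun k => ?_
    rw [AddMonoidHom.zero_apply]
    apply hA (r - 1) _ (Nat.sub_ne_zero_of_lt hrp.out.one_lt)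
    rw [← AddMonoidHom.nsmul_apply, h1, AddMonoidHom.zero_apply]
  apply eq_zero_of_resS_eq_zero (r := r) θ hA φ
  intro k
  have := DFunLike.congr_fun hφs0 (Additive.ofMul k)
  rw [hφs, resS_apply] at this
  exact this

end Fermat.Agent.GB.B4.Twist.Inj

end
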