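/-
GATE-B / B4-TWIST (helper97): **injectivity of the multi-prime iteration of the Betti twist**
(L6-CHAIN of helper44's split, board 5690 / 5711).

Setting of `Chain.lean`: a list `L` of twisting data `d = (r, ψ, ν)`, a level `N`, a quotient
`θ : (ZMod N)ˣ →* Δ`, `Adm N θ L` (`r ∣ N`, `ψ(u mod r)² = ν(θ u)`).  If moreover

* every `r ∥ N` (`hsq`), the primes are pairwise distinct (`hnd`),
* every `ψ` is trivial on the units or has a value of square `≠ 1` (`hψ`),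
* `R` is a domain, `A` has no `ℕ`-torsion (`hA`) and no `R`-torsion (`hreg`),
* `ε = ∏ ν` on the image of `θ` (`hε`),

then `chainR N θ L h` is injective on the `ε`-eigenvectors of the `Γ₀(N)`-conjugations
(`chainR_injective`), and so is the descent `chainD` to `Γ₀(N · ∏ r)` (`chainD_injective`).

Proof: induction on `L`; the step is helper44's `Inj.Rpsi_injective` (ramified case: the element
`x₀ ∈ Γ₀(N)` with `d(x₀) ≡ 1 mod N / r`, `d(x₀) ≡ v mod r` comes from the Chinese remainder theorem,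
`exists_x0`; on it `ε(χ x₀) = ψ(v)² ≠ 1` since all the other primes of `L` divide `N / r`) or
`Inj.Rpsi_injective_of_trivial`.
-/
import Mathlib
import Fermat.Agent.GB.B4.Twist.ChainD
import Fermat.Agent.GB.B4.Twist.InjTriv

set_option autoImplicit false

open scoped MatrixGroups
open CongruenceSubgroup Matrix Matrix.SpecialLinearGroup ModularCurve.Period
open Fermat.Agent.S16_helper49 Fermat.Agent.GM.B Fermat.Agent.GM.EisClass
open Fermat.Agent.GB.B3 Fermat.Agent.GB.B3.EisGamma0 Fermat.Agent.GB.B3.GamH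
open Fermat.Agent.GB.B4.Twist Fermat.Agent.GB.B4.Twist.RPsi Fermat.Agent.GB.B4.Twist.Chain
open Fermat.Agent.GB.B4.Twist.ChainD

namespace Fermat.Agent.GB.B4.Twist.ChainInj

/-! ### the element `x₀` -/

/-- **Chinese remainder in `Γ₀(N)`**: for `r ∥ N` and a unit `v` mod `r` there is `x₀ ∈ Γ₀(N)` with
`d(x₀) ≡ 1 mod N / r` and `d(x₀) ≡ v mod r`. -/
theorem exists_x0 {N r : ℕ} [NeZero N] [hrp : Fact r.Prime] (hrN : r ∣ N) (hr2 : ¬ r ^ 2 ∣ N)
    (v : (ZMod r)ˣ) :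
    ∃ x₀ : Gamma0 N, ((N / r : ℕ) : ℤ) ∣ (x₀ : SL(2, ℤ)) 1 1 - 1 ∧
      dr r (x₀ : SL(2, ℤ)) = (v : ZMod r) := by
  obtain ⟨N', rfl⟩ := hrN
  have hr0 : 0 < r := hrp.out.pos
  rw [Nat.mul_div_cancel_left N' hr0]
  have hc : Nat.Coprime r N' := by
    rw [Nat.Prime.coprime_iff_not_dvd hrp.out]
    intro h
    exact hr2 (by rw [pow_two]; exact Nat.mul_dvd_mul_left r h)
  obtain ⟨k, hk1, hk2⟩ := Nat.chineseRemainder hc (v : ZMod r).val 1
  have hkr : Nat.Coprime k r := by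
    have h1 : Nat.Coprime (v : ZMod r).val r := ZMod.val_coe_unit_coprime v
    rw [Nat.Coprime, ← hk1.gcd_eq] at h1
    exact h1
  have hkN' : Nat.Coprime k N' := by
    have h1 : Nat.Coprime 1 N' := Nat.coprime_one_left N'
    rw [Nat.Coprime, ← hk2.gcd_eq] at h1
    exact h1
  have hk : Nat.Coprime k (r * N') := Nat.Coprime.mul_right hkr hkN'
  obtain ⟨x₀, hx₀⟩ := dUnits_surjective (N := r * N') (ZMod.unitOfCoprime k hk)
  have h1 : (((x₀ : SL(2, ℤ)) 1 1 : ℤ) : ZMod (r * N')) = ((k : ℤ) : ZMod (r * N')) := by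
    have h2 := congrArg (fun u : (ZMod (r * N'))ˣ => (u : ZMod (r * N'))) hx₀
    simp only [coe_dUnits, ZMod.coe_unitOfCoprime] at h2
    rw [Int.cast_natCast]
    exact h2
  have h3 : ((r * N' : ℕ) : ℤ) ∣ (x₀ : SL(2, ℤ)) 1 1 - (k : ℤ) := by
    rw [← ZMod.intCast_zmod_eq_zero_iff_dvd, Int.cast_sub, h1, sub_self]
  refine ⟨x₀, ?_, ?_⟩
  · have h4 : (N' : ℤ) ∣ (x₀ : SL(2, ℤ)) 1 1 - (k : ℤ) :=
      Dvd.dvd.trans (by push_cast; exact Dvd.intro_left _ rfl) h3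
    have h5 : (N' : ℤ) ∣ (k : ℤ) - 1 := by
      have := (Int.natCast_modEq_iff.mpr hk2).symm.dvd
      simpa using this
    have := dvd_add h4 h5
    rwa [sub_add_sub_cancel] at this
  · unfold dr
    have h4 : (r : ℤ) ∣ (x₀ : SL(2, ℤ)) 1 1 - (k : ℤ) :=
      Dvd.dvd.trans (by push_cast; exact Dvd.intro _ rfl) h3
    rw [← ZMod.intCast_zmod_eq_zero_iff_dvd, Int.cast_sub, sub_eq_zero] at h4
    rw [h4, Int.cast_natCast, (ZMod.natCast_eq_natCast_iff _ _ _).mpr hk1,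
      ZMod.natCast_zmod_val]

/-! ### auxiliary facts on the data -/

variable {R : Type*} [CommRing R] {Δ : Type} [CommGroup Δ]

theorem prod_nu_apply_eq_one (L : List (TwDatum R Δ)) (x : Δ) (h : ∀ e ∈ L, e.ν x = 1) :
    (L.map (fun d => d.ν)).prod x = 1 := by
  induction L with
  | nil => simp
  | cons d L ih =>
    rw [List.map_cons, List.prod_cons, MonoidHom.mul_apply, h d (List.mem_cons_self ..),
      ih (fun e he => h e (List.mem_cons_of_mem d he)), one_mul]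

/-- the lower right entry of `x ∈ Γ₀(N)` read modulo a divisor of `N` -/
theorem cast_dUnits {N m : ℕ} (hm : m ∣ N) (x : Gamma0 N) :
    ((((dUnits N x : (ZMod N)ˣ) : ZMod N)).cast : ZMod m) = dr m (x : SL(2, ℤ)) := by
  rw [coe_dUnits]
  unfold dN dr
  rw [ZMod.cast_intCast hm]

variable {A : Type*} [AddCommGroup A] [Module R A]

/-- the conjugation rule of one step, in the `Adm` frame -/
theorem RpsiL_conj_adm {N : ℕ} {θ : (ZMod N)ˣ →* Δ} {d : TwDatum R Δ} {L : List (TwDatum R Δ)}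
    (h : Adm N θ (d :: L)) (ε : Δ →* Rˣ) (φ : Additive (GammaH θ) →+ A)
    (hφ : ∀ (x : Gamma0 N) (k : GammaH θ),
      φ (Additive.ofMul (conjK (chi θ) x k)) = ((ε (chi θ x) : Rˣ) : R) • φ (Additive.ofMul k))
    (x : Gamma0 (N * d.r)) (k' : GammaH (liftθ (r := d.r) θ)) :
    RpsiL θ (adm_head h).1 d.ψ (hψ_of_adm h) φ
        (Additive.ofMul (conjK (chi (liftθ (r := d.r) θ)) x k'))
      = (((ε * d.ν⁻¹) (chi (liftθ (r := d.r) θ) x) : Rˣ) : R)
        • RpsiL θ (adm_head h).1 d.ψ (hψ_of_adm h) φ (Additive.ofMul k') := by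
  have h1 := Rpsi_conj θ (adm_head h).1 d.ψ (hψ_of_adm h) (fun t => ((ε t : Rˣ) : R)) φ hφ x k'
  rw [psi_sq_eq h x] at h1
  show Rpsi θ (adm_head h).1 d.ψ (hψ_of_adm h) φ
      (Additive.ofMul (conjK (chi (liftθ (r := d.r) θ)) x k'))
    = (((ε * d.ν⁻¹) (chi (liftθ (r := d.r) θ) x) : Rˣ) : R)
      • Rpsi θ (adm_head h).1 d.ψ (hψ_of_adm h) φ (Additive.ofMul k')
  rw [MonoidHom.mul_apply, MonoidHom.inv_apply]
  generalize Rpsi θ (adm_head h).1 d.ψ (hψ_of_adm h) φ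
    (Additive.ofMul (conjK (chi (liftθ (r := d.r) θ)) x k')) = X at h1 ⊢
  generalize Rpsi θ (adm_head h).1 d.ψ (hψ_of_adm h) φ (Additive.ofMul k') = Y at h1 ⊢
  generalize d.ν (chi (liftθ (r := d.r) θ) x) = a at h1 ⊢
  generalize ε (chi (liftθ (r := d.r) θ) x) = e at h1 ⊢
  calc X = ((a⁻¹ : Rˣ) : R) • ((a : R) • X) := by
        rw [← mul_smul, ← Units.val_mul, inv_mul_cancel, Units.val_one, one_smul]
    _ = ((a⁻¹ : Rˣ) : R) • ((e : R) • Y) := by rw [h1]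
    _ = ((e * a⁻¹ : Rˣ) : R) • Y := by rw [← mul_smul, ← Units.val_mul, mul_comm]

/-! ### the theorem -/

/-- **the iterated twist is injective on the `∏ ν`-eigenvectors** -/
theorem chainR_injective [IsDomain R] (N : ℕ) [NeZero N] (θ : (ZMod N)ˣ →* Δ)
    (L : List (TwDatum R Δ)) (h : Adm N θ L)
    (hsq : ∀ d ∈ L, ¬ d.r ^ 2 ∣ N) (hnd : L.Pairwise (fun d e => d.r ≠ e.r))
    (hψ : ∀ d ∈ L, (∀ v : (ZMod d.r)ˣ, d.ψ (v : ZMod d.r) = 1) ∨
      ∃ v : (ZMod d.r)ˣ, d.ψ (v : ZMod d.r) ^ 2 ≠ 1)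
    (hA : ∀ (n : ℕ) (a : A), n ≠ 0 → n • a = 0 → a = 0)
    (hreg : ∀ (c : R) (a : A), c ≠ 0 → c • a = 0 → a = 0)
    (ε : Δ →* Rˣ) (hε : ∀ u : (ZMod N)ˣ, ε (θ u) = (L.map (fun d => d.ν)).prod (θ u))
    (φ : Additive (GammaH θ) →+ A)
    (hφ : ∀ (x : Gamma0 N) (k : GammaH θ),
      φ (Additive.ofMul (conjK (chi θ) x k)) = ((ε (chi θ x) : Rˣ) : R) • φ (Additive.ofMul k))
    (h0 : chainR N θ L h φ = 0) : φ = 0 := by
  induction L generalizing N ε with
  | nil => exact h0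
  | cons d L ih =>
    rw [chainR_cons] at h0
    obtain ⟨hrN, hsqν⟩ := adm_head h
    have hdL : ∀ e ∈ L, d.r ≠ e.r := (List.pairwise_cons.mp hnd).1
    have : NeZero (N * d.r) := ⟨mul_ne_zero (NeZero.ne N) d.hr.out.ne_zero⟩
    -- the first twist of `φ` vanishes, by induction
    have hR : RpsiL θ (adm_head h).1 d.ψ (hψ_of_adm h) φ = 0 := by
      refine ih (N * d.r) (liftθ (r := d.r) θ) (adm_tail h) ?_ (List.pairwise_cons.mp hnd).2
        (fun e he => hψ e (List.mem_cons_of_mem d he)) (ε * d.ν⁻¹) ?_ _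
        (RpsiL_conj_adm h ε φ hφ) h0
      · intro e he h2
        have hcop : Nat.Coprime (e.r ^ 2) d.r :=
          Nat.Coprime.pow_left 2 ((Nat.coprime_primes e.hr.out d.hr.out).mpr (hdL e he).symm)
        exact hsq e (List.mem_cons_of_mem d he) (hcop.dvd_of_dvd_mul_right h2)
      · intro u
        rw [liftθ_apply, MonoidHom.mul_apply, MonoidHom.inv_apply, hε, List.map_cons,
          List.prod_cons, MonoidHom.mul_apply, mul_comm, ← mul_assoc, inv_mul_cancel, one_mul]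
    rcases hψ d (List.mem_cons_self ..) with h1 | ⟨v, hv⟩
    · exact Inj.Rpsi_injective_of_trivial θ hrN d.ψ (hψ_of_adm h) h1 hA φ hR
    · obtain ⟨x₀, hx1, hx2⟩ := exists_x0 hrN (hsq d (List.mem_cons_self ..)) v
      have hv1 : d.ψ (v : ZMod d.r) ≠ 1 := fun h2 => hv (by rw [h2, one_pow])
      have hsum : ∑ u : (ZMod d.r)ˣ, d.ψ (u : ZMod d.r) = 0 :=
        LinAlg.sum_eq_zero_of_ne_one (ψ := Inj.ψu d.ψ) (u := v) hv1
      -- the value of `ε` at `x₀`
      have hεx : ((ε (chi θ x₀) : Rˣ) : R) = d.ψ (v : ZMod d.r) ^ 2 := by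
        rw [chi_apply, hε, List.map_cons, List.prod_cons, MonoidHom.mul_apply,
          prod_nu_apply_eq_one L, mul_one, ← hsqν, cast_dUnits hrN, hx2]
        intro e he
        obtain ⟨he1, he2⟩ := h e (List.mem_cons_of_mem d he)
        apply Units.ext
        rw [← he2, cast_dUnits he1, Units.val_one]
        have hcop : Nat.Coprime e.r d.r :=
          (Nat.coprime_primes e.hr.out d.hr.out).mpr (hdL e he).symm
        have h3 : e.r ∣ N / d.r := by
          apply hcop.dvd_of_dvd_mul_left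
          rw [Nat.mul_div_cancel' hrN]
          exact he1
        have h4 : ((e.r : ℕ) : ℤ) ∣ (x₀ : SL(2, ℤ)) 1 1 - 1 :=
          (Int.natCast_dvd_natCast.mpr h3).trans hx1
        unfold dr
        rw [← ZMod.intCast_zmod_eq_zero_iff_dvd, Int.cast_sub, Int.cast_one, sub_eq_zero] at h4
        rw [h4, map_one, one_pow]
      refine Inj.Rpsi_injective θ hrN d.ψ (hψ_of_adm h) hsum hA φ (fun t => ((ε t : Rˣ) : R)) hφ
        x₀ hx1 ?_ hR
      intro a ha
      refine hreg _ a ?_ ha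
      show ((ε (chi θ x₀) : Rˣ) : R) - 1 ≠ 0
      rw [hεx]
      exact sub_ne_zero.mpr hv

/-- **the descended iterated twist is injective on the `∏ ν`-eigenvectors** -/
theorem chainD_injective [IsDomain R] [Fintype Δ] (N : ℕ) [NeZero N] (θ : (ZMod N)ˣ →* Δ)
    (L : List (TwDatum R Δ)) (h : Adm N θ L)
    (rep : Δ → Gamma0 (chainLevel N L)) (hrep : ∀ δ, chi (chainθ N θ L) (rep δ) = δ)
    (hsq : ∀ d ∈ L, ¬ d.r ^ 2 ∣ N) (hnd : L.Pairwise (fun d e => d.r ≠ e.r))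
    (hψ : ∀ d ∈ L, (∀ v : (ZMod d.r)ˣ, d.ψ (v : ZMod d.r) = 1) ∨
      ∃ v : (ZMod d.r)ˣ, d.ψ (v : ZMod d.r) ^ 2 ≠ 1)
    (hA : ∀ (n : ℕ) (a : A), n ≠ 0 → n • a = 0 → a = 0)
    (hreg : ∀ (c : R) (a : A), c ≠ 0 → c • a = 0 → a = 0)
    (φ : Additive (GammaH θ) →+ A)
    (hφ : ∀ (x : Gamma0 N) (k : GammaH θ),
      φ (Additive.ofMul (conjK (chi θ) x k))
        = ((((L.map (fun d => d.ν)).prod (chi θ x) : Rˣ)) : R) • φ (Additive.ofMul k))
    (h0 : chainD N θ L h rep hrep φ = 0) : φ = 0 :=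
  chainD_eq_zero N θ L h rep hrep (fun a => hA _ a Fintype.card_ne_zero) φ hφ
    (chainR_injective N θ L h hsq hnd hψ hA hreg _ (fun _ => rfl) φ hφ) h0

end Fermat.Agent.GB.B4.Twist.ChainInj
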