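/-
GATE-B / B4-TWIST leaf L6-ASM (helper44), **chain form**: the twist ring homomorphism
`tw : heckeAlgebra N' 2 S →+* End_O (Hom_par(Γ_H(N), O))`, `tw (T_ℓ) = ⟨dℓ ℓ⟩ ∘ T_ℓ`, from

* the diamond representation of `Δ` on `Hom(Γ_H(N), K)` and its `ε`-decomposition
  (helper15 `DiaRep`, `EpsDecomp`), `K ⊇ O` a field of characteristic `0` with enough roots of unity;
* for every character `ε : Δ →* Kˣ` a list `Lε ε` of twisting data (helper97 `Chain.TwDatum`) of
  level `chainLevel N (Lε ε) = N'`, admissible, with pairwise distinct primes `r ∥ N`, characters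
  `ψ` trivial on the units or with a value of square `≠ 1`, and `∏ ν = ε`;
* elements `dℓ ℓ ∈ Γ₀(N)` with `ε (χ_θ (dℓ ℓ)) * chainPsi (Lε ε) ℓ = 1` for all `ε`.

The per-`ε` intertwiner is `castHom ∘ ChainD.chainD` (helper97), injective on the `ε`-eigenvectors by
`ChainInj.chainD_injective`; the assembly is `Asm.exists_tw_of_maps`.
-/
import Mathlib
import Fermat.Agent.GB.B4.Twist.Asm2
import Fermat.Agent.GB.B4.Twist.ChainInj
import Fermat.Agent.GB.B4.Twist.DiaRep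

set_option autoImplicit false

noncomputable section

open scoped MatrixGroups
open CongruenceSubgroup Matrix Matrix.SpecialLinearGroup ModularCurve.Period CuspForm
open Fermat.Agent.S16_helper49 Fermat.Agent.GM.B Fermat.Agent.GM.EisClass
open Fermat.Agent.GB.B3 Fermat.Agent.GB.B3.EisGamma0 Fermat.Agent.GB.B3.GamH
open Fermat.Agent.GJ.J2.ZStruct Fermat.Agent.GJ.J2.Lat
open Fermat.Agent.GB.B4.Twist.Chain Fermat.Agent.GB.B4.Twist.ChainD
open Fermat.Agent.GB.B4.Twist.Asm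

namespace Fermat.Agent.GB.B4.Twist.Tw

section Main

variable {N N' : ℕ} [NeZero N] [NeZero N'] {Δ : Type} [CommGroup Δ] [Fintype Δ]
  (θ : (ZMod N)ˣ →* Δ) (hθ : Function.Surjective θ)
  (S : Set ℕ) (hS : ∀ q : ℕ, q.Prime → q ∣ N' → q ∈ S) (hNN' : N ∣ N')
  {O : Type*} [CommRing O] {K : Type*} [Field K] [CharZero K] [Algebra O K]
  (hinj : Function.Injective (algebraMap O K))
  [Fintype (Δ →* Kˣ)] [HasEnoughRootsOfUnity K (Monoid.exponent Δ)]

/-- local instance (Prop-valued class) -/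
local instance factPrimeOff3 (l : PrimesOff S) : Fact (l.1 : ℕ).Prime := ⟨l.1.2⟩

variable (Lε : (Δ →* Kˣ) → List (TwDatum K Δ)) (dℓ : PrimesOff S → Gamma0 N)

include hθ hinj in
/-- **the twist ring homomorphism, chain form** -/
theorem exists_tw_of_chains
    (hadm : ∀ ε, Adm N θ (Lε ε))
    (hlev : ∀ ε, chainLevel N (Lε ε) = N')
    (hsq : ∀ ε, ∀ d ∈ Lε ε, ¬ d.r ^ 2 ∣ N)
    (hnd : ∀ ε, (Lε ε).Pairwise (fun d e => d.r ≠ e.r))
    (hψ : ∀ ε, ∀ d ∈ Lε ε, (∀ v : (ZMod d.r)ˣ, d.ψ (v : ZMod d.r) = 1) ∨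
      ∃ v : (ZMod d.r)ˣ, d.ψ (v : ZMod d.r) ^ 2 ≠ 1)
    (hν : ∀ (ε : Δ →* Kˣ) (δ : Δ), ((Lε ε).map (fun d => d.ν)).prod δ = ε δ)
    (hc : ∀ (ε : Δ →* Kˣ) (l : PrimesOff S),
      ((ε (chi θ (dℓ l)) : Kˣ) : K) * chainPsi (Lε ε) (l.1 : ℕ) = 1) :
    ∃ tw : ↥(heckeAlgebra N' 2 S) →+* Module.End O ↥(parabolicHoms O (GammaH θ) O),
      (∀ (l : PrimesOff S) (v : ↥(parabolicHoms O (GammaH θ) O)),
        ((tw (formsGenS N' S l) v : ↥(parabolicHoms O (GammaH θ) O)) :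
            Additive (GammaH θ) →+ O)
          = diaH θ O (dℓ l) (GamH.TH θ O (not_dvd_level S hS hNN' l) (v : Additive (GammaH θ) →+ O))) ∧
      (∀ (l : PrimesOff S) (v : ↥(parabolicHoms O (GammaH θ) O)),
        ((tw (heckeAlgebra.T l.1.2 (not_dvd_level' S hS l) l.2) v :
            ↥(parabolicHoms O (GammaH θ) O)) : Additive (GammaH θ) →+ O)
          = diaH θ O (dℓ l) (GamH.TH θ O (not_dvd_level S hS hNN' l)
              (v : Additive (GammaH θ) →+ O))) := by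
  classical
  have hcard : (Fintype.card Δ : K) ≠ 0 := Nat.cast_ne_zero.mpr Fintype.card_ne_zero
  haveI hNZ : ∀ ε, NeZero (chainLevel N (Lε ε)) := fun ε => by rw [hlev ε]; infer_instance
  have hsurj : ∀ ε, Function.Surjective (chainθ N θ (Lε ε)) := by
    intro ε
    rw [chainθ_eq]
    exact hθ.comp (ZMod.unitsMap_surjective _)
  choose rep' hrep' using fun ε => exists_rep (chainθ N θ (Lε ε)) (hsurj ε)
  let ρ : Δ →* Module.End K (Additive (GammaH θ) →+ K) := DiaRep.diaRep (R := K) (A := K) θ hθ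
  -- the projectors
  let e : (Δ →* Kˣ) → (Additive (GammaH θ) →+ K) →+ (Additive (GammaH θ) →+ K) :=
    fun ε => (EpsDecomp.proj ρ ε : (Additive (GammaH θ) →+ K) →ₗ[K] _).toAddMonoidHom
  -- the per-character intertwiners
  let D : (Δ →* Kˣ) → (Additive (GammaH θ) →+ K) →+ (Additive (Gamma0 N') →+ K) :=
    fun ε => (castHom (hlev ε) K).comp (chainD N θ (Lε ε) (hadm ε) (rep' ε) (hrep' ε))
  have he_apply : ∀ ε φ, e ε φ = DiaRep.comp θ hθ ε φ := fun ε φ => rfl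
  refine exists_tw_of_maps θ S hS hNN' hinj (fun ε δ => ((ε δ : Kˣ) : K)) e D
    (fun ε l => chainPsi (Lε ε) (l.1 : ℕ)) dℓ ?_ ?_ ?_ ?_ ?_ ?_ ?_ ?_ ?_ ?_ hc
  · -- he_sum
    intro φ
    simp_rw [he_apply]
    exact DiaRep.sum_comp θ hθ hcard φ
  · -- he_smul
    intro ε a φ
    exact map_smul (EpsDecomp.proj ρ ε) a φ
  · -- he_par
    intro ε φ hφ
    exact DiaRep.comp_par θ hθ ε φ hφ
  · -- he_eig
    intro ε φ d
    have h1 := EpsDecomp.proj_mem_eigen ρ ε φ (chi θ d)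
    have h2 : ρ (chi θ d) = DiaRep.diaL θ d := DiaRep.diaRep_chi θ hθ d
    rw [h2] at h1
    exact h1
  · -- he_TH
    intro ε l φ
    exact DiaRep.comp_TH θ hθ (not_dvd_level S hS hNN' l) ε φ
  · -- he_dia
    intro ε d φ
    have h1 := EpsDecomp.commute_proj ρ (DiaRep.diaL θ d) (fun δ => by
      rw [← DiaRep.diaRep_chi θ hθ d]
      show ρ (chi θ d) * ρ δ = ρ δ * ρ (chi θ d)
      rw [← map_mul, ← map_mul, mul_comm]) ε
    have h2 := LinearMap.congr_fun h1 φ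
    rw [Module.End.mul_apply, Module.End.mul_apply] at h2
    exact h2.symm
  · -- hD_smul
    intro ε a φ
    show castHom (hlev ε) K (chainD N θ (Lε ε) (hadm ε) (rep' ε) (hrep' ε) (a • φ)) = _
    rw [chainD_apply, map_smul, coresH_smul, castHom_smul]
    rfl
  · -- hD_par
    intro ε φ hφ
    exact isParabolicHom_castHom (hlev ε) (chainD_par N θ (Lε ε) (hadm ε) (rep' ε) (hrep' ε) φ hφ)
  · -- hD_inj
    intro ε φ hφ h0
    have h1 : chainD N θ (Lε ε) (hadm ε) (rep' ε) (hrep' ε) φ = 0 :=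
      (castHom_eq_zero_iff (hlev ε) _).mp h0
    refine ChainInj.chainD_injective N θ (Lε ε) (hadm ε) (rep' ε) (hrep' ε) (hsq ε) (hnd ε) (hψ ε)
      ?_ ?_ φ ?_ h1
    · intro n a hn h
      rw [nsmul_eq_mul] at h
      rcases mul_eq_zero.mp h with h' | h'
      · exact absurd (Nat.cast_eq_zero.mp h') hn
      · exact h'
    · intro c a hc' h
      rcases smul_eq_zero.mp h with h' | h'
      · exact absurd h' hc'
      · exact h'
    · intro x k
      have h2 := DFunLike.congr_fun (hφ x) (Additive.ofMul k)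
      rw [diaH_apply, AddMonoidHom.smul_apply] at h2
      rw [h2, hν]
  · -- hD_TH
    intro ε l φ
    show castHom (hlev ε) K (chainD N θ (Lε ε) (hadm ε) (rep' ε) (hrep' ε)
      (GamH.TH θ K (not_dvd_level S hS hNN' l) φ)) = _
    have hℓ : ¬ (l.1 : ℕ) ∣ chainLevel N (Lε ε) := by
      rw [hlev ε]
      exact not_dvd_level' S hS l
    have h1 := chainD_TH N θ (Lε ε) (hadm ε) (rep' ε) (hrep' ε) hℓ φ
    have h2 : GamH.TH θ K (not_dvd_level S hS hNN' l) φ = GamH.TH θ K (not_dvd_base hℓ) φ := rfl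
    rw [h2, h1, castHom_smul, castHom_cohT (hlev ε) hℓ (not_dvd_level' S hS l)]
    rfl

end Main

end Fermat.Agent.GB.B4.Twist.Tw

end
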