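/-
GATE-B / B4-TWIST leaf L6-ASM (helper44), **final form**: the twist ring homomorphism
`tw : heckeAlgebra N' 2 S →+* End_O (Hom_par(Γ_H(N), O))`, `tw (T_ℓ) = ⟨ℓ⟩^{-1/2} ∘ T_ℓ`,
with NO analytic / chain binder left.

Setting: `θ : (ZMod N)ˣ →* Δ` surjective, `|Δ|` odd, `L` a list of distinct primes `r ∥ N` such that
`θ` is the product of local characters at the primes of `L` (helper10 `L6Loc`: `θloc`, `pr`, `hpr`,
`hprod`), `N' = N * L.prod`, `S ⊇` the primes of `N'`, `O ↪ K` with `K` a field of characteristic `0`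
with enough roots of unity (e.g. `O` a domain of characteristic `0`, `K` the algebraic closure of its
fraction field).  For `ℓ ∉ S` prime let `dℓ ℓ ∈ Γ₀(N)` be such that `χ_θ(dℓ ℓ)² · θ(ℓ) = 1`
(`⟨dℓ ℓ⟩ = ⟨ℓ⟩^{-1/2}`).  Then

* `exists_tw_of_field`, `exists_tw` : `∃ tw, ∀ ℓ ∉ S, tw (T_ℓ) = diaH (dℓ ℓ) ∘ GamH.TH ℓ` on
  `parabolicHoms O (GammaH θ) O`;
* `exists_dl` : such a family `dℓ` exists;
* `commute_of_commute_gens` : an endomorphism commuting with all the `tw (T_ℓ)` commutes with `tw t`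
  for every `t`; `diaV`, `THV`, `UHV` (the diamond, `T_ℓ'`, `U_r` operators on the parabolic classes)
  commute with `tw t` (`commute_diaV_tw`, `commute_THV_tw`, `commute_UHV_tw`), so that `tw` restricts to
  every localisation of `Hom_par(Γ_H(N), O)` cut out by these operators.
-/
import Mathlib
import Fermat.Agent.GB.B4.Twist.Tw
import Fermat.Agent.GB.B4.Twist.L6Loc
import Fermat.Agent.GB.B3.CommGammaH

set_option autoImplicit false

noncomputable section

open scoped MatrixGroups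
open CongruenceSubgroup Matrix Matrix.SpecialLinearGroup ModularCurve.Period CuspForm
open Fermat.Agent.S16_helper49 Fermat.Agent.GM.B Fermat.Agent.GM.EisClass
open Fermat.Agent.GB.B3 Fermat.Agent.GB.B3.EisGamma0 Fermat.Agent.GB.B3.GamH
open Fermat.Agent.GJ.J2.ZStruct Fermat.Agent.GJ.J2.Lat
open Fermat.Agent.GB.B4.Twist.Chain Fermat.Agent.GB.B4.Twist.ChainD
open Fermat.Agent.GB.B4.Twist.Asm Fermat.Agent.GB.B4.Twist.L6Loc

namespace Fermat.Agent.GB.B4.Twist.TwFinal

/-- local instance (Prop-valued class) -/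
local instance factPrimeOff4 {S : Set ℕ} (l : PrimesOff S) : Fact (l.1 : ℕ).Prime := ⟨l.1.2⟩

section Main

variable {N N' : ℕ} [NeZero N] [NeZero N'] {Δ : Type} [CommGroup Δ] [Fintype Δ]
  (θ : (ZMod N)ˣ →* Δ) (hθ : Function.Surjective θ) (hodd : Odd (Nat.card Δ))
  (L : List ℕ) (hL : ∀ r ∈ L, r.Prime) (hnd : L.Nodup)
  (hdvd : ∀ r ∈ L, r ∣ N) (hsq : ∀ r ∈ L, ¬ r ^ 2 ∣ N) (hN' : N' = N * L.prod)
  (θloc : (r : ℕ) → (ZMod r)ˣ →* Δ) (pr : ℕ → Δ →* Δ)
  (hpr : ∀ r ∈ L, ∀ (h : r ∣ N) (u : (ZMod N)ˣ), pr r (θ u) = θloc r (ZMod.unitsMap h u))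
  (hprod : ∀ u : (ZMod N)ˣ, θ u = (L.map fun r => pr r (θ u)).prod)
  (S : Set ℕ) (hS : ∀ q : ℕ, q.Prime → q ∣ N' → q ∈ S)
  {O : Type*} [CommRing O]
  (dℓ : PrimesOff S → Gamma0 N)
  (hdℓ : ∀ (l : PrimesOff S) (u : (ZMod N)ˣ), (u : ZMod N) = ((l.1 : ℕ) : ZMod N) →
    chi θ (dℓ l) ^ 2 * θ u = 1)

include hN' in
theorem dvd_level : N ∣ N' := by
  rw [hN']
  exact Dvd.intro _ rfl

include hθ hodd hL hnd hdvd hsq hpr hprod hdℓ in
/-- **the twist ring homomorphism**, coefficient field `K` as a parameter -/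
theorem exists_tw_of_field {K : Type*} [Field K] [CharZero K] [Algebra O K]
    (hinj : Function.Injective (algebraMap O K))
    [Fintype (Δ →* Kˣ)] [HasEnoughRootsOfUnity K (Monoid.exponent Δ)] :
    ∃ tw : ↥(heckeAlgebra N' 2 S) →+* Module.End O ↥(parabolicHoms O (GammaH θ) O),
      (∀ (l : PrimesOff S) (v : ↥(parabolicHoms O (GammaH θ) O)),
        ((tw (formsGenS N' S l) v : ↥(parabolicHoms O (GammaH θ) O)) :
            Additive (GammaH θ) →+ O)
          = diaH θ O (dℓ l) (GamH.TH θ O (not_dvd_level S hS (dvd_level L hN') l)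
              (v : Additive (GammaH θ) →+ O))) ∧
      (∀ (l : PrimesOff S) (v : ↥(parabolicHoms O (GammaH θ) O)),
        ((tw (heckeAlgebra.T l.1.2 (not_dvd_level' S hS l) l.2) v :
            ↥(parabolicHoms O (GammaH θ) O)) : Additive (GammaH θ) →+ O)
          = diaH θ O (dℓ l) (GamH.TH θ O (not_dvd_level S hS (dvd_level L hN') l)
              (v : Additive (GammaH θ) →+ O))) := by
  classical
  refine Tw.exists_tw_of_chains θ hθ S hS (dvd_level L hN') hinj
    (fun ε => datumList θloc pr ε L hL) dℓ ?_ ?_ ?_ ?_ ?_ ?_ ?_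
  · -- hadm
    intro ε
    exact adm θloc pr ε θ hodd L hL hdvd hpr
  · -- hlev
    intro ε
    rw [chainLevel_datumList, hN']
  · -- hsq
    intro ε d hd
    exact hsq _ (r_mem_of_mem_datumList θloc pr ε hd)
  · -- hnd
    intro ε
    have h := nodup_datumList θloc pr ε hL hnd
    exact (List.pairwise_map.mp h)
  · -- hψ
    intro ε
    exact trivial_or_sq_ne_one θloc pr ε hodd L hL
  · -- hν
    intro ε δ
    rw [prod_ν_eq θloc pr ε θ L hL hprod hθ]
  · -- hc
    intro ε l
    have hcop : Nat.Coprime (l.1 : ℕ) N :=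
      (Nat.Prime.coprime_iff_not_dvd l.1.2).mpr (not_dvd_level S hS (dvd_level L hN') l)
    have hu : ((ZMod.unitOfCoprime (l.1 : ℕ) hcop : (ZMod N)ˣ) : ZMod N) = ((l.1 : ℕ) : ZMod N) :=
      ZMod.coe_unitOfCoprime _ hcop
    rw [chainPsi_eq θloc pr ε θ L hL hdvd hpr hprod (l.1 : ℕ) _ hu, ← Units.val_mul,
      ← Units.val_one, Units.val_inj]
    have h1 := congrArg (sqrtChar ε) (hdℓ l _ hu)
    rw [map_mul, map_pow, sqrtChar_sq_apply hodd, map_one] at h1
    exact h1

include hθ hodd hL hnd hdvd hsq hpr hprod hdℓ in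
/-- **the twist ring homomorphism** for a domain `O` of characteristic `0` -/
theorem exists_tw [IsDomain O] [CharZero O] :
    ∃ tw : ↥(heckeAlgebra N' 2 S) →+* Module.End O ↥(parabolicHoms O (GammaH θ) O),
      (∀ (l : PrimesOff S) (v : ↥(parabolicHoms O (GammaH θ) O)),
        ((tw (formsGenS N' S l) v : ↥(parabolicHoms O (GammaH θ) O)) :
            Additive (GammaH θ) →+ O)
          = diaH θ O (dℓ l) (GamH.TH θ O (not_dvd_level S hS (dvd_level L hN') l)
              (v : Additive (GammaH θ) →+ O))) ∧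
      (∀ (l : PrimesOff S) (v : ↥(parabolicHoms O (GammaH θ) O)),
        ((tw (heckeAlgebra.T l.1.2 (not_dvd_level' S hS l) l.2) v :
            ↥(parabolicHoms O (GammaH θ) O)) : Additive (GammaH θ) →+ O)
          = diaH θ O (dℓ l) (GamH.TH θ O (not_dvd_level S hS (dvd_level L hN') l)
              (v : Additive (GammaH θ) →+ O))) := by
  classical
  letI : Fintype (Δ →* (AlgebraicClosure (FractionRing O))ˣ) := Fintype.ofFinite _
  have hinj : Function.Injective (algebraMap O (AlgebraicClosure (FractionRing O))) := by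
    rw [IsScalarTower.algebraMap_eq O (FractionRing O) (AlgebraicClosure (FractionRing O))]
    exact (algebraMap (FractionRing O) (AlgebraicClosure (FractionRing O))).injective.comp
      (IsFractionRing.injective O (FractionRing O))
  exact exists_tw_of_field θ hθ hodd L hL hnd hdvd hsq hN' θloc pr hpr hprod S hS dℓ hdℓ
    (K := AlgebraicClosure (FractionRing O)) hinj

include hθ hodd in
/-- **the elements `dℓ ℓ`**: `⟨dℓ ℓ⟩ = ⟨ℓ⟩^{-1/2}` -/
theorem exists_dl (hSN : ∀ l : PrimesOff S, ¬ (l.1 : ℕ) ∣ N) :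
    ∃ dℓ : PrimesOff S → Gamma0 N,
      ∀ (l : PrimesOff S) (u : (ZMod N)ˣ), (u : ZMod N) = ((l.1 : ℕ) : ZMod N) →
        chi θ (dℓ l) ^ 2 * θ u = 1 := by
  classical
  obtain ⟨rep, hrep⟩ := exists_rep θ hθ
  have hcop : ∀ l : PrimesOff S, Nat.Coprime (l.1 : ℕ) N := fun l =>
    (Nat.Prime.coprime_iff_not_dvd l.1.2).mpr (hSN l)
  refine ⟨fun l => rep (θ (ZMod.unitOfCoprime (l.1 : ℕ) (hcop l)) ^ ((Nat.card Δ - 1) / 2)),
    fun l u hu => ?_⟩
  have hu' : u = ZMod.unitOfCoprime (l.1 : ℕ) (hcop l) := by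
    apply Units.ext
    rw [hu, ZMod.coe_unitOfCoprime]
  rw [hrep, ← hu', ← pow_mul, ← pow_succ]
  obtain ⟨k, hk⟩ := hodd
  have h1 : (Nat.card Δ - 1) / 2 * 2 + 1 = Nat.card Δ := by
    rw [hk]
    omega
  rw [h1, pow_card_eq_one']

end Main

/-! ### the commutant -/

section Commutant

variable {N' : ℕ} [NeZero N'] (S : Set ℕ) {E : Type*} [Ring E]

/-- an element commuting with the images of the generators `T_ℓ` commutes with the whole image -/
theorem commute_of_commute_gens (tw : ↥(heckeAlgebra N' 2 S) →+* E) (X : E)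
    (hX : ∀ l : PrimesOff S, Commute X (tw (formsGenS N' S l))) (t : ↥(heckeAlgebra N' 2 S)) :
    Commute X (tw t) := by
  have ht : t ∈ Subring.closure (Set.range (formsGenS N' S)) := by
    rw [TwHom.closure_range_formsGenS]
    exact Subring.mem_top t
  induction ht using Subring.closure_induction with
  | mem x hx =>
    obtain ⟨l, rfl⟩ := hx
    exact hX l
  | zero => rw [map_zero]; exact Commute.zero_right X
  | one => rw [map_one]; exact Commute.one_right X
  | add x y _ _ hx hy => rw [map_add]; exact hx.add_right hy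
  | neg x _ hx => rw [map_neg]; exact hx.neg_right
  | mul x y _ _ hx hy => rw [map_mul]; exact hx.mul_right hy

end Commutant

section Operators

variable {N : ℕ} {Δ : Type} [CommGroup Δ] (θ : (ZMod N)ˣ →* Δ) (O : Type*) [CommRing O]

/-- the diamond operator on the parabolic classes -/
def diaV (d : Gamma0 N) : Module.End O ↥(parabolicHoms O (GammaH θ) O) :=
  (DiaRep.diaL (R := O) (A := O) θ d).restrict (p := parabolicHoms O (GammaH θ) O)
    (q := parabolicHoms O (GammaH θ) O) (fun φ hφ => by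
      rw [mem_parabolicHoms_iff] at hφ ⊢
      exact op_isParabolicHom _ φ hφ)

/-- `T_ℓ` on the parabolic classes -/
def THV {ℓ : ℕ} [Fact ℓ.Prime] (hℓN : ¬ ℓ ∣ N) :
    Module.End O ↥(parabolicHoms O (GammaH θ) O) :=
  (DiaRep.THL (R := O) (A := O) θ hℓN).restrict (p := parabolicHoms O (GammaH θ) O)
    (q := parabolicHoms O (GammaH θ) O) (fun φ hφ => by
      rw [mem_parabolicHoms_iff] at hφ ⊢
      exact op_isParabolicHom _ φ hφ)

/-- `U_r` on the parabolic classes -/
def UHV {r : ℕ} [NeZero r] (hrN : r ∣ N) :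
    Module.End O ↥(parabolicHoms O (GammaH θ) O) :=
  (DiaRep.UHL (R := O) (A := O) θ hrN).restrict (p := parabolicHoms O (GammaH θ) O)
    (q := parabolicHoms O (GammaH θ) O) (fun φ hφ => by
      rw [mem_parabolicHoms_iff] at hφ ⊢
      exact op_isParabolicHom _ φ hφ)

variable {O}

theorem coe_diaV (d : Gamma0 N) (v : ↥(parabolicHoms O (GammaH θ) O)) :
    ((diaV θ O d v : ↥(parabolicHoms O (GammaH θ) O)) : Additive (GammaH θ) →+ O)
      = diaH θ O d (v : Additive (GammaH θ) →+ O) := rfl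

theorem coe_THV {ℓ : ℕ} [Fact ℓ.Prime] (hℓN : ¬ ℓ ∣ N) (v : ↥(parabolicHoms O (GammaH θ) O)) :
    ((THV θ O hℓN v : ↥(parabolicHoms O (GammaH θ) O)) : Additive (GammaH θ) →+ O)
      = GamH.TH θ O hℓN (v : Additive (GammaH θ) →+ O) := rfl

theorem coe_UHV {r : ℕ} [NeZero r] (hrN : r ∣ N) (v : ↥(parabolicHoms O (GammaH θ) O)) :
    ((UHV θ O hrN v : ↥(parabolicHoms O (GammaH θ) O)) : Additive (GammaH θ) →+ O)
      = GamH.UH θ O hrN (v : Additive (GammaH θ) →+ O) := rfl

variable [NeZero N] {N' : ℕ} [NeZero N'] (S : Set ℕ) (hS : ∀ q : ℕ, q.Prime → q ∣ N' → q ∈ S)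
  (hNN' : N ∣ N') (dℓ : PrimesOff S → Gamma0 N)
  (tw : ↥(heckeAlgebra N' 2 S) →+* Module.End O ↥(parabolicHoms O (GammaH θ) O))
  (htw : ∀ (l : PrimesOff S) (v : ↥(parabolicHoms O (GammaH θ) O)),
    ((tw (formsGenS N' S l) v : ↥(parabolicHoms O (GammaH θ) O)) : Additive (GammaH θ) →+ O)
      = diaH θ O (dℓ l) (GamH.TH θ O (not_dvd_level S hS hNN' l)
          (v : Additive (GammaH θ) →+ O)))

include htw in
/-- the diamond operators commute with the twisted Hecke action -/
theorem commute_diaV_tw (d : Gamma0 N) (t : ↥(heckeAlgebra N' 2 S)) :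
    Commute (diaV θ O d) (tw t) := by
  refine commute_of_commute_gens (E := Module.End O ↥(parabolicHoms O (GammaH θ) O)) S tw _
    (fun l => ?_) t
  refine LinearMap.ext fun v => Subtype.ext ?_
  rw [Module.End.mul_apply, Module.End.mul_apply, coe_diaV, htw, htw, coe_diaV,
    diaH_comm, diaH_TH]

include htw in
/-- the operators `T_ℓ'` (`ℓ' ∤ N`) commute with the twisted Hecke action -/
theorem commute_THV_tw {ℓ' : ℕ} [Fact ℓ'.Prime] (hℓ'N : ¬ ℓ' ∣ N)
    (t : ↥(heckeAlgebra N' 2 S)) : Commute (THV θ O hℓ'N) (tw t) := by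
  refine commute_of_commute_gens (E := Module.End O ↥(parabolicHoms O (GammaH θ) O)) S tw _
    (fun l => ?_) t
  refine LinearMap.ext fun v => Subtype.ext ?_
  rw [Module.End.mul_apply, Module.End.mul_apply, coe_THV, htw, htw, coe_THV,
    ← diaH_TH, CommGammaH.TH_comm]

include htw in
/-- the operators `U_r` (`r ∣ N`, `r > 1`) commute with the twisted Hecke action -/
theorem commute_UHV_tw {r : ℕ} [NeZero r] (hrN : r ∣ N) (hr : 1 < r)
    (t : ↥(heckeAlgebra N' 2 S)) : Commute (UHV θ O hrN) (tw t) := by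
  refine commute_of_commute_gens (E := Module.End O ↥(parabolicHoms O (GammaH θ) O)) S tw _
    (fun l => ?_) t
  refine LinearMap.ext fun v => Subtype.ext ?_
  rw [Module.End.mul_apply, Module.End.mul_apply, coe_UHV, htw, htw, coe_UHV,
    ← diaH_UH, CommGammaH.UH_TH_comm θ O _ hrN hr]

end Operators

end Fermat.Agent.GB.B4.Twist.TwFinal

end
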