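/-
GATE-B / B4-TWIST (helper44): **the twist ring homomorphism at B3's concrete diamond quotient**.

`TwFinal.exists_tw` needs the local product structure of `θ : (ZMod N)ˣ →* Δ` in helper10's `L6Loc`
shape (`θloc`, `pr`, `hpr`, `hprod`).  Here:

* `exists_tw_of_pr` : it is enough to give endomorphisms `pr r : Δ →* Δ` with `pr r (θ u) = 1` for
  `u ≡ 1 mod r` and `θ u = ∏_{r ∈ L} pr r (θ u)` (the local characters `θloc r` are obtained by
  `MonoidHom.liftOfSurjective`);
* `exists_tw_pi` : the case `θ = Tower.Theta Δs ψ j = (ψ i)_{i < j}` of a product of characters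
  `ψ i` of conductor `r i`, `r i ∥ N` pairwise distinct primes (`pr (r i)` = the coordinate
  idempotent);
* `Theta_surjective`, `odd_card_pi` : surjectivity (Chinese remainder theorem) and oddness of `|Δ|`
  for helper46's `TWChars.PrimeData`;
* `exists_tw_primeData` : the instance for `TWChars.PrimeData` — the `tw` of B3's big level
  `Hom_par(GammaH (Theta (Δs p e) H.psi j), O)`.
-/
import Mathlib
import Fermat.Agent.GB.B4.Twist.TwFinal
import Fermat.Agent.GB.B3.Tower
import Fermat.Agent.GB.B3.TWChars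

set_option autoImplicit false

noncomputable section

open scoped MatrixGroups
open CongruenceSubgroup Matrix Matrix.SpecialLinearGroup ModularCurve.Period CuspForm
open Fermat.Agent.S16_helper49 Fermat.Agent.GM.B Fermat.Agent.GM.EisClass
open Fermat.Agent.GB.B3 Fermat.Agent.GB.B3.EisGamma0 Fermat.Agent.GB.B3.GamH
open Fermat.Agent.GJ.J2.ZStruct Fermat.Agent.GJ.J2.Lat
open Fermat.Agent.GB.B4.Twist.Asm Fermat.Agent.GB.B4.Twist.TwFinal
open Fermat.Agent.GB.B3.Tower Fermat.Agent.GB.B3.TWChars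

namespace Fermat.Agent.GB.B4.Twist.TwInst

/-- local instance (Prop-valued class) -/
local instance factPrimeOff5 {S : Set ℕ} (l : PrimesOff S) : Fact (l.1 : ℕ).Prime := ⟨l.1.2⟩

/-! ### local characters from idempotent-like endomorphisms -/

section Pr

variable {N : ℕ} [NeZero N] {Δ : Type} [CommGroup Δ] (θ : (ZMod N)ˣ →* Δ) (pr : ℕ → Δ →* Δ)

open Classical in
/-- the local character at `r`: `pr r ∘ θ` factored through `(ZMod r)ˣ` (when possible) -/
def θlocOf (r : ℕ) : (ZMod r)ˣ →* Δ :=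
  if hc : ∃ h : r ∣ N, ∀ u : (ZMod N)ˣ, ZMod.unitsMap h u = 1 → pr r (θ u) = 1 then
    MonoidHom.liftOfSurjective (ZMod.unitsMap hc.choose) (ZMod.unitsMap_surjective hc.choose)
      ⟨(pr r).comp θ, fun u hu => by
        rw [MonoidHom.mem_ker] at hu ⊢
        exact hc.choose_spec u hu⟩
  else 1

open Classical in
theorem θlocOf_apply {r : ℕ} (h : r ∣ N)
    (h1 : ∀ u : (ZMod N)ˣ, ZMod.unitsMap h u = 1 → pr r (θ u) = 1) (u : (ZMod N)ˣ) :
    pr r (θ u) = θlocOf θ pr r (ZMod.unitsMap h u) := by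
  have hc : ∃ h : r ∣ N, ∀ u : (ZMod N)ˣ, ZMod.unitsMap h u = 1 → pr r (θ u) = 1 := ⟨h, h1⟩
  unfold θlocOf
  rw [dif_pos hc]
  exact (MonoidHom.liftOfRightInverse_comp_apply (ZMod.unitsMap h) _ _
    ⟨(pr r).comp θ, fun u hu => by
      rw [MonoidHom.mem_ker] at hu ⊢
      exact hc.choose_spec u hu⟩ u).symm

variable {N' : ℕ} [NeZero N'] [Fintype Δ]
  (hθ : Function.Surjective θ) (hodd : Odd (Nat.card Δ))
  (L : List ℕ) (hL : ∀ r ∈ L, r.Prime) (hnd : L.Nodup)
  (hdvd : ∀ r ∈ L, r ∣ N) (hsq : ∀ r ∈ L, ¬ r ^ 2 ∣ N) (hN' : N' = N * L.prod)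
  (hpr1 : ∀ r ∈ L, ∀ (h : r ∣ N) (u : (ZMod N)ˣ), ZMod.unitsMap h u = 1 → pr r (θ u) = 1)
  (hprod : ∀ u : (ZMod N)ˣ, θ u = (L.map fun r => pr r (θ u)).prod)
  (S : Set ℕ) (hS : ∀ q : ℕ, q.Prime → q ∣ N' → q ∈ S)
  {O : Type*} [CommRing O] [IsDomain O] [CharZero O]
  (dℓ : PrimesOff S → Gamma0 N)
  (hdℓ : ∀ (l : PrimesOff S) (u : (ZMod N)ˣ), (u : ZMod N) = ((l.1 : ℕ) : ZMod N) →
    chi θ (dℓ l) ^ 2 * θ u = 1)

include hθ hodd hL hnd hdvd hsq hpr1 hprod hdℓ in
/-- **the twist ring homomorphism**, local structure given by the endomorphisms `pr r` only -/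
theorem exists_tw_of_pr :
    ∃ tw : ↥(heckeAlgebra N' 2 S) →+* Module.End O ↥(parabolicHoms O (GammaH θ) O),
      (∀ (l : PrimesOff S) (v : ↥(parabolicHoms O (GammaH θ) O)),
        ((tw (formsGenS N' S l) v : ↥(parabolicHoms O (GammaH θ) O)) :
            Additive (GammaH θ) →+ O)
          = diaH θ O (dℓ l) (GamH.TH θ O (not_dvd_level S hS (dvd_level L hN') l)
              (v : Additive (GammaH θ) →+ O))) ∧
      (∀ (l : PrimesOff S) (v : ↥(parabolicHoms O (GammaH θ) O)),
        ((tw (heckeAlgebra.T l.1.2 (not_dvd_level' S hS l) l.2) v :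
            ↥(parabolicHoms O (GammaH θ) O)) : Additive (GammaH θ) →+ O)
          = diaH θ O (dℓ l) (GamH.TH θ O (not_dvd_level S hS (dvd_level L hN') l)
              (v : Additive (GammaH θ) →+ O))) :=
  exists_tw θ hθ hodd L hL hnd hdvd hsq hN' (θlocOf θ pr) pr
    (fun r hr h u => θlocOf_apply θ pr h (hpr1 r hr h) u) hprod S hS dℓ hdℓ

end Pr

/-! ### products of characters -/

section Pi

variable {j : ℕ} (Δs : ℕ → Type) [∀ i, CommGroup (Δs i)] (r : ℕ → ℕ)

/-- the coordinate idempotent attached to the prime `r'`: keep the coordinates `i` with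
`r i = r'` -/
def prFam (r' : ℕ) : (∀ i : Fin j, Δs i) →* (∀ i : Fin j, Δs i) where
  toFun f i := if r i = r' then f i else 1
  map_one' := by
    funext i
    show (if r i = r' then (1 : Δs i) else 1) = 1
    rw [ite_self]
  map_mul' f g := by
    funext i
    show (if r i = r' then f i * g i else 1)
      = (if r i = r' then f i else 1) * (if r i = r' then g i else 1)
    split_ifs
    · rfl
    · rw [one_mul]

theorem prFam_apply (r' : ℕ) (f : ∀ i : Fin j, Δs i) (i : Fin j) :
    prFam Δs r r' f i = if r i = r' then f i else 1 := rfl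

variable {N N' : ℕ} [NeZero N] [NeZero N'] [∀ i, Fintype (Δs i)]
  (ψ : ∀ i, (ZMod N)ˣ →* Δs i)
  (hprime : ∀ i : Fin j, (r i).Prime) (hinj : ∀ i i' : Fin j, r i = r i' → i = i')
  (hdvd : ∀ i : Fin j, r i ∣ N) (hsq : ∀ i : Fin j, ¬ r i ^ 2 ∣ N)
  (hfac : ∀ (i : Fin j) (h : r i ∣ N) (u : (ZMod N)ˣ), ZMod.unitsMap h u = 1 → ψ i u = 1)
  (hsurj : Function.Surjective (Theta Δs ψ j))
  (hodd : Odd (Nat.card (∀ i : Fin j, Δs i)))
  (hN' : N' = N * ∏ i : Fin j, r i)
  (S : Set ℕ) (hS : ∀ q : ℕ, q.Prime → q ∣ N' → q ∈ S)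
  {O : Type*} [CommRing O] [IsDomain O] [CharZero O]
  (dℓ : PrimesOff S → Gamma0 N)
  (hdℓ : ∀ (l : PrimesOff S) (u : (ZMod N)ˣ), (u : ZMod N) = ((l.1 : ℕ) : ZMod N) →
    chi (Theta Δs ψ j) (dℓ l) ^ 2 * Theta Δs ψ j u = 1)

include hN' in
theorem dvd_level_pi : N ∣ N' := by
  rw [hN']
  exact Dvd.intro _ rfl

include hprime hinj hdvd hsq hfac hsurj hodd hdℓ in
/-- **the twist ring homomorphism for a product of characters of prime conductors** -/
theorem exists_tw_pi :
    ∃ tw : ↥(heckeAlgebra N' 2 S) →+*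
        Module.End O ↥(parabolicHoms O (GammaH (Theta Δs ψ j)) O),
      (∀ (l : PrimesOff S) (v : ↥(parabolicHoms O (GammaH (Theta Δs ψ j)) O)),
        ((tw (formsGenS N' S l) v : ↥(parabolicHoms O (GammaH (Theta Δs ψ j)) O)) :
            Additive (GammaH (Theta Δs ψ j)) →+ O)
          = diaH (Theta Δs ψ j) O (dℓ l) (GamH.TH (Theta Δs ψ j) O
              (not_dvd_level S hS (dvd_level_pi r hN') l)
              (v : Additive (GammaH (Theta Δs ψ j)) →+ O))) ∧
      (∀ (l : PrimesOff S) (v : ↥(parabolicHoms O (GammaH (Theta Δs ψ j)) O)),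
        ((tw (heckeAlgebra.T l.1.2 (not_dvd_level' S hS l) l.2) v :
            ↥(parabolicHoms O (GammaH (Theta Δs ψ j)) O)) :
              Additive (GammaH (Theta Δs ψ j)) →+ O)
          = diaH (Theta Δs ψ j) O (dℓ l) (GamH.TH (Theta Δs ψ j) O
              (not_dvd_level S hS (dvd_level_pi r hN') l)
              (v : Additive (GammaH (Theta Δs ψ j)) →+ O))) := by
  classical
  have hN'' : N' = N * (List.ofFn fun i : Fin j => r i).prod := by
    rw [List.prod_ofFn]
    exact hN'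
  refine exists_tw_of_pr (Theta Δs ψ j) (prFam Δs r) hsurj hodd
    (List.ofFn fun i : Fin j => r i) ?_ ?_ ?_ ?_ hN'' ?_ ?_ S hS dℓ hdℓ
  · -- primes
    intro r' hr'
    obtain ⟨i, rfl⟩ := List.mem_ofFn.mp hr'
    exact hprime i
  · -- distinct
    rw [List.nodup_ofFn]
    exact fun i i' h => hinj i i' h
  · -- divide N
    intro r' hr'
    obtain ⟨i, rfl⟩ := List.mem_ofFn.mp hr'
    exact hdvd i
  · -- exactly
    intro r' hr'
    obtain ⟨i, rfl⟩ := List.mem_ofFn.mp hr'
    exact hsq i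
  · -- hpr1
    intro r' hr' h u hu
    obtain ⟨i, rfl⟩ := List.mem_ofFn.mp hr'
    funext i'
    rw [prFam_apply, Theta_apply]
    split_ifs with hi
    · have : i' = i := hinj i' i hi
      subst this
      exact hfac i' h u hu
    · rfl
  · -- hprod
    intro u
    funext i
    rw [Pi.list_prod_apply, List.map_map, List.map_ofFn, List.prod_ofFn]
    symm
    rw [Finset.prod_eq_single i]
    · show prFam Δs r (r i) (Theta Δs ψ j u) i = _
      rw [prFam_apply, if_pos rfl]
    · intro i' _ hii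
      show prFam Δs r (r i') (Theta Δs ψ j u) i = 1
      rw [prFam_apply, if_neg (fun h => hii (hinj i i' h).symm)]
    · intro h
      exact absurd (Finset.mem_univ i) h

end Pi

/-! ### Taylor–Wiles prime data -/

section PrimeDataSec

variable {N p K : ℕ} [NeZero N] {r e N' : ℕ → ℕ}

/-- **CRT for units**, the modulus given up to an equation -/
theorem exists_unit_crt' {N r N' : ℕ} [NeZero r] (hN : N = r * N') (hc : Nat.Coprime r N')
    (g : (ZMod r)ˣ) :
    ∃ u : (ZMod N)ˣ, ZMod.unitsMap (Dvd.intro N' hN.symm) u = g ∧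
      ZMod.unitsMap (Dvd.intro_left r hN.symm) u = 1 := by
  subst hN
  exact exists_unit_crt hc g

variable (H : PrimeData N p K r e N')

include H in
/-- a unit with prescribed `ψ i` and trivial `ψ i'`, `i' ≠ i` -/
theorem exists_unit_psi (i : ℕ) (hi : i < K) (y : Multiplicative (ZMod (p ^ e i))) :
    ∃ u : (ZMod N)ˣ, H.psi i u = y ∧ ∀ i', i' < K → i' ≠ i → H.psi i' u = 1 := by
  obtain ⟨u0, hu0⟩ := H.psi_surjective i hi y
  haveI : NeZero (r i) := ⟨(H.prime i hi).ne_zero⟩
  obtain ⟨u, hu1, hu2⟩ := exists_unit_crt' (H.fact i hi) (H.cop i hi)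
    (ZMod.unitsMap (H.dvd i hi) u0)
  refine ⟨u, ?_, ?_⟩
  · rw [← hu0]
    have h1 : H.psi i (u * u0⁻¹) = 1 := by
      apply H.psi_eq_one_of_unitsMap i hi
      rw [map_mul, map_inv, hu1, mul_inv_cancel]
    rw [map_mul, map_inv, mul_inv_eq_one] at h1
    exact h1
  · intro i' hi' hii'
    apply H.psi_eq_one_of_unitsMap i' hi'
    have h2 := ZMod.unitsMap_comp (H.dvd_cofactor i' i hi' hi hii') (H.dvd' i hi)
    have h3 := congrArg (fun f => f u) h2
    simp only [MonoidHom.comp_apply] at h3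
    rw [← h3, hu2, map_one]

include H in
/-- **the product of the Taylor–Wiles characters is onto** (Chinese remainder theorem) -/
theorem Theta_surjective (j : ℕ) (hj : j ≤ K) :
    Function.Surjective (Theta (fun i => Multiplicative (ZMod (p ^ e i))) H.psi j) := by
  classical
  intro δ
  choose w hw1 hw2 using fun i : Fin j =>
    exists_unit_psi H i (lt_of_lt_of_le i.2 hj) (δ i)
  refine ⟨∏ i : Fin j, w i, ?_⟩
  funext i'
  rw [Theta_apply, map_prod, Finset.prod_eq_single i']
  · exact hw1 i'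
  · intro i _ hii'
    refine hw2 i i' (lt_of_lt_of_le i'.2 hj) (fun h => hii' ?_)
    exact (Fin.ext h).symm
  · intro h
    exact absurd (Finset.mem_univ i') h

/-- `|Δ|` is odd for `p` odd -/
theorem odd_card_pi (hp : p.Prime) (hp2 : p ≠ 2) (e : ℕ → ℕ) (j : ℕ) :
    Odd (Nat.card (∀ i : Fin j, Multiplicative (ZMod (p ^ e i)))) := by
  rw [Nat.card_pi]
  refine Finset.prod_induction _ Odd (fun a b ha hb => ha.mul hb) odd_one (fun i _ => ?_)
  haveI : NeZero (p ^ e i) := ⟨pow_ne_zero _ hp.ne_zero⟩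
  rw [Nat.card_eq_fintype_card, Fintype.card_multiplicative, ZMod.card]
  exact (hp.eq_two_or_odd'.resolve_left hp2).pow

variable {N'' : ℕ} [NeZero N''] (hp : p.Prime) (hp2 : p ≠ 2) (j : ℕ) (hj : j ≤ K)
  (hN'' : N'' = N * ∏ i : Fin j, r i)
  (S : Set ℕ) (hS : ∀ q : ℕ, q.Prime → q ∣ N'' → q ∈ S)
  {O : Type*} [CommRing O] [IsDomain O] [CharZero O]
  (dℓ : PrimesOff S → Gamma0 N)
  (hdℓ : ∀ (l : PrimesOff S) (u : (ZMod N)ˣ), (u : ZMod N) = ((l.1 : ℕ) : ZMod N) →
    chi (Theta (fun i => Multiplicative (ZMod (p ^ e i))) H.psi j) (dℓ l) ^ 2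
      * Theta (fun i => Multiplicative (ZMod (p ^ e i))) H.psi j u = 1)

include hp hp2 hj hdℓ in
/-- **the twist ring homomorphism of B3's big level** `GammaH (Theta (Δs p e) H.psi j)`,
`j ≤ K` Taylor–Wiles (and framed) primes of `TWChars.PrimeData` -/
theorem exists_tw_primeData :
    ∃ tw : ↥(heckeAlgebra N'' 2 S) →+* Module.End O ↥(parabolicHoms O
        (GammaH (Theta (fun i => Multiplicative (ZMod (p ^ e i))) H.psi j)) O),
      (∀ (l : PrimesOff S) (v : ↥(parabolicHoms O
          (GammaH (Theta (fun i => Multiplicative (ZMod (p ^ e i))) H.psi j)) O)),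
        ((tw (formsGenS N'' S l) v : ↥(parabolicHoms O
            (GammaH (Theta (fun i => Multiplicative (ZMod (p ^ e i))) H.psi j)) O)) :
            Additive (GammaH (Theta (fun i => Multiplicative (ZMod (p ^ e i))) H.psi j)) →+ O)
          = diaH (Theta (fun i => Multiplicative (ZMod (p ^ e i))) H.psi j) O (dℓ l)
              (GamH.TH (Theta (fun i => Multiplicative (ZMod (p ^ e i))) H.psi j) O
                (not_dvd_level S hS (dvd_level_pi r hN'') l)
                (v : Additive (GammaH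
                  (Theta (fun i => Multiplicative (ZMod (p ^ e i))) H.psi j)) →+ O))) ∧
      (∀ (l : PrimesOff S) (v : ↥(parabolicHoms O
          (GammaH (Theta (fun i => Multiplicative (ZMod (p ^ e i))) H.psi j)) O)),
        ((tw (heckeAlgebra.T l.1.2 (not_dvd_level' S hS l) l.2) v : ↥(parabolicHoms O
            (GammaH (Theta (fun i => Multiplicative (ZMod (p ^ e i))) H.psi j)) O)) :
            Additive (GammaH (Theta (fun i => Multiplicative (ZMod (p ^ e i))) H.psi j)) →+ O)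
          = diaH (Theta (fun i => Multiplicative (ZMod (p ^ e i))) H.psi j) O (dℓ l)
              (GamH.TH (Theta (fun i => Multiplicative (ZMod (p ^ e i))) H.psi j) O
                (not_dvd_level S hS (dvd_level_pi r hN'') l)
                (v : Additive (GammaH
                  (Theta (fun i => Multiplicative (ZMod (p ^ e i))) H.psi j)) →+ O))) := by
  classical
  haveI : ∀ i, Fintype (Multiplicative (ZMod (p ^ e i))) := fun i => by
    haveI : NeZero (p ^ e i) := ⟨pow_ne_zero _ hp.ne_zero⟩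
    infer_instance
  have hlt : ∀ i : Fin j, (i : ℕ) < K := fun i => lt_of_lt_of_le i.2 hj
  refine exists_tw_pi (fun i => Multiplicative (ZMod (p ^ e i))) r H.psi
    (fun i => H.prime i (hlt i)) ?_ (fun i => H.dvd i (hlt i)) ?_ ?_
    (Theta_surjective H j hj) (odd_card_pi hp hp2 e j) hN'' S hS dℓ hdℓ
  · intro i i' h
    by_contra hne
    exact H.inj i i' (hlt i) (hlt i') (fun h' => hne (Fin.ext h')) h
  · intro i hsq
    have hfact := H.fact i (hlt i)
    have hcop := H.cop i (hlt i)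
    rw [hfact, pow_two] at hsq
    have h1 : r i ∣ N' i := Nat.dvd_of_mul_dvd_mul_left (H.prime i (hlt i)).pos hsq
    have h2 : r i ∣ Nat.gcd (r i) (N' i) := Nat.dvd_gcd dvd_rfl h1
    rw [hcop.gcd_eq_one, Nat.dvd_one] at h2
    exact (H.prime i (hlt i)).one_lt.ne' h2
  · intro i h u hu
    exact H.psi_eq_one_of_unitsMap i (hlt i) u hu

end PrimeDataSec

end Fermat.Agent.GB.B4.Twist.TwInst

end
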