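/-
GATE-B / B4-TWIST, export for GB-PNEW (ANN) and (1pt)-GLOBAL (helper44): **the intertwiner `R` of
the twist ring homomorphism, with its formulas.**

`Asm.exists_tw_of_maps` / `Tw.exists_tw_of_chains` / `TwFinal.exists_tw` build
`tw : heckeAlgebra N' 2 S →+* End_O (Hom_par(Γ_H(N), O))` from an injective map
`R : Hom_par(Γ_H(N), O) → Hom(Γ₀(N'), X → K)`, `(R v) · x = D x (e x (v ⊗ K))`, but do not export `R`.
Here `R` is a definition (`Rmap`), and for ANY ring homomorphism `tw` with the generator formula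
`tw (T_ℓ) = ⟨dℓ ℓ⟩ ∘ T_ℓ`:

* `Rmap_injective`, `Rmap_par`, `Rmap_smul`;
* `Rmap_gen` : `R (⟨dℓ ℓ⟩ T_ℓ v) = cohGen ℓ (R v)`;
* `Rmap_tw` : `R (tw t v) = coeffAct t (R v)` for every `t` (the Hecke algebra of forms acts on
  `Hom_par(Γ₀(N'), X → K)` through helper83's `Coeff.coeffAct`);
* `Rcomp_tw` : the same on every component, with values in `Hom_par(Γ₀(N'), K)`.

Chain form (`Tw.exists_tw_of_chains` binders): `RChain`, with components
`castHom ∘ ChainD.chainD (Lε ε) ∘ (ε-projector)`, and `RChain_tw` etc.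
-/
import Mathlib
import Fermat.Agent.GB.B4.Twist.TwInst

set_option autoImplicit false
set_option linter.unusedSectionVars false

noncomputable section

open scoped MatrixGroups
open CongruenceSubgroup Matrix Matrix.SpecialLinearGroup ModularCurve.Period CuspForm
open Fermat.Agent.S16_helper49 Fermat.Agent.GM.B Fermat.Agent.GM.EisClass
open Fermat.Agent.GB.B3 Fermat.Agent.GB.B3.EisGamma0 Fermat.Agent.GB.B3.GamH
open Fermat.Agent.GJ.J2.ZStruct Fermat.Agent.GJ.J2.Lat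
open Fermat.Agent.GB.B4.Twist.Chain Fermat.Agent.GB.B4.Twist.ChainD
open Fermat.Agent.GB.B4.Twist.Asm Fermat.Agent.GB.B4.Twist.Coeff
open Fermat.Agent.GB.B4.Twist.L6Loc Fermat.Agent.GB.B4.Twist.TwFinal Fermat.Agent.GB.B4.Twist.TwInst
open Fermat.Agent.GB.B3.Tower Fermat.Agent.GB.B3.TWChars

namespace Fermat.Agent.GB.B4.Twist.TwR

/-- local instance (Prop-valued class) -/
local instance factPrimeOff6 {S : Set ℕ} (l : PrimesOff S) : Fact (l.1 : ℕ).Prime := ⟨l.1.2⟩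

/-- `X → K` is torsion-free as an abelian group, `K` a field of characteristic `0` -/
theorem hA_pi (X : Type*) (K : Type*) [Field K] [CharZero K] :
    ∀ (n : ℤ) (a : X → K), n ≠ 0 → n • a = 0 → a = 0 := by
  intro n a hn h
  funext x
  have hx := congrFun h x
  rw [Pi.smul_apply, zsmul_eq_mul, Pi.zero_apply] at hx
  rcases mul_eq_zero.mp hx with h' | h'
  · exact absurd (by exact_mod_cast h') hn
  · exact h'

/-- `K` is torsion-free as an abelian group -/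
theorem hA_field (K : Type*) [Field K] [CharZero K] :
    ∀ (n : ℤ) (a : K), n ≠ 0 → n • a = 0 → a = 0 := by
  intro n a hn h
  rw [zsmul_eq_mul] at h
  rcases mul_eq_zero.mp h with h' | h'
  · exact absurd (by exact_mod_cast h') hn
  · exact h'

section Abstract

variable {N N' : ℕ} [NeZero N] [NeZero N'] {Δ : Type} [CommGroup Δ] [Fintype Δ]
  (θ : (ZMod N)ˣ →* Δ)
  (S : Set ℕ) (hS : ∀ q : ℕ, q.Prime → q ∣ N' → q ∈ S) (hNN' : N ∣ N')
  {O : Type*} [CommRing O] {K : Type*} [Field K] [CharZero K] [Algebra O K]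
  (hinj : Function.Injective (algebraMap O K))
  {X : Type*}

variable (εX : X → Δ → K)
  (e : X → (Additive (GammaH θ) →+ K) →+ (Additive (GammaH θ) →+ K))
  (D : X → (Additive (GammaH θ) →+ K) →+ (Additive (Gamma0 N') →+ K))
  (c : X → PrimesOff S → K)
  (dℓ : PrimesOff S → Gamma0 N)

/-- the component at `x` of the intertwiner: `v ↦ D x (e x (v ⊗ K))` -/
def Rcomp (x : X) : ↥(parabolicHoms O (GammaH θ) O) →+ (Additive (Gamma0 N') →+ K) :=
  ((D x).comp (e x)).comp ((extK (K := K) (GammaH θ)).comp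
    (parabolicHoms O (GammaH θ) O).subtype.toAddMonoidHom)

theorem Rcomp_apply (x : X) (v : ↥(parabolicHoms O (GammaH θ) O)) :
    Rcomp θ e D x v = D x (e x (extK (K := K) (GammaH θ) (v : Additive (GammaH θ) →+ O))) := rfl

/-- **the intertwiner** `R : Hom_par(Γ_H(N), O) → Hom(Γ₀(N'), X → K)` -/
def Rmap : ↥(parabolicHoms O (GammaH θ) O) →+ (Additive (Gamma0 N') →+ (X → K)) where
  toFun v := AddMonoidHom.pi fun x => Rcomp θ e D x v
  map_zero' := by
    refine AddMonoidHom.ext fun g => funext fun x => ?_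
    show Rcomp θ e D x 0 g = 0
    rw [map_zero]
    rfl
  map_add' v w := by
    refine AddMonoidHom.ext fun g => funext fun x => ?_
    show Rcomp θ e D x (v + w) g = Rcomp θ e D x v g + Rcomp θ e D x w g
    rw [map_add]
    rfl

theorem Rmap_apply (v : ↥(parabolicHoms O (GammaH θ) O)) (g : Additive (Gamma0 N')) (x : X) :
    Rmap θ e D v g x = Rcomp θ e D x v g := rfl

theorem eval_comp_Rmap (v : ↥(parabolicHoms O (GammaH θ) O)) (x : X) :
    (Pi.evalAddMonoidHom (fun _ : X => K) x).comp (Rmap θ e D v) = Rcomp θ e D x v := rfl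

/-- the components are parabolic -/
theorem Rcomp_par
    (he_par : ∀ x (φ : Additive (GammaH θ) →+ K), IsParabolicHom (GammaH θ) φ →
      IsParabolicHom (GammaH θ) (e x φ))
    (hD_par : ∀ x (φ : Additive (GammaH θ) →+ K), IsParabolicHom (GammaH θ) φ →
      IsParabolicHom (Gamma0 N') (D x φ))
    (x : X) (v : ↥(parabolicHoms O (GammaH θ) O)) :
    IsParabolicHom (Gamma0 N') (Rcomp θ e D x v) :=
  hD_par x _ (he_par x _ (isParabolicHom_extK _ v.2))

/-- `R v` is parabolic -/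
theorem Rmap_par
    (he_par : ∀ x (φ : Additive (GammaH θ) →+ K), IsParabolicHom (GammaH θ) φ →
      IsParabolicHom (GammaH θ) (e x φ))
    (hD_par : ∀ x (φ : Additive (GammaH θ) →+ K), IsParabolicHom (GammaH θ) φ →
      IsParabolicHom (Gamma0 N') (D x φ))
    (v : ↥(parabolicHoms O (GammaH θ) O)) :
    IsParabolicHom (Gamma0 N') (Rmap θ e D v) := by
  intro g hg
  funext x
  exact Rcomp_par θ e D he_par hD_par x v g hg

/-- `R` is `O`-linear -/
theorem Rmap_smul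
    (he_smul : ∀ x (a : K) (φ : Additive (GammaH θ) →+ K), e x (a • φ) = a • e x φ)
    (hD_smul : ∀ x (a : K) (φ : Additive (GammaH θ) →+ K), D x (a • φ) = a • D x φ)
    (o : O) (v : ↥(parabolicHoms O (GammaH θ) O)) :
    Rmap θ e D (o • v) = o • Rmap θ e D v := by
  refine AddMonoidHom.ext fun g => funext fun x => ?_
  show D x (e x (extK (K := K) (GammaH θ) (o • v.1))) g
    = o • (D x (e x (extK (K := K) (GammaH θ) v.1)) g)
  rw [extK_smul, he_smul, hD_smul, AddMonoidHom.smul_apply, smul_eq_mul, ← Algebra.smul_def]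

include hinj in
/-- **`R` is injective** -/
theorem Rmap_injective [Fintype X]
    (he_sum : ∀ φ : Additive (GammaH θ) →+ K, ∑ x, e x φ = φ)
    (he_eig : ∀ x (φ : Additive (GammaH θ) →+ K) (d : Gamma0 N),
      diaH θ K d (e x φ) = εX x (chi θ d) • e x φ)
    (hD_inj : ∀ x (φ : Additive (GammaH θ) →+ K),
      (∀ d : Gamma0 N, diaH θ K d φ = εX x (chi θ d) • φ) → D x φ = 0 → φ = 0) :
    Function.Injective (Rmap (O := O) θ e D) := by
  rw [injective_iff_map_eq_zero]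
  intro v hv
  have h1 : ∀ x, e x (extK (K := K) (GammaH θ) v.1) = 0 := by
    intro x
    apply hD_inj x _ (fun d => he_eig x _ d)
    have : Rcomp θ e D x v = 0 := by rw [← eval_comp_Rmap, hv]; rfl
    exact this
  have h2 : extK (K := K) (GammaH θ) v.1 = 0 := by
    rw [← he_sum (extK (K := K) (GammaH θ) v.1)]
    exact Finset.sum_eq_zero fun x _ => h1 x
  apply Subtype.ext
  apply extK_injective hinj
  rw [h2]
  exact (map_zero _).symm

/-- **the intertwining relation at the generators**, component form -/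
theorem Rcomp_gen
    (he_eig : ∀ x (φ : Additive (GammaH θ) →+ K) (d : Gamma0 N),
      diaH θ K d (e x φ) = εX x (chi θ d) • e x φ)
    (he_TH : ∀ x (l : PrimesOff S) (φ : Additive (GammaH θ) →+ K),
      e x (GamH.TH θ K (not_dvd_level S hS hNN' l) φ) = GamH.TH θ K (not_dvd_level S hS hNN' l) (e x φ))
    (he_dia : ∀ x (d : Gamma0 N) (φ : Additive (GammaH θ) →+ K),
      e x (diaH θ K d φ) = diaH θ K d (e x φ))
    (hD_smul : ∀ x (a : K) (φ : Additive (GammaH θ) →+ K), D x (a • φ) = a • D x φ)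
    (hD_TH : ∀ x (l : PrimesOff S) (φ : Additive (GammaH θ) →+ K),
      D x (GamH.TH θ K (not_dvd_level S hS hNN' l) φ)
        = c x l • cohT (not_dvd_level' S hS l) K (D x φ))
    (hc : ∀ x (l : PrimesOff S), εX x (chi θ (dℓ l)) * c x l = 1)
    (x : X) (l : PrimesOff S) (v v' : ↥(parabolicHoms O (GammaH θ) O))
    (hv' : (v' : Additive (GammaH θ) →+ O)
      = diaH θ O (dℓ l) (GamH.TH θ O (not_dvd_level S hS hNN' l) (v : Additive (GammaH θ) →+ O))) :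
    Rcomp θ e D x v' = cohT (not_dvd_level' S hS l) K (Rcomp θ e D x v) := by
  rw [Rcomp_apply, Rcomp_apply, hv', extK_eq_comp, ← diaH_comp_hom, ← TH_comp_hom,
    ← extK_eq_comp, he_dia, he_TH]
  set w := e x (extK (K := K) (GammaH θ) v.1) with hw
  have hw1 : diaH θ K (dℓ l) (GamH.TH θ K (not_dvd_level S hS hNN' l) w)
      = εX x (chi θ (dℓ l)) • GamH.TH θ K (not_dvd_level S hS hNN' l) w := by
    rw [diaH_TH, he_eig x _ (dℓ l), TH_smul]
  rw [hw1, hD_smul, hD_TH, smul_smul, hc, one_smul]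

/-- **the intertwining relation at the generators** -/
theorem Rmap_gen
    (he_eig : ∀ x (φ : Additive (GammaH θ) →+ K) (d : Gamma0 N),
      diaH θ K d (e x φ) = εX x (chi θ d) • e x φ)
    (he_TH : ∀ x (l : PrimesOff S) (φ : Additive (GammaH θ) →+ K),
      e x (GamH.TH θ K (not_dvd_level S hS hNN' l) φ) = GamH.TH θ K (not_dvd_level S hS hNN' l) (e x φ))
    (he_dia : ∀ x (d : Gamma0 N) (φ : Additive (GammaH θ) →+ K),
      e x (diaH θ K d φ) = diaH θ K d (e x φ))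
    (hD_smul : ∀ x (a : K) (φ : Additive (GammaH θ) →+ K), D x (a • φ) = a • D x φ)
    (hD_TH : ∀ x (l : PrimesOff S) (φ : Additive (GammaH θ) →+ K),
      D x (GamH.TH θ K (not_dvd_level S hS hNN' l) φ)
        = c x l • cohT (not_dvd_level' S hS l) K (D x φ))
    (hc : ∀ x (l : PrimesOff S), εX x (chi θ (dℓ l)) * c x l = 1)
    (l : PrimesOff S) (v v' : ↥(parabolicHoms O (GammaH θ) O))
    (hv' : (v' : Additive (GammaH θ) →+ O)
      = diaH θ O (dℓ l) (GamH.TH θ O (not_dvd_level S hS hNN' l) (v : Additive (GammaH θ) →+ O))) :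
    Rmap θ e D v' = cohGen N' (X → K) l.1 (Rmap θ e D v) := by
  refine AddMonoidHom.ext fun g => funext fun x => ?_
  have e1 : (cohGen N' (X → K) l.1 (Rmap θ e D v)) g x
      = ((Pi.evalAddMonoidHom (fun _ : X => K) x).comp
          (cohGen N' (X → K) l.1 (Rmap θ e D v))) g := rfl
  rw [e1, ← cohGen_comp, eval_comp_Rmap, cohGen_of_not_dvd N' K l.1 (not_dvd_level' S hS l),
    Rmap_apply, Rcomp_gen θ S hS hNN' εX e D c dℓ he_eig he_TH he_dia hD_smul hD_TH hc x l v v' hv']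

/-- **`R` intertwines `tw` with the action of the Hecke algebra of forms**: for ANY ring
homomorphism `tw` with the generator formula `tw (T_ℓ) = ⟨dℓ ℓ⟩ ∘ T_ℓ`. -/
theorem Rmap_tw
    (he_par : ∀ x (φ : Additive (GammaH θ) →+ K), IsParabolicHom (GammaH θ) φ →
      IsParabolicHom (GammaH θ) (e x φ))
    (he_eig : ∀ x (φ : Additive (GammaH θ) →+ K) (d : Gamma0 N),
      diaH θ K d (e x φ) = εX x (chi θ d) • e x φ)
    (he_TH : ∀ x (l : PrimesOff S) (φ : Additive (GammaH θ) →+ K),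
      e x (GamH.TH θ K (not_dvd_level S hS hNN' l) φ)
        = GamH.TH θ K (not_dvd_level S hS hNN' l) (e x φ))
    (he_dia : ∀ x (d : Gamma0 N) (φ : Additive (GammaH θ) →+ K),
      e x (diaH θ K d φ) = diaH θ K d (e x φ))
    (hD_smul : ∀ x (a : K) (φ : Additive (GammaH θ) →+ K), D x (a • φ) = a • D x φ)
    (hD_par : ∀ x (φ : Additive (GammaH θ) →+ K), IsParabolicHom (GammaH θ) φ →
      IsParabolicHom (Gamma0 N') (D x φ))
    (hD_TH : ∀ x (l : PrimesOff S) (φ : Additive (GammaH θ) →+ K),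
      D x (GamH.TH θ K (not_dvd_level S hS hNN' l) φ)
        = c x l • cohT (not_dvd_level' S hS l) K (D x φ))
    (hc : ∀ x (l : PrimesOff S), εX x (chi θ (dℓ l)) * c x l = 1)
    (tw : ↥(heckeAlgebra N' 2 S) →+* Module.End O ↥(parabolicHoms O (GammaH θ) O))
    (htw : ∀ (l : PrimesOff S) (v : ↥(parabolicHoms O (GammaH θ) O)),
      ((tw (formsGenS N' S l) v : ↥(parabolicHoms O (GammaH θ) O)) : Additive (GammaH θ) →+ O)
        = diaH θ O (dℓ l) (GamH.TH θ O (not_dvd_level S hS hNN' l)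
            (v : Additive (GammaH θ) →+ O)))
    (t : ↥(heckeAlgebra N' 2 S)) (v : ↥(parabolicHoms O (GammaH θ) O)) :
    Rmap θ e D (tw t v)
      = ((coeffAct N' S O (hA_pi X K) t ⟨Rmap θ e D v, Rmap_par θ e D he_par hD_par v⟩ :
          ↥(parabolicHoms O (Gamma0 N') (X → K))) : Additive (Gamma0 N') →+ (X → K)) := by
  have hpar := Rmap_par (O := O) θ e D he_par hD_par
  have ht : t ∈ Subring.closure (Set.range (formsGenS N' S)) := by
    rw [TwHom.closure_range_formsGenS]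
    exact Subring.mem_top t
  -- `R (tw t v)` as an element of the parabolic classes
  have key : ∀ (t : ↥(heckeAlgebra N' 2 S)) (v : ↥(parabolicHoms O (GammaH θ) O)),
      Rmap θ e D (tw t v) = ((coeffAct N' S O (hA_pi X K) t ⟨Rmap θ e D v, hpar v⟩ :
        ↥(parabolicHoms O (Gamma0 N') (X → K))) : Additive (Gamma0 N') →+ (X → K)) →
      (⟨Rmap θ e D (tw t v), hpar _⟩ : ↥(parabolicHoms O (Gamma0 N') (X → K)))
        = coeffAct N' S O (hA_pi X K) t ⟨Rmap θ e D v, hpar v⟩ := fun t v h => Subtype.ext h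
  revert v
  induction ht using Subring.closure_induction with
  | mem x hx =>
    obtain ⟨l, rfl⟩ := hx
    intro v
    rw [coeffAct_formsGenS, coe_parGen]
    exact Rmap_gen θ S hS hNN' εX e D c dℓ he_eig he_TH he_dia hD_smul hD_TH hc l v _ (htw l v)
  | zero =>
    intro v
    rw [map_zero, map_zero, LinearMap.zero_apply, LinearMap.zero_apply, map_zero]
    rfl
  | one =>
    intro v
    rw [map_one, map_one, Module.End.one_apply, Module.End.one_apply]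
  | add x y _ _ hx hy =>
    intro v
    rw [map_add, map_add, LinearMap.add_apply, LinearMap.add_apply, map_add, hx v, hy v]
    rfl
  | neg x _ hx =>
    intro v
    rw [map_neg, map_neg, LinearMap.neg_apply, LinearMap.neg_apply, map_neg, hx v]
    rfl
  | mul x y _ _ hx hy =>
    intro v
    rw [map_mul, map_mul, Module.End.mul_apply, Module.End.mul_apply, hx (tw y v),
      key y v (hy v)]

/-- **the components of `R` intertwine `tw` with the action of the Hecke algebra of forms on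
`Hom_par(Γ₀(N'), K)`** -/
theorem Rcomp_tw
    (he_par : ∀ x (φ : Additive (GammaH θ) →+ K), IsParabolicHom (GammaH θ) φ →
      IsParabolicHom (GammaH θ) (e x φ))
    (he_eig : ∀ x (φ : Additive (GammaH θ) →+ K) (d : Gamma0 N),
      diaH θ K d (e x φ) = εX x (chi θ d) • e x φ)
    (he_TH : ∀ x (l : PrimesOff S) (φ : Additive (GammaH θ) →+ K),
      e x (GamH.TH θ K (not_dvd_level S hS hNN' l) φ)
        = GamH.TH θ K (not_dvd_level S hS hNN' l) (e x φ))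
    (he_dia : ∀ x (d : Gamma0 N) (φ : Additive (GammaH θ) →+ K),
      e x (diaH θ K d φ) = diaH θ K d (e x φ))
    (hD_smul : ∀ x (a : K) (φ : Additive (GammaH θ) →+ K), D x (a • φ) = a • D x φ)
    (hD_par : ∀ x (φ : Additive (GammaH θ) →+ K), IsParabolicHom (GammaH θ) φ →
      IsParabolicHom (Gamma0 N') (D x φ))
    (hD_TH : ∀ x (l : PrimesOff S) (φ : Additive (GammaH θ) →+ K),
      D x (GamH.TH θ K (not_dvd_level S hS hNN' l) φ)
        = c x l • cohT (not_dvd_level' S hS l) K (D x φ))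
    (hc : ∀ x (l : PrimesOff S), εX x (chi θ (dℓ l)) * c x l = 1)
    (tw : ↥(heckeAlgebra N' 2 S) →+* Module.End O ↥(parabolicHoms O (GammaH θ) O))
    (htw : ∀ (l : PrimesOff S) (v : ↥(parabolicHoms O (GammaH θ) O)),
      ((tw (formsGenS N' S l) v : ↥(parabolicHoms O (GammaH θ) O)) : Additive (GammaH θ) →+ O)
        = diaH θ O (dℓ l) (GamH.TH θ O (not_dvd_level S hS hNN' l)
            (v : Additive (GammaH θ) →+ O)))
    (x : X) (t : ↥(heckeAlgebra N' 2 S)) (v : ↥(parabolicHoms O (GammaH θ) O)) :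
    Rcomp θ e D x (tw t v)
      = ((coeffAct N' S K (hA_field K) t
          ⟨Rcomp θ e D x v, Rcomp_par θ e D he_par hD_par x v⟩ :
          ↥(parabolicHoms K (Gamma0 N') K)) : Additive (Gamma0 N') →+ K) := by
  have h1 := Rmap_tw θ S hS hNN' εX e D c dℓ he_par he_eig he_TH he_dia hD_smul hD_par hD_TH hc
    tw htw t v
  have h2 := coeffAct_comp N' S O (hA_pi X K) (hA_field K)
    (Pi.evalAddMonoidHom (fun _ : X => K) x) t
    ⟨Rmap θ e D v, Rmap_par θ e D he_par hD_par v⟩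
    (⟨Rcomp θ e D x v, Rcomp_par θ e D he_par hD_par x v⟩ : ↥(parabolicHoms K (Gamma0 N') K)) rfl
  rw [h2, ← h1]
  rfl

end Abstract

/-! ### chain form -/

section ChainForm

variable {N N' : ℕ} [NeZero N] [NeZero N'] {Δ : Type} [CommGroup Δ] [Fintype Δ]
  (θ : (ZMod N)ˣ →* Δ) (hθ : Function.Surjective θ)
  (S : Set ℕ) (hS : ∀ q : ℕ, q.Prime → q ∣ N' → q ∈ S) (hNN' : N ∣ N')
  {O : Type*} [CommRing O] {K : Type*} [Field K] [CharZero K] [Algebra O K]
  (hinj : Function.Injective (algebraMap O K))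
  [Fintype (Δ →* Kˣ)] [HasEnoughRootsOfUnity K (Monoid.exponent Δ)]

variable (Lε : (Δ →* Kˣ) → List (TwDatum K Δ)) (dℓ : PrimesOff S → Gamma0 N)
  (hadm : ∀ ε, Adm N θ (Lε ε)) (hlev : ∀ ε, chainLevel N (Lε ε) = N')
  (rep' : ∀ ε, Δ → Gamma0 (chainLevel N (Lε ε)))
  (hrep' : ∀ ε δ, chi (chainθ N θ (Lε ε)) (rep' ε δ) = δ)

/-- the `ε`-projector on `Hom(Γ_H(N), K)` (helper15's `EpsDecomp.proj` for the diamond
representation), as an additive map -/
def eChain (ε : Δ →* Kˣ) : (Additive (GammaH θ) →+ K) →+ (Additive (GammaH θ) →+ K) :=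
  (EpsDecomp.proj (DiaRep.diaRep (R := K) (A := K) θ hθ) ε :
    (Additive (GammaH θ) →+ K) →ₗ[K] _).toAddMonoidHom

theorem eChain_apply (ε : Δ →* Kˣ) (φ : Additive (GammaH θ) →+ K) :
    eChain θ hθ ε φ = DiaRep.comp θ hθ ε φ := rfl

/-- the per-character intertwiner `castHom ∘ chainD (Lε ε)` -/
def DChain (ε : Δ →* Kˣ) : (Additive (GammaH θ) →+ K) →+ (Additive (Gamma0 N') →+ K) :=
  (castHom (hlev ε) K).comp (chainD N θ (Lε ε) (hadm ε) (rep' ε) (hrep' ε))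

theorem DChain_apply (ε : Δ →* Kˣ) (φ : Additive (GammaH θ) →+ K) :
    DChain θ Lε hadm hlev rep' hrep' ε φ
      = castHom (hlev ε) K (chainD N θ (Lε ε) (hadm ε) (rep' ε) (hrep' ε) φ) := rfl

/-- **the intertwiner of `Tw.exists_tw_of_chains`**:
`(R v) · ε = castHom (chainD (Lε ε) (e_ε (v ⊗ K)))` -/
def RChain : ↥(parabolicHoms O (GammaH θ) O) →+ (Additive (Gamma0 N') →+ ((Δ →* Kˣ) → K)) :=
  Rmap θ (eChain θ hθ) (DChain θ Lε hadm hlev rep' hrep')

/-- the component at `ε` of `RChain` -/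
def RChainComp (ε : Δ →* Kˣ) :
    ↥(parabolicHoms O (GammaH θ) O) →+ (Additive (Gamma0 N') →+ K) :=
  Rcomp θ (eChain θ hθ) (DChain θ Lε hadm hlev rep' hrep') ε

theorem RChainComp_apply (ε : Δ →* Kˣ) (v : ↥(parabolicHoms O (GammaH θ) O)) :
    RChainComp θ hθ Lε hadm hlev rep' hrep' ε v
      = castHom (hlev ε) K (chainD N θ (Lε ε) (hadm ε) (rep' ε) (hrep' ε)
          (DiaRep.comp θ hθ ε (extK (K := K) (GammaH θ) (v : Additive (GammaH θ) →+ O)))) := rfl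

theorem RChain_apply (v : ↥(parabolicHoms O (GammaH θ) O)) (g : Additive (Gamma0 N'))
    (ε : Δ →* Kˣ) :
    RChain θ hθ Lε hadm hlev rep' hrep' v g ε = RChainComp θ hθ Lε hadm hlev rep' hrep' ε v g :=
  rfl

/-- the hypotheses of the abstract form hold for `eChain`, `DChain` (those not involving `S`) -/
theorem chain_hyps₁
    (hsq : ∀ ε, ∀ d ∈ Lε ε, ¬ d.r ^ 2 ∣ N)
    (hnd : ∀ ε, (Lε ε).Pairwise (fun d e => d.r ≠ e.r))
    (hψ : ∀ ε, ∀ d ∈ Lε ε, (∀ v : (ZMod d.r)ˣ, d.ψ (v : ZMod d.r) = 1) ∨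
      ∃ v : (ZMod d.r)ˣ, d.ψ (v : ZMod d.r) ^ 2 ≠ 1)
    (hν : ∀ (ε : Δ →* Kˣ) (δ : Δ), ((Lε ε).map (fun d => d.ν)).prod δ = ε δ) :
    (∀ φ : Additive (GammaH θ) →+ K, ∑ ε, eChain θ hθ ε φ = φ) ∧
    (∀ ε (a : K) (φ : Additive (GammaH θ) →+ K), eChain θ hθ ε (a • φ) = a • eChain θ hθ ε φ) ∧
    (∀ ε (φ : Additive (GammaH θ) →+ K), IsParabolicHom (GammaH θ) φ →
      IsParabolicHom (GammaH θ) (eChain θ hθ ε φ)) ∧
    (∀ (ε : Δ →* Kˣ) (φ : Additive (GammaH θ) →+ K) (d : Gamma0 N),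
      diaH θ K d (eChain θ hθ ε φ) = ((ε (chi θ d) : Kˣ) : K) • eChain θ hθ ε φ) ∧
    (∀ ε (d : Gamma0 N) (φ : Additive (GammaH θ) →+ K),
      eChain θ hθ ε (diaH θ K d φ) = diaH θ K d (eChain θ hθ ε φ)) ∧
    (∀ ε (a : K) (φ : Additive (GammaH θ) →+ K),
      DChain θ Lε hadm hlev rep' hrep' ε (a • φ) = a • DChain θ Lε hadm hlev rep' hrep' ε φ) ∧
    (∀ ε (φ : Additive (GammaH θ) →+ K), IsParabolicHom (GammaH θ) φ →
      IsParabolicHom (Gamma0 N') (DChain θ Lε hadm hlev rep' hrep' ε φ)) ∧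
    (∀ (ε : Δ →* Kˣ) (φ : Additive (GammaH θ) →+ K),
      (∀ d : Gamma0 N, diaH θ K d φ = ((ε (chi θ d) : Kˣ) : K) • φ) →
        DChain θ Lε hadm hlev rep' hrep' ε φ = 0 → φ = 0) := by
  classical
  have hcard : (Fintype.card Δ : K) ≠ 0 := Nat.cast_ne_zero.mpr Fintype.card_ne_zero
  set ρ : Δ →* Module.End K (Additive (GammaH θ) →+ K) :=
    DiaRep.diaRep (R := K) (A := K) θ hθ with hρ
  refine ⟨?_, ?_, ?_, ?_, ?_, ?_, ?_, ?_⟩
  · -- he_sum
    intro φ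
    simp_rw [eChain_apply]
    exact DiaRep.sum_comp θ hθ hcard φ
  · -- he_smul
    intro ε a φ
    exact map_smul (EpsDecomp.proj ρ ε) a φ
  · -- he_par
    intro ε φ hφ
    exact DiaRep.comp_par θ hθ ε φ hφ
  · -- he_eig
    intro ε φ d
    have h1 := EpsDecomp.proj_mem_eigen ρ ε φ (chi θ d)
    have h2 : ρ (chi θ d) = DiaRep.diaL θ d := DiaRep.diaRep_chi θ hθ d
    rw [h2] at h1
    exact h1
  · -- he_dia
    intro ε d φ
    have h1 := EpsDecomp.commute_proj ρ (DiaRep.diaL θ d) (fun δ => by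
      rw [← DiaRep.diaRep_chi θ hθ d]
      show ρ (chi θ d) * ρ δ = ρ δ * ρ (chi θ d)
      rw [← map_mul, ← map_mul, mul_comm]) ε
    have h2 := LinearMap.congr_fun h1 φ
    rw [Module.End.mul_apply, Module.End.mul_apply] at h2
    exact h2.symm
  · -- hD_smul
    intro ε a φ
    rw [DChain_apply, DChain_apply, chainD_apply, map_smul, coresH_smul, castHom_smul]
    rfl
  · -- hD_par
    intro ε φ hφ
    exact isParabolicHom_castHom (hlev ε) (chainD_par N θ (Lε ε) (hadm ε) (rep' ε) (hrep' ε) φ hφ)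
  · -- hD_inj
    intro ε φ hφ h0
    have h1 : chainD N θ (Lε ε) (hadm ε) (rep' ε) (hrep' ε) φ = 0 :=
      (castHom_eq_zero_iff (hlev ε) _).mp h0
    refine ChainInj.chainD_injective N θ (Lε ε) (hadm ε) (rep' ε) (hrep' ε) (hsq ε) (hnd ε) (hψ ε)
      ?_ ?_ φ ?_ h1
    · intro n a hn h
      rw [nsmul_eq_mul] at h
      rcases mul_eq_zero.mp h with h' | h'
      · exact absurd (Nat.cast_eq_zero.mp h') hn
      · exact h'
    · intro c a hc' h
      rcases smul_eq_zero.mp h with h' | h'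
      · exact absurd h' hc'
      · exact h'
    · intro x k
      have h2 := DFunLike.congr_fun (hφ x) (Additive.ofMul k)
      rw [diaH_apply, AddMonoidHom.smul_apply] at h2
      rw [h2, hν]

/-- the hypotheses of the abstract form hold for `eChain`, `DChain` (those involving `S`) -/
theorem chain_hyps₂ :
    (∀ ε (l : PrimesOff S) (φ : Additive (GammaH θ) →+ K),
      eChain θ hθ ε (GamH.TH θ K (not_dvd_level S hS hNN' l) φ)
        = GamH.TH θ K (not_dvd_level S hS hNN' l) (eChain θ hθ ε φ)) ∧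
    (∀ ε (l : PrimesOff S) (φ : Additive (GammaH θ) →+ K),
      DChain θ Lε hadm hlev rep' hrep' ε (GamH.TH θ K (not_dvd_level S hS hNN' l) φ)
        = chainPsi (Lε ε) (l.1 : ℕ) • cohT (not_dvd_level' S hS l) K
            (DChain θ Lε hadm hlev rep' hrep' ε φ)) := by
  classical
  refine ⟨?_, ?_⟩
  · -- he_TH
    intro ε l φ
    exact DiaRep.comp_TH θ hθ (not_dvd_level S hS hNN' l) ε φ
  · -- hD_TH
    intro ε l φ
    rw [DChain_apply, DChain_apply]
    have hℓ : ¬ (l.1 : ℕ) ∣ chainLevel N (Lε ε) := by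
      rw [hlev ε]
      exact not_dvd_level' S hS l
    have h1 := chainD_TH N θ (Lε ε) (hadm ε) (rep' ε) (hrep' ε) hℓ φ
    have h2 : GamH.TH θ K (not_dvd_level S hS hNN' l) φ = GamH.TH θ K (not_dvd_base hℓ) φ := rfl
    rw [h2, h1, castHom_smul, castHom_cohT (hlev ε) hℓ (not_dvd_level' S hS l)]

variable (hsq : ∀ ε, ∀ d ∈ Lε ε, ¬ d.r ^ 2 ∣ N)
  (hnd : ∀ ε, (Lε ε).Pairwise (fun d e => d.r ≠ e.r))
  (hψ : ∀ ε, ∀ d ∈ Lε ε, (∀ v : (ZMod d.r)ˣ, d.ψ (v : ZMod d.r) = 1) ∨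
    ∃ v : (ZMod d.r)ˣ, d.ψ (v : ZMod d.r) ^ 2 ≠ 1)
  (hν : ∀ (ε : Δ →* Kˣ) (δ : Δ), ((Lε ε).map (fun d => d.ν)).prod δ = ε δ)

include hsq hnd hψ hν in
/-- the components of `RChain` are parabolic -/
theorem RChainComp_par (ε : Δ →* Kˣ) (v : ↥(parabolicHoms O (GammaH θ) O)) :
    IsParabolicHom (Gamma0 N') (RChainComp θ hθ Lε hadm hlev rep' hrep' ε v) := by
  obtain ⟨-, -, he_par, -, -, -, hD_par, -⟩ :=
    chain_hyps₁ θ hθ Lε hadm hlev rep' hrep' hsq hnd hψ hν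
  exact Rcomp_par θ _ _ he_par hD_par ε v

include hsq hnd hψ hν in
/-- `RChain v` is parabolic -/
theorem RChain_par (v : ↥(parabolicHoms O (GammaH θ) O)) :
    IsParabolicHom (Gamma0 N') (RChain θ hθ Lε hadm hlev rep' hrep' v) := by
  obtain ⟨-, -, he_par, -, -, -, hD_par, -⟩ :=
    chain_hyps₁ θ hθ Lε hadm hlev rep' hrep' hsq hnd hψ hν
  exact Rmap_par θ _ _ he_par hD_par v

include hsq hnd hψ hν in
/-- `RChain` is `O`-linear -/
theorem RChain_smul (o : O) (v : ↥(parabolicHoms O (GammaH θ) O)) :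
    RChain θ hθ Lε hadm hlev rep' hrep' (o • v) = o • RChain θ hθ Lε hadm hlev rep' hrep' v := by
  obtain ⟨-, he_smul, -, -, -, hD_smul, -, -⟩ :=
    chain_hyps₁ θ hθ Lε hadm hlev rep' hrep' hsq hnd hψ hν
  exact Rmap_smul θ _ _ he_smul hD_smul o v

include hinj hsq hnd hψ hν in
/-- **`RChain` is injective** -/
theorem RChain_injective :
    Function.Injective (RChain (O := O) θ hθ Lε hadm hlev rep' hrep') := by
  obtain ⟨he_sum, -, -, he_eig, -, -, -, hD_inj⟩ :=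
    chain_hyps₁ θ hθ Lε hadm hlev rep' hrep' hsq hnd hψ hν
  exact Rmap_injective θ hinj (fun ε δ => ((ε δ : Kˣ) : K)) _ _ he_sum he_eig hD_inj

include hsq hnd hψ hν in
/-- **`RChain` intertwines every `tw` with the generator formula and `coeffAct`** -/
theorem RChain_tw
    (hc : ∀ (ε : Δ →* Kˣ) (l : PrimesOff S),
      ((ε (chi θ (dℓ l)) : Kˣ) : K) * chainPsi (Lε ε) (l.1 : ℕ) = 1)
    (tw : ↥(heckeAlgebra N' 2 S) →+* Module.End O ↥(parabolicHoms O (GammaH θ) O))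
    (htw : ∀ (l : PrimesOff S) (v : ↥(parabolicHoms O (GammaH θ) O)),
      ((tw (formsGenS N' S l) v : ↥(parabolicHoms O (GammaH θ) O)) : Additive (GammaH θ) →+ O)
        = diaH θ O (dℓ l) (GamH.TH θ O (not_dvd_level S hS hNN' l)
            (v : Additive (GammaH θ) →+ O)))
    (t : ↥(heckeAlgebra N' 2 S)) (v : ↥(parabolicHoms O (GammaH θ) O)) :
    RChain θ hθ Lε hadm hlev rep' hrep' (tw t v)
      = ((coeffAct N' S O (hA_pi (Δ →* Kˣ) K) t
          ⟨RChain θ hθ Lε hadm hlev rep' hrep' v,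
            RChain_par θ hθ Lε hadm hlev rep' hrep' hsq hnd hψ hν v⟩ :
          ↥(parabolicHoms O (Gamma0 N') ((Δ →* Kˣ) → K))) :
            Additive (Gamma0 N') →+ ((Δ →* Kˣ) → K)) := by
  obtain ⟨-, -, he_par, he_eig, he_dia, hD_smul, hD_par, -⟩ :=
    chain_hyps₁ θ hθ Lε hadm hlev rep' hrep' hsq hnd hψ hν
  obtain ⟨he_TH, hD_TH⟩ := chain_hyps₂ θ hθ S hS hNN' Lε hadm hlev rep' hrep'
  exact Rmap_tw θ S hS hNN' (fun ε δ => ((ε δ : Kˣ) : K)) _ _
    (fun ε l => chainPsi (Lε ε) (l.1 : ℕ)) dℓ he_par he_eig he_TH he_dia hD_smul hD_par hD_TH hc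
    tw htw t v

include hsq hnd hψ hν in
/-- **the components of `RChain` intertwine `tw` and `coeffAct` on `Hom_par(Γ₀(N'), K)`** -/
theorem RChainComp_tw
    (hc : ∀ (ε : Δ →* Kˣ) (l : PrimesOff S),
      ((ε (chi θ (dℓ l)) : Kˣ) : K) * chainPsi (Lε ε) (l.1 : ℕ) = 1)
    (tw : ↥(heckeAlgebra N' 2 S) →+* Module.End O ↥(parabolicHoms O (GammaH θ) O))
    (htw : ∀ (l : PrimesOff S) (v : ↥(parabolicHoms O (GammaH θ) O)),
      ((tw (formsGenS N' S l) v : ↥(parabolicHoms O (GammaH θ) O)) : Additive (GammaH θ) →+ O)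
        = diaH θ O (dℓ l) (GamH.TH θ O (not_dvd_level S hS hNN' l)
            (v : Additive (GammaH θ) →+ O)))
    (ε : Δ →* Kˣ) (t : ↥(heckeAlgebra N' 2 S)) (v : ↥(parabolicHoms O (GammaH θ) O)) :
    RChainComp θ hθ Lε hadm hlev rep' hrep' ε (tw t v)
      = ((coeffAct N' S K (hA_field K) t
          ⟨RChainComp θ hθ Lε hadm hlev rep' hrep' ε v,
            RChainComp_par θ hθ Lε hadm hlev rep' hrep' hsq hnd hψ hν ε v⟩ :
          ↥(parabolicHoms K (Gamma0 N') K)) : Additive (Gamma0 N') →+ K) := by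
  obtain ⟨-, -, he_par, he_eig, he_dia, hD_smul, hD_par, -⟩ :=
    chain_hyps₁ θ hθ Lε hadm hlev rep' hrep' hsq hnd hψ hν
  obtain ⟨he_TH, hD_TH⟩ := chain_hyps₂ θ hθ S hS hNN' Lε hadm hlev rep' hrep'
  exact Rcomp_tw θ S hS hNN' (fun ε δ => ((ε δ : Kˣ) : K)) _ _
    (fun ε l => chainPsi (Lε ε) (l.1 : ℕ)) dℓ he_par he_eig he_TH he_dia hD_smul hD_par hD_TH hc
    tw htw ε t v

end ChainForm

/-! ### the chain data of `TwFinal.exists_tw` and of `TwInst.exists_tw_primeData` -/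

section FinalForm

variable {N N' : ℕ} [NeZero N] [NeZero N'] {Δ : Type} [CommGroup Δ] [Fintype Δ]
  (θ : (ZMod N)ˣ →* Δ) (hθ : Function.Surjective θ) (hodd : Odd (Nat.card Δ))
  (L : List ℕ) (hL : ∀ r ∈ L, r.Prime) (hnd : L.Nodup)
  (hdvd : ∀ r ∈ L, r ∣ N) (hsq : ∀ r ∈ L, ¬ r ^ 2 ∣ N) (hN' : N' = N * L.prod)
  (θloc : (r : ℕ) → (ZMod r)ˣ →* Δ) (pr : ℕ → Δ →* Δ)
  (hpr : ∀ r ∈ L, ∀ (h : r ∣ N) (u : (ZMod N)ˣ), pr r (θ u) = θloc r (ZMod.unitsMap h u))
  (hprod : ∀ u : (ZMod N)ˣ, θ u = (L.map fun r => pr r (θ u)).prod)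
  (S : Set ℕ) (hS : ∀ q : ℕ, q.Prime → q ∣ N' → q ∈ S)
  (dℓ : PrimesOff S → Gamma0 N)
  (hdℓ : ∀ (l : PrimesOff S) (u : (ZMod N)ˣ), (u : ZMod N) = ((l.1 : ℕ) : ZMod N) →
    chi θ (dℓ l) ^ 2 * θ u = 1)
  (K : Type*) [Field K] [CharZero K]
  [Fintype (Δ →* Kˣ)] [HasEnoughRootsOfUnity K (Monoid.exponent Δ)]

/-- the twisting data of `TwFinal.exists_tw`: for every character `ε` of `Δ` the list of the
`L6Loc.datum`'s at the primes of `L` -/
def LεFinal : (Δ →* Kˣ) → List (TwDatum K Δ) := fun ε => datumList θloc pr ε L hL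

theorem LεFinal_apply (ε : Δ →* Kˣ) : LεFinal L hL θloc pr K ε = datumList θloc pr ε L hL := rfl

include hθ hodd hnd hdvd hsq hN' hpr hprod hS hdℓ in
/-- **the chain binders of `Tw.exists_tw_of_chains` hold for `LεFinal`** -/
theorem final_hyps :
    (∀ ε, Adm N θ (LεFinal L hL θloc pr K ε)) ∧
    (∀ ε, chainLevel N (LεFinal L hL θloc pr K ε) = N') ∧
    (∀ ε, ∀ d ∈ LεFinal L hL θloc pr K ε, ¬ d.r ^ 2 ∣ N) ∧
    (∀ ε, (LεFinal L hL θloc pr K ε).Pairwise (fun d e => d.r ≠ e.r)) ∧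
    (∀ ε, ∀ d ∈ LεFinal L hL θloc pr K ε, (∀ v : (ZMod d.r)ˣ, d.ψ (v : ZMod d.r) = 1) ∨
      ∃ v : (ZMod d.r)ˣ, d.ψ (v : ZMod d.r) ^ 2 ≠ 1) ∧
    (∀ (ε : Δ →* Kˣ) (δ : Δ), ((LεFinal L hL θloc pr K ε).map (fun d => d.ν)).prod δ = ε δ) ∧
    (∀ (ε : Δ →* Kˣ) (l : PrimesOff S),
      ((ε (chi θ (dℓ l)) : Kˣ) : K) * chainPsi (LεFinal L hL θloc pr K ε) (l.1 : ℕ) = 1) := by
  classical
  refine ⟨?_, ?_, ?_, ?_, ?_, ?_, ?_⟩
  · -- hadm
    intro ε
    exact adm θloc pr ε θ hodd L hL hdvd hpr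
  · -- hlev
    intro ε
    rw [LεFinal_apply, chainLevel_datumList, hN']
  · -- hsq
    intro ε d hd
    exact hsq _ (r_mem_of_mem_datumList θloc pr ε hd)
  · -- hnd
    intro ε
    have h := nodup_datumList θloc pr ε hL hnd
    exact (List.pairwise_map.mp h)
  · -- hψ
    intro ε
    exact trivial_or_sq_ne_one θloc pr ε hodd L hL
  · -- hν
    intro ε δ
    rw [LεFinal_apply, prod_ν_eq θloc pr ε θ L hL hprod hθ]
  · -- hc
    intro ε l
    have hcop : Nat.Coprime (l.1 : ℕ) N :=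
      (Nat.Prime.coprime_iff_not_dvd l.1.2).mpr (not_dvd_level S hS (dvd_level L hN') l)
    have hu : ((ZMod.unitOfCoprime (l.1 : ℕ) hcop : (ZMod N)ˣ) : ZMod N) = ((l.1 : ℕ) : ZMod N) :=
      ZMod.coe_unitOfCoprime _ hcop
    rw [LεFinal_apply, chainPsi_eq θloc pr ε θ L hL hdvd hpr hprod (l.1 : ℕ) _ hu,
      ← Units.val_mul, ← Units.val_one, Units.val_inj]
    have h1 := congrArg (sqrtChar ε) (hdℓ l _ hu)
    rw [map_mul, map_pow, sqrtChar_sq_apply hodd, map_one] at h1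
    exact h1

end FinalForm

section PrForm

variable {N N' : ℕ} [NeZero N] [NeZero N'] {Δ : Type} [CommGroup Δ] [Fintype Δ]
  (θ : (ZMod N)ˣ →* Δ) (pr : ℕ → Δ →* Δ)
  (hθ : Function.Surjective θ) (hodd : Odd (Nat.card Δ))
  (L : List ℕ) (hL : ∀ r ∈ L, r.Prime) (hnd : L.Nodup)
  (hdvd : ∀ r ∈ L, r ∣ N) (hsq : ∀ r ∈ L, ¬ r ^ 2 ∣ N) (hN' : N' = N * L.prod)
  (hpr1 : ∀ r ∈ L, ∀ (h : r ∣ N) (u : (ZMod N)ˣ), ZMod.unitsMap h u = 1 → pr r (θ u) = 1)
  (hprod : ∀ u : (ZMod N)ˣ, θ u = (L.map fun r => pr r (θ u)).prod)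
  (S : Set ℕ) (hS : ∀ q : ℕ, q.Prime → q ∣ N' → q ∈ S)
  (dℓ : PrimesOff S → Gamma0 N)
  (hdℓ : ∀ (l : PrimesOff S) (u : (ZMod N)ˣ), (u : ZMod N) = ((l.1 : ℕ) : ZMod N) →
    chi θ (dℓ l) ^ 2 * θ u = 1)
  (K : Type*) [Field K] [CharZero K]
  [Fintype (Δ →* Kˣ)] [HasEnoughRootsOfUnity K (Monoid.exponent Δ)]

/-- the twisting data of `TwInst.exists_tw_of_pr` -/
def LεPr : (Δ →* Kˣ) → List (TwDatum K Δ) := LεFinal L hL (θlocOf θ pr) pr K

include hθ hodd hnd hdvd hsq hN' hpr1 hprod hS hdℓ in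
/-- **the chain binders hold for `LεPr`** -/
theorem pr_hyps :
    (∀ ε, Adm N θ (LεPr θ pr L hL K ε)) ∧
    (∀ ε, chainLevel N (LεPr θ pr L hL K ε) = N') ∧
    (∀ ε, ∀ d ∈ LεPr θ pr L hL K ε, ¬ d.r ^ 2 ∣ N) ∧
    (∀ ε, (LεPr θ pr L hL K ε).Pairwise (fun d e => d.r ≠ e.r)) ∧
    (∀ ε, ∀ d ∈ LεPr θ pr L hL K ε, (∀ v : (ZMod d.r)ˣ, d.ψ (v : ZMod d.r) = 1) ∨
      ∃ v : (ZMod d.r)ˣ, d.ψ (v : ZMod d.r) ^ 2 ≠ 1) ∧
    (∀ (ε : Δ →* Kˣ) (δ : Δ), ((LεPr θ pr L hL K ε).map (fun d => d.ν)).prod δ = ε δ) ∧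
    (∀ (ε : Δ →* Kˣ) (l : PrimesOff S),
      ((ε (chi θ (dℓ l)) : Kˣ) : K) * chainPsi (LεPr θ pr L hL K ε) (l.1 : ℕ) = 1) :=
  final_hyps θ hθ hodd L hL hnd hdvd hsq hN' (θlocOf θ pr) pr
    (fun r hr h u => θlocOf_apply θ pr h (hpr1 r hr h) u) hprod S hS dℓ hdℓ K

end PrForm

section PiForm

variable {j : ℕ} (Δs : ℕ → Type) [∀ i, CommGroup (Δs i)] (r : ℕ → ℕ)
  {N N' : ℕ} [NeZero N] [NeZero N'] [∀ i, Fintype (Δs i)]
  (ψ : ∀ i, (ZMod N)ˣ →* Δs i)
  (hprime : ∀ i : Fin j, (r i).Prime) (hinj : ∀ i i' : Fin j, r i = r i' → i = i')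
  (hdvd : ∀ i : Fin j, r i ∣ N) (hsq : ∀ i : Fin j, ¬ r i ^ 2 ∣ N)
  (hfac : ∀ (i : Fin j) (h : r i ∣ N) (u : (ZMod N)ˣ), ZMod.unitsMap h u = 1 → ψ i u = 1)
  (hsurj : Function.Surjective (Theta Δs ψ j))
  (hodd : Odd (Nat.card (∀ i : Fin j, Δs i)))
  (hN' : N' = N * ∏ i : Fin j, r i)
  (S : Set ℕ) (hS : ∀ q : ℕ, q.Prime → q ∣ N' → q ∈ S)
  (dℓ : PrimesOff S → Gamma0 N)
  (hdℓ : ∀ (l : PrimesOff S) (u : (ZMod N)ˣ), (u : ZMod N) = ((l.1 : ℕ) : ZMod N) →
    chi (Theta Δs ψ j) (dℓ l) ^ 2 * Theta Δs ψ j u = 1)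
  (K : Type*) [Field K] [CharZero K]
  [Fintype ((∀ i : Fin j, Δs i) →* Kˣ)]
  [HasEnoughRootsOfUnity K (Monoid.exponent (∀ i : Fin j, Δs i))]

include hprime in
theorem prime_of_mem_ofFn : ∀ r' ∈ List.ofFn (fun i : Fin j => r i), r'.Prime := by
  intro r' hr'
  obtain ⟨i, rfl⟩ := List.mem_ofFn.mp hr'
  exact hprime i

/-- the twisting data of `TwInst.exists_tw_pi`: the primes are `r i`, `i < j`, the local characters
are the coordinates of `Theta Δs ψ j` -/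
def LεPi : ((∀ i : Fin j, Δs i) →* Kˣ) → List (TwDatum K (∀ i : Fin j, Δs i)) :=
  LεPr (Theta Δs ψ j) (prFam Δs r) (List.ofFn fun i : Fin j => r i)
    (prime_of_mem_ofFn r hprime) K

include hinj hdvd hsq hfac hsurj hodd hN' hS hdℓ in
/-- **the chain binders hold for `LεPi`** -/
theorem pi_hyps :
    (∀ ε, Adm N (Theta Δs ψ j) (LεPi Δs r ψ hprime K ε)) ∧
    (∀ ε, chainLevel N (LεPi Δs r ψ hprime K ε) = N') ∧
    (∀ ε, ∀ d ∈ LεPi Δs r ψ hprime K ε, ¬ d.r ^ 2 ∣ N) ∧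
    (∀ ε, (LεPi Δs r ψ hprime K ε).Pairwise (fun d e => d.r ≠ e.r)) ∧
    (∀ ε, ∀ d ∈ LεPi Δs r ψ hprime K ε, (∀ v : (ZMod d.r)ˣ, d.ψ (v : ZMod d.r) = 1) ∨
      ∃ v : (ZMod d.r)ˣ, d.ψ (v : ZMod d.r) ^ 2 ≠ 1) ∧
    (∀ (ε : (∀ i : Fin j, Δs i) →* Kˣ) (δ : ∀ i : Fin j, Δs i),
      ((LεPi Δs r ψ hprime K ε).map (fun d => d.ν)).prod δ = ε δ) ∧
    (∀ (ε : (∀ i : Fin j, Δs i) →* Kˣ) (l : PrimesOff S),
      ((ε (chi (Theta Δs ψ j) (dℓ l)) : Kˣ) : K)
        * chainPsi (LεPi Δs r ψ hprime K ε) (l.1 : ℕ) = 1) := by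
  classical
  have hN'' : N' = N * (List.ofFn fun i : Fin j => r i).prod := by
    rw [List.prod_ofFn]
    exact hN'
  refine pr_hyps (Theta Δs ψ j) (prFam Δs r) hsurj hodd
    (List.ofFn fun i : Fin j => r i) (prime_of_mem_ofFn r hprime) ?_ ?_ ?_ hN'' ?_ ?_ S hS dℓ hdℓ K
  · -- distinct
    rw [List.nodup_ofFn]
    exact fun i i' h => hinj i i' h
  · -- divide N
    intro r' hr'
    obtain ⟨i, rfl⟩ := List.mem_ofFn.mp hr'
    exact hdvd i
  · -- exactly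
    intro r' hr'
    obtain ⟨i, rfl⟩ := List.mem_ofFn.mp hr'
    exact hsq i
  · -- hpr1
    intro r' hr' h u hu
    obtain ⟨i, rfl⟩ := List.mem_ofFn.mp hr'
    funext i'
    rw [prFam_apply, Theta_apply]
    split_ifs with hi
    · have : i' = i := hinj i' i hi
      subst this
      exact hfac i' h u hu
    · rfl
  · -- hprod
    intro u
    funext i
    rw [Pi.list_prod_apply, List.map_map, List.map_ofFn, List.prod_ofFn]
    symm
    rw [Finset.prod_eq_single i]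
    · show prFam Δs r (r i) (Theta Δs ψ j u) i = _
      rw [prFam_apply, if_pos rfl]
    · intro i' _ hii
      show prFam Δs r (r i') (Theta Δs ψ j u) i = 1
      rw [prFam_apply, if_neg (fun h => hii (hinj i i' h).symm)]
    · intro h
      exact absurd (Finset.mem_univ i) h

end PiForm

section PrimeDataForm

variable {N p K : ℕ} [NeZero N] {r e N' : ℕ → ℕ} (H : PrimeData N p K r e N')
  [∀ i : ℕ, Fintype (Multiplicative (ZMod (p ^ e i)))]
  {N'' : ℕ} [NeZero N''] (hp : p.Prime) (hp2 : p ≠ 2) (j : ℕ) (hj : j ≤ K)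
  (hN'' : N'' = N * ∏ i : Fin j, r i)
  (S : Set ℕ) (hS : ∀ q : ℕ, q.Prime → q ∣ N'' → q ∈ S)
  (dℓ : PrimesOff S → Gamma0 N)
  (hdℓ : ∀ (l : PrimesOff S) (u : (ZMod N)ˣ), (u : ZMod N) = ((l.1 : ℕ) : ZMod N) →
    chi (Theta (fun i => Multiplicative (ZMod (p ^ e i))) H.psi j) (dℓ l) ^ 2
      * Theta (fun i => Multiplicative (ZMod (p ^ e i))) H.psi j u = 1)
  (F : Type*) [Field F] [CharZero F]
  [Fintype ((∀ i : Fin j, Multiplicative (ZMod (p ^ e i))) →* Fˣ)]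
  [HasEnoughRootsOfUnity F
    (Monoid.exponent (∀ i : Fin j, Multiplicative (ZMod (p ^ e i))))]

include H hj in
theorem prime_of_primeData : ∀ i : Fin j, (r i).Prime :=
  fun i => H.prime i (lt_of_lt_of_le i.2 hj)

/-- the twisting data of `TwInst.exists_tw_primeData` -/
def LεPD : ((∀ i : Fin j, Multiplicative (ZMod (p ^ e i))) →* Fˣ) →
    List (TwDatum F (∀ i : Fin j, Multiplicative (ZMod (p ^ e i)))) :=
  LεPi (fun i => Multiplicative (ZMod (p ^ e i))) r H.psi (prime_of_primeData H j hj) F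

include hp hp2 hN'' hS hdℓ in
/-- **the chain binders hold for `LεPD`**, the twisting data of B3's big level -/
theorem primeData_hyps :
    (∀ ε, Adm N (Theta (fun i => Multiplicative (ZMod (p ^ e i))) H.psi j) (LεPD H j hj F ε)) ∧
    (∀ ε, chainLevel N (LεPD H j hj F ε) = N'') ∧
    (∀ ε, ∀ d ∈ LεPD H j hj F ε, ¬ d.r ^ 2 ∣ N) ∧
    (∀ ε, (LεPD H j hj F ε).Pairwise (fun d e => d.r ≠ e.r)) ∧
    (∀ ε, ∀ d ∈ LεPD H j hj F ε, (∀ v : (ZMod d.r)ˣ, d.ψ (v : ZMod d.r) = 1) ∨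
      ∃ v : (ZMod d.r)ˣ, d.ψ (v : ZMod d.r) ^ 2 ≠ 1) ∧
    (∀ (ε : (∀ i : Fin j, Multiplicative (ZMod (p ^ e i))) →* Fˣ)
      (δ : ∀ i : Fin j, Multiplicative (ZMod (p ^ e i))),
      ((LεPD H j hj F ε).map (fun d => d.ν)).prod δ = ε δ) ∧
    (∀ (ε : (∀ i : Fin j, Multiplicative (ZMod (p ^ e i))) →* Fˣ) (l : PrimesOff S),
      ((ε (chi (Theta (fun i => Multiplicative (ZMod (p ^ e i))) H.psi j) (dℓ l)) : Fˣ) : F)
        * chainPsi (LεPD H j hj F ε) (l.1 : ℕ) = 1) := by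
  classical
  have hlt : ∀ i : Fin j, (i : ℕ) < K := fun i => lt_of_lt_of_le i.2 hj
  have hodd : Odd (Nat.card (∀ i : Fin j, Multiplicative (ZMod (p ^ e i)))) :=
    odd_card_pi hp hp2 e j
  refine pi_hyps (fun i => Multiplicative (ZMod (p ^ e i))) r H.psi
    (prime_of_primeData H j hj) ?_ (fun i => H.dvd i (hlt i)) ?_ ?_
    (Theta_surjective H j hj) hodd hN'' S hS dℓ hdℓ F
  · intro i i' h
    by_contra hne
    exact H.inj i i' (hlt i) (hlt i') (fun h' => hne (Fin.ext h')) h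
  · intro i hsq
    have hfact := H.fact i (hlt i)
    have hcop := H.cop i (hlt i)
    rw [hfact, pow_two] at hsq
    have h1 : r i ∣ N' i := Nat.dvd_of_mul_dvd_mul_left (H.prime i (hlt i)).pos hsq
    have h2 : r i ∣ Nat.gcd (r i) (N' i) := Nat.dvd_gcd dvd_rfl h1
    rw [hcop.gcd_eq_one, Nat.dvd_one] at h2
    exact (H.prime i (hlt i)).one_lt.ne' h2
  · intro i h u hu
    exact H.psi_eq_one_of_unitsMap i (hlt i) u hu

end PrimeDataForm

end Fermat.Agent.GB.B4.Twist.TwR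

end
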