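/-
GATE-B / B4-TWIST (L4) HECKE, abstract half (helper15): a WEIGHTED coset operator intertwines two
plain coset operators up to a scalar.

`R : CosetSys emb Γ₁ Γ₂` with `σ`-invariant weights `w` (the twist `R_ψ`), `T₁ : CosetSys emb Γ₁ Γ₁`
and `T₂ : CosetSys emb Γ₂ Γ₂` (the Hecke systems at the two levels).  If the cosets
`Γ₁ · T₁.a k · R.a i` are pairwise distinct and every representative `R.a i' * T₂.a k'` lies in the
coset of `T₁.a k * R.a i` with `(k, i) = e (i', k')` for a bijection `e`, and the weights satisfy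
`c * w i = w i'`, then

  `T₂.op (wop R w φ) = wop R (c • w) (T₁.op φ)`     (`= c • wop R w (T₁.op φ)` pointwise).

* `sigma_compat_of_distinct` : compatibility of the permutations from distinctness of the cosets;
* `wop_eq_of_cosets`         : `WSys.wop_eq_of_equiv` without the `σ`-compatibility hypothesis;
* `wop_eq_of_contained`      : the same with a mere function `f` between the index sets
                               (both systems distinct, same number of representatives);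
* `wop_intertwine`, `wop_intertwine_apply`, `wop_intertwine_of_contained`.
-/
import Mathlib
import Fermat.Agent.GM.B.System
import Fermat.Agent.GM.B.System2
import Fermat.Agent.GM.B.System3
import Fermat.Agent.GB.B4.Twist.WSys

set_option autoImplicit false

namespace Fermat.Agent.GB.B4.Twist.HeckeAbs

open Fermat.Agent.GM.B Fermat.Agent.GM.B.CosetSys Fermat.Agent.GB.B4.Twist.WSys

variable {H G : Type*} [Group H] [Group G] {emb : H →* G} {Γ₁ Γ₂ : Subgroup H}

/-- if the cosets of `S'` are pairwise distinct, a matching of representatives is automatically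
compatible with the permutations -/
theorem sigma_compat_of_distinct (S S' : CosetSys emb Γ₁ Γ₂) (hS' : S'.Distinct)
    (e : S.ι → S'.ι) (z : G) (hz : ∀ x : G, z * x = x * z) (γ : S.ι → Γ₁)
    (hrep : ∀ i, S'.a (e i) = z * emb ((γ i : Γ₁) : H) * S.a i) (g : Γ₂) (i : S.ι) :
    S'.σ g (e i) = e (S.σ g i) := by
  refine hS' _ _ ((S'.c g (e i))⁻¹ * (γ i * S.c g i * (γ (S.σ g i))⁻¹)) ?_
  have h1 := S'.rel g (e i)
  rw [hrep, mul_assoc, S.rel g i] at h1
  have hz' : ∀ x y : G, x * (z * y) = z * (x * y) := fun x y => by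
    rw [← mul_assoc, ← hz, mul_assoc]
  rw [hrep, Subgroup.coe_mul, map_mul, mul_assoc, Subgroup.coe_inv, map_inv, eq_inv_mul_iff_mul_eq,
    ← h1]
  rw [Subgroup.coe_mul, Subgroup.coe_mul, Subgroup.coe_inv, map_mul, map_mul, map_inv]
  rw [mul_assoc z, mul_assoc z, hz']
  congr 1
  group

section Weighted

variable {K : Type*} [CommRing K] {A : Type*} [AddCommGroup A] [Module K A]

/-- **Independence of the representatives, weighted coset form**: if the cosets of `S'` are
pairwise distinct the compatibility of the permutations is automatic. -/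
theorem wop_eq_of_cosets (S S' : CosetSys emb Γ₁ Γ₂) (hemb : Function.Injective emb)
    (hS' : S'.Distinct) (e : S.ι ≃ S'.ι) (z : G) (hz : ∀ x : G, z * x = x * z) (γ : S.ι → Γ₁)
    (hrep : ∀ i, S'.a (e i) = z * emb ((γ i : Γ₁) : H) * S.a i)
    {w : S.ι → K} {w' : S'.ι → K} (hw : Inv S w) (hw' : Inv S' w')
    (hww : ∀ i, w' (e i) = w i) (φ : Additive Γ₁ →+ A) :
    wop S' w' hw' φ = wop S w hw φ :=
  wop_eq_of_equiv S S' hemb e z hz γ hrep
    (fun g i => sigma_compat_of_distinct S S' hS' e z hz γ hrep g i) hw hw' hww φ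

/-- the same with a mere function between the index sets: both systems have distinct cosets and
the same number of representatives -/
theorem wop_eq_of_contained (S S' : CosetSys emb Γ₁ Γ₂) (hemb : Function.Injective emb)
    (hS : S.Distinct) (hS' : S'.Distinct) (hcard : Fintype.card S.ι = Fintype.card S'.ι)
    (f : S.ι → S'.ι) (z : G) (hz : ∀ x : G, z * x = x * z) (γ : S.ι → Γ₁)
    (hrep : ∀ i, S'.a (f i) = z * emb ((γ i : Γ₁) : H) * S.a i)
    {w : S.ι → K} {w' : S'.ι → K} (hw : Inv S w) (hw' : Inv S' w')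
    (hww : ∀ i, w' (f i) = w i) (φ : Additive Γ₁ →+ A) :
    wop S' w' hw' φ = wop S w hw φ := by
  have hinj : Function.Injective f := by
    intro i i' hii
    have h1 := hrep i
    rw [hii, hrep i', mul_assoc, mul_assoc] at h1
    have h2 := mul_left_cancel h1
    refine (hS i' i ((γ i')⁻¹ * γ i) ?_).symm
    rw [Subgroup.coe_mul, Subgroup.coe_inv, map_mul, map_inv, mul_assoc, eq_inv_mul_iff_mul_eq, h2]
  have hbij : Function.Bijective f :=
    (Fintype.bijective_iff_injective_and_card f).mpr ⟨hinj, hcard⟩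
  exact wop_eq_of_cosets S S' hemb hS' (Equiv.ofBijective f hbij) z hz γ hrep hw hw' hww φ

/-! ### the intertwining relation -/

/-- **(L4), abstract form.**  `T₂ ∘ R_w = R_{c w} ∘ T₁`. -/
theorem wop_intertwine (hemb : Function.Injective emb) (T₁ : CosetSys emb Γ₁ Γ₁)
    (R : CosetSys emb Γ₁ Γ₂) (T₂ : CosetSys emb Γ₂ Γ₂) (hD : (T₁.comp R).Distinct)
    (e : R.ι × T₂.ι ≃ T₁.ι × R.ι) (γ : R.ι × T₂.ι → Γ₁)
    (hrep : ∀ p : R.ι × T₂.ι,
      T₁.a (e p).1 * R.a (e p).2 = emb ((γ p : Γ₁) : H) * (R.a p.1 * T₂.a p.2))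
    {w : R.ι → K} (hw : Inv R w) (c : K) (hww : ∀ p : R.ι × T₂.ι, c * w (e p).2 = w p.1)
    (φ : Additive Γ₁ →+ A) :
    T₂.op A (wop R w hw φ) = wop R (c • w) (inv_smul R c hw) (T₁.op A φ) := by
  rw [← wop_one (R := K) T₂ (wop R w hw φ), ← wop_comp R T₂ hw (inv_one T₂) φ,
    ← wop_one (R := K) T₁ φ, ← wop_comp T₁ R (inv_one T₁) (inv_smul R c hw) φ]
  refine (wop_eq_of_cosets (R.comp T₂) (T₁.comp R) hemb hD e 1
    (fun x => by rw [one_mul, mul_one]) γ ?_ _ _ ?_ φ).symm
  · intro p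
    show T₁.a (e p).1 * R.a (e p).2 = 1 * emb ((γ p : Γ₁) : H) * (R.a p.1 * T₂.a p.2)
    rw [one_mul]
    exact hrep p
  · intro p
    show (1 : K) * (c • w) (e p).2 = w p.1 * 1
    rw [one_mul, mul_one, Pi.smul_apply, smul_eq_mul]
    exact hww p

/-- pointwise form with the scalar pulled out -/
theorem wop_intertwine_apply (hemb : Function.Injective emb) (T₁ : CosetSys emb Γ₁ Γ₁)
    (R : CosetSys emb Γ₁ Γ₂) (T₂ : CosetSys emb Γ₂ Γ₂) (hD : (T₁.comp R).Distinct)
    (e : R.ι × T₂.ι ≃ T₁.ι × R.ι) (γ : R.ι × T₂.ι → Γ₁)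
    (hrep : ∀ p : R.ι × T₂.ι,
      T₁.a (e p).1 * R.a (e p).2 = emb ((γ p : Γ₁) : H) * (R.a p.1 * T₂.a p.2))
    {w : R.ι → K} (hw : Inv R w) (c : K) (hww : ∀ p : R.ι × T₂.ι, c * w (e p).2 = w p.1)
    (φ : Additive Γ₁ →+ A) (g : Γ₂) :
    T₂.op A (wop R w hw φ) (Additive.ofMul g)
      = c • wop R w hw (T₁.op A φ) (Additive.ofMul g) := by
  rw [wop_intertwine hemb T₁ R T₂ hD e γ hrep hw c hww φ, wop_smul_weights_apply]

/-- **(L4), abstract form, with a mere matching function**: both product systems have distinct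
cosets and `T₁`, `T₂` have the same number of representatives. -/
theorem wop_intertwine_of_contained (hemb : Function.Injective emb) (T₁ : CosetSys emb Γ₁ Γ₁)
    (R : CosetSys emb Γ₁ Γ₂) (T₂ : CosetSys emb Γ₂ Γ₂) (hD : (T₁.comp R).Distinct)
    (hD' : (R.comp T₂).Distinct) (hcard : Fintype.card T₁.ι = Fintype.card T₂.ι)
    (f : R.ι × T₂.ι → T₁.ι × R.ι) (γ : R.ι × T₂.ι → Γ₁)
    (hrep : ∀ p : R.ι × T₂.ι,
      T₁.a (f p).1 * R.a (f p).2 = emb ((γ p : Γ₁) : H) * (R.a p.1 * T₂.a p.2))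
    {w : R.ι → K} (hw : Inv R w) (c : K) (hww : ∀ p : R.ι × T₂.ι, c * w (f p).2 = w p.1)
    (φ : Additive Γ₁ →+ A) :
    T₂.op A (wop R w hw φ) = wop R (c • w) (inv_smul R c hw) (T₁.op A φ) := by
  rw [← wop_one (R := K) T₂ (wop R w hw φ), ← wop_comp R T₂ hw (inv_one T₂) φ,
    ← wop_one (R := K) T₁ φ, ← wop_comp T₁ R (inv_one T₁) (inv_smul R c hw) φ]
  refine (wop_eq_of_contained (R.comp T₂) (T₁.comp R) hemb hD' hD ?_ f 1
    (fun x => by rw [one_mul, mul_one]) γ ?_ _ _ ?_ φ).symm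
  · show Fintype.card (R.ι × T₂.ι) = Fintype.card (T₁.ι × R.ι)
    rw [Fintype.card_prod, Fintype.card_prod, hcard, mul_comm]
  · intro p
    show T₁.a (f p).1 * R.a (f p).2 = 1 * emb ((γ p : Γ₁) : H) * (R.a p.1 * T₂.a p.2)
    rw [one_mul]
    exact hrep p
  · intro p
    show (1 : K) * (c • w) (f p).2 = w p.1 * 1
    rw [one_mul, mul_one, Pi.smul_apply, smul_eq_mul]
    exact hww p

end Weighted

end Fermat.Agent.GB.B4.Twist.HeckeAbs
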