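/-
GATE-B / B4-TWIST (helper97): **the concrete per-character intertwiner `D` of helper44's
`Asm.exists_tw_of_maps`**.

For a list `L` of twisting data admissible at `(N, θ)` whose final level `chainLevel N L` equals `N'`:

  `Dmap θ L h rep hrep hlev := castHom hlev K ∘ chainD N θ L h rep hrep :
      Hom(Γ_H(N), K) →+ Hom(Γ₀(N'), K)`,

with the four properties consumed by `Asm.exists_tw_of_maps`, in its binder shapes:

* `Dmap_smul` (`hD_smul`), `Dmap_par` (`hD_par`);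
* `Dmap_TH` (`hD_TH`) : `Dmap (T_ℓ φ) = chainPsi L ℓ • cohT (Dmap φ)`;
* `Dmap_inj` (`hD_inj`) : on the `ε`-eigenvectors of the diamond operators (`diaH` form), `ε = ∏ ν` on
  the image of `θ`, `Dmap φ = 0 → φ = 0` (`ChainInj.chainD_injective`);

and the instance for helper10's `L6Loc.datumList` (`DmapLoc_inj`, `exists_halfDiamond`:
the element `d ∈ Γ₀(N)` with `ε(χ_θ d) · chainPsi (datumList …) ℓ = 1` for EVERY `ε`).
-/
import Mathlib
import Fermat.Agent.GB.B4.Twist.ChainInj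
import Fermat.Agent.GB.B4.Twist.Asm2
import Fermat.Agent.GB.B4.Twist.L6Loc

set_option autoImplicit false

open scoped MatrixGroups
open CongruenceSubgroup Matrix Matrix.SpecialLinearGroup ModularCurve.Period
open Fermat.Agent.S16_helper49 Fermat.Agent.GM.B Fermat.Agent.GM.EisClass
open Fermat.Agent.GB.B3 Fermat.Agent.GB.B3.EisGamma0 Fermat.Agent.GB.B3.GamH
open Fermat.Agent.GB.B4.Twist Fermat.Agent.GB.B4.Twist.RPsi Fermat.Agent.GB.B4.Twist.Chain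
open Fermat.Agent.GB.B4.Twist.ChainD Fermat.Agent.GB.B4.Twist.ChainInj

namespace Fermat.Agent.GB.B4.Twist.DPlug

section Gen

variable {N N' : ℕ} {Δ : Type} [CommGroup Δ] [Fintype Δ] (θ : (ZMod N)ˣ →* Δ)
  {K : Type*} [Field K]
  (L : List (TwDatum K Δ)) (h : Adm N θ L)
  (rep : Δ → Gamma0 (chainLevel N L)) (hrep : ∀ δ, chi (chainθ N θ L) (rep δ) = δ)
  (hlev : chainLevel N L = N')

/-- **the descended iterated twist, at a level given up to a propositional equality** -/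
noncomputable def Dmap : (Additive (GammaH θ) →+ K) →+ (Additive (Gamma0 N') →+ K) :=
  (Asm.castHom hlev K).comp (chainD N θ L h rep hrep)

theorem Dmap_apply (φ : Additive (GammaH θ) →+ K) :
    Dmap θ L h rep hrep hlev φ = Asm.castHom hlev K (chainD N θ L h rep hrep φ) := rfl

/-- (`hD_smul`) -/
theorem Dmap_smul (a : K) (φ : Additive (GammaH θ) →+ K) :
    Dmap θ L h rep hrep hlev (a • φ) = a • Dmap θ L h rep hrep hlev φ := by
  rw [Dmap_apply, Dmap_apply, chainD_apply, chainD_apply, map_smul, ← Asm.castHom_smul]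
  congr 1
  exact ChainD.op_smul _ a _

/-- (`hD_par`) -/
theorem Dmap_par (φ : Additive (GammaH θ) →+ K) (hφ : IsParabolicHom (GammaH θ) φ) :
    IsParabolicHom (Gamma0 N') (Dmap θ L h rep hrep hlev φ) :=
  Asm.isParabolicHom_castHom hlev (chainD_par N θ L h rep hrep φ hφ)

/-- (`hD_TH`) -/
theorem Dmap_TH {ℓ : ℕ} [Fact ℓ.Prime] (hℓN : ¬ ℓ ∣ N) (hℓN' : ¬ ℓ ∣ N')
    (φ : Additive (GammaH θ) →+ K) :
    Dmap θ L h rep hrep hlev (GamH.TH θ K hℓN φ)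
      = chainPsi L ℓ • cohT hℓN' K (Dmap θ L h rep hrep hlev φ) := by
  have hℓ : ¬ ℓ ∣ chainLevel N L := by rw [hlev]; exact hℓN'
  rw [Dmap_apply, Dmap_apply, ← Asm.castHom_cohT hlev hℓ hℓN', ← Asm.castHom_smul]
  congr 1
  exact chainD_TH N θ L h rep hrep hℓ φ

/-- (`hD_inj`) -/
theorem Dmap_inj [CharZero K] [NeZero N]
    (hsq : ∀ d ∈ L, ¬ d.r ^ 2 ∣ N) (hnd : L.Pairwise (fun d e => d.r ≠ e.r))
    (hψ : ∀ d ∈ L, (∀ v : (ZMod d.r)ˣ, d.ψ (v : ZMod d.r) = 1) ∨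
      ∃ v : (ZMod d.r)ˣ, d.ψ (v : ZMod d.r) ^ 2 ≠ 1)
    (ε : Δ →* Kˣ) (hε : ∀ u : (ZMod N)ˣ, (L.map (fun d => d.ν)).prod (θ u) = ε (θ u))
    (φ : Additive (GammaH θ) →+ K)
    (hφ : ∀ d : Gamma0 N, diaH θ K d φ = ((ε (chi θ d) : Kˣ) : K) • φ)
    (h0 : Dmap θ L h rep hrep hlev φ = 0) : φ = 0 := by
  have hAK : ∀ (n : ℕ) (a : K), n ≠ 0 → n • a = 0 → a = 0 := by
    intro n a hn h1
    rw [nsmul_eq_mul] at h1
    rcases mul_eq_zero.mp h1 with h2 | h2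
    · exact absurd (by exact_mod_cast h2) hn
    · exact h2
  have hreg : ∀ (c : K) (a : K), c ≠ 0 → c • a = 0 → a = 0 := fun c a hc h1 =>
    (smul_eq_zero.mp h1).resolve_left hc
  refine chainD_injective N θ L h rep hrep hsq hnd hψ hAK hreg φ ?_
    ((Asm.castHom_eq_zero_iff hlev _).mp h0)
  intro x k
  rw [← diaH_apply, hφ x, AddMonoidHom.smul_apply, chi_apply, hε]

end Gen

/-! ### the instance for `L6Loc.datumList` -/

section Loc

open L6Loc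

variable {N N' : ℕ} {Δ : Type} [CommGroup Δ] [Fintype Δ] (θ : (ZMod N)ˣ →* Δ)
  {K : Type*} [Field K]
  (θloc : (r : ℕ) → (ZMod r)ˣ →* Δ) (pr : ℕ → Δ →* Δ)

omit [Fintype Δ] in
/-- distinct primes give pairwise distinct data -/
theorem pairwise_datumList (ε : Δ →* Kˣ) {L : List ℕ} (hL : ∀ r ∈ L, r.Prime) (hnd : L.Nodup) :
    (datumList θloc pr ε L hL).Pairwise (fun d e => d.r ≠ e.r) := by
  have h1 := nodup_datumList θloc pr ε hL hnd
  exact (List.pairwise_map.mp h1)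

/-- (`hD_inj`) for the data of `L6Loc` -/
theorem DmapLoc_inj [CharZero K] [NeZero N] (hodd : Odd (Nat.card Δ)) (ε : Δ →* Kˣ)
    (L : List ℕ) (hL : ∀ r ∈ L, r.Prime) (hnd : L.Nodup) (hdvd : ∀ r ∈ L, r ∣ N)
    (hsq : ∀ r ∈ L, ¬ r ^ 2 ∣ N)
    (hprod : ∀ u : (ZMod N)ˣ, θ u = (L.map fun r => pr r (θ u)).prod)
    (h : Adm N θ (datumList θloc pr ε L hL))
    (rep : Δ → Gamma0 (chainLevel N (datumList θloc pr ε L hL)))
    (hrep : ∀ δ, chi (chainθ N θ (datumList θloc pr ε L hL)) (rep δ) = δ)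
    (hlev : chainLevel N (datumList θloc pr ε L hL) = N')
    (φ : Additive (GammaH θ) →+ K)
    (hφ : ∀ d : Gamma0 N, diaH θ K d φ = ((ε (chi θ d) : Kˣ) : K) • φ)
    (h0 : Dmap θ (datumList θloc pr ε L hL) h rep hrep hlev φ = 0) : φ = 0 := by
  have _ := hdvd
  refine Dmap_inj θ _ h rep hrep hlev ?_ (pairwise_datumList θloc pr ε hL hnd)
    (trivial_or_sq_ne_one θloc pr ε hodd L hL) ε (prod_ν_apply θloc pr ε θ L hL hprod) φ hφ h0
  intro d hd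
  exact hsq _ (r_mem_of_mem_datumList θloc pr ε hd)

omit [Fintype Δ] in
/-- **the half-diamond element**: for `ℓ` prime to `N` there is `d ∈ Γ₀(N)` with
`ε(χ_θ d) · ε'(θ ℓ) = 1` for every character `ε` (`ε' = sqrtChar ε`); `χ_θ d = θ(ℓ)^{-(|Δ|+1)/2}` -/
theorem exists_halfDiamond [NeZero N] (u : (ZMod N)ˣ) :
    ∃ d : Gamma0 N, chi θ d = (θ u)⁻¹ ^ ((Nat.card Δ + 1) / 2) ∧
      ∀ ε : Δ →* Kˣ, ((ε (chi θ d) : Kˣ) : K) * ((sqrtChar ε (θ u) : Kˣ) : K) = 1 := by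
  obtain ⟨d, hd⟩ := dUnits_surjective (N := N) (u⁻¹ ^ ((Nat.card Δ + 1) / 2))
  have h1 : chi θ d = (θ u)⁻¹ ^ ((Nat.card Δ + 1) / 2) := by
    rw [chi_apply, hd, map_pow, map_inv]
  refine ⟨d, h1, fun ε => ?_⟩
  rw [h1, sqrtChar_apply, map_pow, map_inv, ← Units.val_mul, inv_pow, inv_mul_cancel,
    Units.val_one]

omit [Fintype Δ] in
/-- (`hc`) for the data of `L6Loc` -/
theorem halfDiamond_mul_chainPsi [NeZero N] (ε : Δ →* Kˣ) (L : List ℕ) (hL : ∀ r ∈ L, r.Prime)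
    (hdvd : ∀ r ∈ L, r ∣ N)
    (hpr : ∀ r ∈ L, ∀ (h : r ∣ N) (u : (ZMod N)ˣ), pr r (θ u) = θloc r (ZMod.unitsMap h u))
    (hprod : ∀ u : (ZMod N)ˣ, θ u = (L.map fun r => pr r (θ u)).prod)
    (ℓ : ℕ) (u : (ZMod N)ˣ) (hu : (u : ZMod N) = (ℓ : ZMod N)) (d : Gamma0 N)
    (hd : chi θ d = (θ u)⁻¹ ^ ((Nat.card Δ + 1) / 2)) :
    ((ε (chi θ d) : Kˣ) : K) * chainPsi (datumList θloc pr ε L hL) ℓ = 1 := by
  rw [chainPsi_eq θloc pr ε θ L hL hdvd hpr hprod ℓ u hu, hd, sqrtChar_apply, map_pow, map_inv,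
    ← Units.val_mul, inv_pow, inv_mul_cancel, Units.val_one]

end Loc

end Fermat.Agent.GB.B4.Twist.DPlug
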