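/-
GATE-B / B4-TWIST (L6) sub-leaf (helper15): **the `ε`-decomposition** of a module with an action of
a finite abelian group, and the assembly of ring homomorphisms given on the eigenspaces.
Mathlib only.

`Δ` a finite commutative group, `K` a field with `(card Δ : K) ≠ 0` and enough roots of unity
(`HasEnoughRootsOfUnity K (Monoid.exponent Δ)`), `V` a `K`-module, `ρ : Δ →* Module.End K V`.
For a character `ε : Δ →* Kˣ`:

* `proj ρ ε = (card Δ)⁻¹ • ∑ δ, ε(δ)⁻¹ • ρ δ`, `rho_mul_proj`, `proj_mul_rho` (`= ε δ • proj ρ ε`),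
  `proj_mul_proj_self`, `proj_mul_proj_ne` (orthogonal idempotents), `commute_proj`
  (the commutant of the action commutes with the projectors);
* `sum_proj`, `sum_proj_apply` : **completeness** `∑ ε, proj ρ ε = 1`
  (second orthogonality relation via `CommGroup.exists_apply_ne_one_of_hasEnoughRootsOfUnity`);
* `eigen ρ ε : Submodule K V`, `proj_mem_eigen`, `proj_of_mem_eigen`, `proj_of_mem_eigen_ne`,
  `mem_eigen_iff_proj`, `map_mem_eigen`, `eq_zero_of_sum_eq_zero` (independence);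
* `assemble ρ hcard Ξ : HA →+* Module.End K V` for a family of ring homomorphisms
  `Ξ ε : HA →+* Module.End K (eigen ρ ε)`; `assemble_apply`, `assemble_coe` (it restricts to
  `Ξ ε t` on `eigen ρ ε`), `assemble_mem_eigen`, `assemble_comm_rho`,
  `assemble_eq_of_restrict` (`assemble Ξ g = τ` as soon as `τ` restricts to `Ξ ε g` on every
  eigenspace), `eq_assemble` (uniqueness);
* `hasEnoughRootsOfUnity_of_primitiveRoot`.
-/
import Mathlib

set_option autoImplicit false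
set_option linter.unusedSectionVars false

namespace Fermat.Agent.GB.B4.Twist.EpsDecomp

open Finset

variable {Δ : Type*} [CommGroup Δ] [Fintype Δ] {K : Type*} [Field K]
  {V : Type*} [AddCommGroup V] [Module K V] (ρ : Δ →* Module.End K V)

/-- the un-normalised projector `∑ δ, ε(δ)⁻¹ ρ(δ)` -/
noncomputable def preProj (ε : Δ →* Kˣ) : Module.End K V := ∑ δ : Δ, ((ε δ⁻¹ : Kˣ) : K) • ρ δ

theorem rho_mul_preProj (ε : Δ →* Kˣ) (δ₀ : Δ) :
    ρ δ₀ * preProj ρ ε = ((ε δ₀ : Kˣ) : K) • preProj ρ ε := by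
  unfold preProj
  rw [Finset.mul_sum, Finset.smul_sum, ← Equiv.sum_comp (Equiv.mulLeft δ₀⁻¹)]
  refine Finset.sum_congr rfl fun δ _ => ?_
  rw [Equiv.coe_mulLeft, mul_smul_comm, ← map_mul, mul_inv_cancel_left, smul_smul, ← Units.val_mul,
    ← map_mul, mul_inv_rev, inv_inv, mul_comm δ⁻¹ δ₀]

theorem preProj_mul_rho (ε : Δ →* Kˣ) (δ₀ : Δ) :
    preProj ρ ε * ρ δ₀ = ((ε δ₀ : Kˣ) : K) • preProj ρ ε := by
  rw [← rho_mul_preProj]
  unfold preProj
  rw [Finset.mul_sum, Finset.sum_mul]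
  refine Finset.sum_congr rfl fun δ _ => ?_
  rw [smul_mul_assoc, mul_smul_comm, ← map_mul, ← map_mul, mul_comm]


/-! ### orthogonality of characters -/

/-- first orthogonality relation, `ε = ε'` -/
theorem sum_char_self (ε : Δ →* Kˣ) :
    ∑ δ : Δ, ((ε δ⁻¹ : Kˣ) : K) * ((ε δ : Kˣ) : K) = (Fintype.card Δ : K) := by
  have : ∀ δ : Δ, ((ε δ⁻¹ : Kˣ) : K) * ((ε δ : Kˣ) : K) = 1 := fun δ => by
    rw [← Units.val_mul, ← map_mul, inv_mul_cancel, map_one, Units.val_one]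
  simp_rw [this]
  rw [Finset.sum_const, Finset.card_univ, nsmul_eq_mul, mul_one]

/-- first orthogonality relation, `ε ≠ ε'` -/
theorem sum_char_ne {ε ε' : Δ →* Kˣ} (h : ε ≠ ε') :
    ∑ δ : Δ, ((ε' δ⁻¹ : Kˣ) : K) * ((ε δ : Kˣ) : K) = 0 := by
  obtain ⟨δ₀, hδ₀⟩ : ∃ δ₀, ε δ₀ ≠ ε' δ₀ := by
    by_contra hcon
    exact h (MonoidHom.ext fun δ => not_not.mp fun hne => hcon ⟨δ, hne⟩)
  set S := ∑ δ : Δ, ((ε' δ⁻¹ : Kˣ) : K) * ((ε δ : Kˣ) : K) with hS
  have h1 : S = (((ε' δ₀⁻¹ * ε δ₀ : Kˣ)) : K) * S := by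
    rw [hS, Finset.mul_sum, ← Equiv.sum_comp (Equiv.mulLeft δ₀)]
    refine Finset.sum_congr rfl fun δ _ => ?_
    rw [Equiv.coe_mulLeft, mul_inv_rev, map_mul, map_mul, Units.val_mul, Units.val_mul,
      Units.val_mul]
    ring
  have h2 : (((ε' δ₀⁻¹ * ε δ₀ : Kˣ)) : K) ≠ 1 := by
    intro h3
    apply hδ₀
    have h4 : ε' δ₀⁻¹ * ε δ₀ = 1 := Units.ext h3
    rw [map_inv, inv_mul_eq_one] at h4
    exact h4.symm
  have h3 : ((((ε' δ₀⁻¹ * ε δ₀ : Kˣ)) : K) - 1) * S = 0 := by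
    rw [sub_mul, one_mul, ← h1, sub_self]
  rcases mul_eq_zero.mp h3 with h4 | h4
  · exact absurd (sub_eq_zero.mp h4) h2
  · exact h4

/-! ### the projectors -/

/-- **the projector onto the `ε`-eigenspace** -/
noncomputable def proj (ε : Δ →* Kˣ) : Module.End K V := (Fintype.card Δ : K)⁻¹ • preProj ρ ε

theorem smul_rho_mul_preProj (ε ε' : Δ →* Kˣ) (δ : Δ) :
    (((ε' δ⁻¹ : Kˣ) : K) • ρ δ) * preProj ρ ε
      = (((ε' δ⁻¹ : Kˣ) : K) * ((ε δ : Kˣ) : K)) • preProj ρ ε := by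
  rw [smul_mul_assoc, rho_mul_preProj, smul_smul]

theorem preProj_mul_preProj_self (ε : Δ →* Kˣ) :
    preProj ρ ε * preProj ρ ε = (Fintype.card Δ : K) • preProj ρ ε := by
  calc preProj ρ ε * preProj ρ ε
      = (∑ δ : Δ, ((ε δ⁻¹ : Kˣ) : K) • ρ δ) * preProj ρ ε := rfl
    _ = ∑ δ : Δ, (((ε δ⁻¹ : Kˣ) : K) * ((ε δ : Kˣ) : K)) • preProj ρ ε := by
        rw [Finset.sum_mul]
        exact Finset.sum_congr rfl fun δ _ => smul_rho_mul_preProj ρ ε ε δ
    _ = _ := by rw [← Finset.sum_smul, sum_char_self]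

theorem preProj_mul_preProj_ne {ε ε' : Δ →* Kˣ} (h : ε ≠ ε') :
    preProj ρ ε' * preProj ρ ε = 0 := by
  calc preProj ρ ε' * preProj ρ ε
      = (∑ δ : Δ, ((ε' δ⁻¹ : Kˣ) : K) • ρ δ) * preProj ρ ε := rfl
    _ = ∑ δ : Δ, (((ε' δ⁻¹ : Kˣ) : K) * ((ε δ : Kˣ) : K)) • preProj ρ ε := by
        rw [Finset.sum_mul]
        exact Finset.sum_congr rfl fun δ _ => smul_rho_mul_preProj ρ ε ε' δ
    _ = _ := by rw [← Finset.sum_smul, sum_char_ne h, zero_smul]

variable (hcard : (Fintype.card Δ : K) ≠ 0)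

include hcard in
theorem proj_mul_proj_self (ε : Δ →* Kˣ) : proj ρ ε * proj ρ ε = proj ρ ε := by
  unfold proj
  rw [smul_mul_assoc, mul_smul_comm, preProj_mul_preProj_self, smul_smul, smul_smul,
    mul_assoc, inv_mul_cancel₀ hcard, mul_one]

theorem proj_mul_proj_ne {ε ε' : Δ →* Kˣ} (h : ε ≠ ε') : proj ρ ε' * proj ρ ε = 0 := by
  unfold proj
  rw [smul_mul_assoc, mul_smul_comm, preProj_mul_preProj_ne ρ h, smul_zero, smul_zero]

theorem rho_mul_proj (ε : Δ →* Kˣ) (δ : Δ) : ρ δ * proj ρ ε = ((ε δ : Kˣ) : K) • proj ρ ε := by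
  unfold proj
  rw [mul_smul_comm, rho_mul_preProj, smul_comm]

theorem proj_mul_rho (ε : Δ →* Kˣ) (δ : Δ) : proj ρ ε * ρ δ = ((ε δ : Kˣ) : K) • proj ρ ε := by
  unfold proj
  rw [smul_mul_assoc, preProj_mul_rho, smul_comm]

/-- an operator commuting with the action commutes with the projectors -/
theorem commute_proj (T : Module.End K V) (hT : ∀ δ, T * ρ δ = ρ δ * T) (ε : Δ →* Kˣ) :
    T * proj ρ ε = proj ρ ε * T := by
  unfold proj preProj
  rw [mul_smul_comm, smul_mul_assoc, Finset.mul_sum, Finset.sum_mul]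
  congr 1
  refine Finset.sum_congr rfl fun δ _ => ?_
  rw [mul_smul_comm, smul_mul_assoc, hT]


/-! ### completeness -/

section Complete

variable [Fintype (Δ →* Kˣ)] [HasEnoughRootsOfUnity K (Monoid.exponent Δ)]

omit [Fintype Δ] in
/-- second orthogonality relation, `γ ≠ 1` -/
theorem sum_eval_ne [Finite Δ] {γ : Δ} (hγ : γ ≠ 1) : ∑ ε : Δ →* Kˣ, ((ε γ : Kˣ) : K) = 0 := by
  obtain ⟨ε₀, hε₀⟩ := CommGroup.exists_apply_ne_one_of_hasEnoughRootsOfUnity Δ K hγ
  set S := ∑ ε : Δ →* Kˣ, ((ε γ : Kˣ) : K) with hS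
  have h1 : S = ((ε₀ γ : Kˣ) : K) * S := by
    rw [hS, Finset.mul_sum, ← Equiv.sum_comp (Equiv.mulLeft ε₀)]
    refine Finset.sum_congr rfl fun ε _ => ?_
    rw [Equiv.coe_mulLeft, MonoidHom.mul_apply, Units.val_mul]
  have h2 : ((ε₀ γ : Kˣ) : K) ≠ 1 := fun h3 => hε₀ (Units.ext h3)
  have h3 : (((ε₀ γ : Kˣ) : K) - 1) * S = 0 := by
    rw [sub_mul, one_mul, ← h1, sub_self]
  rcases mul_eq_zero.mp h3 with h4 | h4
  · exact absurd (sub_eq_zero.mp h4) h2
  · exact h4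

/-- second orthogonality relation, `γ = 1` -/
theorem sum_eval_one : ∑ ε : Δ →* Kˣ, ((ε (1 : Δ) : Kˣ) : K) = (Fintype.card Δ : K) := by
  simp_rw [map_one, Units.val_one]
  rw [Finset.sum_const, Finset.card_univ, nsmul_eq_mul, mul_one]
  have h := CommGroup.card_monoidHom_of_hasEnoughRootsOfUnity Δ K
  rw [Nat.card_eq_fintype_card, Nat.card_eq_fintype_card] at h
  rw [h]

include hcard in
/-- **completeness**: the projectors sum to the identity -/
theorem sum_proj : ∑ ε : Δ →* Kˣ, proj ρ ε = 1 := by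
  classical
  unfold proj preProj
  rw [← Finset.smul_sum, Finset.sum_comm]
  simp_rw [← Finset.sum_smul]
  have h : ∀ δ : Δ, (∑ ε : Δ →* Kˣ, ((ε δ⁻¹ : Kˣ) : K)) • ρ δ
      = if δ = 1 then (Fintype.card Δ : K) • (1 : Module.End K V) else 0 := by
    intro δ
    by_cases hδ : δ = 1
    · rw [if_pos hδ, hδ, inv_one, sum_eval_one, map_one]
    · rw [if_neg hδ, sum_eval_ne (inv_ne_one.mpr hδ), zero_smul]
  simp_rw [h]
  rw [Finset.sum_ite_eq' Finset.univ (1 : Δ), if_pos (Finset.mem_univ _), smul_smul,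
    inv_mul_cancel₀ hcard, one_smul]

include hcard in
theorem sum_proj_apply (v : V) : ∑ ε : Δ →* Kˣ, proj ρ ε v = v := by
  have h := congrArg (fun T : Module.End K V => T v) (sum_proj ρ hcard)
  simpa [LinearMap.sum_apply] using h

end Complete

/-! ### the eigenspaces -/

/-- **the `ε`-eigenspace** of the action -/
def eigen (ε : Δ →* Kˣ) : Submodule K V where
  carrier := {v | ∀ δ : Δ, ρ δ v = ((ε δ : Kˣ) : K) • v}
  add_mem' := by
    intro v w hv hw δ
    rw [map_add, hv δ, hw δ, smul_add]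
  zero_mem' := by
    intro δ
    rw [map_zero, smul_zero]
  smul_mem' := by
    intro c v hv δ
    rw [map_smul, hv δ, smul_comm]

omit [Fintype Δ] in
theorem mem_eigen_iff (ε : Δ →* Kˣ) (v : V) :
    v ∈ eigen ρ ε ↔ ∀ δ : Δ, ρ δ v = ((ε δ : Kˣ) : K) • v := Iff.rfl

theorem proj_mem_eigen (ε : Δ →* Kˣ) (v : V) : proj ρ ε v ∈ eigen ρ ε := by
  intro δ
  have h := congrArg (fun T : Module.End K V => T v) (rho_mul_proj ρ ε δ)
  exact h

theorem proj_apply (ε : Δ →* Kˣ) (v : V) :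
    proj ρ ε v = (Fintype.card Δ : K)⁻¹ • ∑ δ : Δ, ((ε δ⁻¹ : Kˣ) : K) • ρ δ v := by
  unfold proj preProj
  rw [LinearMap.smul_apply, LinearMap.sum_apply]
  rfl

include hcard in
theorem proj_of_mem_eigen {ε : Δ →* Kˣ} {v : V} (hv : v ∈ eigen ρ ε) : proj ρ ε v = v := by
  rw [proj_apply]
  have : ∀ δ : Δ, ((ε δ⁻¹ : Kˣ) : K) • ρ δ v = (((ε δ⁻¹ : Kˣ) : K) * ((ε δ : Kˣ) : K)) • v :=
    fun δ => by rw [hv δ, smul_smul]
  simp_rw [this]
  rw [← Finset.sum_smul, sum_char_self, smul_smul, inv_mul_cancel₀ hcard, one_smul]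

theorem proj_of_mem_eigen_ne {ε ε' : Δ →* Kˣ} (h : ε ≠ ε') {v : V} (hv : v ∈ eigen ρ ε) :
    proj ρ ε' v = 0 := by
  rw [proj_apply]
  have : ∀ δ : Δ, ((ε' δ⁻¹ : Kˣ) : K) • ρ δ v = (((ε' δ⁻¹ : Kˣ) : K) * ((ε δ : Kˣ) : K)) • v :=
    fun δ => by rw [hv δ, smul_smul]
  simp_rw [this]
  rw [← Finset.sum_smul, sum_char_ne h, zero_smul, smul_zero]

include hcard in
theorem mem_eigen_iff_proj (ε : Δ →* Kˣ) (v : V) : v ∈ eigen ρ ε ↔ proj ρ ε v = v :=
  ⟨fun hv => proj_of_mem_eigen ρ hcard hv, fun h => by rw [← h]; exact proj_mem_eigen ρ ε v⟩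

omit [Fintype Δ] in
/-- an operator commuting with the action preserves the eigenspaces -/
theorem map_mem_eigen (T : Module.End K V) (hT : ∀ δ, T * ρ δ = ρ δ * T) {ε : Δ →* Kˣ} {v : V}
    (hv : v ∈ eigen ρ ε) : T v ∈ eigen ρ ε := by
  intro δ
  have h := congrArg (fun S : Module.End K V => S v) (hT δ)
  change T (ρ δ v) = ρ δ (T v) at h
  rw [← h, hv δ, map_smul]

/-- the projector with values in the eigenspace -/
noncomputable def projR (ε : Δ →* Kˣ) : V →ₗ[K] eigen ρ ε :=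
  (proj ρ ε).codRestrict (eigen ρ ε) (proj_mem_eigen ρ ε)

theorem coe_projR (ε : Δ →* Kˣ) (v : V) : ((projR ρ ε v : eigen ρ ε) : V) = proj ρ ε v := rfl

include hcard in
theorem projR_coe (ε : Δ →* Kˣ) (w : eigen ρ ε) : projR ρ ε (w : V) = w :=
  Subtype.ext (proj_of_mem_eigen ρ hcard w.2)

theorem projR_coe_ne {ε ε' : Δ →* Kˣ} (h : ε ≠ ε') (w : eigen ρ ε) : projR ρ ε' (w : V) = 0 :=
  Subtype.ext (proj_of_mem_eigen_ne ρ h w.2)


/-! ### assembling ring homomorphisms on the eigenspaces -/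

section Assemble

variable [Fintype (Δ →* Kˣ)] [HasEnoughRootsOfUnity K (Monoid.exponent Δ)]
  {HA : Type*} [Ring HA] (Ξ : ∀ ε : Δ →* Kˣ, HA →+* Module.End K (eigen ρ ε))

/-- the assembled operator -/
noncomputable def asmFun (t : HA) : Module.End K V :=
  ∑ ε : Δ →* Kˣ, (eigen ρ ε).subtype ∘ₗ (Ξ ε t) ∘ₗ (projR ρ ε)

omit [HasEnoughRootsOfUnity K (Monoid.exponent Δ)] in
theorem asmFun_apply (t : HA) (v : V) :
    asmFun ρ Ξ t v = ∑ ε : Δ →* Kˣ, ((Ξ ε t (projR ρ ε v) : eigen ρ ε) : V) := by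
  unfold asmFun
  rw [LinearMap.sum_apply]
  rfl

include hcard in
/-- on the `ε`-eigenspace the assembled operator is `Ξ ε t` -/
theorem asmFun_coe (t : HA) (ε : Δ →* Kˣ) (w : eigen ρ ε) :
    asmFun ρ Ξ t (w : V) = ((Ξ ε t w : eigen ρ ε) : V) := by
  classical
  rw [asmFun_apply, Finset.sum_eq_single ε]
  · rw [projR_coe ρ hcard]
  · intro ε' _ hne
    rw [projR_coe_ne ρ (Ne.symm hne), map_zero, Submodule.coe_zero]
  · intro h
    exact absurd (Finset.mem_univ ε) h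

include hcard in
theorem proj_asmFun (t : HA) (ε : Δ →* Kˣ) (v : V) :
    proj ρ ε (asmFun ρ Ξ t v) = ((Ξ ε t (projR ρ ε v) : eigen ρ ε) : V) := by
  classical
  rw [asmFun_apply, map_sum, Finset.sum_eq_single ε]
  · exact proj_of_mem_eigen ρ hcard (Ξ ε t (projR ρ ε v)).2
  · intro ε' _ hne
    exact proj_of_mem_eigen_ne ρ hne (Ξ ε' t (projR ρ ε' v)).2
  · intro h
    exact absurd (Finset.mem_univ ε) h

include hcard in
/-- **the assembled ring homomorphism** `HA →+* End_K V` -/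
noncomputable def assemble : HA →+* Module.End K V where
  toFun := asmFun ρ Ξ
  map_one' := by
    refine LinearMap.ext fun v => ?_
    rw [asmFun_apply]
    simp_rw [map_one]
    exact sum_proj_apply ρ hcard v
  map_mul' s t := by
    refine LinearMap.ext fun v => ?_
    rw [Module.End.mul_apply, asmFun_apply, asmFun_apply]
    refine Finset.sum_congr rfl fun ε _ => ?_
    rw [map_mul, Module.End.mul_apply]
    congr 2
    apply Subtype.ext
    rw [coe_projR, proj_asmFun ρ hcard]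
  map_zero' := by
    refine LinearMap.ext fun v => ?_
    rw [asmFun_apply]
    simp_rw [map_zero]
    simp
  map_add' s t := by
    refine LinearMap.ext fun v => ?_
    rw [LinearMap.add_apply, asmFun_apply, asmFun_apply, asmFun_apply, ← Finset.sum_add_distrib]
    refine Finset.sum_congr rfl fun ε _ => ?_
    rw [map_add, LinearMap.add_apply, Submodule.coe_add]

theorem assemble_apply (t : HA) (v : V) :
    assemble ρ hcard Ξ t v = ∑ ε : Δ →* Kˣ, ((Ξ ε t (projR ρ ε v) : eigen ρ ε) : V) :=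
  asmFun_apply ρ Ξ t v

theorem assemble_coe (t : HA) (ε : Δ →* Kˣ) (w : eigen ρ ε) :
    assemble ρ hcard Ξ t (w : V) = ((Ξ ε t w : eigen ρ ε) : V) :=
  asmFun_coe ρ hcard Ξ t ε w

/-- the assembled operators preserve the eigenspaces -/
theorem assemble_mem_eigen (t : HA) {ε : Δ →* Kˣ} {v : V} (hv : v ∈ eigen ρ ε) :
    assemble ρ hcard Ξ t v ∈ eigen ρ ε := by
  have h := assemble_coe ρ hcard Ξ t ε ⟨v, hv⟩
  rw [h]
  exact (Ξ ε t ⟨v, hv⟩).2

/-- the assembled operators commute with the action -/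
theorem assemble_comm_rho (t : HA) (δ : Δ) :
    assemble ρ hcard Ξ t * ρ δ = ρ δ * assemble ρ hcard Ξ t := by
  refine LinearMap.ext fun v => ?_
  rw [Module.End.mul_apply, Module.End.mul_apply]
  -- decompose `v`
  conv_lhs => rw [← sum_proj_apply ρ hcard v]
  conv_rhs => rw [← sum_proj_apply ρ hcard v]
  rw [map_sum, map_sum, map_sum, map_sum]
  refine Finset.sum_congr rfl fun ε _ => ?_
  have hw : proj ρ ε v ∈ eigen ρ ε := proj_mem_eigen ρ ε v
  rw [hw δ, map_smul, (assemble_mem_eigen ρ hcard Ξ t hw) δ]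

/-- **identification on generators**: if `τ` restricts to `Ξ ε g` on every eigenspace then
`assemble Ξ g = τ` -/
theorem assemble_eq_of_restrict (g : HA) (τ : Module.End K V)
    (hτ : ∀ (ε : Δ →* Kˣ) (w : eigen ρ ε), τ (w : V) = ((Ξ ε g w : eigen ρ ε) : V)) :
    assemble ρ hcard Ξ g = τ := by
  refine LinearMap.ext fun v => ?_
  conv_lhs => rw [← sum_proj_apply ρ hcard v]
  conv_rhs => rw [← sum_proj_apply ρ hcard v]
  rw [map_sum, map_sum]
  refine Finset.sum_congr rfl fun ε _ => ?_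
  have h := assemble_coe ρ hcard Ξ g ε ⟨proj ρ ε v, proj_mem_eigen ρ ε v⟩
  rw [h, ← hτ]

/-- uniqueness: a ring hom preserving the eigenspaces and restricting to the `Ξ ε` is the
assembled one -/
theorem eq_assemble (Ξ' : HA →+* Module.End K V)
    (h : ∀ (t : HA) (ε : Δ →* Kˣ) (w : eigen ρ ε), Ξ' t (w : V) = ((Ξ ε t w : eigen ρ ε) : V)) :
    Ξ' = assemble ρ hcard Ξ :=
  RingHom.ext fun t => (assemble_eq_of_restrict ρ hcard Ξ t (Ξ' t) (h t)).symm

end Assemble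

/-! ### complements -/

section Complements

variable [Fintype (Δ →* Kˣ)]

include hcard in
/-- the eigenspaces are independent -/
theorem eq_zero_of_sum_eq_zero (w : ∀ ε : Δ →* Kˣ, eigen ρ ε)
    (h : ∑ ε : Δ →* Kˣ, ((w ε : eigen ρ ε) : V) = 0) (ε : Δ →* Kˣ) : w ε = 0 := by
  classical
  have h1 := congrArg (proj ρ ε) h
  rw [map_sum, map_zero, Finset.sum_eq_single ε] at h1
  · rw [proj_of_mem_eigen ρ hcard (w ε).2] at h1
    exact Subtype.ext h1
  · intro ε' _ hne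
    exact proj_of_mem_eigen_ne ρ hne (w ε').2
  · intro h2
    exact absurd (Finset.mem_univ ε) h2

end Complements

/-- a field containing a primitive `n`-th root of unity has enough `n`-th roots of unity -/
theorem hasEnoughRootsOfUnity_of_primitiveRoot {n : ℕ} [NeZero n] {ζ : K}
    (hζ : IsPrimitiveRoot ζ n) : HasEnoughRootsOfUnity K n :=
  ⟨⟨ζ, hζ⟩, inferInstance⟩

end Fermat.Agent.GB.B4.Twist.EpsDecomp
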