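/-
GATE-B / B4-TWIST L6 sub-leaf (helper15): **the diamond representation of `Δ` on `Hom(Γ_H, A)`**
in the `GamH` vocabulary, as a monoid hom into `Module.End R`, ready for `EpsDecomp`.

For `θ : (ZMod N)ˣ →* Δ` surjective, `A` an `R`-module:

* `opL S` : a coset operator as an `R`-linear map; `diaL θ d`, `THL θ hℓN`, `UHL θ hrN` : the
  linear versions of `GamH.diaH`, `GamH.TH`, `GamH.UH`;
* `diaRep θ hθ : Δ →* Module.End R (Hom(Γ_H, A))`, `δ ↦ ⟨δ⟩`, with
  `diaRep_chi : diaRep θ hθ (χ_θ γ) = diaL θ γ` for every `γ ∈ Γ₀(N)`;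
* `commute_THL_diaRep`, `commute_UHL_diaRep`;
* `mem_eigen_diaRep_iff` : `φ ∈ EpsDecomp.eigen (diaRep θ hθ) ε` iff
  `φ (γ k γ⁻¹) = ε (χ_θ γ) • φ k` for all `γ ∈ Γ₀(N)`, `k ∈ Γ_H` — VERBATIM the hypothesis `hφ` of
  `Chain.chainR_conj` / `RPsi.Rpsi_conj`;
* `THL_mem_eigen`, `UHL_mem_eigen` : the eigenspaces are Hecke stable;
* `comp θ hθ ε φ` : the `ε`-component; `comp_conj` (the conjugation rule in the shape of
  `chainR_conj`), `comp_TH`, `comp_UH`, `comp_par`, `sum_comp : ∑ ε, comp ε φ = φ`,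
  `eq_zero_of_comp_eq_zero`.
-/
import Mathlib
import Fermat.Agent.GB.B3.GammaH
import Fermat.Agent.GB.B4.Twist.EpsDecomp

set_option autoImplicit false

open scoped MatrixGroups
open CongruenceSubgroup Matrix Matrix.SpecialLinearGroup
open P2MW.S_ModularForm_heckeT_slash_eq_self_of_mem_Gamma0.ModularForm.HeckeSlashInvariance
open Fermat.Agent.S16_helper49 Fermat.Agent.GM.B Fermat.Agent.GM.EisClass
open Fermat.Agent.GB.B3 Fermat.Agent.GB.B3.EisGamma0 Fermat.Agent.GB.B3.GamH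
open ModularCurve.Period

namespace Fermat.Agent.GB.B4.Twist.DiaRep

/-! ### coset operators as linear maps -/

section OpL

variable {H G : Type*} [Group H] [Group G] {emb : H →* G} {Γ₁ Γ₂ : Subgroup H}
  {R : Type*} [CommRing R] {A : Type*} [AddCommGroup A] [Module R A]

/-- coset operators commute with the scalars -/
theorem op_smul' (S : CosetSys emb Γ₁ Γ₂) (c : R) (φ : Additive Γ₁ →+ A) :
    S.op A (c • φ) = c • S.op A φ := by
  refine AddMonoidHom.ext fun g => ?_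
  obtain ⟨g, rfl⟩ : ∃ g' : Γ₂, Additive.ofMul g' = g := ⟨Additive.toMul g, rfl⟩
  rw [CosetSys.op_apply, AddMonoidHom.smul_apply, CosetSys.op_apply, Finset.smul_sum]
  rfl

/-- a coset operator as an `R`-linear map -/
noncomputable def opL (S : CosetSys emb Γ₁ Γ₂) :
    (Additive Γ₁ →+ A) →ₗ[R] (Additive Γ₂ →+ A) where
  toFun := S.op A
  map_add' := map_add _
  map_smul' c φ := op_smul' S c φ

theorem opL_apply (S : CosetSys emb Γ₁ Γ₂) (φ : Additive Γ₁ →+ A) :
    (opL S : (Additive Γ₁ →+ A) →ₗ[R] (Additive Γ₂ →+ A)) φ = S.op A φ := rfl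

end OpL

section Rep

variable {N : ℕ} {Δ : Type} [CommGroup Δ] (θ : (ZMod N)ˣ →* Δ)
  {R : Type*} [CommRing R] {A : Type*} [AddCommGroup A] [Module R A]

/-- the diamond operator of `d ∈ Γ₀(N)` as an `R`-linear map -/
noncomputable def diaL (d : Gamma0 N) :
    (Additive (GammaH θ) →+ A) →ₗ[R] (Additive (GammaH θ) →+ A) where
  toFun := diaH θ A d
  map_add' := map_add _
  map_smul' c φ := op_smul' _ c φ

/-- `T_ℓ` as an `R`-linear map -/
noncomputable def THL {ℓ : ℕ} [Fact ℓ.Prime] (hℓN : ¬ ℓ ∣ N) :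
    (Additive (GammaH θ) →+ A) →ₗ[R] (Additive (GammaH θ) →+ A) where
  toFun := TH θ A hℓN
  map_add' := map_add _
  map_smul' c φ := op_smul' _ c φ

/-- `U_r` as an `R`-linear map -/
noncomputable def UHL {r : ℕ} [NeZero r] (hrN : r ∣ N) :
    (Additive (GammaH θ) →+ A) →ₗ[R] (Additive (GammaH θ) →+ A) where
  toFun := UH θ A hrN
  map_add' := map_add _
  map_smul' c φ := op_smul' _ c φ

theorem diaL_apply (d : Gamma0 N) (φ : Additive (GammaH θ) →+ A) :
    (diaL θ d : _ →ₗ[R] _) φ = diaH θ A d φ := rfl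

theorem THL_apply {ℓ : ℕ} [Fact ℓ.Prime] (hℓN : ¬ ℓ ∣ N) (φ : Additive (GammaH θ) →+ A) :
    (THL θ hℓN : _ →ₗ[R] _) φ = TH θ A hℓN φ := rfl

theorem UHL_apply {r : ℕ} [NeZero r] (hrN : r ∣ N) (φ : Additive (GammaH θ) →+ A) :
    (UHL θ hrN : _ →ₗ[R] _) φ = UH θ A hrN φ := rfl

theorem diaL_congr (d d' : Gamma0 N) (hd : chi θ d = chi θ d') :
    (diaL θ d : (Additive (GammaH θ) →+ A) →ₗ[R] _) = diaL θ d' :=
  LinearMap.ext fun φ => diaH_congr θ d d' hd φ

theorem diaL_mul (d d' : Gamma0 N) :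
    (diaL θ (d * d') : (Additive (GammaH θ) →+ A) →ₗ[R] _) = diaL θ d * diaL θ d' := by
  refine LinearMap.ext fun φ => ?_
  rw [Module.End.mul_apply, diaL_apply, diaL_apply, diaL_apply, ← diaH_mul]
  exact diaH_congr θ _ _ (by rw [map_mul, map_mul, mul_comm]) φ

theorem diaL_of_ker (d : Gamma0 N) (hd : chi θ d = 1) :
    (diaL θ d : (Additive (GammaH θ) →+ A) →ₗ[R] _) = 1 :=
  LinearMap.ext fun φ => diaH_of_ker θ d hd φ

variable [NeZero N] (hθ : Function.Surjective θ)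

/-- a section of `χ_θ` -/
noncomputable def sec (δ : Δ) : Gamma0 N := (exists_rep θ hθ).choose δ

theorem chi_sec (δ : Δ) : chi θ (sec θ hθ δ) = δ := (exists_rep θ hθ).choose_spec δ

/-- **the diamond representation** `δ ↦ ⟨δ⟩` of `Δ` on `Hom(Γ_H, A)` -/
noncomputable def diaRep : Δ →* Module.End R (Additive (GammaH θ) →+ A) where
  toFun δ := diaL θ (sec θ hθ δ)
  map_one' := diaL_of_ker θ _ (chi_sec θ hθ 1)
  map_mul' δ δ' := by
    rw [← diaL_mul]
    exact diaL_congr θ _ _ (by rw [chi_sec, map_mul, chi_sec, chi_sec])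

/-- `⟨χ_θ γ⟩ = diaH γ` for every `γ ∈ Γ₀(N)` -/
theorem diaRep_chi (γ : Gamma0 N) :
    (diaRep θ hθ (chi θ γ) : Module.End R (Additive (GammaH θ) →+ A)) = diaL θ γ :=
  diaL_congr θ _ _ (chi_sec θ hθ _)

theorem diaRep_of_chi {γ : Gamma0 N} {δ : Δ} (hγ : chi θ γ = δ) :
    (diaRep θ hθ δ : Module.End R (Additive (GammaH θ) →+ A)) = diaL θ γ := by
  rw [← hγ, diaRep_chi]

theorem diaRep_apply_apply (γ : Gamma0 N) (φ : Additive (GammaH θ) →+ A) (k : GammaH θ) :
    (diaRep θ hθ (chi θ γ) : Module.End R (Additive (GammaH θ) →+ A)) φ (Additive.ofMul k)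
      = φ (Additive.ofMul (conjK (chi θ) γ k)) := by
  rw [diaRep_chi, diaL_apply, diaH_apply]

/-- the diamond operators commute with `T_ℓ` -/
theorem commute_THL_diaRep {ℓ : ℕ} [Fact ℓ.Prime] (hℓN : ¬ ℓ ∣ N) (δ : Δ) :
    (THL θ hℓN : Module.End R (Additive (GammaH θ) →+ A)) * diaRep θ hθ δ
      = diaRep θ hθ δ * THL θ hℓN := by
  refine LinearMap.ext fun φ => ?_
  rw [Module.End.mul_apply, Module.End.mul_apply]
  exact (diaH_TH θ hℓN (sec θ hθ δ) φ).symm

/-- the diamond operators commute with `U_r` -/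
theorem commute_UHL_diaRep {r : ℕ} [NeZero r] (hrN : r ∣ N) (δ : Δ) :
    (UHL θ hrN : Module.End R (Additive (GammaH θ) →+ A)) * diaRep θ hθ δ
      = diaRep θ hθ δ * UHL θ hrN := by
  refine LinearMap.ext fun φ => ?_
  rw [Module.End.mul_apply, Module.End.mul_apply]
  exact (diaH_UH θ hrN (sec θ hθ δ) φ).symm

end Rep

/-! ### the eigenspaces -/

section Eigen

open EpsDecomp

variable {N : ℕ} [NeZero N] {Δ : Type} [CommGroup Δ] [Fintype Δ] (θ : (ZMod N)ˣ →* Δ)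
  (hθ : Function.Surjective θ)
  {K : Type*} [Field K] {A : Type*} [AddCommGroup A] [Module K A]

omit [Fintype Δ] in
/-- **the `ε`-eigenspace of the diamond operators** is cut out by the conjugation rule of
`Chain.chainR_conj` -/
theorem mem_eigen_diaRep_iff (ε : Δ →* Kˣ) (φ : Additive (GammaH θ) →+ A) :
    φ ∈ eigen (diaRep (R := K) (A := A) θ hθ) ε ↔
      ∀ (x : Gamma0 N) (k : GammaH θ),
        φ (Additive.ofMul (conjK (chi θ) x k))
          = ((ε (chi θ x) : Kˣ) : K) • φ (Additive.ofMul k) := by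
  constructor
  · intro h x k
    have h2 := DFunLike.congr_fun (h (chi θ x)) (Additive.ofMul k)
    rw [diaRep_apply_apply, AddMonoidHom.smul_apply] at h2
    exact h2
  · intro h δ
    refine AddMonoidHom.ext fun g => ?_
    obtain ⟨k, rfl⟩ : ∃ k : GammaH θ, Additive.ofMul k = g := ⟨Additive.toMul g, rfl⟩
    have h1 := h (sec θ hθ δ) k
    rw [chi_sec] at h1
    rw [AddMonoidHom.smul_apply, ← h1, ← diaRep_apply_apply (R := K) θ hθ, chi_sec]

omit [Fintype Δ] in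
/-- the eigenspaces are stable under `T_ℓ` -/
theorem THL_mem_eigen {ℓ : ℕ} [Fact ℓ.Prime] (hℓN : ¬ ℓ ∣ N) (ε : Δ →* Kˣ)
    (φ : Additive (GammaH θ) →+ A) (hφ : φ ∈ eigen (diaRep (R := K) (A := A) θ hθ) ε) :
    TH θ A hℓN φ ∈ eigen (diaRep (R := K) (A := A) θ hθ) ε :=
  map_mem_eigen (diaRep (R := K) (A := A) θ hθ) (THL θ hℓN)
    (fun δ => commute_THL_diaRep θ hθ hℓN δ) hφ

omit [Fintype Δ] in
/-- the eigenspaces are stable under `U_r` -/
theorem UHL_mem_eigen {r : ℕ} [NeZero r] (hrN : r ∣ N) (ε : Δ →* Kˣ)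
    (φ : Additive (GammaH θ) →+ A) (hφ : φ ∈ eigen (diaRep (R := K) (A := A) θ hθ) ε) :
    UH θ A hrN φ ∈ eigen (diaRep (R := K) (A := A) θ hθ) ε :=
  map_mem_eigen (diaRep (R := K) (A := A) θ hθ) (UHL θ hrN)
    (fun δ => commute_UHL_diaRep θ hθ hrN δ) hφ

/-- the `ε`-component of a class -/
noncomputable def comp (ε : Δ →* Kˣ) (φ : Additive (GammaH θ) →+ A) :
    Additive (GammaH θ) →+ A :=
  proj (diaRep (R := K) (A := A) θ hθ) ε φ

theorem comp_mem_eigen (ε : Δ →* Kˣ) (φ : Additive (GammaH θ) →+ A) :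
    comp θ hθ ε φ ∈ eigen (diaRep (R := K) (A := A) θ hθ) ε :=
  proj_mem_eigen _ ε φ

/-- the conjugation rule of the `ε`-component, in the shape of `Chain.chainR_conj` -/
theorem comp_conj (ε : Δ →* Kˣ) (φ : Additive (GammaH θ) →+ A) (x : Gamma0 N) (k : GammaH θ) :
    comp θ hθ ε φ (Additive.ofMul (conjK (chi θ) x k))
      = ((ε (chi θ x) : Kˣ) : K) • comp θ hθ ε φ (Additive.ofMul k) :=
  (mem_eigen_diaRep_iff θ hθ ε _).1 (comp_mem_eigen θ hθ ε φ) x k

/-- the components commute with `T_ℓ` -/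
theorem comp_TH {ℓ : ℕ} [Fact ℓ.Prime] (hℓN : ¬ ℓ ∣ N) (ε : Δ →* Kˣ)
    (φ : Additive (GammaH θ) →+ A) :
    comp θ hθ ε (TH θ A hℓN φ) = TH θ A hℓN (comp θ hθ ε φ) := by
  have h := commute_proj (diaRep (R := K) (A := A) θ hθ) (THL θ hℓN)
    (fun δ => commute_THL_diaRep θ hθ hℓN δ) ε
  have h2 := LinearMap.congr_fun h φ
  rw [Module.End.mul_apply, Module.End.mul_apply] at h2
  exact h2.symm

/-- the components commute with `U_r` -/
theorem comp_UH {r : ℕ} [NeZero r] (hrN : r ∣ N) (ε : Δ →* Kˣ)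
    (φ : Additive (GammaH θ) →+ A) :
    comp θ hθ ε (UH θ A hrN φ) = UH θ A hrN (comp θ hθ ε φ) := by
  have h := commute_proj (diaRep (R := K) (A := A) θ hθ) (UHL θ hrN)
    (fun δ => commute_UHL_diaRep θ hθ hrN δ) ε
  have h2 := LinearMap.congr_fun h φ
  rw [Module.End.mul_apply, Module.End.mul_apply] at h2
  exact h2.symm

omit [NeZero N] [Fintype Δ] in
/-- the diamond operators preserve parabolic classes -/
theorem diaH_par (d : Gamma0 N) (φ : Additive (GammaH θ) →+ A)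
    (hφ : IsParabolicHom (GammaH θ) φ) : IsParabolicHom (GammaH θ) (diaH θ A d φ) :=
  op_isParabolicHom _ _ hφ

/-- the `ε`-component of a parabolic class is parabolic -/
theorem comp_par (ε : Δ →* Kˣ) (φ : Additive (GammaH θ) →+ A)
    (hφ : IsParabolicHom (GammaH θ) φ) : IsParabolicHom (GammaH θ) (comp θ hθ ε φ) := by
  unfold comp
  rw [proj_apply, ← mem_parabolicHoms_iff (R := K)]
  refine Submodule.smul_mem _ _ (Submodule.sum_mem _ fun δ _ => Submodule.smul_mem _ _ ?_)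
  rw [mem_parabolicHoms_iff]
  exact diaH_par θ (sec θ hθ δ) φ hφ

variable (hcard : (Fintype.card Δ : K) ≠ 0)

include hcard in
theorem comp_of_mem_eigen (ε : Δ →* Kˣ) (φ : Additive (GammaH θ) →+ A)
    (hφ : φ ∈ eigen (diaRep (R := K) (A := A) θ hθ) ε) : comp θ hθ ε φ = φ :=
  proj_of_mem_eigen _ hcard hφ

variable [Fintype (Δ →* Kˣ)] [HasEnoughRootsOfUnity K (Monoid.exponent Δ)]

include hcard in
/-- **every class is the sum of its `ε`-components** -/
theorem sum_comp (φ : Additive (GammaH θ) →+ A) : ∑ ε : Δ →* Kˣ, comp θ hθ ε φ = φ :=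
  sum_proj_apply (diaRep (R := K) (A := A) θ hθ) hcard φ

include hcard in
/-- a class all of whose components vanish is zero -/
theorem eq_zero_of_comp_eq_zero (φ : Additive (GammaH θ) →+ A)
    (h : ∀ ε : Δ →* Kˣ, comp θ hθ ε φ = 0) : φ = 0 := by
  rw [← sum_comp θ hθ hcard φ]
  exact Finset.sum_eq_zero fun ε _ => h ε

end Eigen

end Fermat.Agent.GB.B4.Twist.DiaRep
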