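/-
GATE-B / B4-TWIST (helper44), file 3: conjugation by `α_t = [1 mt/r; 0 1]` on
`Γ* = G1 θ (r ∣ m r²) = {g ∈ Γ₀(m r²) | θ(d) = 1, d ≡ 1 (mod r)}`, for a quotient `θ` of
`(ℤ/m r²)ˣ` that only depends on `d mod m` (`DependsOnMod m θ`).

* `conjA hθ t : Γ* →* Γ*`, `k ↦ α_t k α_t⁻¹` (`coe_conjA` : the entries; `conjA_rel`);
* `aSys hθ t`  : the coset system with the single representative `α_t`;
  `aOp hθ t A = (aSys hθ t).op A : Hom(Γ*, A) → Hom(Γ*, A)`, `aOp_apply`;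
* `aOp_add`, `aOp_zero`, `aOp_add_mul` (`aOp` only depends on `t mod r`), `aOp_comm`.
-/
import Mathlib
import Fermat.Agent.GB.B4.Twist.Alpha
import Fermat.Agent.GB.B4.Twist.Groups

set_option autoImplicit false

noncomputable section

open scoped MatrixGroups
open CongruenceSubgroup Matrix Matrix.SpecialLinearGroup
open Fermat.Agent.S16_helper49 Fermat.Agent.GM.B Fermat.Agent.GM.EisClass
open Fermat.Agent.GB.B3 Fermat.Agent.GB.B3.EisGamma0 Fermat.Agent.GB.B3.HeckeD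

namespace Fermat.Agent.GB.B4.Twist

variable {N : ℕ} {Δ : Type} [CommGroup Δ]

/-- `θ ∘ (d mod N)` only depends on `d mod m` -/
def DependsOnMod (m : ℕ) (θ : (ZMod N)ˣ →* Δ) : Prop :=
  ∀ g g' : Gamma0 N, (((g : SL(2, ℤ)) 1 1 : ℤ) : ZMod m) = (((g' : SL(2, ℤ)) 1 1 : ℤ) : ZMod m) →
    chi θ g = chi θ g'

theorem dependsOnMod_one (m : ℕ) : DependsOnMod m (1 : (ZMod N)ˣ →* Δ) := fun _ _ _ => rfl

variable {m r : ℕ}

theorem r_dvd_level (m r : ℕ) : r ∣ m * r ^ 2 := Dvd.intro_left (m * r) (by ring)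

section ConjA

variable {θ : (ZMod (m * r ^ 2))ˣ →* Δ} (hθ : DependsOnMod m θ)

/-- `r² ∣ c` on `Γ*` -/
theorem sq_dvd_lower (k : G1 θ (r_dvd_level m r)) : ((r : ℤ)) ^ 2 ∣ (k : SL(2, ℤ)) 1 0 := by
  have h := dvd_lower_of_mem_G1 θ (r_dvd_level m r) k
  refine Dvd.dvd.trans ?_ h
  push_cast
  exact Dvd.intro_left _ rfl

/-- `r ∣ (d - a) v` on `Γ*` -/
theorem dvd_diag_sub (k : G1 θ (r_dvd_level m r)) (v : ℤ) :
    (r : ℤ) ∣ (k : SL(2, ℤ)) 1 1 * v - (k : SL(2, ℤ)) 0 0 * v := by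
  have h1 := dvd_sub_one_of_mem_G1 θ (r_dvd_level m r) k
  have h2 := dvd_upper_sub_one_of_mem_G1 θ (r_dvd_level m r) k
  have : (k : SL(2, ℤ)) 1 1 * v - (k : SL(2, ℤ)) 0 0 * v
      = ((k : SL(2, ℤ)) 1 1 - 1) * v - ((k : SL(2, ℤ)) 0 0 - 1) * v := by ring
  rw [this]
  exact dvd_sub (Dvd.dvd.mul_right h1 v) (Dvd.dvd.mul_right h2 v)

/-- the matrix `α_t k α_t⁻¹` -/
def conjAMat (k : G1 θ (r_dvd_level m r)) (t : ℤ) : SL(2, ℤ) :=
  twMat (k : SL(2, ℤ)) r (m * t) (m * t) ((k : SL(2, ℤ)) 1 0 / (r : ℤ) ^ 2)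
    (((k : SL(2, ℤ)) 1 1 * (m * t) - (k : SL(2, ℤ)) 0 0 * (m * t)) / r)
    (Int.mul_ediv_cancel' (sq_dvd_lower k)).symm
    (Int.mul_ediv_cancel' (dvd_diag_sub k (m * t))).symm

theorem conjAMat_10 (k : G1 θ (r_dvd_level m r)) (t : ℤ) :
    (conjAMat k t) 1 0 = (k : SL(2, ℤ)) 1 0 := twMat_10' _ _ _ _ _ _ _ _

theorem conjAMat_11 (k : G1 θ (r_dvd_level m r)) (t : ℤ) :
    (conjAMat k t) 1 1
      = (k : SL(2, ℤ)) 1 1 - r * ((k : SL(2, ℤ)) 1 0 / (r : ℤ) ^ 2) * (m * t) := rfl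

theorem conjAMat_00 (k : G1 θ (r_dvd_level m r)) (t : ℤ) :
    (conjAMat k t) 0 0
      = (k : SL(2, ℤ)) 0 0 + r * ((k : SL(2, ℤ)) 1 0 / (r : ℤ) ^ 2) * (m * t) := rfl

theorem conjAMat_rel [NeZero r] (k : G1 θ (r_dvd_level m r)) (t : ℤ) :
    uGL (((m * t : ℤ) : ℝ) / r) * embR (k : SL(2, ℤ))
      = embR (conjAMat k t) * uGL (((m * t : ℤ) : ℝ) / r) := by
  have hr : (r : ℤ) ≠ 0 := by exact_mod_cast NeZero.ne r
  have := uGL_mul_embR (k : SL(2, ℤ)) r (m * t) (m * t) ((k : SL(2, ℤ)) 1 0 / (r : ℤ) ^ 2)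
    (((k : SL(2, ℤ)) 1 1 * (m * t) - (k : SL(2, ℤ)) 0 0 * (m * t)) / r) hr
    (Int.mul_ediv_cancel' (sq_dvd_lower k)).symm
    (Int.mul_ediv_cancel' (dvd_diag_sub k (m * t))).symm
  have e : (((r : ℤ)) : ℝ) = (r : ℝ) := Int.cast_natCast r
  rw [e] at this
  exact this

theorem conjAMat_mem_Gamma0 (k : G1 θ (r_dvd_level m r)) (t : ℤ) :
    conjAMat k t ∈ Gamma0 (m * r ^ 2) := by
  apply mem_Gamma0_of_dvd
  rw [conjAMat_10]
  exact dvd_lower_of_mem_G1 θ (r_dvd_level m r) k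

include hθ in
theorem chi_conjAMat (k : G1 θ (r_dvd_level m r)) (t : ℤ) :
    chi θ ⟨conjAMat k t, conjAMat_mem_Gamma0 k t⟩ = 1 := by
  rw [← chi_of_mem_G1 θ (r_dvd_level m r) k]
  apply hθ
  show ((conjAMat k t 1 1 : ℤ) : ZMod m) = _
  rw [conjAMat_11]
  push_cast
  simp

theorem dvd_conjAMat_sub_one (k : G1 θ (r_dvd_level m r)) (t : ℤ) :
    (r : ℤ) ∣ (conjAMat k t) 1 1 - 1 := by
  rw [conjAMat_11]
  have h1 := dvd_sub_one_of_mem_G1 θ (r_dvd_level m r) k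
  have : (k : SL(2, ℤ)) 1 1 - r * ((k : SL(2, ℤ)) 1 0 / (r : ℤ) ^ 2) * (m * t) - 1
      = ((k : SL(2, ℤ)) 1 1 - 1) - r * (((k : SL(2, ℤ)) 1 0 / (r : ℤ) ^ 2) * (m * t)) := by ring
  rw [this]
  exact dvd_sub h1 (Dvd.intro _ rfl)

/-- `α_t k α_t⁻¹` as an element of `Γ*` -/
def conjAFun (k : G1 θ (r_dvd_level m r)) (t : ℤ) : G1 θ (r_dvd_level m r) :=
  g1Mk θ (r_dvd_level m r) (conjAMat k t) (conjAMat_mem_Gamma0 k t) (chi_conjAMat hθ k t)
    (dvd_conjAMat_sub_one k t)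

theorem coe_conjAFun (k : G1 θ (r_dvd_level m r)) (t : ℤ) :
    ((conjAFun hθ k t : G1 θ (r_dvd_level m r)) : SL(2, ℤ)) = conjAMat k t := rfl

variable [NeZero r]

theorem conjAFun_rel (k : G1 θ (r_dvd_level m r)) (t : ℤ) :
    uGL (((m * t : ℤ) : ℝ) / r) * embR (k : SL(2, ℤ))
      = embR ((conjAFun hθ k t : G1 θ (r_dvd_level m r)) : SL(2, ℤ))
        * uGL (((m * t : ℤ) : ℝ) / r) :=
  conjAMat_rel k t

/-- **conjugation by `α_t`** on `Γ*` -/
def conjA (t : ℤ) : G1 θ (r_dvd_level m r) →* G1 θ (r_dvd_level m r) where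
  toFun k := conjAFun hθ k t
  map_one' := by
    apply Subtype.ext
    apply embR_injective
    have h := conjAFun_rel hθ (1 : G1 θ (r_dvd_level m r)) t
    rw [Subgroup.coe_one, map_one, mul_one] at h
    rw [Subgroup.coe_one, map_one]
    exact (mul_right_cancel (b := uGL (((m * t : ℤ) : ℝ) / r)) (by rw [one_mul]; exact h)).symm
  map_mul' k k' := by
    apply Subtype.ext
    apply embR_injective
    have h := conjAFun_rel hθ (k * k') t
    have h1 := conjAFun_rel hθ k t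
    have h2 := conjAFun_rel hθ k' t
    rw [Subgroup.coe_mul, map_mul, ← mul_assoc, h1, mul_assoc, h2, ← mul_assoc] at h
    rw [Subgroup.coe_mul, map_mul]
    exact (mul_right_cancel h).symm

theorem conjA_rel (t : ℤ) (k : G1 θ (r_dvd_level m r)) :
    uGL (((m * t : ℤ) : ℝ) / r) * embR (k : SL(2, ℤ))
      = embR ((conjA hθ t k : G1 θ (r_dvd_level m r)) : SL(2, ℤ))
        * uGL (((m * t : ℤ) : ℝ) / r) :=
  conjAFun_rel hθ k t

theorem coe_conjA (t : ℤ) (k : G1 θ (r_dvd_level m r)) :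
    ((conjA hθ t k : G1 θ (r_dvd_level m r)) : SL(2, ℤ)) = conjAMat k t := rfl

/-- the coset system with the single representative `α_t` -/
def aSys (t : ℤ) : CosetSys embR (G1 θ (r_dvd_level m r)) (G1 θ (r_dvd_level m r)) :=
  CosetSys.single embR (uGL (((m * t : ℤ) : ℝ) / r)) (conjA hθ t) (conjA_rel hθ t)

/-- **the operator `a_t`** : `φ ↦ φ ∘ (α_t · α_t⁻¹)` on `Hom(Γ*, A)` -/
def aOp (t : ℤ) (A : Type*) [AddCommGroup A] :
    (Additive (G1 θ (r_dvd_level m r)) →+ A) →+ (Additive (G1 θ (r_dvd_level m r)) →+ A) :=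
  (aSys hθ t).op A

theorem aOp_apply (t : ℤ) {A : Type*} [AddCommGroup A]
    (φ : Additive (G1 θ (r_dvd_level m r)) →+ A) (k : G1 θ (r_dvd_level m r)) :
    aOp hθ t A φ (Additive.ofMul k) = φ (Additive.ofMul (conjA hθ t k)) :=
  CosetSys.single_op_apply _ _ _ φ k

theorem conjA_add (t t' : ℤ) (k : G1 θ (r_dvd_level m r)) :
    conjA hθ (t + t') k = conjA hθ t (conjA hθ t' k) := by
  apply Subtype.ext
  apply embR_injective
  have h := conjA_rel hθ (t + t') k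
  have h1 := conjA_rel hθ t' k
  have h2 := conjA_rel hθ t (conjA hθ t' k)
  have hu : uGL (((m * (t + t') : ℤ) : ℝ) / r)
      = uGL (((m * t : ℤ) : ℝ) / r) * uGL (((m * t' : ℤ) : ℝ) / r) := by
    rw [← uGL_add]
    congr 1
    push_cast
    ring
  rw [hu, mul_assoc, h1, ← mul_assoc, h2, mul_assoc] at h
  exact (mul_right_cancel h).symm

theorem conjA_zero (k : G1 θ (r_dvd_level m r)) : conjA hθ 0 k = k := by
  apply Subtype.ext
  apply embR_injective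
  have h := conjA_rel hθ 0 k
  have hu : uGL (((m * 0 : ℤ) : ℝ) / r) = 1 := by
    rw [mul_zero, Int.cast_zero, zero_div, uGL_zero]
  rw [hu, one_mul, mul_one] at h
  exact h.symm

theorem aOp_add (t t' : ℤ) {A : Type*} [AddCommGroup A]
    (φ : Additive (G1 θ (r_dvd_level m r)) →+ A) :
    aOp hθ (t + t') A φ = aOp hθ t' A (aOp hθ t A φ) := by
  refine AddMonoidHom.ext fun k => ?_
  obtain ⟨k, rfl⟩ : ∃ k' : G1 θ (r_dvd_level m r), Additive.ofMul k' = k :=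
    ⟨Additive.toMul k, rfl⟩
  rw [aOp_apply, aOp_apply, aOp_apply, conjA_add]

theorem aOp_zero {A : Type*} [AddCommGroup A] (φ : Additive (G1 θ (r_dvd_level m r)) →+ A) :
    aOp hθ 0 A φ = φ := by
  refine AddMonoidHom.ext fun k => ?_
  obtain ⟨k, rfl⟩ : ∃ k' : G1 θ (r_dvd_level m r), Additive.ofMul k' = k :=
    ⟨Additive.toMul k, rfl⟩
  rw [aOp_apply, conjA_zero]

theorem aOp_comm (t t' : ℤ) {A : Type*} [AddCommGroup A]
    (φ : Additive (G1 θ (r_dvd_level m r)) →+ A) :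
    aOp hθ t A (aOp hθ t' A φ) = aOp hθ t' A (aOp hθ t A φ) := by
  rw [← aOp_add, ← aOp_add, add_comm]

/-- the translation `T^{m s} = [1 ms; 0 1]` as an element of `Γ*` -/
def transK (s : ℤ) : G1 θ (r_dvd_level m r) :=
  g1Mk θ (r_dvd_level m r) ⟨!![1, (m : ℤ) * s; 0, 1], by rw [Matrix.det_fin_two_of]; ring⟩
    (mem_Gamma0_of_dvd (by simp))
    (by
      rw [← map_one (chi θ)]
      apply hθ
      simp)
    (by simp)

theorem embR_transK (s : ℤ) :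
    embR ((transK hθ s : G1 θ (r_dvd_level m r)) : SL(2, ℤ)) = uGL (((m * s : ℤ) : ℝ)) :=
  (uGL_intCast_eq _).symm

/-- conjugation by `α_{r s}` is the inner automorphism of `T^{m s} ∈ Γ*` -/
theorem conjA_mul_r (s : ℤ) (k : G1 θ (r_dvd_level m r)) :
    conjA hθ (r * s) k = transK hθ s * k * (transK hθ s)⁻¹ := by
  apply Subtype.ext
  apply embR_injective
  have hr : (r : ℝ) ≠ 0 := by exact_mod_cast NeZero.ne r
  have h := conjA_rel hθ (r * s) k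
  have hu : uGL (((m * (r * s) : ℤ) : ℝ) / r) = embR ((transK hθ s : G1 θ _) : SL(2, ℤ)) := by
    rw [embR_transK]
    congr 1
    push_cast
    field_simp
  rw [hu] at h
  rw [Subgroup.coe_mul, Subgroup.coe_mul, Subgroup.coe_inv, map_mul, map_mul, map_inv, h,
    mul_inv_cancel_right]

/-- **`a_t` only depends on `t mod r`** -/
theorem aOp_add_mul (t s : ℤ) {A : Type*} [AddCommGroup A]
    (φ : Additive (G1 θ (r_dvd_level m r)) →+ A) :
    aOp hθ (t + r * s) A φ = aOp hθ t A φ := by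
  rw [add_comm, aOp_add]
  congr 1
  refine AddMonoidHom.ext fun k => ?_
  obtain ⟨k, rfl⟩ : ∃ k' : G1 θ (r_dvd_level m r), Additive.ofMul k' = k :=
    ⟨Additive.toMul k, rfl⟩
  rw [aOp_apply, conjA_mul_r, ofMul_mul, ofMul_mul, ofMul_inv, map_add, map_add, map_neg]
  abel

theorem aOp_congr {t t' : ℤ} (h : (r : ℤ) ∣ t' - t) {A : Type*} [AddCommGroup A]
    (φ : Additive (G1 θ (r_dvd_level m r)) →+ A) :
    aOp hθ t' A φ = aOp hθ t A φ := by
  obtain ⟨s, hs⟩ := h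
  have : t' = t + r * s := by linarith
  rw [this, aOp_add_mul]

end ConjA

end Fermat.Agent.GB.B4.Twist

end
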