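/-
GATE-B / B4-TWIST (L4) HECKE (helper15): **`T_ℓ`-equivariance of the Betti character twist**, in
hypothesis form on the twist system.

Levels `N₁` (`r ∣ N₁`) and `N₂ = N₁ r`; `ℓ ∤ N₁` a prime.

* `R : CosetSys embR Γ₁ Γ₂` a coset system whose representatives are the unipotent matrices
  `α(v i / r) = uGL (v i / r)`, the residues `v i mod r` running through `(ℤ/r)ˣ` (`eR`, `hv`, `hRa`);
* `T₁ : CosetSys embR Γ₁ Γ₁`, `T₂ : CosetSys embR Γ₂ Γ₂` coset systems of `T_ℓ` whose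
  representatives are `g₁ k · heckeRep ℓ x`, `g₂ k · heckeRep ℓ x` with `g₁ k ∈ Γ₀(N₁)`,
  `g₂ k ∈ Γ₀(N₂)` and `d(g k) · d(heckeRep ℓ x) ≡ ν (mod N₁)` for ONE integer `ν`
  (`ν = ℓ` for helper2's `GamH.heckeSysD`, `ν = 1` for helper46's `HeckeD.heckeSysD`);
* `Γ₁ ⊇ Γ₁(N₁)`; `κ ∈ (ℤ/r)ˣ` with `ℓ κ = ν²`.

Then for `σ`-invariant weights `w` on `R` and a scalar `c` with `c · w i = w i'` whenever
`v i ≡ κ · v i'`:

  `T₂.op (wop R w φ) = wop R (c • w) (T₁.op φ)`      (`twist_hecke_intertwine`),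

i.e. `T_ℓ ∘ R_ψ = ψ(κ)⁻¹ · R_ψ ∘ T_ℓ` for `w = ψ ∘ eR` (`twist_hecke_intertwine_char`).

No hypothesis on `Γ₂`, none on the cocycle or the permutations of `R`: the compatibility of the
permutations comes from the distinctness of the cosets `Γ₁ · T₁.a k · R.a i`
(`comp_distinct`), the matching of the cosets from `HeckeMat.key_infty / key_coe`.
-/
import Mathlib
import Fermat.Agent.GB.B4.Twist.HeckeAbs
import Fermat.Agent.GB.B4.Twist.HeckeMat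
import Fermat.Agent.GM.EisClass.CohTEis

set_option autoImplicit false

open scoped MatrixGroups
open CongruenceSubgroup Matrix Matrix.SpecialLinearGroup
open P2MW.S_ModularForm_heckeT_slash_eq_self_of_mem_Gamma0.ModularForm.HeckeSlashInvariance
open P2MW.S_ModularForm_heckeT_slash_eq_self_of_mem_Gamma0.ModularForm
open Fermat.Agent.GM.B Fermat.Agent.GM.B.CosetSys Fermat.Agent.GM.EisClass
open Fermat.Agent.GB.B4.Twist Fermat.Agent.GB.B4.Twist.WSys Fermat.Agent.GB.B4.Twist.HeckeMat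
open Fermat.Agent.GB.B4.Twist.HeckeAbs
open scoped OnePoint

namespace Fermat.Agent.GB.B4.Twist.Hecke

variable {ℓ : ℕ} [Fact ℓ.Prime]

/-! ### the shift of `P¹(𝔽_ℓ)` -/

/-- `x ↦ x + n` on `P¹(𝔽_ℓ)` (fixing `∞`) -/
def shiftP (n : ZMod ℓ) : OnePoint (ZMod ℓ) ≃ OnePoint (ZMod ℓ) :=
  Equiv.optionCongr (Equiv.addRight n)

theorem shiftP_infty (n : ZMod ℓ) : shiftP n (∞ : OnePoint (ZMod ℓ)) = ∞ := rfl

theorem shiftP_coe (n j : ZMod ℓ) :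
    shiftP n ((j : ZMod ℓ) : OnePoint (ZMod ℓ)) = ((j + n : ZMod ℓ) : OnePoint (ZMod ℓ)) := rfl

omit [Fact ℓ.Prime] in
theorem dRep_infty : dRep ℓ (∞ : OnePoint (ZMod ℓ)) = 1 := rfl

omit [Fact ℓ.Prime] in
theorem dRep_coe (j : ZMod ℓ) : dRep ℓ ((j : ZMod ℓ) : OnePoint (ZMod ℓ)) = ℓ := rfl

/-- `d(heckeRep ℓ x)` is prime to `N` -/
theorem isCoprime_dRep {N : ℕ} (hℓN : ¬ ℓ ∣ N) (x : OnePoint (ZMod ℓ)) :
    IsCoprime (N : ℤ) (dRep ℓ x) := by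
  induction x using OnePoint.rec with
  | infty => rw [dRep_infty]; exact isCoprime_one_right
  | coe j =>
    rw [dRep_coe]
    exact (Nat.isCoprime_iff_coprime.mpr
      ((Nat.Prime.coprime_iff_not_dvd Fact.out).mpr hℓN)).symm

theorem dvd_sub_of_dRep {N : ℕ} (hℓN : ¬ ℓ ∣ N) (x : OnePoint (ZMod ℓ)) (a b ν : ℤ)
    (ha : (N : ℤ) ∣ a * dRep ℓ x - ν) (hb : (N : ℤ) ∣ b * dRep ℓ x - ν) : (N : ℤ) ∣ a - b := by
  have h : (N : ℤ) ∣ (a - b) * dRep ℓ x := by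
    have e : (a - b) * dRep ℓ x = (a * dRep ℓ x - ν) - (b * dRep ℓ x - ν) := by ring
    rw [e]
    exact dvd_sub ha hb
  exact (isCoprime_dRep hℓN x).dvd_of_dvd_mul_right h

/-! ### the main statement -/

section Main

variable {N₁ r : ℕ} [NeZero r] (hr : r ∣ N₁) (hℓN : ¬ ℓ ∣ N₁)
  {Γ₁ Γ₂ : Subgroup SL(2, ℤ)}
  (T₁ : CosetSys embR Γ₁ Γ₁) (e₁ : T₁.ι ≃ OnePoint (ZMod ℓ)) (g₁ : T₁.ι → SL(2, ℤ))
  (ha₁ : ∀ k, T₁.a k = embR (g₁ k) * heckeRep ℓ (e₁ k))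
  (R : CosetSys embR Γ₁ Γ₂) (eR : R.ι ≃ (ZMod r)ˣ) (v : R.ι → ℤ)
  (hv : ∀ i, ((v i : ℤ) : ZMod r) = ((eR i : (ZMod r)ˣ) : ZMod r))
  (hRa : ∀ i, R.a i = uGL ((v i : ℝ) / r))

omit [NeZero r] in
include hr hℓN in
theorem coprime_of_not_dvd : Nat.Coprime ℓ r := by
  refine (Nat.Prime.coprime_iff_not_dvd Fact.out).mpr fun h => hℓN (h.trans hr)

include hr hℓN ha₁ hv hRa in
/-- **the cosets `Γ₁ · T₁.a k · R.a i` are pairwise distinct** (even modulo `SL(2, ℤ)`) -/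
theorem comp_distinct : (T₁.comp R).Distinct := by
  rintro ⟨k, i⟩ ⟨k₂, i₂⟩ γ h
  have hrne : r ≠ 0 := NeZero.ne r
  have h1 : T₁.a k * R.a i = embR ((γ : Γ₁) : SL(2, ℤ)) * (T₁.a k₂ * R.a i₂) := h
  rw [ha₁, ha₁, hRa, hRa] at h1
  have h2 : heckeRep ℓ (e₁ k) * uGL ((v i : ℝ) / r)
      = embR ((g₁ k)⁻¹ * (γ : SL(2, ℤ)) * g₁ k₂)
        * (heckeRep ℓ (e₁ k₂) * uGL ((v i₂ : ℝ) / r)) := by
    rw [map_mul, map_mul, map_inv]
    simp only [mul_assoc] at h1 ⊢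
    rw [eq_inv_mul_iff_mul_eq]
    exact h1
  obtain ⟨hdvd, himp⟩ := heckeRep_uGL_injective_mod hrne (coprime_of_not_dvd hr hℓN)
    (e₁ k) (e₁ k₂) (v i) (v i₂) _ h2
  have hi : i = i₂ := by
    apply eR.injective
    apply Units.ext
    rw [← hv, ← hv]
    have := (ZMod.intCast_zmod_eq_zero_iff_dvd (v i - v i₂) r).mpr hdvd
    rw [Int.cast_sub, sub_eq_zero] at this
    exact this
  subst hi
  have hk : k = k₂ := e₁.injective (himp rfl)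
  subst hk
  rfl

variable (hΓ₁ : ∀ g : SL(2, ℤ), (N₁ : ℤ) ∣ g 1 0 → (N₁ : ℤ) ∣ g 1 1 - 1 → g ∈ Γ₁)
  (hg₁ : ∀ k, (N₁ : ℤ) ∣ (g₁ k) 1 0)
  (T₂ : CosetSys embR Γ₂ Γ₂) (e₂ : T₂.ι ≃ OnePoint (ZMod ℓ)) (g₂ : T₂.ι → SL(2, ℤ))
  (hg₂ : ∀ k, ((N₁ * r : ℕ) : ℤ) ∣ (g₂ k) 1 0)
  (ha₂ : ∀ k, T₂.a k = embR (g₂ k) * heckeRep ℓ (e₂ k))
  (ν : ℤ) (hν₁ : ∀ k, (N₁ : ℤ) ∣ (g₁ k) 1 1 * dRep ℓ (e₁ k) - ν)
  (hν₂ : ∀ k, (N₁ : ℤ) ∣ (g₂ k) 1 1 * dRep ℓ (e₂ k) - ν)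
  (κ : (ZMod r)ˣ) (hκ : (ℓ : ZMod r) * (κ : ZMod r) = (ν : ZMod r) ^ 2)

include hr hℓN ha₁ hv hRa hΓ₁ hg₁ hg₂ ha₂ hν₁ hν₂ hκ in
/-- **the matching of the cosets**: `R.a i' · T₂.a k'` lies in the `Γ₁`-coset of
`T₁.a k · R.a i`, `v i ≡ κ v i'`, `k` the shift of `k'` by `s · v i` -/
theorem exists_match (ℓ' s : ℤ) (hℓ' : (ℓ : ℤ) * ℓ' = 1 + r * s) (i' : R.ι) (k' : T₂.ι) (i : R.ι)
    (hi : eR i = κ * eR i') :
    ∃ γ : Γ₁, T₁.a (e₁.symm (shiftP (((s * v i : ℤ)) : ZMod ℓ) (e₂ k'))) * R.a i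
      = embR ((γ : Γ₁) : SL(2, ℤ)) * (R.a i' * T₂.a k') := by
  have hrne : r ≠ 0 := NeZero.ne r
  have hrN : (r : ℤ) ∣ (N₁ : ℤ) := by exact_mod_cast hr
  obtain ⟨q, hq⟩ := hr
  obtain ⟨t, ht⟩ := hg₂ k'
  set g := g₂ k' with hg
  -- `g₁₀ = r² c₂`
  have hc : g 1 0 = (r : ℤ) ^ 2 * (q * t) := by
    rw [ht, hq]
    push_cast
    ring
  have hN10 : (N₁ : ℤ) ∣ g 1 0 := by
    rw [ht]
    push_cast
    exact ⟨(r : ℤ) * t, by ring⟩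
  have hNrc : (N₁ : ℤ) ∣ (r : ℤ) * (q * t) := by
    rw [hq]
    push_cast
    exact ⟨t, by ring⟩
  -- congruences modulo `r`
  have h1 : ((g 0 0 : ℤ) : ZMod r) * ((g 1 1 : ℤ) : ZMod r) = 1 := by
    have hdet := sl_det g
    have h10 : ((g 1 0 : ℤ) : ZMod r) = 0 := by
      rw [ZMod.intCast_zmod_eq_zero_iff_dvd]
      exact hrN.trans hN10
    have := congrArg (Int.cast : ℤ → ZMod r) hdet
    push_cast at this
    rw [h10, mul_zero, sub_zero] at this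
    exact this
  have hvi : ((v i : ℤ) : ZMod r) = (κ : ZMod r) * ((v i' : ℤ) : ZMod r) := by
    rw [hv, hv, hi, Units.val_mul]
  have ha := ha₂ k'
  have hν := hν₂ k'
  rw [← hg] at ha hν
  generalize hx : e₂ k' = x' at ha hν ⊢
  induction x' using OnePoint.rec with
  | infty =>
    rw [dRep_infty, mul_one] at hν
    have h2 : ((g 1 1 : ℤ) : ZMod r) = (ν : ZMod r) := by
      have := (ZMod.intCast_zmod_eq_zero_iff_dvd (g 1 1 - ν) r).mpr (hrN.trans hν)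
      rw [Int.cast_sub, sub_eq_zero] at this
      exact this
    have he0 : (r : ℤ) ∣ g 1 1 * v i' - g 0 0 * (ℓ * v i) := by
      rw [← ZMod.intCast_zmod_eq_zero_iff_dvd]
      push_cast
      rw [hvi]
      exact he_infty _ _ _ _ _ _ h1 h2 hκ
    obtain ⟨e, he⟩ := he0
    rw [shiftP_infty]
    obtain ⟨k, hk⟩ : ∃ k : T₁.ι, k = e₁.symm (∞ : OnePoint (ZMod ℓ)) := ⟨_, rfl⟩
    rw [← hk]
    have hek : e₁ k = ∞ := by rw [hk, Equiv.apply_symm_apply]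
    have hkey := key_infty hrne g (g₁ k) (v i') (v i) (q * t) e hc he
    have hmem := mul_inv_mem (N₁ : ℤ) (g₁ k) (twMat g r (v i') (ℓ * v i) (q * t) e hc he)
      (hg₁ _) (by rw [twMat_10']; exact hN10) (by
        rw [twMat_11]
        have h3 := dvd_sub_of_dRep hℓN (∞ : OnePoint (ZMod ℓ)) ((g₁ k) 1 1) (g 1 1) ν
          (by have := hν₁ k; rwa [hek] at this)
          (by rw [dRep_infty, mul_one]; exact hν)
        have e' : (g₁ k) 1 1 - (g 1 1 - (r : ℤ) * (q * t) * (ℓ * v i))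
            = ((g₁ k) 1 1 - g 1 1) + (r : ℤ) * (q * t) * (ℓ * v i) := by ring
        rw [e']
        exact dvd_add h3 (Dvd.dvd.mul_right hNrc _))
    refine ⟨⟨_, hΓ₁ _ hmem.1 hmem.2⟩, ?_⟩
    rw [ha₁, hek, hRa, hRa, ha]
    exact hkey
  | coe j =>
    rw [dRep_coe] at hν
    have h2 : ((g 1 1 : ℤ) : ZMod r) * (ℓ : ZMod r) = (ν : ZMod r) := by
      have := (ZMod.intCast_zmod_eq_zero_iff_dvd (g 1 1 * ℓ - ν) r).mpr (hrN.trans hν)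
      rw [Int.cast_sub, sub_eq_zero] at this
      push_cast at this
      exact this
    have h3 : (ℓ : ZMod r) * ((ℓ' : ℤ) : ZMod r) = 1 := by
      have := congrArg (Int.cast : ℤ → ZMod r) hℓ'
      push_cast at this
      rw [ZMod.natCast_self, zero_mul, add_zero] at this
      exact this
    have he0 : (r : ℤ) ∣ g 1 1 * v i' - g 0 0 * (ℓ' * v i) := by
      rw [← ZMod.intCast_zmod_eq_zero_iff_dvd]
      push_cast
      rw [hvi]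
      exact he_coe _ _ _ _ _ _ _ h1 h2 h3 hκ
    obtain ⟨e, he⟩ := he0
    have hn : (ℓ : ℤ) * (ℓ' * v i) - v i = r * (s * v i) := by
      linear_combination (v i) * hℓ'
    rw [shiftP_coe]
    obtain ⟨k, hk⟩ : ∃ k : T₁.ι, k = e₁.symm
        (((j + ((s * v i : ℤ) : ZMod ℓ) : ZMod ℓ)) : OnePoint (ZMod ℓ)) := ⟨_, rfl⟩
    rw [← hk]
    have hek : e₁ k = (((j + ((s * v i : ℤ) : ZMod ℓ) : ZMod ℓ)) : OnePoint (ZMod ℓ)) := by
      rw [hk, Equiv.apply_symm_apply]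
    obtain ⟨m, hkey⟩ := key_coe hrne g (g₁ k) j (v i') (ℓ' * v i) (v i) (s * v i) (q * t) e hn hc he
    have hmem := mul_inv_mem (N₁ : ℤ) (g₁ k)
      (twMat g r (v i') (ℓ' * v i) (q * t) e hc he * tZ m)
      (hg₁ _) (by rw [mul_tZ_10, twMat_10']; exact hN10) (by
        rw [mul_tZ_11, twMat_11, twMat_10']
        have h4 := dvd_sub_of_dRep hℓN
          (((j + ((s * v i : ℤ) : ZMod ℓ) : ZMod ℓ)) : OnePoint (ZMod ℓ)) ((g₁ k) 1 1) (g 1 1) ν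
          (by have := hν₁ k; rwa [hek] at this)
          (by rw [dRep_coe]; exact hν)
        have e' : (g₁ k) 1 1 - (g 1 0 * m + (g 1 1 - (r : ℤ) * (q * t) * (ℓ' * v i)))
            = ((g₁ k) 1 1 - g 1 1) - g 1 0 * m + (r : ℤ) * (q * t) * (ℓ' * v i) := by ring
        rw [e']
        exact dvd_add (dvd_sub h4 (Dvd.dvd.mul_right hN10 _)) (Dvd.dvd.mul_right hNrc _))
    refine ⟨⟨_, hΓ₁ _ hmem.1 hmem.2⟩, ?_⟩
    rw [ha₁, hek, hRa, hRa, ha]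
    exact hkey

variable {K : Type*} [CommRing K] {A : Type*} [AddCommGroup A] [Module K A]

include hr hℓN ha₁ hv hRa hΓ₁ hg₁ hg₂ ha₂ hν₁ hν₂ hκ in
/-- **(L4) `T_ℓ ∘ R_w = R_{c w} ∘ T_ℓ`** for the Betti character twist, hypothesis form. -/
theorem twist_hecke_intertwine {w : R.ι → K} (hw : Inv R w) (c : K)
    (hcw : ∀ i i' : R.ι, eR i = κ * eR i' → c * w i = w i') (φ : Additive Γ₁ →+ A) :
    T₂.op A (wop R w hw φ) = wop R (c • w) (inv_smul R c hw) (T₁.op A φ) := by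
  classical
  have hℓr : Nat.Coprime ℓ r := coprime_of_not_dvd hr hℓN
  obtain ⟨ℓ', s, hℓ'⟩ : ∃ ℓ' s : ℤ, (ℓ : ℤ) * ℓ' = 1 + r * s := by
    obtain ⟨a, b, hab⟩ := Nat.isCoprime_iff_coprime.mpr hℓr
    exact ⟨a, -b, by linear_combination hab⟩
  -- the permutation `u ↦ κ u` of the index set of `R`
  let ρ : R.ι ≃ R.ι := (eR.trans (Equiv.mulLeft κ)).trans eR.symm
  have hρ : ∀ i', eR (ρ i') = κ * eR i' := fun i' => by
    show eR (eR.symm (κ * eR i')) = κ * eR i'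
    rw [Equiv.apply_symm_apply]
  let E : R.ι × T₂.ι ≃ T₁.ι × R.ι :=
    (Equiv.prodShear ρ
      (fun i' => e₂.trans ((shiftP (((s * v (ρ i') : ℤ)) : ZMod ℓ)).trans e₁.symm))).trans
      (Equiv.prodComm _ _)
  have key : ∀ p : R.ι × T₂.ι, ∃ γ : Γ₁,
      T₁.a (E p).1 * R.a (E p).2 = embR ((γ : Γ₁) : SL(2, ℤ)) * (R.a p.1 * T₂.a p.2) := by
    rintro ⟨i', k'⟩
    exact exists_match hr hℓN T₁ e₁ g₁ ha₁ R eR v hv hRa hΓ₁ hg₁ T₂ e₂ g₂ hg₂ ha₂ ν hν₁ hν₂ κ hκ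
      ℓ' s hℓ' i' k' (ρ i') (hρ i')
  choose γ hγ using key
  refine wop_intertwine embR_injective T₁ R T₂
    (comp_distinct hr hℓN T₁ e₁ g₁ ha₁ R eR v hv hRa) E γ hγ hw c ?_ φ
  rintro ⟨i', k'⟩
  exact hcw _ _ (hρ i')

include hr hℓN ha₁ hv hRa hΓ₁ hg₁ hg₂ ha₂ hν₁ hν₂ hκ in
/-- pointwise form with the scalar pulled out -/
theorem twist_hecke_intertwine_apply {w : R.ι → K} (hw : Inv R w) (c : K)
    (hcw : ∀ i i' : R.ι, eR i = κ * eR i' → c * w i = w i') (φ : Additive Γ₁ →+ A) (g : Γ₂) :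
    T₂.op A (wop R w hw φ) (Additive.ofMul g)
      = c • wop R w hw (T₁.op A φ) (Additive.ofMul g) := by
  rw [twist_hecke_intertwine hr hℓN T₁ e₁ g₁ ha₁ R eR v hv hRa hΓ₁ hg₁ T₂ e₂ g₂ hg₂ ha₂ ν hν₁ hν₂
    κ hκ hw c hcw φ, wop_smul_weights_apply]

include hr hℓN ha₁ hv hRa hΓ₁ hg₁ hg₂ ha₂ hν₁ hν₂ hκ in
/-- **(L4) for a character**: `w = ψ ∘ eR`, `ψ : (ℤ/r)ˣ →* K`, `c · ψ(κ) = 1`:
`T_ℓ ∘ R_ψ = ψ(κ)⁻¹ · R_ψ ∘ T_ℓ`. -/
theorem twist_hecke_intertwine_char (ψ : (ZMod r)ˣ →* K) (hw : Inv R (fun i => ψ (eR i)))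
    (c : K) (hc : c * ψ κ = 1) (φ : Additive Γ₁ →+ A) (g : Γ₂) :
    T₂.op A (wop R (fun i => ψ (eR i)) hw φ) (Additive.ofMul g)
      = c • wop R (fun i => ψ (eR i)) hw (T₁.op A φ) (Additive.ofMul g) := by
  refine twist_hecke_intertwine_apply hr hℓN T₁ e₁ g₁ ha₁ R eR v hv hRa hΓ₁ hg₁ T₂ e₂ g₂ hg₂ ha₂
    ν hν₁ hν₂ κ hκ hw c ?_ φ g
  intro i i' hi
  show c * ψ (eR i) = ψ (eR i')
  rw [hi, map_mul, ← mul_assoc, hc, one_mul]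

end Main

end Fermat.Agent.GB.B4.Twist.Hecke
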