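/-
GATE-B / B4-TWIST (L4) HECKE, matrix half (helper15): the unipotent matrices `α(v/r) = uGL (v/r)`
of the character twist against the Hecke representatives `heckeRep ℓ x`, `x ∈ P¹(𝔽_ℓ)`.

* `tZ m = [1 m; 0 1]`, `mul_inv_mem` (`A B⁻¹ ∈ Γ₁(N)` for `A, B ∈ Γ₀(N)` with the same `d mod N`);
* `he_infty`, `he_coe` : the congruences needed by `twMat` (helper44, `Alpha.lean`);
* `heckeRep_uGL_mod`, `heckeRep_uGL_injective_mod` : **the cosets `SL(2, ℤ) · heckeRep ℓ x · α(v/r)`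
  are pairwise distinct** (`v` modulo `r`, `ℓ` prime to `r`);
* `match_infty`, `match_coe` : `α(ℓ v/r) · diag(ℓ, 1) = diag(ℓ, 1) · α(v/r)` and
  `α(v''/r) · [1 j; 0 ℓ] = T^m · [1 j+n; 0 ℓ] · α(v/r)` for `ℓ v'' - v = r n`;
* `key_infty`, `key_coe` : the same after inserting `g ∈ SL(2, ℤ)` with `r² ∣ g₁₀` through the twist
  relation `uGL_mul_embR`.
-/
import Mathlib
import Fermat.Agent.GB.B4.Twist.Alpha
import Fermat.Agent.GM.B.Distinct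

set_option autoImplicit false

open scoped MatrixGroups
open CongruenceSubgroup Matrix Matrix.SpecialLinearGroup
open P2MW.S_ModularForm_heckeT_slash_eq_self_of_mem_Gamma0.ModularForm.HeckeSlashInvariance
open P2MW.S_ModularForm_heckeT_slash_eq_self_of_mem_Gamma0.ModularForm
open Fermat.Agent.GM.B Fermat.Agent.GB.B4.Twist
open scoped OnePoint

namespace Fermat.Agent.GB.B4.Twist.HeckeMat


/-- the translation `[1 m; 0 1]` -/
def tZ (m : ℤ) : SL(2, ℤ) := ⟨!![1, m; 0, 1], by rw [Matrix.det_fin_two_of]; ring⟩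

@[simp] theorem tZ_00 (m : ℤ) : (tZ m) 0 0 = 1 := rfl
@[simp] theorem tZ_01 (m : ℤ) : (tZ m) 0 1 = m := rfl
@[simp] theorem tZ_10 (m : ℤ) : (tZ m) 1 0 = 0 := rfl
@[simp] theorem tZ_11 (m : ℤ) : (tZ m) 1 1 = 1 := rfl

/-! ### arithmetic in `SL(2, ℤ)` -/

theorem sl_mul_inv_10 (A B : SL(2, ℤ)) :
    (A * B⁻¹) 1 0 = A 1 0 * B 1 1 - A 1 1 * B 1 0 := by
  rw [Matrix.SpecialLinearGroup.coe_mul, Matrix.SpecialLinearGroup.coe_inv,
    Matrix.adjugate_fin_two, Matrix.mul_apply, Fin.sum_univ_two]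
  simp
  ring

theorem sl_mul_inv_11 (A B : SL(2, ℤ)) :
    (A * B⁻¹) 1 1 = A 1 1 * B 0 0 - A 1 0 * B 0 1 := by
  rw [Matrix.SpecialLinearGroup.coe_mul, Matrix.SpecialLinearGroup.coe_inv,
    Matrix.adjugate_fin_two, Matrix.mul_apply, Fin.sum_univ_two]
  simp
  ring

theorem sl_det (B : SL(2, ℤ)) : B 0 0 * B 1 1 - B 0 1 * B 1 0 = 1 := by
  have := B.det_coe
  rwa [Matrix.det_fin_two] at this

/-- `A B⁻¹ ∈ Γ₁(N)` for `A, B ∈ Γ₀(N)` with the same `d mod N` -/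
theorem mul_inv_mem (N : ℤ) (A B : SL(2, ℤ)) (hA : N ∣ A 1 0) (hB : N ∣ B 1 0)
    (hd : N ∣ A 1 1 - B 1 1) :
    N ∣ (A * B⁻¹) 1 0 ∧ N ∣ (A * B⁻¹) 1 1 - 1 := by
  rw [sl_mul_inv_10, sl_mul_inv_11]
  refine ⟨dvd_sub (Dvd.dvd.mul_right hA _) (Dvd.dvd.mul_left hB _), ?_⟩
  have hdet := sl_det B
  have e : A 1 1 * B 0 0 - A 1 0 * B 0 1 - 1
      = (A 1 1 - B 1 1) * B 0 0 - A 1 0 * B 0 1 + B 0 1 * B 1 0 := by
    linear_combination hdet
  rw [e]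
  exact dvd_add (dvd_sub (Dvd.dvd.mul_right hd _) (Dvd.dvd.mul_right hA _)) (Dvd.dvd.mul_left hB _)

theorem mul_tZ_10 (A : SL(2, ℤ)) (m : ℤ) : (A * tZ m) 1 0 = A 1 0 := by
  rw [Matrix.SpecialLinearGroup.coe_mul, Matrix.mul_apply, Fin.sum_univ_two]
  simp

theorem mul_tZ_11 (A : SL(2, ℤ)) (m : ℤ) : (A * tZ m) 1 1 = A 1 0 * m + A 1 1 := by
  rw [Matrix.SpecialLinearGroup.coe_mul, Matrix.mul_apply, Fin.sum_univ_two]
  simp

/-! ### the congruences of the twist relation -/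

theorem he_infty {Z : Type*} [CommRing Z] (a d L k V n : Z) (h1 : a * d = 1) (h2 : d = n)
    (h4 : L * k = n ^ 2) : d * V - a * (L * (k * V)) = 0 := by
  linear_combination (-(d * V)) * h1 + (a * V * (d + n)) * h2 - (a * V) * h4

theorem he_coe {Z : Type*} [CommRing Z] (a d L L' k V n : Z) (h1 : a * d = 1) (h2 : d * L = n)
    (h3 : L * L' = 1) (h4 : L * k = n ^ 2) : d * V - a * (L' * (k * V)) = 0 := by
  linear_combination (-(d * V)) * h1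
    + (a * V) * ((L' * k - d ^ 2 * (L * L' + 1)) * h3 + L' ^ 2 * (d * L + n) * h2 - L' ^ 2 * h4)


variable {ℓ : ℕ} [Fact ℓ.Prime]



/-- the cosets `SL(2, ℤ) · heckeRep ℓ x · α(t)` : comparing two of them -/
theorem heckeRep_uGL_mod (x y : OnePoint (ZMod ℓ)) (t : ℝ) (γ : SL(2, ℤ))
    (h : heckeRep ℓ x * uGL t = embR γ * heckeRep ℓ y) :
    (x = ∞ ∧ y = ∞ ∧ (ℓ : ℝ) * t = ((γ 0 1 : ℤ) : ℝ)) ∨
    (∃ j k : ZMod ℓ, x = j ∧ y = k ∧ (j.val : ℝ) + t = (k.val : ℝ) + ((γ 0 1 : ℤ) : ℝ) * ℓ) := by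
  have hℓ : ℓ ≠ 0 := (Fact.out : ℓ.Prime).ne_zero
  have hℓ1 : 1 < ℓ := (Fact.out : ℓ.Prime).one_lt
  have h00 := congrArg (fun M : GL (Fin 2) ℝ => (M : Matrix (Fin 2) (Fin 2) ℝ) 0 0) h
  have h01 := congrArg (fun M : GL (Fin 2) ℝ => (M : Matrix (Fin 2) (Fin 2) ℝ) 0 1) h
  have h10 := congrArg (fun M : GL (Fin 2) ℝ => (M : Matrix (Fin 2) (Fin 2) ℝ) 1 0) h
  have h11 := congrArg (fun M : GL (Fin 2) ℝ => (M : Matrix (Fin 2) (Fin 2) ℝ) 1 1) h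
  induction x using OnePoint.rec with
  | infty =>
    induction y using OnePoint.rec with
    | infty =>
      left
      refine ⟨rfl, rfl, ?_⟩
      simp [hℓ, Matrix.mul_apply, Fin.sum_univ_two] at h01
      exact h01
    | coe k =>
      exfalso
      simp [hℓ, Matrix.mul_apply, Fin.sum_univ_two] at h10 h11
      rw [← h10] at h11
      have h2 : ((1 : ℤ) : ℝ) = ((γ 1 1 * ℓ : ℤ) : ℝ) := by push_cast; linarith
      have h3 : (1 : ℤ) = γ 1 1 * ℓ := by exact_mod_cast h2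
      have h4 : (ℓ : ℤ) ∣ 1 := Dvd.intro_left (γ 1 1) h3.symm
      have h5 := Int.le_of_dvd one_pos h4
      omega
  | coe j =>
    induction y using OnePoint.rec with
    | infty =>
      exfalso
      simp [hℓ, Matrix.mul_apply, Fin.sum_univ_two] at h00
      have h2 : ((1 : ℤ) : ℝ) = ((γ 0 0 * ℓ : ℤ) : ℝ) := by push_cast; linarith
      have h3 : (1 : ℤ) = γ 0 0 * ℓ := by exact_mod_cast h2
      have h4 : (ℓ : ℤ) ∣ 1 := Dvd.intro_left (γ 0 0) h3.symm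
      have h5 := Int.le_of_dvd one_pos h4
      omega
    | coe k =>
      right
      refine ⟨j, k, rfl, rfl, ?_⟩
      simp [hℓ, Matrix.mul_apply, Fin.sum_univ_two] at h00 h01
      rw [← h00, one_mul] at h01
      rw [← ZMod.natCast_val j, ← ZMod.natCast_val k] at h01
      linarith


/-- **distinctness of the cosets `SL(2, ℤ) · heckeRep ℓ x · α(v / r)`** -/
theorem heckeRep_uGL_injective_mod {r : ℕ} (hr : r ≠ 0) (hℓr : Nat.Coprime ℓ r)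
    (x y : OnePoint (ZMod ℓ)) (v v' : ℤ) (γ : SL(2, ℤ))
    (h : heckeRep ℓ x * uGL ((v : ℝ) / r) = embR γ * (heckeRep ℓ y * uGL ((v' : ℝ) / r))) :
    (r : ℤ) ∣ v - v' ∧ (v = v' → x = y) := by
  have hr' : (r : ℝ) ≠ 0 := by exact_mod_cast hr
  have h1 : heckeRep ℓ x * uGL (((v - v' : ℤ) : ℝ) / r) = embR γ * heckeRep ℓ y := by
    have e : (((v - v' : ℤ) : ℝ) / r) = (v : ℝ) / r + -((v' : ℝ) / r) := by
      push_cast
      ring
    rw [e, uGL_add, ← mul_assoc, h, uGL_neg, mul_assoc, mul_assoc, mul_inv_cancel, mul_one]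
  rcases heckeRep_uGL_mod x y _ γ h1 with ⟨rfl, rfl, h2⟩ | ⟨j, k, rfl, rfl, h2⟩
  · refine ⟨?_, fun _ => rfl⟩
    have h3 : ((ℓ * (v - v') : ℤ) : ℝ) = ((γ 0 1 * r : ℤ) : ℝ) := by
      push_cast
      rw [← h2]
      push_cast
      field_simp
    have h4 : (ℓ : ℤ) * (v - v') = γ 0 1 * r := by exact_mod_cast h3
    have hcop : IsCoprime (r : ℤ) (ℓ : ℤ) := (Nat.isCoprime_iff_coprime.mpr hℓr).symm
    exact hcop.dvd_of_dvd_mul_left (Dvd.intro_left _ h4.symm)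
  · have h3 : ((v - v' : ℤ) : ℝ) = (((k.val : ℤ) - j.val + γ 0 1 * ℓ) * r : ℤ) := by
      push_cast
      push_cast at h2
      field_simp at h2
      linarith
    have h4 : v - v' = ((k.val : ℤ) - j.val + γ 0 1 * ℓ) * r := by exact_mod_cast h3
    refine ⟨Dvd.intro_left _ h4.symm, fun hvv => ?_⟩
    rw [hvv, sub_self] at h4
    have hr0 : (r : ℤ) ≠ 0 := by exact_mod_cast hr
    have h5 : (k.val : ℤ) - j.val + γ 0 1 * ℓ = 0 := by
      rcases mul_eq_zero.mp h4.symm with h | h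
      · exact h
      · exact absurd h hr0
    have h6 : (j.val : ℤ) = k.val + γ 0 1 * ℓ := by linarith
    have h7 : ((j.val : ℤ) : ZMod ℓ) = ((k.val + γ 0 1 * ℓ : ℤ) : ZMod ℓ) := by rw [h6]
    push_cast at h7
    rw [ZMod.natCast_zmod_val, ZMod.natCast_zmod_val, ZMod.natCast_self, mul_zero, add_zero] at h7
    rw [h7]




theorem embR_tZ (m : ℤ) : embR (tZ m) = uGL (m : ℝ) := (uGL_intCast_eq m).symm

/-- `α(ℓ v / r) · diag(ℓ, 1) = diag(ℓ, 1) · α(v / r)` -/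
theorem match_infty {r : ℕ} (v : ℤ) :
    uGL (((ℓ * v : ℤ) : ℝ) / r) * heckeRep ℓ ∞ = heckeRep ℓ ∞ * uGL ((v : ℝ) / r) := by
  have hℓ : ℓ ≠ 0 := (Fact.out : ℓ.Prime).ne_zero
  have e : (((ℓ * v : ℤ) : ℝ) / r) = (ℓ : ℝ) * ((v : ℝ) / r) := by
    push_cast
    ring
  rw [e, heckeRep_infty]
  exact uGL_mul_heckeDiagMatrix hℓ _

/-- `α(v'' / r) · [1 j; 0 ℓ] = T^m · [1 j'; 0 ℓ] · α(v / r)` with `j' = j + n`, when
`ℓ v'' - v = r n` -/
theorem match_coe {r : ℕ} (hr : r ≠ 0) (j : ZMod ℓ) (v'' v n : ℤ) (hn : ℓ * v'' - v = r * n) :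
    ∃ m : ℤ, uGL ((v'' : ℝ) / r) * heckeRep ℓ (j : ZMod ℓ)
      = embR (tZ m) * (heckeRep ℓ ((j + (n : ZMod ℓ) : ZMod ℓ)) * uGL ((v : ℝ) / r)) := by
  have hℓ : ℓ ≠ 0 := (Fact.out : ℓ.Prime).ne_zero
  have hr' : (r : ℝ) ≠ 0 := by exact_mod_cast hr
  obtain ⟨m, hm⟩ : ∃ m : ℤ, (j.val : ℤ) + n = ((j + (n : ZMod ℓ) : ZMod ℓ).val : ℤ) + m * ℓ := by
    have h0 : ((((j.val : ℤ) + n - ((j + (n : ZMod ℓ) : ZMod ℓ).val : ℤ) : ℤ)) : ZMod ℓ) = 0 := by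
      push_cast
      rw [ZMod.natCast_zmod_val, ZMod.natCast_zmod_val]
      ring
    obtain ⟨m, hm⟩ := (ZMod.intCast_zmod_eq_zero_iff_dvd _ _).mp h0
    exact ⟨m, by linarith⟩
  refine ⟨m, ?_⟩
  have hmR : ((j.val : ℝ)) + n = (((j + (n : ZMod ℓ) : ZMod ℓ).val : ℝ)) + m * ℓ := by
    exact_mod_cast hm
  have hnR : (ℓ : ℝ) * v'' - v = r * n := by exact_mod_cast hn
  rw [heckeRep_coe, heckeRep_coe, uGL_mul_heckeMatrix hℓ, embR_tZ]
  apply Matrix.GeneralLinearGroup.ext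
  intro a b
  simp only [Matrix.GeneralLinearGroup.coe_mul]
  fin_cases a <;> fin_cases b <;>
    simp [Matrix.mul_apply, Fin.sum_univ_two, ModularForm.val_heckeMatrix hℓ, -ZMod.natCast_val]
  field_simp
  linear_combination hnR + (r : ℝ) * hmR


/-! ### inserting an element of `SL(2, ℤ)` -/

/-- the twist relation of helper44 with a natural number `r` -/
theorem uGL_mul_embR_nat {r : ℕ} (hr : r ≠ 0) (g : SL(2, ℤ)) (v v' c₂ e : ℤ)
    (hc : g 1 0 = (r : ℤ) ^ 2 * c₂) (he : g 1 1 * v - g 0 0 * v' = (r : ℤ) * e) :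
    uGL ((v : ℝ) / r) * embR g = embR (twMat g r v v' c₂ e hc he) * uGL ((v' : ℝ) / r) := by
  have hr' : (r : ℤ) ≠ 0 := by exact_mod_cast hr
  have h := uGL_mul_embR g r v v' c₂ e hr' hc he
  have e' : (((r : ℤ)) : ℝ) = (r : ℝ) := Int.cast_natCast r
  rw [e'] at h
  exact h

/-- **matching at `∞`** -/
theorem key_infty {r : ℕ} (hr : r ≠ 0) (g g₁ : SL(2, ℤ)) (v' v c₂ e : ℤ)
    (hc : g 1 0 = (r : ℤ) ^ 2 * c₂) (he : g 1 1 * v' - g 0 0 * (ℓ * v) = (r : ℤ) * e) :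
    embR g₁ * heckeRep ℓ ∞ * uGL ((v : ℝ) / r)
      = embR (g₁ * (twMat g r v' (ℓ * v) c₂ e hc he)⁻¹)
        * (uGL ((v' : ℝ) / r) * (embR g * heckeRep ℓ ∞)) := by
  rw [← mul_assoc (uGL _), uGL_mul_embR_nat hr g v' (ℓ * v) c₂ e hc he, mul_assoc (embR _) (uGL _),
    match_infty, map_mul, map_inv]
  simp only [mul_assoc]
  rw [inv_mul_cancel_left]

/-- **matching at the finite points** -/
theorem key_coe {r : ℕ} (hr : r ≠ 0) (g g₁ : SL(2, ℤ)) (j : ZMod ℓ) (v' v'' v n c₂ e : ℤ)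
    (hn : ℓ * v'' - v = r * n)
    (hc : g 1 0 = (r : ℤ) ^ 2 * c₂) (he : g 1 1 * v' - g 0 0 * v'' = (r : ℤ) * e) :
    ∃ m : ℤ, embR g₁ * heckeRep ℓ ((j + (n : ZMod ℓ) : ZMod ℓ)) * uGL ((v : ℝ) / r)
      = embR (g₁ * (twMat g r v' v'' c₂ e hc he * tZ m)⁻¹)
        * (uGL ((v' : ℝ) / r) * (embR g * heckeRep ℓ (j : ZMod ℓ))) := by
  obtain ⟨m, hm⟩ := match_coe hr j v'' v n hn
  refine ⟨m, ?_⟩
  rw [← mul_assoc (uGL _), uGL_mul_embR_nat hr g v' v'' c₂ e hc he, mul_assoc (embR _) (uGL _),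
    hm, map_mul, map_inv, map_mul]
  simp only [mul_assoc]
  rw [← mul_assoc (embR (twMat g r v' v'' c₂ e hc he)), inv_mul_cancel_left]

end Fermat.Agent.GB.B4.Twist.HeckeMat
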