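/-
GATE-B / B4-TWIST (L4) HECKE, concrete form (helper15): **`T_ℓ`-equivariance of helper97's Betti
twist `R_ψ`** (`GB/B4/Twist/RPsi`), for helper2's Hecke operators `GamH.TH` on `Hom(Γ_H, A)`:

  `R_ψ (T_ℓ φ) = ψ(ℓ) • T_ℓ (R_ψ φ)`      (`Rpsi_TH`, pointwise; `ℓ ∤ N r` prime)

with `T_ℓ` on the left at level `N` (`TH θ`), on the right at level `N r` (`TH (liftθ θ)`).

Plumbing only: `Hecke.twist_hecke_intertwine` (hypothesis form) applied to
* `R₀` = the twist system `RPsi.twSys` restricted to the non-zero indices (`ψ 0 = 0`) and with the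
  central scalar `zq r` removed from the representatives (`unscale`): representatives
  `uGL (x.val / r)`, `x ∈ (ZMod r)ˣ`;
* `T₁ = heckeSysH θ`, `T₂ = heckeSysH (liftθ θ)` : representatives `twG x · heckeRep ℓ x`
  (`ν = ℓ`, `κ = ℓ`).

Generic tools: `unscale` (divide all representatives of a coset system by a central element: same
operators), `wop_restrict_eq` (a weighted operator only sees the support of the weights).
-/
import Mathlib
import Fermat.Agent.GB.B4.Twist.Hecke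
import Fermat.Agent.GB.B4.Twist.RPsi
import Fermat.Agent.GB.B4.Twist.RPsiFix

set_option autoImplicit false

open scoped MatrixGroups
open CongruenceSubgroup Matrix Matrix.SpecialLinearGroup
open P2MW.S_ModularForm_heckeT_slash_eq_self_of_mem_Gamma0.ModularForm.HeckeSlashInvariance
open P2MW.S_ModularForm_heckeT_slash_eq_self_of_mem_Gamma0.ModularForm
open Fermat.Agent.S16_helper49 Fermat.Agent.GM.B Fermat.Agent.GM.B.CosetSys
open Fermat.Agent.GM.EisClass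
open Fermat.Agent.GB.B3 Fermat.Agent.GB.B3.EisGamma0 Fermat.Agent.GB.B3.GamH
open Fermat.Agent.GB.B4.Twist Fermat.Agent.GB.B4.Twist.WSys Fermat.Agent.GB.B4.Twist.RPsi
open Fermat.Agent.GB.B4.Twist.RPsiFix Fermat.Agent.GB.B4.Twist.Hecke
open scoped OnePoint

namespace Fermat.Agent.GB.B4.Twist.HeckeRPsi

/-! ### generic tools -/

section Generic

variable {H G : Type*} [Group H] [Group G] {emb : H →* G} {Γ₁ Γ₂ : Subgroup H}

/-- dividing all the representatives of a coset system by a central element -/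
def unscale (S : CosetSys emb Γ₁ Γ₂) (z : G) (hz : ∀ x : G, z * x = x * z) :
    CosetSys emb Γ₁ Γ₂ where
  ι := S.ι
  a i := z⁻¹ * S.a i
  σ := S.σ
  c := S.c
  rel g i := by
    have hz' : ∀ x : G, z⁻¹ * x = x * z⁻¹ := fun x => by
      rw [inv_mul_eq_iff_eq_mul, ← mul_assoc, hz, mul_assoc, mul_inv_cancel, mul_one]
    rw [mul_assoc, S.rel g i, ← mul_assoc, hz', mul_assoc]
  hσ := S.hσ
  hc := S.hc

theorem unscale_a (S : CosetSys emb Γ₁ Γ₂) (z : G) (hz : ∀ x : G, z * x = x * z) (i : S.ι) :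
    (unscale S z hz).a i = z⁻¹ * S.a i := rfl

variable {K : Type*} [CommRing K] {A : Type*} [AddCommGroup A] [Module K A]

/-- `unscale` does not change the weighted operators -/
theorem wop_unscale (S : CosetSys emb Γ₁ Γ₂) (z : G) (hz : ∀ x : G, z * x = x * z)
    (w : S.ι → K) (hw : Inv S w) (φ : Additive Γ₁ →+ A) :
    wop (unscale S z hz) w hw φ = wop S w hw φ := rfl

omit [CommRing K] in
theorem inv_restrict (S : CosetSys emb Γ₁ Γ₂) (P : S.ι → Prop) [DecidablePred P]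
    (hP : ∀ (g : Γ₂) (i : S.ι), P (S.σ g i) ↔ P i) {w : S.ι → K} (hw : Inv S w) :
    Inv (restrict S P hP) (fun i => w i.1) := fun g i => hw g i.1

/-- **a weighted operator only sees the support of the weights** -/
theorem wop_restrict_eq (S : CosetSys emb Γ₁ Γ₂) (P : S.ι → Prop) [DecidablePred P]
    (hP : ∀ (g : Γ₂) (i : S.ι), P (S.σ g i) ↔ P i) {w : S.ι → K} (hw : Inv S w)
    (h0 : ∀ i, ¬ P i → w i = 0) (φ : Additive Γ₁ →+ A) :
    wop (restrict S P hP) (fun i => w i.1) (inv_restrict S P hP hw) φ = wop S w hw φ := by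
  refine AddMonoidHom.ext fun g => ?_
  obtain ⟨g, rfl⟩ : ∃ g' : Γ₂, Additive.ofMul g' = g := ⟨Additive.toMul g, rfl⟩
  rw [wop_apply, wop_apply]
  show ∑ i : {i : S.ι // P i}, w i.1 • φ (Additive.ofMul (S.c g i.1)) = _
  rw [← Finset.sum_subtype (Finset.univ.filter P) (by simp)
    (fun i => w i • φ (Additive.ofMul (S.c g i))), Finset.sum_filter]
  refine Finset.sum_congr rfl fun i _ => ?_
  by_cases hi : P i
  · rw [if_pos hi]
  · rw [if_neg hi, h0 i hi, zero_smul]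

end Generic

/-! ### the twist system on the units, without the scalar -/

section Concrete

variable {N r : ℕ} [Fact r.Prime] {Δ : Type} [CommGroup Δ] (θ : (ZMod N)ˣ →* Δ)

/-- the permutation `x ↦ d² x` of `ZMod r` attached to `g ∈ Γ_H(N r)` -/
noncomputable def sg (hrN : r ∣ N) (g : GammaH (liftθ (r := r) θ)) : Equiv.Perm (ZMod r) :=
  twσ0 hrN (kerIncl (chi (liftθ (r := r) θ)) g)

theorem sg_apply (hrN : r ∣ N) (g : GammaH (liftθ (r := r) θ)) (x : ZMod r) :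
    sg θ hrN g x = dr r (g : SL(2, ℤ)) ^ 2 * x := twσ0_apply hrN _ x

theorem sg_mul (hrN : r ∣ N) (g h : GammaH (liftθ (r := r) θ)) (x : ZMod r) :
    sg θ hrN (g * h) x = sg θ hrN h (sg θ hrN g x) := (twSys θ hrN).hσ g h x

theorem twC_mul (hrN : r ∣ N) (g h : GammaH (liftθ (r := r) θ)) (x : ZMod r) :
    twC θ hrN (g * h) x = twC θ hrN g x * twC θ hrN h (sg θ hrN g x) := (twSys θ hrN).hc g h x

/-- the non-zero indices are stable -/
theorem sg_ne_zero_iff (hrN : r ∣ N) (g : GammaH (liftθ (r := r) θ)) (x : ZMod r) :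
    x ≠ 0 ↔ sg θ hrN g x ≠ 0 := by
  have h0 : sg θ hrN g 0 = 0 := by rw [sg_apply, mul_zero]
  constructor
  · intro h hx
    apply h
    exact (sg θ hrN g).injective (hx.trans h0.symm)
  · intro h hx
    exact h (by rw [hx]; exact h0)

/-- **the twist system on `(ZMod r)ˣ`** with representatives `uGL (x.val / r)` -/
noncomputable def twSysU (hrN : r ∣ N) : CosetSys embR (GammaH θ) (GammaH (liftθ (r := r) θ)) where
  ι := {x : ZMod r // x ≠ 0}
  a i := uGL ((((i.1.val : ℕ) : ℤ) : ℝ) / r)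
  σ g := (sg θ hrN g).subtypeEquiv (sg_ne_zero_iff θ hrN g)
  c g i := twC θ hrN g i.1
  rel g i := by
    have h := uGL_rel_twC θ hrN g i.1
    rw [Int.cast_natCast, Int.cast_natCast]
    rw [h]
    congr 3
    show _ = ((sg θ hrN g i.1).val : ℝ)
    rw [sg_apply]
  hσ g h i := Subtype.ext (sg_mul θ hrN g h i.1)
  hc g h i := twC_mul θ hrN g h i.1

/-- the index set of `twSysU` -/
noncomputable def eU (hrN : r ∣ N) : (twSysU θ hrN).ι ≃ (ZMod r)ˣ :=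
  (unitsEquivNeZero (G₀ := ZMod r)).symm

theorem coe_eU (hrN : r ∣ N) (i : (twSysU θ hrN).ι) :
    ((eU θ hrN i : (ZMod r)ˣ) : ZMod r) = (show {x : ZMod r // x ≠ 0} from i).1 := rfl

theorem twSysU_a (hrN : r ∣ N) (i : (twSysU θ hrN).ι) :
    (twSysU θ hrN).a i
      = uGL (((((show {x : ZMod r // x ≠ 0} from i).1.val : ℕ) : ℤ) : ℝ) / r) := rfl

variable {K : Type*} [CommRing K] {A : Type*} [AddCommGroup A] [Module K A]

/-- the weights of `ψ` on the units -/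
def wU (hrN : r ∣ N) (ψ : MulChar (ZMod r) K) : (twSysU θ hrN).ι → K :=
  fun i => ψ (show {x : ZMod r // x ≠ 0} from i).1

theorem inv_wU (hrN : r ∣ N) (ψ : MulChar (ZMod r) K)
    (hψ : ∀ g : GammaH (liftθ (r := r) θ), ψ (dr r (g : SL(2, ℤ))) ^ 2 = 1) :
    Inv (twSysU θ hrN) (wU θ hrN ψ) := by
  intro g i
  show ψ (sg θ hrN g (show {x : ZMod r // x ≠ 0} from i).1) = ψ (show {x : ZMod r // x ≠ 0} from i).1
  rw [sg_apply, map_mul, map_pow, hψ, one_mul]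

/-- `R_ψ` is the weighted operator of `twSysU` -/
theorem Rpsi_eq_wop_twSysU (hrN : r ∣ N) (ψ : MulChar (ZMod r) K)
    (hψ : ∀ g : GammaH (liftθ (r := r) θ), ψ (dr r (g : SL(2, ℤ))) ^ 2 = 1)
    (φ : Additive (GammaH θ) →+ A) :
    Rpsi θ hrN ψ hψ φ = wop (twSysU θ hrN) (wU θ hrN ψ) (inv_wU θ hrN ψ hψ) φ := by
  refine AddMonoidHom.ext fun g => ?_
  obtain ⟨g, rfl⟩ : ∃ g' : GammaH (liftθ (r := r) θ), Additive.ofMul g' = g :=
    ⟨Additive.toMul g, rfl⟩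
  rw [Rpsi_apply, wop_apply]
  show _ = ∑ i : {x : ZMod r // x ≠ 0}, ψ i.1 • φ (Additive.ofMul (twC θ hrN g i.1))
  rw [← Finset.sum_subtype (Finset.univ.filter (fun x : ZMod r => x ≠ 0)) (by simp)
    (fun x => ψ x • φ (Additive.ofMul (twC θ hrN g x))), Finset.sum_filter]
  refine Finset.sum_congr rfl fun x _ => ?_
  by_cases hx : x = 0
  · rw [if_neg (not_not.mpr hx), hx, MulChar.map_zero, zero_smul]
  · rw [if_pos hx]

end Concrete

/-! ### the Hecke systems of helper2 -/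

section HeckeSide

variable {N ℓ : ℕ} [Fact ℓ.Prime] {Δ : Type} [CommGroup Δ] (θ : (ZMod N)ˣ →* Δ)

/-- `Γ₁(N) ≤ Γ_H`, entry form -/
theorem mem_GammaH_of_dvd (g : SL(2, ℤ)) (h10 : (N : ℤ) ∣ g 1 0) (h11 : (N : ℤ) ∣ g 1 1 - 1) :
    g ∈ GammaH θ := by
  rw [mem_GammaH_iff]
  refine ⟨mem_Gamma0_of_dvd h10, ?_⟩
  have h1 : dUnits N ⟨g, mem_Gamma0_of_dvd h10⟩ = 1 := by
    apply Units.ext
    rw [coe_dUnits, Units.val_one]
    show ((g 1 1 : ℤ) : ZMod N) = 1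
    have := (ZMod.intCast_zmod_eq_zero_iff_dvd (g 1 1 - 1) N).mpr h11
    rw [Int.cast_sub, Int.cast_one, sub_eq_zero] at this
    exact this
  rw [h1, map_one]

/-- `d(twG x) · d(heckeRep ℓ x) ≡ ℓ (mod N)` -/
theorem dvd_twG (hℓN : ¬ ℓ ∣ N) (x : OnePoint (ZMod ℓ)) :
    (N : ℤ) ∣ ((twG hℓN x : Gamma0 N) : SL(2, ℤ)) 1 1 * dRep ℓ x - ℓ := by
  have h := congrArg (fun u : (ZMod N)ˣ => (u : ZMod N)) (dUnits_twG_mul_deltaU hℓN x)
  simp only [Units.val_mul, coe_dUnits, coe_deltaU] at h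
  have h2 : ((unitL hℓN : (ZMod N)ˣ) : ZMod N) = (((ℓ : ℤ) : ℤ) : ZMod N) := by
    unfold unitL
    rw [coe_deltaU]
    rfl
  rw [h2] at h
  rw [← ZMod.intCast_zmod_eq_zero_iff_dvd, Int.cast_sub, Int.cast_mul, sub_eq_zero]
  exact h

theorem heckeSysH_a (hℓN : ¬ ℓ ∣ N) (x : OnePoint (ZMod ℓ)) :
    (heckeSysH θ hℓN).a x
      = embR ((twG hℓN x : Gamma0 N) : SL(2, ℤ)) * heckeRep ℓ x := by
  show (heckeSysD hℓN).a x = _
  rw [heckeSysD_a, one_mul]

end HeckeSide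

/-! ### the main statement -/

section Main

variable {N r ℓ : ℕ} [Fact r.Prime] [Fact ℓ.Prime] {Δ : Type} [CommGroup Δ]
  (θ : (ZMod N)ˣ →* Δ) {K : Type*} [CommRing K] {A : Type*} [AddCommGroup A] [Module K A]

/-- **(L4) `T_ℓ`-equivariance of the Betti twist**, first form:
`T_ℓ (R_ψ φ) = c • R_ψ (T_ℓ φ)` for `c · ψ(ℓ) = 1`. -/
theorem TH_Rpsi (hrN : r ∣ N) (hℓN : ¬ ℓ ∣ N) (hℓNr : ¬ ℓ ∣ N * r) (ψ : MulChar (ZMod r) K)
    (hψ : ∀ g : GammaH (liftθ (r := r) θ), ψ (dr r (g : SL(2, ℤ))) ^ 2 = 1)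
    (c : K) (hc : c * ψ (ℓ : ZMod r) = 1)
    (φ : Additive (GammaH θ) →+ A) (g : GammaH (liftθ (r := r) θ)) :
    TH (liftθ (r := r) θ) A hℓNr (Rpsi θ hrN ψ hψ φ) (Additive.ofMul g)
      = c • Rpsi θ hrN ψ hψ (TH θ A hℓN φ) (Additive.ofMul g) := by
  have : NeZero r := ⟨(Fact.out : r.Prime).ne_zero⟩
  have hℓr : Nat.Coprime ℓ r := coprime_of_not_dvd hrN hℓN
  rw [Rpsi_eq_wop_twSysU, Rpsi_eq_wop_twSysU]
  refine twist_hecke_intertwine_apply hrN hℓN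
    (heckeSysH θ hℓN) (Equiv.refl _) (fun x => ((twG hℓN x : Gamma0 N) : SL(2, ℤ)))
    (heckeSysH_a θ hℓN)
    (twSysU θ hrN) (eU θ hrN)
    (fun i => (((show {x : ZMod r // x ≠ 0} from i).1.val : ℕ) : ℤ)) ?_ (twSysU_a θ hrN)
    (mem_GammaH_of_dvd θ) (fun x => dvd_of_mem_Gamma0 (twG hℓN x))
    (heckeSysH (liftθ (r := r) θ) hℓNr) (Equiv.refl _)
    (fun x => ((twG hℓNr x : Gamma0 (N * r)) : SL(2, ℤ)))
    (fun x => dvd_of_mem_Gamma0 (twG hℓNr x)) (heckeSysH_a (liftθ (r := r) θ) hℓNr)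
    (ℓ : ℤ) (dvd_twG hℓN) ?_ (ZMod.unitOfCoprime ℓ hℓr) ?_ (inv_wU θ hrN ψ hψ) c ?_ φ g
  · intro i
    rw [coe_eU, Int.cast_natCast, ZMod.natCast_zmod_val]
  · intro x
    have h := dvd_twG hℓNr x
    refine Dvd.dvd.trans ?_ h
    push_cast
    exact Dvd.intro _ rfl
  · rw [ZMod.coe_unitOfCoprime, Int.cast_natCast, sq]
  · intro i i' hi
    show c * ψ (show {x : ZMod r // x ≠ 0} from i).1 = ψ (show {x : ZMod r // x ≠ 0} from i').1
    have h1 := congrArg (fun u : (ZMod r)ˣ => (u : ZMod r)) hi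
    simp only [Units.val_mul, coe_eU, ZMod.coe_unitOfCoprime] at h1
    rw [h1, map_mul, ← mul_assoc, hc, one_mul]

/-- **(L4) `T_ℓ`-equivariance of the Betti twist**: `R_ψ (T_ℓ φ) = ψ(ℓ) • T_ℓ (R_ψ φ)`
(`ℓ ∤ N r` prime; `T_ℓ` = helper2's `TH` at the levels `N` and `N r`). -/
theorem Rpsi_TH (hrN : r ∣ N) (hℓN : ¬ ℓ ∣ N) (hℓNr : ¬ ℓ ∣ N * r) (ψ : MulChar (ZMod r) K)
    (hψ : ∀ g : GammaH (liftθ (r := r) θ), ψ (dr r (g : SL(2, ℤ))) ^ 2 = 1)
    (φ : Additive (GammaH θ) →+ A) (g : GammaH (liftθ (r := r) θ)) :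
    Rpsi θ hrN ψ hψ (TH θ A hℓN φ) (Additive.ofMul g)
      = ψ (ℓ : ZMod r) • TH (liftθ (r := r) θ) A hℓNr (Rpsi θ hrN ψ hψ φ) (Additive.ofMul g) := by
  have hℓr : Nat.Coprime ℓ r := coprime_of_not_dvd hrN hℓN
  have hu : IsUnit (ψ (ℓ : ZMod r)) :=
    IsUnit.map ψ ((ZMod.isUnit_iff_coprime ℓ r).mpr hℓr)
  obtain ⟨u, hu'⟩ := hu
  rw [TH_Rpsi θ hrN hℓN hℓNr ψ hψ ((u⁻¹ : Kˣ) : K) (by rw [← hu', Units.inv_mul]) φ g,
    ← mul_smul, ← hu', Units.mul_inv, one_smul]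

end Main

end Fermat.Agent.GB.B4.Twist.HeckeRPsi
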