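/-
GATE-B / B4-TWIST leaf (L0) TRANSPORT (helper41; leaf plan of helper97, board 5340).

Abstract transport of a ring action along an injective additive map, checked on generators.

`HA` a ring generated (as a ring) by `gens`; `HA` acts on an additive group `W`; `R : V →+ W` is
INJECTIVE; for every generator `g` there is an `𝒪`-linear endomorphism `e` of `V` with
`R ∘ e = act g ∘ R`.  Then `R(V)` is stable under all of `HA`, and the transported action
`Ξ : HA →+* Module.End 𝒪 V` exists, is unique, and is `𝒪`-linear because it is so on generators.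

Forms:
* `exists_transport_core`   : the action given as a bare function `act : HA → W → W` with
                               `act_one / act_mul / act_add`;
* `exists_transport`        : `act : HA →+* Module.End R₀ W`;
* `exists_transport_addEnd` : `act : HA →+* AddMonoid.End W`;
* `exists_transport_adjoin` : `HA = ↥(Algebra.adjoin ℤ s)`, generators = the elements of `s`;
* `exists_hecke_transport`  : `HA = heckeAlgebra N k S`, generators `T ℓ`, `U q`
                               (e.g. `act := GJ.J2.LatAct.latAct N S`).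
* `transport_eq`            : uniqueness (`Ξ t = e` for every `e` intertwining `act t`).
* `transport_mem_closure`   : `Ξ t` lies in the subring generated by the `Ξ g`, `g ∈ gens`.

Mathlib + Prelude `Def_CuspForm_HeckeAlgebra` only.
-/
import Mathlib
import Fermat.Prelude.Def_CuspForm_HeckeAlgebra

set_option autoImplicit false
set_option linter.unusedSectionVars false

namespace Fermat.Agent.GB.B4.Twist.Transport

section Core

variable {HA : Type*} [Ring HA]
variable {𝒪 V W : Type*} [Semiring 𝒪] [AddCommGroup V] [Module 𝒪 V] [AddCommGroup W]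

/-- Uniqueness of an intertwined endomorphism: `R` injective, `R ∘ e = R ∘ e'` ⟹ `e = e'`. -/
theorem end_ext_of_injective {R : V →+ W} (hR : Function.Injective R)
    {e e' : Module.End 𝒪 V} (h : ∀ v, R (e v) = R (e' v)) : e = e' :=
  LinearMap.ext fun v => hR (h v)

/-- The subring of those `t` whose action on `W` restricts, along `R`, to an `𝒪`-linear
endomorphism of `V`. -/
def liftable (act : HA → W → W)
    (act_one : ∀ w, act 1 w = w)
    (act_mul : ∀ s t w, act (s * t) w = act s (act t w))
    (act_add : ∀ s t w, act (s + t) w = act s w + act t w)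
    (R : V →+ W) : Subring HA where
  carrier := {t | ∃ e : Module.End 𝒪 V, ∀ v, R (e v) = act t (R v)}
  one_mem' := ⟨1, fun v => by rw [Module.End.one_apply, act_one]⟩
  mul_mem' := by
    rintro s t ⟨es, hs⟩ ⟨et, ht⟩
    exact ⟨es * et, fun v => by rw [Module.End.mul_apply, hs, ht, act_mul]⟩
  add_mem' := by
    rintro s t ⟨es, hs⟩ ⟨et, ht⟩
    exact ⟨es + et, fun v => by rw [LinearMap.add_apply, map_add, hs, ht, act_add]⟩
  zero_mem' := by
    have h0 : ∀ w, act 0 w = 0 := fun w => by
      have := act_add 0 0 w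
      rw [add_zero] at this
      exact left_eq_add.mp this
    exact ⟨0, fun v => by rw [LinearMap.zero_apply, map_zero, h0]⟩
  neg_mem' := by
    rintro s ⟨es, hs⟩
    have h0 : ∀ w, act 0 w = 0 := fun w => by
      have := act_add 0 0 w
      rw [add_zero] at this
      exact left_eq_add.mp this
    have hneg : ∀ w, act (-s) w = - act s w := fun w => by
      have := act_add (-s) s w
      rw [neg_add_cancel, h0] at this
      exact eq_neg_of_add_eq_zero_left this.symm
    exact ⟨-es, fun v => by rw [LinearMap.neg_apply, map_neg, hs, hneg]⟩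

/-- **(L0) TRANSPORT, core form.**  The action is a bare function with the three ring-action
identities. -/
theorem exists_transport_core
    (gens : Set HA) (hgens : Subring.closure gens = ⊤)
    (act : HA → W → W)
    (act_one : ∀ w, act 1 w = w)
    (act_mul : ∀ s t w, act (s * t) w = act s (act t w))
    (act_add : ∀ s t w, act (s + t) w = act s w + act t w)
    (R : V →+ W) (hR : Function.Injective R)
    (hgen : ∀ g ∈ gens, ∃ e : Module.End 𝒪 V, ∀ v, R (e v) = act g (R v)) :
    ∃ Ξ : HA →+* Module.End 𝒪 V, ∀ t v, R (Ξ t v) = act t (R v) := by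
  classical
  have hall : ∀ t : HA, ∃ e : Module.End 𝒪 V, ∀ v, R (e v) = act t (R v) := by
    intro t
    have hle : Subring.closure gens ≤ liftable (𝒪 := 𝒪) act act_one act_mul act_add R :=
      Subring.closure_le.mpr fun g hg => hgen g hg
    have : t ∈ liftable (𝒪 := 𝒪) act act_one act_mul act_add R := hle (hgens ▸ Subring.mem_top t)
    exact this
  choose Ξ hΞ using hall
  have h0 : ∀ w, act 0 w = 0 := fun w => by
    have := act_add 0 0 w
    rw [add_zero] at this
    exact left_eq_add.mp this
  refine ⟨{ toFun := Ξ, map_one' := ?_, map_mul' := ?_, map_zero' := ?_, map_add' := ?_ }, hΞ⟩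
  · exact end_ext_of_injective hR fun v => by rw [hΞ, act_one, Module.End.one_apply]
  · intro s t
    exact end_ext_of_injective hR fun v => by
      rw [hΞ, act_mul, Module.End.mul_apply, hΞ, hΞ]
  · exact end_ext_of_injective hR fun v => by rw [hΞ, h0, LinearMap.zero_apply, map_zero]
  · intro s t
    exact end_ext_of_injective hR fun v => by
      rw [hΞ, act_add, LinearMap.add_apply, map_add, hΞ, hΞ]

/-- Uniqueness: the transported action at `t` is ANY endomorphism intertwining `act t`. -/
theorem transport_eq {act : HA → W → W} {R : V →+ W} (hR : Function.Injective R)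
    {Ξ : HA → Module.End 𝒪 V} (hΞ : ∀ t v, R (Ξ t v) = act t (R v))
    (t : HA) (e : Module.End 𝒪 V) (he : ∀ v, R (e v) = act t (R v)) : Ξ t = e :=
  end_ext_of_injective hR fun v => by rw [hΞ, he]

/-- Uniqueness of the whole transported ring hom. -/
theorem transport_unique {act : HA → W → W} {R : V →+ W} (hR : Function.Injective R)
    {Ξ Ξ' : HA →+* Module.End 𝒪 V} (hΞ : ∀ t v, R (Ξ t v) = act t (R v))
    (hΞ' : ∀ t v, R (Ξ' t v) = act t (R v)) : Ξ = Ξ' :=
  RingHom.ext fun t => transport_eq hR hΞ t (Ξ' t) (hΞ' t)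

/-- The transported operators lie in the subring generated by the transported generators. -/
theorem transport_mem_closure {gens : Set HA} (hgens : Subring.closure gens = ⊤)
    (Ξ : HA →+* Module.End 𝒪 V) (t : HA) : Ξ t ∈ Subring.closure (Ξ '' gens) := by
  rw [← RingHom.map_closure, hgens]
  exact ⟨t, Subring.mem_top t, rfl⟩

/-- A ring-hom consequence of transport: every integer polynomial identity among the `act g`
holding on `W` holds among the transported operators — in the form `act t = 0 ⟹ Ξ t = 0`. -/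
theorem transport_eq_zero {act : HA → W → W} {R : V →+ W} (hR : Function.Injective R)
    {Ξ : HA → Module.End 𝒪 V} (hΞ : ∀ t v, R (Ξ t v) = act t (R v))
    (t : HA) (ht : ∀ w, act t w = 0) : Ξ t = 0 :=
  transport_eq hR hΞ t 0 fun v => by rw [LinearMap.zero_apply, map_zero, ht]

end Core

section Bundled

variable {HA : Type*} [Ring HA]
variable {𝒪 V W : Type*} [Semiring 𝒪] [AddCommGroup V] [Module 𝒪 V] [AddCommGroup W]

/-- **(L0) TRANSPORT**, `act : HA →+* Module.End R₀ W`. -/
theorem exists_transport {R₀ : Type*} [Semiring R₀] [Module R₀ W]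
    (gens : Set HA) (hgens : Subring.closure gens = ⊤)
    (act : HA →+* Module.End R₀ W)
    (R : V →+ W) (hR : Function.Injective R)
    (hgen : ∀ g ∈ gens, ∃ e : Module.End 𝒪 V, ∀ v, R (e v) = act g (R v)) :
    ∃ Ξ : HA →+* Module.End 𝒪 V, ∀ t v, R (Ξ t v) = act t (R v) :=
  exists_transport_core gens hgens (fun t w => act t w)
    (fun w => by rw [map_one, Module.End.one_apply])
    (fun s t w => by rw [map_mul, Module.End.mul_apply])
    (fun s t w => by rw [map_add, LinearMap.add_apply]) R hR hgen

/-- **(L0) TRANSPORT**, `act : HA →+* AddMonoid.End W`. -/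
theorem exists_transport_addEnd
    (gens : Set HA) (hgens : Subring.closure gens = ⊤)
    (act : HA →+* AddMonoid.End W)
    (R : V →+ W) (hR : Function.Injective R)
    (hgen : ∀ g ∈ gens, ∃ e : Module.End 𝒪 V, ∀ v, R (e v) = act g (R v)) :
    ∃ Ξ : HA →+* Module.End 𝒪 V, ∀ t v, R (Ξ t v) = act t (R v) :=
  exists_transport_core gens hgens (fun t w => act t w)
    (fun w => by rw [map_one]; rfl)
    (fun s t w => by rw [map_mul]; rfl)
    (fun s t w => by rw [map_add]; rfl) R hR hgen

end Bundled

section Adjoin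

variable {E : Type*} [Ring E]

/-- The subtype `↥(Algebra.adjoin ℤ s)` is generated, as a ring, by the elements of `s`. -/
theorem closure_adjoin_gens (s : Set E) :
    Subring.closure {x : ↥(Algebra.adjoin ℤ s) | (x : E) ∈ s} = ⊤ := by
  rw [eq_top_iff]
  rintro ⟨x, hx⟩ -
  refine Algebra.adjoin_induction
    (p := fun x hx => (⟨x, hx⟩ : ↥(Algebra.adjoin ℤ s)) ∈
      Subring.closure {x : ↥(Algebra.adjoin ℤ s) | (x : E) ∈ s}) ?_ ?_ ?_ ?_ hx
  · intro x hxs
    exact Subring.subset_closure hxs
  · intro r
    have : (⟨algebraMap ℤ E r, Subalgebra.algebraMap_mem _ r⟩ : ↥(Algebra.adjoin ℤ s))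
        = ((r : ℤ) : ↥(Algebra.adjoin ℤ s)) := by
      apply Subtype.ext
      simp
    rw [this]
    exact intCast_mem _ r
  · intro x y hx hy hx' hy'
    exact Subring.add_mem _ hx' hy'
  · intro x y hx hy hx' hy'
    exact Subring.mul_mem _ hx' hy'

variable {𝒪 V W : Type*} [Semiring 𝒪] [AddCommGroup V] [Module 𝒪 V] [AddCommGroup W]

/-- **(L0) TRANSPORT** for `HA = ↥(Algebra.adjoin ℤ s)`; generators = the elements of `s`. -/
theorem exists_transport_adjoin {R₀ : Type*} [Semiring R₀] [Module R₀ W] (s : Set E)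
    (act : ↥(Algebra.adjoin ℤ s) →+* Module.End R₀ W)
    (R : V →+ W) (hR : Function.Injective R)
    (hgen : ∀ (x : E) (hx : x ∈ s), ∃ e : Module.End 𝒪 V,
      ∀ v, R (e v) = act ⟨x, Algebra.subset_adjoin hx⟩ (R v)) :
    ∃ Ξ : ↥(Algebra.adjoin ℤ s) →+* Module.End 𝒪 V, ∀ t v, R (Ξ t v) = act t (R v) :=
  exists_transport _ (closure_adjoin_gens s) act R hR fun g hg => hgen g.1 hg

end Adjoin

section Hecke

open CuspForm

variable (N : ℕ) [NeZero N] (k : ℤ) (S : Set ℕ)
variable {𝒪 V W : Type*} [Semiring 𝒪] [AddCommGroup V] [Module 𝒪 V] [AddCommGroup W]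

/-- **(L0) TRANSPORT** for the Prelude Hecke algebra of forms: it suffices to intertwine the
generators `T ℓ` (`ℓ ∤ N`, `ℓ ∉ S`) and `U q` (`q ∣ N`, `q ∉ S`).  Typical use:
`act := Fermat.Agent.GJ.J2.LatAct.latAct N S` (`k = 2`, `W = Lam N`). -/
theorem exists_hecke_transport {R₀ : Type*} [Semiring R₀] [Module R₀ W]
    (act : ↥(heckeAlgebra N k S) →+* Module.End R₀ W)
    (R : V →+ W) (hR : Function.Injective R)
    (hT : ∀ {ℓ : ℕ} (hℓ : ℓ.Prime) (hℓN : ¬ ℓ ∣ N) (hℓS : ℓ ∉ S), ∃ e : Module.End 𝒪 V,
      ∀ v, R (e v) = act (heckeAlgebra.T hℓ hℓN hℓS) (R v))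
    (hU : ∀ {q : ℕ} (hq : q.Prime) (hqN : q ∣ N) (hqS : q ∉ S), ∃ e : Module.End 𝒪 V,
      ∀ v, R (e v) = act (heckeAlgebra.U hq hqN hqS) (R v)) :
    ∃ Ξ : ↥(heckeAlgebra N k S) →+* Module.End 𝒪 V, ∀ t v, R (Ξ t v) = act t (R v) := by
  refine exists_transport_adjoin (𝒪 := 𝒪) (heckeGenerators N k S) act R hR ?_
  rintro x (⟨ℓ, hℓ, hℓN, hℓS, rfl⟩ | ⟨q, hqN, hq, hqS, rfl⟩)
  · exact hT hℓ hℓN hℓS
  · exact hU hq hqN hqS

end Hecke

end Fermat.Agent.GB.B4.Twist.Transport
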