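import Mathlib

/-!
# GATE-B / B4-TWIST (L0): transport of a ring action along an injective intertwiner (helper83)

`HA` a commutative ring acting on a `K`-module `W` (`act : HA →+* Module.End K W`),
`R : V →ₗ[K] W` injective.  If the range of `R` is stable under a set of ring generators of `HA`,
it is stable under all of `HA`, and `HA` acts on `V` (`transport`), `R` being equivariant.

* `range_stable_of_closure` : stability under generators ⟹ stability under `HA`;
* `transport act R hR h : HA →+* Module.End K V`, `R_transport : R (transport … t v) = act t (R v)`;
* `transport_eq` : uniqueness (`Ξ t = τ` as soon as `R ∘ τ = act t ∘ R`);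
* `exists_transport` / `exists_transport_adjoin` : the packaged existence statements
  (generators given by `Subring.closure gens = ⊤`, resp. `Algebra.adjoin ℤ gens = ⊤`);
* `transport_eq_zero_iff`, `transport_injective_of` : kernel of the transported action.
-/

set_option autoImplicit false

namespace Fermat.Agent.GB.B4.Twist.TransportLin

variable {HA : Type*} [Ring HA] {K : Type*} [CommRing K]
  {V W : Type*} [AddCommGroup V] [AddCommGroup W] [Module K V] [Module K W]

/-- the subring of the elements of `HA` whose action preserves the range of `R` -/
def stabRange (act : HA →+* Module.End K W) (R : V →ₗ[K] W) : Subring HA where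
  carrier := {t | ∀ v : V, act t (R v) ∈ LinearMap.range R}
  mul_mem' := by
    intro s t hs ht v
    obtain ⟨v', hv'⟩ := ht v
    rw [map_mul, Module.End.mul_apply, ← hv']
    exact hs v'
  one_mem' := by
    intro v
    rw [map_one, Module.End.one_apply]
    exact ⟨v, rfl⟩
  add_mem' := by
    intro s t hs ht v
    rw [map_add, LinearMap.add_apply]
    exact Submodule.add_mem _ (hs v) (ht v)
  zero_mem' := by
    intro v
    rw [map_zero, LinearMap.zero_apply]
    exact Submodule.zero_mem _
  neg_mem' := by
    intro t ht v
    rw [map_neg, LinearMap.neg_apply]
    exact Submodule.neg_mem _ (ht v)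

theorem mem_stabRange {act : HA →+* Module.End K W} {R : V →ₗ[K] W} {t : HA} :
    t ∈ stabRange act R ↔ ∀ v : V, act t (R v) ∈ LinearMap.range R := Iff.rfl

/-- **stability under ring generators implies stability under the whole ring** -/
theorem range_stable_of_closure (gens : Set HA) (hgens : Subring.closure gens = ⊤)
    (act : HA →+* Module.End K W) (R : V →ₗ[K] W)
    (h : ∀ g ∈ gens, ∀ v : V, act g (R v) ∈ LinearMap.range R) (t : HA) (v : V) :
    act t (R v) ∈ LinearMap.range R := by
  have h1 : Subring.closure gens ≤ stabRange act R := Subring.closure_le.mpr h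
  have h2 : t ∈ stabRange act R := h1 (by rw [hgens]; exact Subring.mem_top t)
  exact h2 v

section Def

variable (act : HA →+* Module.End K W) (R : V →ₗ[K] W) (hR : Function.Injective R)
  (h : ∀ (t : HA) (v : V), act t (R v) ∈ LinearMap.range R)

/-- the transported operator, as a function -/
noncomputable def transportFun (t : HA) (v : V) : V := (h t v).choose

theorem R_transportFun (t : HA) (v : V) : R (transportFun act R h t v) = act t (R v) :=
  (h t v).choose_spec

include hR in
theorem transportFun_eq (t : HA) (v v' : V) (hv : R v' = act t (R v)) :
    transportFun act R h t v = v' :=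
  hR (by rw [R_transportFun, hv])

/-- the transported operator, as a `K`-linear endomorphism of `V` -/
noncomputable def transportLin (t : HA) : Module.End K V where
  toFun := transportFun act R h t
  map_add' v v' := by
    apply transportFun_eq act R hR h
    rw [map_add, map_add, map_add, R_transportFun, R_transportFun]
  map_smul' c v := by
    apply transportFun_eq act R hR h
    rw [RingHom.id_apply, map_smul, map_smul, map_smul, R_transportFun]

theorem R_transportLin (t : HA) (v : V) : R (transportLin act R hR h t v) = act t (R v) :=
  R_transportFun act R h t v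

/-- **the transported action** of `HA` on `V` -/
noncomputable def transport : HA →+* Module.End K V where
  toFun := transportLin act R hR h
  map_one' := by
    refine LinearMap.ext fun v => hR ?_
    rw [R_transportLin, map_one]
    rfl
  map_mul' s t := by
    refine LinearMap.ext fun v => hR ?_
    rw [R_transportLin, map_mul, Module.End.mul_apply, Module.End.mul_apply, R_transportLin,
      R_transportLin]
  map_zero' := by
    refine LinearMap.ext fun v => hR ?_
    rw [R_transportLin, map_zero, LinearMap.zero_apply, LinearMap.zero_apply, map_zero]
  map_add' s t := by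
    refine LinearMap.ext fun v => hR ?_
    rw [R_transportLin, map_add, LinearMap.add_apply, LinearMap.add_apply, map_add,
      R_transportLin, R_transportLin]

/-- `R` is equivariant for the transported action -/
theorem R_transport (t : HA) (v : V) : R (transport act R hR h t v) = act t (R v) :=
  R_transportFun act R h t v

theorem R_comp_transport (t : HA) : R ∘ₗ transport act R hR h t = act t ∘ₗ R :=
  LinearMap.ext fun v => R_transport act R hR h t v

/-- uniqueness: an operator intertwined with `act t` IS the transported one -/
theorem transport_eq (t : HA) (τ : Module.End K V) (hτ : ∀ v, R (τ v) = act t (R v)) :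
    transport act R hR h t = τ :=
  LinearMap.ext fun v => hR (by rw [R_transport, hτ])

/-- the transported operator vanishes iff `act t` kills the range of `R` -/
theorem transport_eq_zero_iff (t : HA) :
    transport act R hR h t = 0 ↔ ∀ v : V, act t (R v) = 0 := by
  constructor
  · intro h0 v
    rw [← R_transport act R hR h, h0, LinearMap.zero_apply, map_zero]
  · intro h0
    refine LinearMap.ext fun v => hR ?_
    rw [R_transport, h0, LinearMap.zero_apply, map_zero]

theorem transport_eq_zero_of_act_eq_zero (t : HA) (ht : act t = 0) :
    transport act R hR h t = 0 :=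
  (transport_eq_zero_iff act R hR h t).mpr fun v => by rw [ht, LinearMap.zero_apply]

/-- polynomial relations pass from `W` to `V`: the kernel of `act` is in the kernel of the
transported action -/
theorem ker_act_le_ker_transport : RingHom.ker act ≤ RingHom.ker (transport act R hR h) :=
  fun t ht => transport_eq_zero_of_act_eq_zero act R hR h t ht

/-- the transported operators commute (when `HA` is commutative this is automatic; this is the
pointwise form for a non-commutative `HA`) -/
theorem transport_commute_of_commute (s t : HA) (hst : Commute s t) :
    Commute (transport act R hR h s) (transport act R hR h t) := by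
  show transport act R hR h s * transport act R hR h t
    = transport act R hR h t * transport act R hR h s
  rw [← map_mul, ← map_mul, hst.eq]

end Def

/-- **(L0) TRANSPORT**, existence form.  `gens` generates the ring `HA`; the operators `τ g`
(`g ∈ gens`) on `V` are intertwined by the injective `R` with `act g`.  Then there is a unique ring
hom `Ξ : HA →+* End_K V` with `Ξ g = τ g` on the generators, and `R` is `Ξ`–`act`-equivariant;
every relation valid in `End_K W` holds in `End_K V`. -/
theorem exists_transport (gens : Set HA) (hgens : Subring.closure gens = ⊤)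
    (act : HA →+* Module.End K W) (R : V →ₗ[K] W) (hR : Function.Injective R)
    (τ : HA → Module.End K V) (hτ : ∀ g ∈ gens, ∀ v : V, R (τ g v) = act g (R v)) :
    ∃ Ξ : HA →+* Module.End K V, (∀ g ∈ gens, Ξ g = τ g) ∧ (∀ t v, R (Ξ t v) = act t (R v)) ∧
      (∀ t, act t = 0 → Ξ t = 0) ∧
      ∀ Ξ' : HA →+* Module.End K V, (∀ g ∈ gens, Ξ' g = τ g) → Ξ' = Ξ := by
  have h : ∀ (t : HA) (v : V), act t (R v) ∈ LinearMap.range R :=
    range_stable_of_closure gens hgens act R fun g hg v => ⟨τ g v, hτ g hg v⟩
  refine ⟨transport act R hR h, fun g hg => transport_eq act R hR h g (τ g) (hτ g hg),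
    R_transport act R hR h, transport_eq_zero_of_act_eq_zero act R hR h, fun Ξ' hΞ' => ?_⟩
  -- two ring homs agreeing on generators
  have hle : Subring.closure gens ≤ (RingHom.eqLocus Ξ' (transport act R hR h)) := by
    rw [Subring.closure_le]
    intro g hg
    show Ξ' g = transport act R hR h g
    rw [hΞ' g hg, transport_eq act R hR h g (τ g) (hτ g hg)]
  refine RingHom.ext fun t => ?_
  exact hle (by rw [hgens]; exact Subring.mem_top t)

/-- `Algebra.adjoin ℤ gens = ⊤` gives `Subring.closure gens = ⊤`. -/
theorem closure_eq_top_of_adjoin_int {B : Type*} [Ring B] (gens : Set B)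
    (h : Algebra.adjoin ℤ gens = ⊤) : Subring.closure gens = ⊤ := by
  rw [eq_top_iff]
  intro x _
  have hx : x ∈ Algebra.adjoin ℤ gens := by rw [h]; exact Algebra.mem_top
  rw [Algebra.adjoin_int] at hx
  exact hx

/-- **(L0) TRANSPORT** with the generation hypothesis in `Algebra.adjoin ℤ` form. -/
theorem exists_transport_adjoin (gens : Set HA) (hgens : Algebra.adjoin ℤ gens = ⊤)
    (act : HA →+* Module.End K W) (R : V →ₗ[K] W) (hR : Function.Injective R)
    (τ : HA → Module.End K V) (hτ : ∀ g ∈ gens, ∀ v : V, R (τ g v) = act g (R v)) :
    ∃ Ξ : HA →+* Module.End K V, (∀ g ∈ gens, Ξ g = τ g) ∧ (∀ t v, R (Ξ t v) = act t (R v)) ∧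
      (∀ t, act t = 0 → Ξ t = 0) ∧
      ∀ Ξ' : HA →+* Module.End K V, (∀ g ∈ gens, Ξ' g = τ g) → Ξ' = Ξ :=
  exists_transport gens (closure_eq_top_of_adjoin_int gens hgens) act R hR τ hτ

end Fermat.Agent.GB.B4.Twist.TransportLin
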